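import Mathlib
import Fermat.Agent.S54.helper91_Frobenius
import Fermat.Agent.S05.helper4_Inertia
import Fermat.Prelude.Def_FLTPrelim_GaloisRep

/-!
# Minkowski's theorem in Galois form (S13 cluster, package (4); helper4)

Main results (namespace `Fermat.Agent.S13.helper4`, `GQ = Gal(ℚ̄/ℚ)`, `Qbar = AlgebraicClosure ℚ`):

* `eq_top_of_inertia_le`: an open subgroup of `GQ` containing `A.inertiaSubgroupIn ℚ` for every
  valuation subring `A` of `ℚ̄` lying over a prime is the whole group.
* `exists_inertia_not_mem`: a proper open normal subgroup misses some inertia element.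
* `smul_eq_of_forall_inertia`, `smul_sub_mem_of_forall_inertia`: module forms (inertia trivial on
  a finite set / on a quotient `M / N` implies the whole Galois group is trivial there).
* `exists_inertia_lift`: lifting inertia from the fixed ring of an open normal subgroup.
* `mem_inertiaSubgroupIn_iff_forall`, `conj_mem_inertiaSubgroupIn`, `smul_liesOverPrime`.
* `isOpen_stabilizer_point`, `isOpen_stabilizer_torsion`: point stabilisers are open.

The arithmetic input is Mathlib's Hermite–Minkowski theorem in the form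
`NumberField.exists_not_isUnramifiedAt_int_of_isGalois`.
-/

set_option autoImplicit false

namespace Fermat.Agent.S13.helper4

open Fermat.Agent.S54.helper91
open scoped Pointwise

attribute [local instance] zbarAction zbarTopology

/-- The subring of algebraic integers fixed by a subgroup `N` of the absolute Galois group. -/
noncomputable abbrev fixedInts (N : Subgroup GQ) : Subalgebra ℤ Zbar :=
  FixedPoints.subalgebra ℤ Zbar N

theorem mem_fixedInts_iff (N : Subgroup GQ) (b : Zbar) :
    b ∈ fixedInts N ↔ ∀ n ∈ N, n • b = b := by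
  constructor
  · intro h n hn
    exact h ⟨n, hn⟩
  · intro h n
    exact h n.1 n.2

theorem smulCommClass_fixedInts (N : Subgroup GQ) : SMulCommClass N (fixedInts N) Zbar where
  smul_comm n b z := by
    show n • ((b : Zbar) * z) = (b : Zbar) * (n • z)
    rw [smul_mul']
    congr 1
    exact b.2 n

theorem isInvariant_fixedInts (N : Subgroup GQ) : Algebra.IsInvariant (fixedInts N) Zbar N where
  isInvariant z hz := ⟨⟨z, hz⟩, rfl⟩

theorem compactSpace_subgroup (N : Subgroup GQ) (hN : IsClosed (N : Set GQ)) : CompactSpace N :=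
  have := compactSpace_GQ
  isCompact_iff_compactSpace.mp hN.isCompact

theorem totallyDisconnectedSpace_subgroup (N : Subgroup GQ) : TotallyDisconnectedSpace N :=
  have := totallyDisconnectedSpace_GQ
  inferInstance

theorem continuousSMul_subgroup (N : Subgroup GQ) : ContinuousSMul N Zbar :=
  have := zbar_continuousSMul
  inferInstance

/-- Transitivity of a closed subgroup `N` on the primes of `Zbar` above a prime of its fixed
ring. -/
theorem exists_smul_eq_of_under_eq (N : Subgroup GQ) (hN : IsClosed (N : Set GQ))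
    (Q Q' : Ideal Zbar) [Q.IsPrime] [Q'.IsPrime]
    (h : Q.under (fixedInts N) = Q'.under (fixedInts N)) :
    ∃ n ∈ N, Q' = n • Q := by
  have := compactSpace_subgroup N hN
  have := totallyDisconnectedSpace_subgroup N
  have := zbar_discrete
  have := continuousSMul_subgroup N
  have := smulCommClass_fixedInts N
  have := isInvariant_fixedInts N
  obtain ⟨g, hg⟩ := Algebra.IsInvariant.exists_smul_of_under_eq_of_profinite
    (A := fixedInts N) (B := Zbar) (G := N) Q Q' h
  exact ⟨g.1, g.2, hg⟩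

/-- Surjectivity of the stabiliser in `N` onto the automorphisms of the residue ring. -/
theorem exists_stabilizer_apply_eq (N : Subgroup GQ) (hN : IsClosed (N : Set GQ))
    (Q : Ideal Zbar) [Q.IsPrime]
    (φ : (Zbar ⧸ Q) ≃ₐ[fixedInts N ⧸ Q.under (fixedInts N)] (Zbar ⧸ Q)) :
    ∃ n ∈ N, n • Q = Q ∧ ∀ b : Zbar, φ (Ideal.Quotient.mk Q b) = Ideal.Quotient.mk Q (n • b) := by
  have := compactSpace_subgroup N hN
  have := totallyDisconnectedSpace_subgroup N
  have := zbar_discrete
  have := continuousSMul_subgroup N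
  have := smulCommClass_fixedInts N
  have := isInvariant_fixedInts N
  obtain ⟨g, hg⟩ := Ideal.Quotient.stabilizerHom_surjective_of_profinite (G := N)
    (Q.under (fixedInts N)) Q φ
  refine ⟨g.1.1, g.1.2, g.2, fun b => ?_⟩
  rw [← hg]
  rfl


theorem smul_mem_fixedInts (N : Subgroup GQ) [N.Normal] (σ : GQ) {b : Zbar}
    (hb : b ∈ fixedInts N) : σ • b ∈ fixedInts N := by
  rw [mem_fixedInts_iff] at hb ⊢
  intro n hn
  have h1 : σ⁻¹ * n * σ ∈ N := by
    have := ‹N.Normal›.conj_mem n hn σ⁻¹
    simpa using this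
  have h2 := hb _ h1
  calc n • σ • b = σ • (σ⁻¹ * n * σ) • b := by
        simp only [← mul_smul]
        congr 1
        group
    _ = σ • b := by rw [h2]

theorem smul_mem_ideal_iff (Q : Ideal Zbar) (σ : GQ) (hσ : σ • Q = Q) (b : Zbar) :
    σ • b ∈ Q ↔ b ∈ Q := by
  conv_lhs => rw [← hσ]
  exact Ideal.smul_mem_pointwise_smul_iff

set_option synthInstance.maxHeartbeats 200000 in
/-- **Lifting inertia**: if `σ₀` acts trivially modulo `Q` on the `N`-fixed algebraic integers,
then some element of the coset `N σ₀` stabilises `Q` and acts trivially on `Zbar ⧸ Q`. -/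
theorem exists_inertia_lift (N : Subgroup GQ) [N.Normal] (hN : IsClosed (N : Set GQ))
    (Q : Ideal Zbar) [Q.IsPrime] (σ₀ : GQ)
    (h₀ : ∀ b ∈ fixedInts N, σ₀ • b - b ∈ Q) :
    ∃ n ∈ N, (n * σ₀) • Q = Q ∧ ∀ b : Zbar, (n * σ₀) • b - b ∈ Q := by
  -- (i) `σ₀ • Q` and `Q` have the same contraction
  have hunder : (σ₀ • Q).under (fixedInts N) = Q.under (fixedInts N) := by
    ext b
    simp only [Ideal.under_def, Ideal.mem_comap]
    rw [Ideal.mem_pointwise_smul_iff_inv_smul_mem]
    have hb' : σ₀⁻¹ • (b : Zbar) ∈ fixedInts N := smul_mem_fixedInts N σ₀⁻¹ b.2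
    have h1 := h₀ _ hb'
    rw [smul_inv_smul] at h1
    change σ₀⁻¹ • (b : Zbar) ∈ Q ↔ (b : Zbar) ∈ Q
    constructor
    · intro h
      have := Q.add_mem h1 h
      simpa using this
    · intro h
      have := Q.sub_mem h h1
      simpa using this
  -- (ii) transitivity
  obtain ⟨n₁, hn₁, hQ⟩ := exists_smul_eq_of_under_eq N hN (σ₀ • Q) Q hunder
  have hσ₁ : (n₁ * σ₀) • Q = Q := by rw [mul_smul]; exact hQ.symm
  -- (iii) `σ₁ = n₁ σ₀` still acts trivially on the fixed integers mod `Q`
  have h₁ : ∀ b ∈ fixedInts N, (n₁ * σ₀) • b - b ∈ Q := by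
    intro b hb
    have hb' : σ₀ • b ∈ fixedInts N := smul_mem_fixedInts N σ₀ hb
    rw [mul_smul, (mem_fixedInts_iff N _).1 hb' n₁ hn₁]
    exact h₀ b hb
  -- (iv) the induced automorphism of `Zbar ⧸ Q`
  let e : Zbar ≃+* Zbar := MulSemiringAction.toRingEquiv GQ Zbar (n₁ * σ₀)
  have he : Q = Q.map (e : Zbar →+* Zbar) := by
    rw [Ideal.map_coe]
    conv_lhs => rw [← hσ₁]
    rfl
  let φ₀ : (Zbar ⧸ Q) ≃+* (Zbar ⧸ Q) := Ideal.quotientEquiv Q Q e he
  have hφ₀ : ∀ b : Zbar, φ₀ (Ideal.Quotient.mk Q b) = Ideal.Quotient.mk Q ((n₁ * σ₀) • b) := by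
    intro b
    rfl
  let φ : (Zbar ⧸ Q) ≃ₐ[fixedInts N ⧸ Q.under (fixedInts N)] (Zbar ⧸ Q) :=
    AlgEquiv.ofRingEquiv (f := φ₀) (by
      intro x
      obtain ⟨b, rfl⟩ := Ideal.Quotient.mk_surjective x
      change φ₀ (Ideal.Quotient.mk Q (b : Zbar)) = Ideal.Quotient.mk Q (b : Zbar)
      rw [hφ₀, Ideal.Quotient.eq]
      exact h₁ b b.2)
  have hφ : ∀ b : Zbar, φ (Ideal.Quotient.mk Q b) = Ideal.Quotient.mk Q ((n₁ * σ₀) • b) := hφ₀
  -- (v) realise it inside `N`
  obtain ⟨n₂, hn₂, hn₂Q, hn₂φ⟩ := exists_stabilizer_apply_eq N hN Q φ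
  have hdiff : ∀ b : Zbar, (n₁ * σ₀) • b - n₂ • b ∈ Q := by
    intro b
    rw [← Ideal.Quotient.eq, ← hφ, hn₂φ]
  have hn₂inv : n₂⁻¹ • Q = Q := by
    conv_lhs => rw [← hn₂Q]
    rw [inv_smul_smul]
  refine ⟨n₂⁻¹ * n₁, N.mul_mem (N.inv_mem hn₂) hn₁, ?_, fun b => ?_⟩
  · rw [mul_assoc, mul_smul, hσ₁, hn₂inv]
  · have h2 : n₂⁻¹ • ((n₁ * σ₀) • b - n₂ • b) ∈ Q :=
      (smul_mem_ideal_iff Q n₂⁻¹ hn₂inv _).2 (hdiff b)
    rw [smul_sub, inv_smul_smul, ← mul_smul, ← mul_assoc] at h2
    exact h2


/-- An automorphism stabilising `Q = 𝔪_A ∩ Zbar` and acting trivially on `Zbar ⧸ Q` lies in the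
inertia subgroup of `A`. -/
theorem mem_inertiaSubgroupIn_of_zbar (A : ValuationSubring Qbar) {ℓ : ℕ} (hℓ : ℓ.Prime)
    (hA : A.LiesOverPrime ℓ) (σ : GQ) (hσQ : σ • zbarPrime A = zbarPrime A)
    (hσI : ∀ b : Zbar, σ • b - b ∈ zbarPrime A) : σ ∈ A.inertiaSubgroupIn ℚ := by
  have hσD : σ ∈ A.decompositionSubgroup ℚ := mem_decompositionSubgroup_of_stab A hℓ hA σ hσQ
  unfold ValuationSubring.inertiaSubgroupIn
  rw [Subgroup.mem_map]
  refine ⟨⟨σ, hσD⟩, ?_, rfl⟩
  change (⟨σ, hσD⟩ : A.decompositionSubgroup ℚ) ∈ MonoidHom.ker _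
  rw [MonoidHom.mem_ker]
  ext xbar
  obtain ⟨a, rfl⟩ := IsLocalRing.residue_surjective xbar
  change (⟨σ, hσD⟩ : A.decompositionSubgroup ℚ) • (IsLocalRing.residue A a) = IsLocalRing.residue A a
  rw [← IsLocalRing.ResidueField.residue_smul]
  rw [← sub_eq_zero, ← map_sub, IsLocalRing.residue_eq_zero_iff, A.valuation_lt_one_iff]
  have hcoe : (((⟨σ, hσD⟩ : A.decompositionSubgroup ℚ) • a - a : A) : Qbar) =
      σ (a : Qbar) - (a : Qbar) := rfl
  rw [hcoe]
  obtain ⟨s, x, hs, hx, hs1, hsx⟩ :=
    exists_integral_fraction A hℓ hA a.2 (isAlgebraic_int_Qbar (a : Qbar))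
  have hσs1 : A.valuation (σ s) = 1 := valuation_apply_eq_one_of_stab A σ hσQ hs hs1
  have hIs : A.valuation (σ s - s) < 1 := by
    have := hσI ⟨s, hs⟩
    rw [mem_zbarPrime_iff] at this
    exact this
  have hIx : A.valuation (σ x - x) < 1 := by
    have := hσI ⟨x, hx⟩
    rw [mem_zbarPrime_iff] at this
    exact this
  have hxle : A.valuation x ≤ 1 := valuation_le_one_of_isIntegral A hx
  have key : (σ (a : Qbar) - (a : Qbar)) * (σ s * s) = (σ x - x) * s - x * (σ s - s) := by
    have e1 : σ x = σ s * σ (a : Qbar) := by rw [← map_mul, hsx]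
    have e2 : x = s * (a : Qbar) := hsx.symm
    rw [e1]
    conv_rhs => rw [e2]
    ring
  have hval : A.valuation ((σ (a : Qbar) - (a : Qbar)) * (σ s * s)) < 1 := by
    rw [key]
    refine Valuation.map_sub_lt _ ?_ ?_
    · rw [map_mul, hs1, mul_one]; exact hIx
    · rw [map_mul]
      calc A.valuation x * A.valuation (σ s - s)
          ≤ 1 * A.valuation (σ s - s) := by gcongr
        _ = A.valuation (σ s - s) := one_mul _
        _ < 1 := hIs
  rw [map_mul, map_mul, hσs1, hs1, mul_one, mul_one] at hval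
  exact hval


section FiniteLevel

variable (N : Subgroup GQ)

/-- The fixed field of `N`. -/
noncomputable abbrev fixedFld : IntermediateField ℚ Qbar := IntermediateField.fixedField N

theorem fixingSubgroup_fixedFld (hN : IsClosed (N : Set GQ)) : (fixedFld N).fixingSubgroup = N := by
  have := isGalois_Qbar
  exact InfiniteGalois.fixingSubgroup_fixedField ⟨N, hN⟩

theorem finiteDimensional_fixedFld (hN : IsOpen (N : Set GQ)) :
    FiniteDimensional ℚ (fixedFld N) := by
  have := isGalois_Qbar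
  rw [← InfiniteGalois.isOpen_iff_finite]
  have h := fixingSubgroup_fixedFld N (Subgroup.isClosed_of_isOpen N hN)
  show IsOpen ((fixedFld N).fixingSubgroup : Set GQ)
  rw [h]
  exact hN

theorem isGalois_fixedFld [N.Normal] (hN : IsClosed (N : Set GQ)) : IsGalois ℚ (fixedFld N) := by
  have := isGalois_Qbar
  have h : @IsGalois ℚ _ (fixedFld N) _ (IntermediateField.algebra' _) := by
    rw [← InfiniteGalois.normal_iff_isGalois, fixingSubgroup_fixedFld N hN]
    infer_instance
  convert h
  exact Subsingleton.elim _ _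

theorem coe_mem_fixedFld (b : fixedInts N) : ((b : Zbar) : Qbar) ∈ fixedFld N := by
  rintro ⟨n, hn⟩
  exact congrArg Subtype.val (b.2 ⟨n, hn⟩)

/-- The inclusion of the `N`-fixed algebraic integers into the fixed field of `N`. -/
noncomputable def fixedIntsToFld : fixedInts N →+* fixedFld N where
  toFun b := ⟨((b : Zbar) : Qbar), coe_mem_fixedFld N b⟩
  map_one' := rfl
  map_mul' _ _ := rfl
  map_zero' := rfl
  map_add' _ _ := rfl

/-- The algebra structure of the fixed field over the fixed integers. -/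
@[reducible] noncomputable def algebraFixed : Algebra (fixedInts N) (fixedFld N) :=
  (fixedIntsToFld N).toAlgebra

attribute [local instance] algebraFixed

theorem algebraMap_fixed_coe (b : fixedInts N) :
    ((algebraMap (fixedInts N) (fixedFld N) b : fixedFld N) : Qbar) = ((b : Zbar) : Qbar) := rfl

theorem isIntegralClosure_fixed : IsIntegralClosure (fixedInts N) ℤ (fixedFld N) where
  algebraMap_injective := by
    intro a b h
    apply Subtype.ext
    apply Subtype.ext
    have h1 := congrArg (fun z : fixedFld N => (z : Qbar)) h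
    exact h1
  isIntegral_iff := by
    intro x
    constructor
    · intro hx
      have hx' : IsIntegral ℤ (x : Qbar) := by
        have := hx.map (IsScalarTower.toAlgHom ℤ (fixedFld N) Qbar)
        simpa using this
      refine ⟨⟨⟨(x : Qbar), hx'⟩, ?_⟩, ?_⟩
      · rintro ⟨n, hn⟩
        apply Subtype.ext
        exact x.2 ⟨n, hn⟩
      · rfl
    · rintro ⟨y, rfl⟩
      have hy : IsIntegral ℤ ((y : Zbar) : Qbar) := (y : Zbar).2
      rw [← isIntegral_algebraMap_iff (FaithfulSMul.algebraMap_injective (fixedFld N) Qbar)]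
      exact hy

end FiniteLevel


section GaloisGroup

variable (N : Subgroup GQ) [N.Normal]

theorem quotient_smul_coe (σ : GQ) (b : fixedInts N) :
    (((QuotientGroup.mk σ : GQ ⧸ N) • b : fixedInts N) : Zbar) = σ • (b : Zbar) := rfl

omit [N.Normal] in
/-- An automorphism fixing all `N`-fixed algebraic integers fixes the fixed field of `N`. -/
theorem mem_fixingSubgroup_of_fixedInts (σ : GQ) (h : ∀ b ∈ fixedInts N, σ • b = b) :
    σ ∈ (fixedFld N).fixingSubgroup := by
  rw [IntermediateField.mem_fixingSubgroup_iff]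
  intro x hx
  obtain ⟨m, hm0, hmint⟩ := (isAlgebraic_int_Qbar x).exists_integral_multiple
  have hmem : (⟨m • x, hmint⟩ : Zbar) ∈ fixedInts N := by
    rw [mem_fixedInts_iff]
    intro n hn
    apply Subtype.ext
    show n (m • x) = m • x
    rw [map_zsmul]
    congr 1
    exact hx ⟨n, hn⟩
  have h1 := congrArg Subtype.val (h _ hmem)
  have h2 : σ (m • x) = m • x := h1
  rw [map_zsmul, zsmul_eq_mul, zsmul_eq_mul] at h2
  have hm0' : (m : Qbar) ≠ 0 := by exact_mod_cast hm0
  exact mul_left_cancel₀ hm0' h2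

theorem faithfulSMul_quotient (hN : IsClosed (N : Set GQ)) :
    FaithfulSMul (GQ ⧸ N) (fixedInts N) where
  eq_of_smul_eq_smul := by
    intro g₁ g₂ h
    obtain ⟨σ₁, rfl⟩ := QuotientGroup.mk_surjective g₁
    obtain ⟨σ₂, rfl⟩ := QuotientGroup.mk_surjective g₂
    rw [QuotientGroup.eq]
    rw [← fixingSubgroup_fixedFld N hN]
    apply mem_fixingSubgroup_of_fixedInts
    intro b hb
    have h1 := congrArg Subtype.val (h ⟨b, hb⟩)
    have h2 : σ₁ • b = σ₂ • b := h1
    rw [mul_smul, ← h2, inv_smul_smul]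

theorem isGaloisGroup_quotient (hN : IsClosed (N : Set GQ)) :
    IsGaloisGroup (GQ ⧸ N) ℤ (fixedInts N) where
  faithful := faithfulSMul_quotient N hN
  commutes := inferInstance
  isInvariant :=
    have := zbar_isInvariant
    inferInstance

end GaloisGroup


/-- **Hermite–Minkowski, inertia form.** In a nontrivial Galois number field there is a rational
prime `p` such that every prime above `p` has nontrivial inertia group. -/
theorem exists_prime_forall_inertia_ne_bot {K 𝒪 G : Type*} [Field K] [NumberField K]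
    [CommRing 𝒪] [Algebra 𝒪 K] [IsIntegralClosure 𝒪 ℤ K] [IsGalois ℚ K]
    [Group G] [Finite G] [MulSemiringAction G 𝒪] [IsGaloisGroup G ℤ 𝒪]
    (h : 1 < Module.finrank ℚ K) :
    ∃ p : ℕ, p.Prime ∧ ∀ (P : Ideal 𝒪), P.IsPrime → (p : 𝒪) ∈ P →
      ∃ τ ∈ Ideal.inertia G P, τ ≠ 1 := by
  obtain ⟨p, hp, hram⟩ := NumberField.exists_not_isUnramifiedAt_int_of_isGalois
    (K := K) (𝒪 := 𝒪) h
  refine ⟨p, hp, fun P hP hpP => ?_⟩
  have hnr := hram P hP hpP
  have := (IsIntegralClosure.algebraMap_injective 𝒪 ℤ K).isDomain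
  have := IsIntegralClosure.isDedekindDomain ℤ ℚ K 𝒪
  have := IsIntegralClosure.isFractionRing_of_finite_extension ℤ ℚ K 𝒪
  have := IsIntegralClosure.finite ℤ ℚ K 𝒪
  have := CharZero.of_module (R := 𝒪) K
  by_contra hall
  push Not at hall
  apply hnr
  have hpne : P.under ℤ ≠ ⊥ := by
    intro hbot
    have h1 : (p : ℤ) ∈ P.under ℤ := by
      rw [Ideal.under_def, Ideal.mem_comap]
      simpa using hpP
    rw [hbot, Ideal.mem_bot] at h1
    exact hp.ne_zero (by exact_mod_cast h1)
  have : (P.under ℤ).IsMaximal := Ideal.IsPrime.isMaximal inferInstance hpne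
  rw [← Ideal.ramificationIdx_eq_one_iff,
    ← Ideal.ramificationIdxIn_eq_ramificationIdx (P.under ℤ) P G,
    ← Ideal.card_inertia_eq_ramificationIdxIn (G := G) (P.under ℤ) P]
  rw [Nat.card_eq_one_iff_unique]
  refine ⟨⟨?_⟩, ⟨1⟩⟩
  intro a b
  apply Subtype.ext
  rw [hall a.1 a.2, hall b.1 b.2]


section Main

attribute [local instance] algebraFixed

theorem one_lt_finrank_fixedFld (N : Subgroup GQ) (hN : IsOpen (N : Set GQ)) (hne : N ≠ ⊤) :
    1 < Module.finrank ℚ (fixedFld N) := by
  have := finiteDimensional_fixedFld N hN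
  have hNc : IsClosed (N : Set GQ) := Subgroup.isClosed_of_isOpen N hN
  by_contra h
  have hpos : 0 < Module.finrank ℚ (fixedFld N) := Module.finrank_pos
  have h1 : Module.finrank ℚ (fixedFld N) = 1 := by omega
  have h2 : fixedFld N = ⊥ := IntermediateField.finrank_eq_one_iff.mp h1
  apply hne
  rw [← fixingSubgroup_fixedFld N hNc, h2]
  exact IntermediateField.fixingSubgroup_bot

theorem isIntegralClosure_fixed' (N : Subgroup GQ) :
    @IsIntegralClosure (fixedInts N) ℤ (fixedFld N) _ _ _ (Ring.toIntAlgebra _) _ := by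
  convert isIntegralClosure_fixed N
  exact Subsingleton.elim _ _

theorem isGaloisGroup_quotient' (N : Subgroup GQ) [N.Normal] (hN : IsClosed (N : Set GQ)) :
    @IsGaloisGroup (GQ ⧸ N) ℤ (fixedInts N) _ _ _ (Ring.toIntAlgebra _) _ := by
  have h := isGaloisGroup_quotient N hN
  have e : (Ring.toIntAlgebra (fixedInts N)) = (fixedInts N).algebra := Subsingleton.elim _ _
  rw [e]
  exact h

set_option synthInstance.maxHeartbeats 200000 in
set_option maxHeartbeats 800000 in
/-- If `N` is a proper open normal subgroup of the absolute Galois group of `ℚ`, some inertia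
subgroup is not contained in `N`. -/
theorem exists_inertia_not_mem (N : Subgroup GQ) [N.Normal] (hN : IsOpen (N : Set GQ))
    (hne : N ≠ ⊤) :
    ∃ (ℓ : ℕ) (A : ValuationSubring Qbar) (σ : GQ),
      ℓ.Prime ∧ A.LiesOverPrime ℓ ∧ σ ∈ A.inertiaSubgroupIn ℚ ∧ σ ∉ N := by
  have hNc : IsClosed (N : Set GQ) := Subgroup.isClosed_of_isOpen N hN
  have := finiteDimensional_fixedFld N hN
  have hnf : NumberField (fixedFld N) := ⟨⟩
  have := isGalois_fixedFld N hNc
  have := isIntegralClosure_fixed' N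
  have := isGaloisGroup_quotient' N hNc
  have hcs := compactSpace_GQ
  have : Finite (GQ ⧸ N) := Subgroup.quotient_finite_of_isOpen N hN
  have hrank := one_lt_finrank_fixedFld N hN hne
  obtain ⟨p, hp, hin⟩ := exists_prime_forall_inertia_ne_bot
    (K := fixedFld N) (𝒪 := fixedInts N) (G := GQ ⧸ N) hrank
  obtain ⟨A, hA⟩ := exists_valuationSubring_liesOver hp
  have hpP : ((p : ℕ) : fixedInts N) ∈ (zbarPrime A).under (fixedInts N) := by
    rw [Ideal.under_def, Ideal.mem_comap]
    have := natCast_mem_zbarPrime A hA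
    simpa using this
  obtain ⟨τ, hτ, hτ1⟩ := hin ((zbarPrime A).under (fixedInts N)) inferInstance hpP
  obtain ⟨σ₀, rfl⟩ := QuotientGroup.mk_surjective τ
  have h₀ : ∀ b ∈ fixedInts N, σ₀ • b - b ∈ zbarPrime A := by
    intro b hb
    have h1 := hτ ⟨b, hb⟩
    exact h1
  obtain ⟨n, hn, hσQ, hσI⟩ := exists_inertia_lift N hNc (zbarPrime A) σ₀ h₀
  refine ⟨p, A, n * σ₀, hp, hA, mem_inertiaSubgroupIn_of_zbar A hp hA _ hσQ hσI, ?_⟩
  intro hmem
  apply hτ1
  have h2 : σ₀ ∈ N := by
    have := N.mul_mem (N.inv_mem hn) hmem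
    simpa using this
  exact (QuotientGroup.eq_one_iff σ₀).mpr h2

end Main


section Conj

variable {K L : Type*} [Field K] [Field L] [Algebra K L] {A : ValuationSubring L}

/-- Membership in the inertia subgroup, in elementary terms. -/
theorem mem_inertiaSubgroupIn_iff_forall {σ : L ≃ₐ[K] L} :
    σ ∈ A.inertiaSubgroupIn K ↔
      σ ∈ A.decompositionSubgroup K ∧ ∀ x ∈ A, σ x - x ∈ A.nonunits := by
  constructor
  · intro h
    exact ⟨Fermat.Agent.S05.helper4.mem_decompositionSubgroup_of_mem_inertiaSubgroupIn h,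
      fun x hx => Fermat.Agent.S05.helper4.apply_sub_mem_nonunits h hx⟩
  · rintro ⟨hσD, hσ⟩
    unfold ValuationSubring.inertiaSubgroupIn
    rw [Subgroup.mem_map]
    refine ⟨⟨σ, hσD⟩, ?_, rfl⟩
    change (⟨σ, hσD⟩ : A.decompositionSubgroup K) ∈ MonoidHom.ker _
    rw [MonoidHom.mem_ker]
    ext xbar
    obtain ⟨a, rfl⟩ := IsLocalRing.residue_surjective xbar
    change (⟨σ, hσD⟩ : A.decompositionSubgroup K) • (IsLocalRing.residue A a) =
      IsLocalRing.residue A a
    rw [← IsLocalRing.ResidueField.residue_smul]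
    rw [← sub_eq_zero, ← map_sub, IsLocalRing.residue_eq_zero_iff]
    have h := hσ a a.2
    exact ValuationSubring.coe_mem_nonunits_iff.1 h

theorem smul_liesOverPrime (g : L ≃ₐ[K] L) {ℓ : ℕ} (hA : A.LiesOverPrime ℓ) :
    (g • A).LiesOverPrime ℓ := by
  unfold ValuationSubring.LiesOverPrime at hA ⊢
  rw [ValuationSubring.mem_nonunits_iff_or] at hA ⊢
  rcases hA with h | h
  · left; exact h
  · right
    intro hmem
    apply h
    rw [ValuationSubring.mem_pointwise_smul_iff_inv_smul_mem] at hmem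
    have h1 : g⁻¹ • ((ℓ : L)⁻¹) = (ℓ : L)⁻¹ := by
      show g⁻¹ ((ℓ : L)⁻¹) = (ℓ : L)⁻¹
      rw [map_inv₀, map_natCast]
    rwa [h1] at hmem

/-- Conjugating an inertia element by `g` gives an inertia element of `g • A`. -/
theorem conj_mem_inertiaSubgroupIn (g : L ≃ₐ[K] L) {σ : L ≃ₐ[K] L}
    (hσ : σ ∈ A.inertiaSubgroupIn K) : g * σ * g⁻¹ ∈ (g • A).inertiaSubgroupIn K := by
  rw [mem_inertiaSubgroupIn_iff_forall] at hσ ⊢
  obtain ⟨hσD, hσI⟩ := hσ
  constructor
  · rw [ValuationSubring.decompositionSubgroup, MulAction.mem_stabilizer_iff] at hσD ⊢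
    rw [mul_smul, mul_smul, inv_smul_smul, hσD]
  · intro x hx
    rw [ValuationSubring.mem_pointwise_smul_iff_inv_smul_mem] at hx
    have h1 := hσI _ hx
    have h2 : (g * σ * g⁻¹) x - x = g (σ (g⁻¹ • x) - g⁻¹ • x) := by
      rw [map_sub]
      congr 1
      exact (g.apply_symm_apply x).symm
    rw [h2]
    rw [ValuationSubring.mem_nonunits_iff_or] at h1 ⊢
    rcases h1 with h | h
    · left; rw [h, map_zero]
    · right
      intro hmem
      apply h
      rw [ValuationSubring.mem_pointwise_smul_iff_inv_smul_mem] at hmem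
      have h3 : g⁻¹ • (g (σ (g⁻¹ • x) - g⁻¹ • x))⁻¹ = (σ (g⁻¹ • x) - g⁻¹ • x)⁻¹ := by
        rw [← map_inv₀]
        show g⁻¹ (g _) = _
        exact g.symm_apply_apply _
      rwa [h3] at hmem

end Conj

section General

/-- **Minkowski's theorem, Galois form**: an open subgroup of the absolute Galois group of `ℚ`
which contains every inertia subgroup is the whole group. -/
theorem eq_top_of_inertia_le (H : Subgroup GQ) (hopen : IsOpen (H : Set GQ))
    (hin : ∀ ℓ : ℕ, ℓ.Prime → ∀ A : ValuationSubring Qbar, A.LiesOverPrime ℓ →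
      A.inertiaSubgroupIn ℚ ≤ H) : H = ⊤ := by
  have hcs := compactSpace_GQ
  have hfin : Finite (GQ ⧸ H) := Subgroup.quotient_finite_of_isOpen H hopen
  have hFI : H.FiniteIndex := Subgroup.finiteIndex_of_finite_quotient
  have hclosed : IsClosed (H : Set GQ) := Subgroup.isClosed_of_isOpen H hopen
  have hNopen : IsOpen (H.normalCore : Set GQ) :=
    Subgroup.isOpen_of_isClosed_of_finiteIndex _ (H.normalCore_isClosed hclosed)
  by_contra hne
  have hNne : H.normalCore ≠ ⊤ := by
    intro h
    apply hne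
    rw [eq_top_iff, ← h]
    exact H.normalCore_le
  obtain ⟨ℓ, A, σ, hℓ, hA, hσ, hσN⟩ := exists_inertia_not_mem H.normalCore hNopen hNne
  apply hσN
  rw [Subgroup.normalCore, Subgroup.mem_mk]
  intro g
  have h1 := conj_mem_inertiaSubgroupIn (K := ℚ) g hσ
  exact hin ℓ hℓ (g • A) (smul_liesOverPrime g hA) h1

end General


section Corollaries

/-- If every inertia element fixes every point of a finite set `S` (with open point stabilisers),
then the whole absolute Galois group of `ℚ` fixes `S` pointwise. -/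
theorem smul_eq_of_forall_inertia {X : Type*} [MulAction GQ X] (S : Set X) (hS : S.Finite)
    (hopen : ∀ x ∈ S, IsOpen (MulAction.stabilizer GQ x : Set GQ))
    (hin : ∀ ℓ : ℕ, ℓ.Prime → ∀ A : ValuationSubring Qbar, A.LiesOverPrime ℓ →
      ∀ σ ∈ A.inertiaSubgroupIn ℚ, ∀ x ∈ S, σ • x = x) :
    ∀ σ : GQ, ∀ x ∈ S, σ • x = x := by
  let H : Subgroup GQ := ⨅ x ∈ S, MulAction.stabilizer GQ x
  have hmem : ∀ σ : GQ, σ ∈ H ↔ ∀ x ∈ S, σ • x = x := by
    intro σ
    simp only [H, Subgroup.mem_iInf, MulAction.mem_stabilizer_iff]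
  have hHopen : IsOpen (H : Set GQ) := by
    have : (H : Set GQ) = ⋂ x ∈ S, (MulAction.stabilizer GQ x : Set GQ) := by
      ext σ
      simp only [SetLike.mem_coe, hmem, Set.mem_iInter, MulAction.mem_stabilizer_iff]
    rw [this]
    exact hS.isOpen_biInter hopen
  have htop : H = ⊤ := eq_top_of_inertia_le H hHopen (fun ℓ hℓ A hA σ hσ =>
    (hmem σ).2 (hin ℓ hℓ A hA σ hσ))
  intro σ
  exact (hmem σ).1 (htop ▸ Subgroup.mem_top σ)

/-- If every inertia element acts trivially on `M / N` (for a finite Galois module `M` with open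
point stabilisers and a Galois-stable subgroup `N`), then so does the whole absolute Galois group
of `ℚ`. -/
theorem smul_sub_mem_of_forall_inertia {M : Type*} [AddCommGroup M] [DistribMulAction GQ M]
    [Finite M] (N : AddSubgroup M) (hN : ∀ σ : GQ, ∀ x ∈ N, σ • x ∈ N)
    (hopen : ∀ x : M, IsOpen (MulAction.stabilizer GQ x : Set GQ))
    (hin : ∀ ℓ : ℕ, ℓ.Prime → ∀ A : ValuationSubring Qbar, A.LiesOverPrime ℓ →
      ∀ σ ∈ A.inertiaSubgroupIn ℚ, ∀ x : M, σ • x - x ∈ N) :
    ∀ σ : GQ, ∀ x : M, σ • x - x ∈ N := by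
  let H : Subgroup GQ :=
    { carrier := {σ | ∀ x : M, σ • x - x ∈ N}
      one_mem' := by
        intro x
        simp
      mul_mem' := by
        intro σ τ hσ hτ x
        have h1 : (σ * τ) • x - x = σ • (τ • x - x) + (σ • x - x) := by
          rw [mul_smul, smul_sub]; abel
        rw [h1]
        exact N.add_mem (hN σ _ (hτ x)) (hσ x)
      inv_mem' := by
        intro σ hσ x
        have h1 : σ⁻¹ • x - x = -(σ⁻¹ • (σ • x - x)) := by
          rw [smul_sub, inv_smul_smul]; abel
        rw [h1]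
        exact N.neg_mem (hN σ⁻¹ _ (hσ x)) }
  have hmem : ∀ σ : GQ, σ ∈ H ↔ ∀ x : M, σ • x - x ∈ N := fun σ => Iff.rfl
  have hHopen : IsOpen (H : Set GQ) := by
    let H₀ : Subgroup GQ := ⨅ x : M, MulAction.stabilizer GQ x
    have h₀mem : ∀ σ : GQ, σ ∈ H₀ ↔ ∀ x : M, σ • x = x := by
      intro σ
      simp only [H₀, Subgroup.mem_iInf, MulAction.mem_stabilizer_iff]
    have h₀open : IsOpen (H₀ : Set GQ) := by
      have : (H₀ : Set GQ) = ⋂ x : M, (MulAction.stabilizer GQ x : Set GQ) := by
        ext σ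
        simp only [SetLike.mem_coe, h₀mem, Set.mem_iInter, MulAction.mem_stabilizer_iff]
      rw [this]
      exact isOpen_iInter_of_finite hopen
    have hle : H₀ ≤ H := by
      intro σ hσ x
      rw [(h₀mem σ).1 hσ x, sub_self]
      exact N.zero_mem
    exact Subgroup.isOpen_mono hle h₀open
  have htop : H = ⊤ := eq_top_of_inertia_le H hHopen (fun ℓ hℓ A hA σ hσ =>
    (hmem σ).2 (hin ℓ hℓ A hA σ hσ))
  intro σ
  exact (hmem σ).1 (htop ▸ Subgroup.mem_top σ)

end Corollaries


section Points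

open WeierstrassCurve WeierstrassCurve.Affine WeierstrassCurve.Affine.Point

/-- The stabiliser of a `ℚ̄`-point of a Weierstrass curve is open in the absolute Galois group. -/
theorem isOpen_stabilizer_point (W' : Affine ℚ) (P : (W'⁄Qbar).Point) :
    IsOpen (MulAction.stabilizer GQ P : Set GQ) := by
  have := isAlgebraic_Qbar
  cases P with
  | zero =>
    have h : MulAction.stabilizer GQ (Point.zero : (W'⁄Qbar).Point) = ⊤ := by
      rw [eq_top_iff]
      intro σ _
      rw [MulAction.mem_stabilizer_iff]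
      rfl
    rw [h]
    exact isOpen_univ
  | some x y hxy =>
    have hx : IsOpen (MulAction.stabilizer GQ x : Set GQ) :=
      stabilizer_isOpen_of_isIntegral (K := ℚ) (L := Qbar) x
    have hy : IsOpen (MulAction.stabilizer GQ y : Set GQ) :=
      stabilizer_isOpen_of_isIntegral (K := ℚ) (L := Qbar) y
    have hle : MulAction.stabilizer GQ x ⊓ MulAction.stabilizer GQ y ≤
        MulAction.stabilizer GQ (Point.some x y hxy : (W'⁄Qbar).Point) := by
      rintro σ ⟨h1, h2⟩
      have h1' : σ x = x := h1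
      have h2' : σ y = y := h2
      rw [MulAction.mem_stabilizer_iff, algEquiv_smul_def]
      simp only [Point.map_some]
      congr 1
    refine Subgroup.isOpen_mono hle ?_
    rw [Subgroup.coe_inf]
    exact hx.inter hy

/-- The stabiliser of a torsion point is open. -/
theorem isOpen_stabilizer_torsion (W' : Affine ℚ) (n : ℕ)
    (P : Submodule.torsionBy ℤ (W'⁄Qbar).Point n) :
    IsOpen (MulAction.stabilizer GQ P : Set GQ) := by
  have h : MulAction.stabilizer GQ P = MulAction.stabilizer GQ (P : (W'⁄Qbar).Point) := by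
    ext σ
    rw [MulAction.mem_stabilizer_iff, MulAction.mem_stabilizer_iff]
    constructor
    · intro h1
      exact congrArg Subtype.val h1
    · intro h1
      exact Subtype.ext h1
  rw [h]
  exact isOpen_stabilizer_point W' _

end Points

end Fermat.Agent.S13.helper4
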