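import Mathlib
import Fermat.Prelude.Def_FLTPrelim_Ramification
import Fermat.Agent.S54.helper91_Frobenius
import Fermat.Agent.S14.helper91_Dictionary
import Fermat.Agent.S05.helper92_Inertia

/-!
# S13 package (4) (helper92): Minkowski — no everywhere-unramified extension of `ℚ`

An open normal subgroup of `G_ℚ = Gal(ℚ̄/ℚ)` containing the inertia subgroups of all valuation
subrings of `ℚ̄` lying over rational primes is the whole group.
-/

set_option autoImplicit false
set_option linter.style.haveILetI false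
set_option linter.unusedSectionVars false

open scoped Pointwise NumberField

namespace Fermat.Agent.S13.helper92

open Fermat.Agent.S54.helper91 (Qbar GQ isGalois_Qbar isAlgebraic_Qbar
  exists_valuationSubring_liesOver)

/-- The lifting property for inertia (restriction to a finite Galois subextension is surjective
on inertia groups), in the shape used below. -/
def InertiaLift : Prop :=
  ∀ (L : IntermediateField ℚ Qbar) [FiniteDimensional ℚ L] [IsGalois ℚ L]
    (A : ValuationSubring Qbar) (ℓ : ℕ), ℓ.Prime → A.LiesOverPrime ℓ →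
    ∀ τ : L ≃ₐ[ℚ] L, (∀ x : L, IsIntegral ℤ x → ((τ x - x : L) : Qbar) ∈ A.nonunits) →
      ∃ σ ∈ A.inertiaSubgroupIn ℚ, ∀ x : L, σ (x : Qbar) = ((τ x : L) : Qbar)

section FixedField

variable (H : Subgroup GQ)

theorem fixingSubgroup_fixedField_of_isOpen (hopen : IsOpen (H : Set GQ)) :
    (IntermediateField.fixedField H).fixingSubgroup = H := by
  haveI := isGalois_Qbar
  have hclosed : IsClosed (H : Set GQ) := H.isClosed_of_isOpen hopen
  exact InfiniteGalois.fixingSubgroup_fixedField ⟨H, hclosed⟩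

theorem finiteDimensional_fixedField_of_isOpen (hopen : IsOpen (H : Set GQ)) :
    FiniteDimensional ℚ (IntermediateField.fixedField H) := by
  haveI := isGalois_Qbar
  rw [← InfiniteGalois.isOpen_iff_finite, fixingSubgroup_fixedField_of_isOpen H hopen]
  exact hopen

theorem algebra_rat_eq (L : IntermediateField ℚ Qbar) :
    (DivisionRing.toRatAlgebra : Algebra ℚ ↥L) = IntermediateField.algebra' L :=
  Subsingleton.elim _ _

theorem isGalois_fixedField_of_isOpen (hopen : IsOpen (H : Set GQ)) [hn : H.Normal] :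
    IsGalois ℚ (IntermediateField.fixedField H) := by
  haveI := isGalois_Qbar
  have h : @IsGalois ℚ _ ↥(IntermediateField.fixedField H) _
      (IntermediateField.algebra' (IntermediateField.fixedField H)) := by
    rw [← InfiniteGalois.normal_iff_isGalois, fixingSubgroup_fixedField_of_isOpen H hopen]
    exact hn
  rw [algebra_rat_eq]
  exact h

theorem numberField_fixedField_of_isOpen (hopen : IsOpen (H : Set GQ)) :
    NumberField (IntermediateField.fixedField H) := by
  haveI := finiteDimensional_fixedField_of_isOpen H hopen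
  exact ⟨⟩

theorem eq_top_of_finrank_fixedField_eq_one (hopen : IsOpen (H : Set GQ))
    (h1 : Module.finrank ℚ (IntermediateField.fixedField H) = 1) : H = ⊤ := by
  haveI := isGalois_Qbar
  have h2 : IntermediateField.fixedField H = ⊥ := IntermediateField.finrank_eq_one_iff.1 h1
  have h3 := fixingSubgroup_fixedField_of_isOpen H hopen
  rw [h2, IntermediateField.fixingSubgroup_bot] at h3
  exact h3.symm

end FixedField


section NumberField

/-- In a Galois number field, a ramified prime has a nontrivial inertia group. -/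
theorem exists_inertia_ne_one (K : Type*) [Field K] [NumberField K] [IsGalois ℚ K]
    (P : Ideal (𝓞 K)) [P.IsPrime] (hP : ¬ Algebra.IsUnramifiedAt ℤ P) :
    ∃ τ : Gal(K/ℚ), τ ≠ 1 ∧ ∀ x : 𝓞 K, galRestrict ℤ ℚ K (𝓞 K) τ x - x ∈ P := by
  let _ : MulSemiringAction Gal(K/ℚ) (𝓞 K) := IsIntegralClosure.MulSemiringAction ℤ ℚ K (𝓞 K)
  have := IsGaloisGroup.of_isFractionRing Gal(K/ℚ) ℤ (𝓞 K) ℚ K
  have hlo : P.LiesOver (P.under ℤ) := ⟨rfl⟩
  have h1 := Ideal.card_inertia_eq_ramificationIdxIn (G := Gal(K/ℚ)) (P.under ℤ) P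
  have h2 := Ideal.ramificationIdxIn_eq_ramificationIdx (P.under ℤ) P Gal(K/ℚ)
  have h3 : P.ramificationIdx ℤ ≠ 1 := fun h => hP (Ideal.ramificationIdx_eq_one_iff.1 h)
  rw [h2] at h1
  have h4 : Nat.card (P.toAddSubgroup.inertia Gal(K/ℚ)) ≠ 1 := by rw [h1]; exact h3
  by_contra hcon
  apply h4
  rw [Nat.card_eq_one_iff_unique]
  refine ⟨⟨fun a b => ?_⟩, ⟨1⟩⟩
  have key : ∀ c : P.toAddSubgroup.inertia Gal(K/ℚ), (c : Gal(K/ℚ)) = 1 := by
    intro c
    by_contra hc
    exact hcon ⟨c, hc, fun x => c.2 x⟩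
  exact Subtype.ext ((key a).trans (key b).symm)

variable (A : ValuationSubring Qbar) (L : IntermediateField ℚ Qbar) [NumberField L]

/-- The ring homomorphism `𝓞 L → A`. -/
noncomputable def ringOfIntegersToVal : 𝓞 L →+* A :=
  ((algebraMap L Qbar).comp (algebraMap (𝓞 L) L)).codRestrict A.toSubring (fun x =>
    Fermat.Agent.S54.helper91.mem_valuationSubring_of_isIntegral A
      ((NumberField.RingOfIntegers.isIntegral_coe x).map
        (IsScalarTower.toAlgHom ℤ L Qbar)))

theorem ringOfIntegersToVal_coe (x : 𝓞 L) :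
    ((ringOfIntegersToVal A L x : A) : Qbar) = ((x : L) : Qbar) := rfl

/-- The prime of `𝓞 L` below the maximal ideal of `A`. -/
noncomputable def primeBelow : Ideal (𝓞 L) :=
  Ideal.comap (ringOfIntegersToVal A L) (IsLocalRing.maximalIdeal A)

instance primeBelow_isPrime : (primeBelow A L).IsPrime :=
  Ideal.comap_isPrime _ _

theorem mem_primeBelow_iff (x : 𝓞 L) :
    x ∈ primeBelow A L ↔ ((x : L) : Qbar) ∈ A.nonunits := by
  unfold primeBelow
  rw [Ideal.mem_comap, ← ValuationSubring.coe_mem_nonunits_iff, ringOfIntegersToVal_coe]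

theorem natCast_mem_primeBelow {ℓ : ℕ} (hA : A.LiesOverPrime ℓ) :
    (ℓ : 𝓞 L) ∈ primeBelow A L := by
  rw [mem_primeBelow_iff]
  have : (((ℓ : 𝓞 L) : L) : Qbar) = (ℓ : Qbar) := by simp
  rw [this]
  exact hA

end NumberField


section Main

/-- **Minkowski**, conditional on the lifting property of inertia: an open normal subgroup of
`G_ℚ` containing all inertia subgroups is everything. -/
theorem eq_top_of_exists_inertiaSubgroupIn_le_of_lift (hlift : InertiaLift)
    (H : Subgroup GQ) [hn : H.Normal] (hopen : IsOpen (H : Set GQ))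
    (hI : ∀ ℓ : ℕ, ℓ.Prime → ∃ A : ValuationSubring Qbar, A.LiesOverPrime ℓ ∧
      A.inertiaSubgroupIn ℚ ≤ H) : H = ⊤ := by
  haveI := isGalois_Qbar
  haveI hfd := finiteDimensional_fixedField_of_isOpen H hopen
  haveI hnf := numberField_fixedField_of_isOpen H hopen
  haveI hgal := isGalois_fixedField_of_isOpen H hopen
  by_contra hH
  have hrank : Module.finrank ℚ (IntermediateField.fixedField H) ≠ 1 :=
    fun h1 => hH (eq_top_of_finrank_fixedField_eq_one H hopen h1)
  have hpos : 0 < Module.finrank ℚ (IntermediateField.fixedField H) := Module.finrank_pos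
  have hlt : 1 < Module.finrank ℚ (IntermediateField.fixedField H) := by omega
  obtain ⟨p, hp, hram⟩ := NumberField.exists_not_isUnramifiedAt_int_of_isGalois
    (K := IntermediateField.fixedField H) (𝒪 := 𝓞 (IntermediateField.fixedField H)) hlt
  obtain ⟨A, hA, hIA⟩ := hI p hp
  have hPram := hram (primeBelow A (IntermediateField.fixedField H)) inferInstance
    (natCast_mem_primeBelow A _ hA)
  obtain ⟨τ, hτ1, hτ⟩ := exists_inertia_ne_one (IntermediateField.fixedField H)
    (primeBelow A (IntermediateField.fixedField H)) hPram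
  have hτ' : ∀ x : IntermediateField.fixedField H, IsIntegral ℤ x →
      ((τ x - x : IntermediateField.fixedField H) : Qbar) ∈ A.nonunits := by
    intro x hx
    obtain ⟨y, rfl⟩ : ∃ y : 𝓞 (IntermediateField.fixedField H),
        algebraMap (𝓞 (IntermediateField.fixedField H)) (IntermediateField.fixedField H) y = x :=
      ⟨⟨x, hx⟩, rfl⟩
    have h1 := hτ y
    rw [mem_primeBelow_iff] at h1
    have h2 := algebraMap_galRestrict_apply (B := 𝓞 (IntermediateField.fixedField H)) ℤ τ y
    have h5 : algebraMap (𝓞 (IntermediateField.fixedField H)) (IntermediateField.fixedField H)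
        (galRestrict ℤ ℚ (IntermediateField.fixedField H)
          (𝓞 (IntermediateField.fixedField H)) τ y - y) =
        τ (algebraMap _ _ y) - algebraMap _ _ y := by
      rw [map_sub, h2]
    have h6 : ((algebraMap (𝓞 (IntermediateField.fixedField H)) (IntermediateField.fixedField H)
        (galRestrict ℤ ℚ (IntermediateField.fixedField H)
          (𝓞 (IntermediateField.fixedField H)) τ y - y) : IntermediateField.fixedField H) : Qbar)
        ∈ A.nonunits := h1
    rw [h5] at h6
    exact h6
  obtain ⟨σ, hσI, hσ⟩ := hlift (IntermediateField.fixedField H) A p hp hA τ hτ'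
  have hσH : σ ∈ H := hIA hσI
  apply hτ1
  refine AlgEquiv.ext fun x => ?_
  have h3 : σ (x : Qbar) = (x : Qbar) := x.2 ⟨σ, hσH⟩
  have h4 := hσ x
  rw [h3] at h4
  exact Subtype.ext h4.symm

/-- The `∀ A` form. -/
theorem eq_top_of_inertiaSubgroupIn_le_of_normal_of_lift (hlift : InertiaLift)
    (H : Subgroup GQ) [hn : H.Normal] (hopen : IsOpen (H : Set GQ))
    (hI : ∀ ℓ : ℕ, ℓ.Prime → ∀ A : ValuationSubring Qbar, A.LiesOverPrime ℓ →
      A.inertiaSubgroupIn ℚ ≤ H) : H = ⊤ := by
  refine eq_top_of_exists_inertiaSubgroupIn_le_of_lift hlift H hopen fun ℓ hℓ => ?_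
  obtain ⟨A, hA⟩ := exists_valuationSubring_liesOver hℓ
  exact ⟨A, hA, hI ℓ hℓ A hA⟩

/-- Contrapositive form used in the S13 assembly: a proper open normal subgroup misses the
inertia subgroups of ALL valuation subrings over some prime. -/
theorem exists_prime_forall_not_inertiaSubgroupIn_le_of_lift (hlift : InertiaLift)
    (H : Subgroup GQ) [hn : H.Normal] (hopen : IsOpen (H : Set GQ)) (hH : H ≠ ⊤) :
    ∃ ℓ : ℕ, ℓ.Prime ∧ ∀ A : ValuationSubring Qbar, A.LiesOverPrime ℓ →
      ¬ A.inertiaSubgroupIn ℚ ≤ H := by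
  by_contra hcon
  apply hH
  refine eq_top_of_exists_inertiaSubgroupIn_le_of_lift hlift H hopen fun ℓ hℓ => ?_
  by_contra h2
  apply hcon
  refine ⟨ℓ, hℓ, fun A hA hle => h2 ⟨A, hA, hle⟩⟩

end Main


section Unconditional

open Fermat.Agent.S14.helper91 in
/-- The lifting property holds (helper91's dictionary). -/
theorem inertiaLift : InertiaLift := by
  intro L _ _ A ℓ hℓ hA τ hτ
  have hτ' : τ ∈ Ideal.inertia (L ≃ₐ[ℚ] L) (primeOf L A) := by
    intro x
    show τ • x - x ∈ primeOf L A
    rw [mem_primeOf_iff, ← ValuationSubring.mem_nonunits_iff]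
    have h1 := hτ (x : L) (NumberField.RingOfIntegers.isIntegral_coe x)
    exact h1
  obtain ⟨σ, hσ, hστ⟩ := exists_mem_inertia_restrict_eq L A hℓ hA τ hτ'
  refine ⟨σ, hσ, fun x => ?_⟩
  rw [← hστ]
  exact (AlgEquiv.restrictNormal_commutes σ L x).symm

/-- **Minkowski** (`∃ A` form): an open normal subgroup of `G_ℚ` which, for every prime `ℓ`,
contains the inertia subgroup of SOME valuation subring over `ℓ`, is everything. -/
theorem eq_top_of_exists_inertiaSubgroupIn_le
    (H : Subgroup GQ) [H.Normal] (hopen : IsOpen (H : Set GQ))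
    (hI : ∀ ℓ : ℕ, ℓ.Prime → ∃ A : ValuationSubring Qbar, A.LiesOverPrime ℓ ∧
      A.inertiaSubgroupIn ℚ ≤ H) : H = ⊤ :=
  eq_top_of_exists_inertiaSubgroupIn_le_of_lift inertiaLift H hopen hI

/-- **Minkowski** (`∀ A` form). -/
theorem eq_top_of_inertiaSubgroupIn_le_of_normal
    (H : Subgroup GQ) [H.Normal] (hopen : IsOpen (H : Set GQ))
    (hI : ∀ ℓ : ℕ, ℓ.Prime → ∀ A : ValuationSubring Qbar, A.LiesOverPrime ℓ →
      A.inertiaSubgroupIn ℚ ≤ H) : H = ⊤ :=
  eq_top_of_inertiaSubgroupIn_le_of_normal_of_lift inertiaLift H hopen hI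

/-- **Minkowski** (contrapositive form): a proper open normal subgroup of `G_ℚ` fails to contain
the inertia subgroup of EVERY valuation subring over some prime `ℓ`. -/
theorem exists_prime_forall_not_inertiaSubgroupIn_le
    (H : Subgroup GQ) [H.Normal] (hopen : IsOpen (H : Set GQ)) (hH : H ≠ ⊤) :
    ∃ ℓ : ℕ, ℓ.Prime ∧ ∀ A : ValuationSubring Qbar, A.LiesOverPrime ℓ →
      ¬ A.inertiaSubgroupIn ℚ ≤ H :=
  exists_prime_forall_not_inertiaSubgroupIn_le_of_lift inertiaLift H hopen hH

/-- An everywhere unramified homomorphism from `G_ℚ` with open kernel is trivial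
(it suffices to test one valuation subring over each prime). -/
theorem monoidHom_eq_one_of_unramified {M : Type*} [Group M] (χ : GQ →* M)
    (hχ : IsOpen (χ.ker : Set GQ))
    (hI : ∀ ℓ : ℕ, ℓ.Prime → ∃ A : ValuationSubring Qbar, A.LiesOverPrime ℓ ∧
      ∀ σ ∈ A.inertiaSubgroupIn ℚ, χ σ = 1) (σ : GQ) : χ σ = 1 := by
  have h : χ.ker = ⊤ := by
    refine eq_top_of_exists_inertiaSubgroupIn_le χ.ker hχ fun ℓ hℓ => ?_
    obtain ⟨A, hA, h1⟩ := hI ℓ hℓ
    exact ⟨A, hA, fun τ hτ => MonoidHom.mem_ker.2 (h1 τ hτ)⟩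
  have : σ ∈ χ.ker := by rw [h]; exact Subgroup.mem_top σ
  exact MonoidHom.mem_ker.1 this

end Unconditional

end Fermat.Agent.S13.helper92
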