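import Mathlib.FieldTheory.Finiteness
import Mathlib.LinearAlgebra.FiniteDimensional.Lemmas
import Mathlib.LinearAlgebra.FiniteDimensional.Basic
import Mathlib.Algebra.Field.ZMod
import Mathlib.RingTheory.Finiteness.Cardinality
import Mathlib.Algebra.Module.ZMod
import Mathlib.Algebra.GroupWithZero.Action.Basic
import Mathlib.Algebra.Group.Subgroup.Basic

/-!
# S13, package (6a): the abstract Galois-module argument (helper38)

`V` is a module over `ZMod p` with at most `p ^ 2` elements, on which a group `G` acts by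
additive maps, and `N₀` is a `G`-stable line (a submodule different from `⊥` and `⊤`).

* `fixes_of_unipotent`, `sub_mem_of_unipotent`: an element `σ` acting unipotently
  (`σ` fixes `σ • x - x` for all `x`) acts trivially on `N₀` and on `V ⧸ N₀`.
* `fixes_or_sub_mem_of_proper`: if `(σ - 1) V ⊆ M` for a fixed proper submodule `M` and all
  `σ` in a set `I`, then all of `I` acts trivially on `N₀`, or all of `I` acts trivially on
  `V ⧸ N₀`.
* `fixer N₀`, `cofixer N₀`: the two normal subgroups of `G`.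
-/

set_option autoImplicit false

namespace Fermat.Agent.S13.helper38

section Abstract

variable {p : ℕ} [Fact p.Prime] {V : Type*} [AddCommGroup V] [Module (ZMod p) V]
  {G : Type*} [Group G] [DistribMulAction G V]

/-- An additive action commutes with the `ZMod p`-scalars. -/
lemma smul_zmod_smul (σ : G) (c : ZMod p) (x : V) : σ • (c • x) = c • (σ • x) :=
  ZMod.map_smul (DistribSMul.toAddMonoidHom V σ) c x

variable [Finite V]

lemma finrank_le_two (hcard : Nat.card V ≤ p ^ 2) : Module.finrank (ZMod p) V ≤ 2 := by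
  have : Module.Finite (ZMod p) V := Module.Finite.of_finite
  have hp : 1 < p := (Fact.out : p.Prime).one_lt
  have h1 : Nat.card V = p ^ Module.finrank (ZMod p) V := by
    rw [Module.natCard_eq_pow_finrank (K := ZMod p) (V := V), Nat.card_zmod]
  rw [h1] at hcard
  exact (Nat.pow_le_pow_iff_right hp).mp hcard

/-- A proper nonzero submodule is a line: every element is a multiple of a given nonzero
element. -/
lemma exists_smul_eq_of_mem (hcard : Nat.card V ≤ p ^ 2) (N : Submodule (ZMod p) V)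
    (hN : N ≠ ⊤) {v : V} (hv : v ∈ N) (hv0 : v ≠ 0) {w : V} (hw : w ∈ N) :
    ∃ c : ZMod p, c • v = w := by
  have : Module.Finite (ZMod p) V := Module.Finite.of_finite
  have h2 := finrank_le_two hcard
  have h3 : Module.finrank (ZMod p) N < Module.finrank (ZMod p) V := Submodule.finrank_lt hN
  have hne : (⟨v, hv⟩ : N) ≠ 0 := fun h => hv0 (congrArg Subtype.val h)
  have h4 : 0 < Module.finrank (ZMod p) N :=
    Module.finrank_pos_iff_exists_ne_zero.mpr ⟨⟨v, hv⟩, hne⟩
  have h5 : Module.finrank (ZMod p) N = 1 := by omega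
  obtain ⟨c, hc⟩ := (finrank_eq_one_iff_of_nonzero' (⟨v, hv⟩ : N) hne).mp h5 ⟨w, hw⟩
  exact ⟨c, congrArg Subtype.val hc⟩

/-- A nonzero submodule together with a vector outside it spans everything. -/
lemma sup_span_eq_top (hcard : Nat.card V ≤ p ^ 2) (N : Submodule (ZMod p) V)
    (hN : N ≠ ⊥) {x : V} (hx : x ∉ N) : N ⊔ Submodule.span (ZMod p) {x} = ⊤ := by
  have : Module.Finite (ZMod p) V := Module.Finite.of_finite
  have h2 := finrank_le_two hcard
  have h1 : 1 ≤ Module.finrank (ZMod p) N := Submodule.one_le_finrank_iff.mpr hN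
  have hlt : N < N ⊔ Submodule.span (ZMod p) {x} := by
    refine lt_of_le_of_ne le_sup_left ?_
    intro h
    apply hx
    rw [h]
    exact Submodule.mem_sup_right (Submodule.mem_span_singleton_self x)
  have h3 := Submodule.finrank_lt_finrank_of_lt hlt
  have h4 : Module.finrank (ZMod p) ↥(N ⊔ Submodule.span (ZMod p) {x})
      ≤ Module.finrank (ZMod p) V := Submodule.finrank_le _
  apply Submodule.eq_top_of_finrank_eq
  omega

/-- Every vector is of the form `n + c • x` for `n ∈ N`, if `x ∉ N` and `N ≠ ⊥`. -/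
lemma exists_add_smul_eq (hcard : Nat.card V ≤ p ^ 2) (N : Submodule (ZMod p) V)
    (hN : N ≠ ⊥) {x : V} (hx : x ∉ N) (y : V) :
    ∃ n ∈ N, ∃ c : ZMod p, n + c • x = y := by
  have h : y ∈ N ⊔ Submodule.span (ZMod p) {x} := by
    rw [sup_span_eq_top hcard N hN hx]; exact Submodule.mem_top
  obtain ⟨n, hn, z, hz, rfl⟩ := Submodule.mem_sup.mp h
  obtain ⟨c, rfl⟩ := Submodule.mem_span_singleton.mp hz
  exact ⟨n, hn, c, rfl⟩

/-- A unipotent element acts trivially on a stable line. -/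
theorem fixes_of_unipotent (hcard : Nat.card V ≤ p ^ 2) (N₀ : Submodule (ZMod p) V)
    (htop : N₀ ≠ ⊤) (σ : G) (hσN : ∀ x ∈ N₀, σ • x ∈ N₀)
    (hσ : ∀ x : V, σ • (σ • x - x) = σ • x - x) :
    ∀ x ∈ N₀, σ • x = x := by
  intro x hx
  by_cases hx0 : x = 0
  · rw [hx0, smul_zero]
  obtain ⟨c, hc⟩ := exists_smul_eq_of_mem hcard N₀ htop hx hx0 (hσN x hx)
  have h1 := hσ x
  rw [← hc, smul_sub, smul_zmod_smul, ← hc] at h1
  -- h1 : c • c • x - c • x = c • x - x
  have h2 : ((c - 1) * (c - 1)) • x = 0 := by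
    have : ((c - 1) * (c - 1)) • x = (c • c • x - c • x) - (c • x - x) := by
      rw [smul_smul]
      module
    rw [this, h1, sub_self]
  rcases smul_eq_zero.mp h2 with h3 | h3
  · have h4 : c - 1 = 0 := by
      rcases mul_eq_zero.mp h3 with h | h <;> exact h
    have h5 : c = 1 := sub_eq_zero.mp h4
    rw [← hc, h5, one_smul]
  · exact absurd h3 hx0

/-- A unipotent element acts trivially on the quotient by a stable line. -/
theorem sub_mem_of_unipotent (hcard : Nat.card V ≤ p ^ 2) (N₀ : Submodule (ZMod p) V)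
    (hbot : N₀ ≠ ⊥) (htop : N₀ ≠ ⊤) (σ : G) (hσN : ∀ x ∈ N₀, σ • x ∈ N₀)
    (hσ : ∀ x : V, σ • (σ • x - x) = σ • x - x) :
    ∀ x : V, σ • x - x ∈ N₀ := by
  have hfix := fixes_of_unipotent hcard N₀ htop σ hσN hσ
  intro x
  by_contra hy
  -- `y = σ x - x ∉ N₀` is fixed by `σ`, and so is `N₀`; hence `σ` fixes everything
  obtain ⟨n, hn, c, hnc⟩ := exists_add_smul_eq hcard N₀ hbot hy x
  have h1 : σ • x = x := by
    rw [← hnc, smul_add, hfix n hn, smul_zmod_smul, hσ x]
  apply hy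
  rw [h1, sub_self]
  exact N₀.zero_mem

/-- If `(σ - 1) V ⊆ M` for a proper submodule `M` and all `σ ∈ I`, then either all `σ ∈ I`
fix the stable line `N₀` pointwise, or all of them act trivially on `V ⧸ N₀`. -/
theorem fixes_or_sub_mem_of_proper (hcard : Nat.card V ≤ p ^ 2) (N₀ : Submodule (ZMod p) V)
    (hbot : N₀ ≠ ⊥) (htop : N₀ ≠ ⊤) (I : Set G) (hIN : ∀ σ ∈ I, ∀ x ∈ N₀, σ • x ∈ N₀)
    (M : Submodule (ZMod p) V) (hM : M ≠ ⊤) (hI : ∀ σ ∈ I, ∀ x : V, σ • x - x ∈ M) :
    (∀ σ ∈ I, ∀ x ∈ N₀, σ • x = x) ∨ (∀ σ ∈ I, ∀ x : V, σ • x - x ∈ N₀) := by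
  by_cases hMN : M ≤ N₀
  · right
    intro σ hσ x
    exact hMN (hI σ hσ x)
  · left
    obtain ⟨m, hmM, hmN⟩ := SetLike.not_le_iff_exists.mp hMN
    have hmeet : ∀ n ∈ N₀, n ∈ M → n = 0 := by
      intro n hnN hnM
      by_contra hn0
      apply hM
      rw [eq_top_iff, ← sup_span_eq_top hcard N₀ hbot hmN]
      refine sup_le ?_ ?_
      · intro w hw
        obtain ⟨c, rfl⟩ := exists_smul_eq_of_mem hcard N₀ htop hnN hn0 hw
        exact M.smul_mem c hnM
      · rw [Submodule.span_le]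
        intro w hw
        rw [Set.mem_singleton_iff.mp hw]
        exact hmM
    intro σ hσ x hx
    have h1 : σ • x - x ∈ N₀ := N₀.sub_mem (hIN σ hσ x hx) hx
    exact sub_eq_zero.mp (hmeet _ h1 (hI σ hσ x))

end Abstract

section Subgroups

variable {p : ℕ} {V : Type*} [AddCommGroup V] [Module (ZMod p) V]
  {G : Type*} [Group G] [DistribMulAction G V]

/-- The subgroup of elements fixing the stable submodule `N₀` pointwise. -/
def fixer (N₀ : Submodule (ZMod p) V) : Subgroup G where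
  carrier := {σ | ∀ x ∈ N₀, σ • x = x}
  one_mem' := fun x _ => one_smul G x
  mul_mem' := by
    intro σ τ hσ hτ x hx
    rw [mul_smul, hτ x hx, hσ x hx]
  inv_mem' := by
    intro σ hσ x hx
    rw [inv_smul_eq_iff]
    exact (hσ x hx).symm

lemma mem_fixer {N₀ : Submodule (ZMod p) V} {σ : G} :
    σ ∈ fixer (G := G) N₀ ↔ ∀ x ∈ N₀, σ • x = x := Iff.rfl

/-- The subgroup of elements acting trivially on `V ⧸ N₀`, for a stable submodule `N₀`. -/
def cofixer (N₀ : Submodule (ZMod p) V) (hstab : ∀ σ : G, ∀ x ∈ N₀, σ • x ∈ N₀) :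
    Subgroup G where
  carrier := {σ | ∀ x : V, σ • x - x ∈ N₀}
  one_mem' := fun x => by
    show (1 : G) • x - x ∈ N₀
    rw [one_smul, sub_self]; exact N₀.zero_mem
  mul_mem' := by
    intro σ τ hσ hτ x
    show (σ * τ) • x - x ∈ N₀
    have h : (σ * τ) • x - x = σ • (τ • x - x) + (σ • x - x) := by
      rw [mul_smul, smul_sub]; abel
    rw [h]
    exact N₀.add_mem (hstab σ _ (hτ x)) (hσ x)
  inv_mem' := by
    intro σ hσ x
    show σ⁻¹ • x - x ∈ N₀
    have h : σ⁻¹ • x - x = -(σ⁻¹ • (σ • x - x)) := by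
      rw [smul_sub, inv_smul_smul]; abel
    rw [h]
    exact N₀.neg_mem (hstab σ⁻¹ _ (hσ x))

lemma mem_cofixer {N₀ : Submodule (ZMod p) V} {hstab : ∀ σ : G, ∀ x ∈ N₀, σ • x ∈ N₀}
    {σ : G} : σ ∈ cofixer N₀ hstab ↔ ∀ x : V, σ • x - x ∈ N₀ := Iff.rfl

lemma fixer_normal (N₀ : Submodule (ZMod p) V) (hstab : ∀ σ : G, ∀ x ∈ N₀, σ • x ∈ N₀) :
    (fixer (G := G) N₀).Normal := by
  refine ⟨fun σ hσ τ => ?_⟩
  intro x hx
  rw [mul_smul, mul_smul, hσ _ (hstab τ⁻¹ x hx), smul_inv_smul]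

lemma cofixer_normal (N₀ : Submodule (ZMod p) V) (hstab : ∀ σ : G, ∀ x ∈ N₀, σ • x ∈ N₀) :
    (cofixer N₀ hstab).Normal := by
  refine ⟨fun σ hσ τ => ?_⟩
  intro x
  show (τ * σ * τ⁻¹) • x - x ∈ N₀
  have h : (τ * σ * τ⁻¹) • x - x = τ • (σ • (τ⁻¹ • x) - τ⁻¹ • x) := by
    rw [mul_smul, mul_smul, smul_sub, smul_inv_smul]
  rw [h]
  exact hstab τ _ (hσ _)

/-- The pointwise stabiliser of everything is contained in the fixer and in the cofixer. -/
lemma le_fixer_of_forall (N₀ : Submodule (ZMod p) V) (H : Subgroup G)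
    (hH : ∀ σ ∈ H, ∀ x : V, σ • x = x) : H ≤ fixer N₀ :=
  fun σ hσ x _ => hH σ hσ x

lemma le_cofixer_of_forall (N₀ : Submodule (ZMod p) V)
    (hstab : ∀ σ : G, ∀ x ∈ N₀, σ • x ∈ N₀) (H : Subgroup G)
    (hH : ∀ σ ∈ H, ∀ x : V, σ • x = x) : H ≤ cofixer N₀ hstab := by
  intro σ hσ x
  show σ • x - x ∈ N₀
  rw [hH σ hσ x, sub_self]
  exact N₀.zero_mem

end Subgroups

end Fermat.Agent.S13.helper38
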