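import Mathlib
import Fermat.Prelude.Def_FLTPrelim_FreyPackage
import Fermat.Prelude.Def_FLTPrelim_GaloisRep
import Fermat.Prelude.Def_FLTPrelim_Ramification
import Fermat.Prelude.Def_FLTPrelim_CofixedLine
import Fermat.Agent.S13.helper38_Abstract

/-!
# S13, package (6): conditional assembly (helper38)

For an elliptic curve `E` over `ℚ` and a prime `p`, we prove

`¬ GaloisRepIsIrreducible ℚ E p → HasGaloisStableCofixedLine ℚ E p`

from the following inputs (see the definitions below for the exact shapes):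

1. `TorsionSmall E p`   : `E[p]` is nontrivial, finite, with at most `p ^ 2` elements;
2. `UnipotentAt E p ℓ`  : for all primes `ℓ ≠ p`, some inertia group at `ℓ` acts unipotently;
3. `ProperAt E p`       : for some place `A` over `p`, `(σ - 1) E[p]` lies in a fixed proper
                          subgroup, for all `σ` in the inertia group of `A`;
4. `Minkowski`          : an open normal subgroup of `G_ℚ` containing an inertia group at every
                          prime is everything;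
5. `NoRationalTorsion E p` : no nonzero Galois-fixed point in `E[p]`.
-/

set_option autoImplicit false
set_option linter.style.haveILetI false

namespace Fermat.Agent.S13.helper38

open WeierstrassCurve WeierstrassCurve.Affine WeierstrassCurve.Affine.Point

/-- `ℚ̄`. -/
local notation "Kbar" => AlgebraicClosure ℚ
/-- The absolute Galois group of `ℚ`. -/
local notation "GQ" => (AlgebraicClosure ℚ ≃ₐ[ℚ] AlgebraicClosure ℚ)

/-- The `p`-torsion of `E` over `ℚ̄`, as in the Prelude. -/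
abbrev Tors (E : WeierstrassCurve ℚ) (p : ℕ) : Type :=
  Submodule.torsionBy ℤ (E.toAffine⁄Kbar).Point p

/-- Input (1): `E[p]` is nontrivial and has at most `p ^ 2` elements. -/
def TorsionSmall (E : WeierstrassCurve ℚ) (p : ℕ) : Prop :=
  Nontrivial (Tors E p) ∧ Finite (Tors E p) ∧ Nat.card (Tors E p) ≤ p ^ 2

/-- Input (2): some inertia group at `ℓ` acts unipotently on `E[p]`. -/
def UnipotentAt (E : WeierstrassCurve ℚ) (p ℓ : ℕ) : Prop :=
  ∃ A : ValuationSubring Kbar, A.LiesOverPrime ℓ ∧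
    ∀ σ ∈ A.inertiaSubgroupIn ℚ, ∀ x : Tors E p, σ • (σ • x - x) = σ • x - x

/-- Input (3): for some place `A` over `p`, there is a proper subgroup `M` of `E[p]` with
`(σ - 1) E[p] ⊆ M` for all `σ` in the inertia group of `A`. -/
def ProperAt (E : WeierstrassCurve ℚ) (p : ℕ) : Prop :=
  ∃ A : ValuationSubring Kbar, A.LiesOverPrime p ∧
    ∃ M : AddSubgroup (Tors E p), M ≠ ⊤ ∧
      ∀ σ ∈ A.inertiaSubgroupIn ℚ, ∀ x : Tors E p, σ • x - x ∈ M

/-- Input (4): Minkowski's theorem in Galois-theoretic form. -/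
def Minkowski : Prop :=
  ∀ H : Subgroup GQ, H.Normal → IsOpen (H : Set GQ) →
    (∀ ℓ : ℕ, ℓ.Prime → ∃ A : ValuationSubring Kbar,
      A.LiesOverPrime ℓ ∧ A.inertiaSubgroupIn ℚ ≤ H) → H = ⊤

/-- Input (5): there is no nonzero Galois-fixed `p`-torsion point. -/
def NoRationalTorsion (E : WeierstrassCurve ℚ) (p : ℕ) : Prop :=
  ∀ x : Tors E p, (∀ σ : GQ, σ • x = x) → x = 0

section Open

/-- `ℚ̄ / ℚ` is integral, for the instance found by instance resolution. -/
lemma isIntegral_Kbar (x : Kbar) : IsIntegral ℚ x := by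
  have h : (DivisionRing.toRatAlgebra : Algebra ℚ Kbar) = AlgebraicClosure.instAlgebra ℚ :=
    Subsingleton.elim _ _
  have h2 : @Algebra.IsAlgebraic ℚ Kbar _ _ (AlgebraicClosure.instAlgebra ℚ) :=
    AlgebraicClosure.isAlgebraic ℚ
  rw [← h] at h2
  exact (h2.isAlgebraic x).isIntegral

/-- A subgroup of `G_ℚ` containing the pointwise stabiliser of a finite set is open. -/
lemma isOpen_of_finite_fix (H : Subgroup GQ) (S : Set Kbar) (hS : S.Finite)
    (hH : ∀ σ : GQ, (∀ x ∈ S, σ x = x) → σ ∈ H) : IsOpen (H : Set GQ) := by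
  haveI : Finite S := hS
  haveI : FiniteDimensional ℚ (IntermediateField.adjoin ℚ S) :=
    IntermediateField.finiteDimensional_adjoin (fun x _ => isIntegral_Kbar x)
  refine Subgroup.isOpen_mono ?_ (IntermediateField.adjoin ℚ S).fixingSubgroup_isOpen
  intro σ hσ
  apply hH
  intro x hx
  exact (IntermediateField.mem_fixingSubgroup_iff _ σ).mp hσ x
    (IntermediateField.subset_adjoin ℚ S hx)

variable (E : WeierstrassCurve ℚ)

/-- The coordinates of a point. -/
def coords : (E.toAffine⁄Kbar).Point → Set Kbar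
  | .zero => ∅
  | .some x y _ => {x, y}

lemma coords_finite (P : (E.toAffine⁄Kbar).Point) : (coords E P).Finite := by
  cases P with
  | zero => exact Set.finite_empty
  | some x y h => exact (Set.finite_singleton y).insert x

lemma smul_eq_self_of_fix (σ : GQ) (P : (E.toAffine⁄Kbar).Point)
    (h : ∀ x ∈ coords E P, σ x = x) : σ • P = P := by
  cases P with
  | zero => rfl
  | some x y hP =>
    have hx : σ x = x := h x (by simp [coords])
    have hy : σ y = y := h y (by simp [coords])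
    show Point.map σ.toAlgHom (Point.some x y hP) = Point.some x y hP
    rw [Point.map_some]
    simp only [Point.some.injEq]
    exact ⟨hx, hy⟩

/-- A subgroup of `G_ℚ` containing the pointwise stabiliser of the finite module `E[p]` is
open. -/
lemma isOpen_of_stabiliser_le (p : ℕ) [Finite (Tors E p)] (H : Subgroup GQ)
    (hH : ∀ σ : GQ, (∀ x : Tors E p, σ • x = x) → σ ∈ H) : IsOpen (H : Set GQ) := by
  refine isOpen_of_finite_fix H (⋃ x : Tors E p, coords E x.1) ?_ ?_
  · exact Set.finite_iUnion (fun x => coords_finite E x.1)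
  · intro σ hσ
    apply hH
    intro x
    apply Subtype.ext
    show σ • (x : (E.toAffine⁄Kbar).Point) = x
    apply smul_eq_self_of_fix
    intro z hz
    exact hσ z (Set.mem_iUnion.mpr ⟨x, hz⟩)

end Open

section Main

variable (E : WeierstrassCurve ℚ) (p : ℕ) [Fact p.Prime]

/-- A subgroup contained in the union of two subgroups is contained in one of them. -/
lemma le_or_le_of_forall_mem_or {G : Type*} [Group G] (I H₁ H₂ : Subgroup G)
    (h : ∀ σ ∈ I, σ ∈ H₁ ∨ σ ∈ H₂) : I ≤ H₁ ∨ I ≤ H₂ := by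
  by_contra hcon
  rw [not_or] at hcon
  obtain ⟨a, haI, ha1⟩ := SetLike.not_le_iff_exists.mp hcon.1
  obtain ⟨b, hbI, hb2⟩ := SetLike.not_le_iff_exists.mp hcon.2
  have ha2 : a ∈ H₂ := (h a haI).resolve_left ha1
  have hb1 : b ∈ H₁ := (h b hbI).resolve_right hb2
  rcases h (a * b) (I.mul_mem haI hbI) with hab | hab
  · apply ha1
    have := H₁.mul_mem hab (H₁.inv_mem hb1)
    simpa using this
  · apply hb2
    have := H₂.mul_mem (H₂.inv_mem ha2) hab
    simpa using this

/-- **Conditional S13, core form.**  The input at `p` may depend on the stable line `N₀` and is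
only needed elementwise: every `σ` in the inertia group of some place over `p` acts trivially
on `N₀` or on the quotient by `N₀`. -/
theorem cofixedLine_of_inputs_core
    (h1 : TorsionSmall E p)
    (h2 : ∀ ℓ : ℕ, ℓ.Prime → ℓ ≠ p → UnipotentAt E p ℓ)
    (h3 : ∀ N₀ : Submodule (ZMod p) (Tors E p), IsGaloisStable ℚ N₀ → N₀ ≠ ⊥ → N₀ ≠ ⊤ →
      ∃ A : ValuationSubring Kbar, A.LiesOverPrime p ∧
        ∀ σ ∈ A.inertiaSubgroupIn ℚ,
          (∀ x ∈ N₀, σ • x = x) ∨ (∀ x : Tors E p, σ • x - x ∈ N₀))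
    (h4 : Minkowski)
    (h5 : NoRationalTorsion E p)
    (hred : ¬ GaloisRepIsIrreducible (K := Kbar) ℚ E.toAffine p) :
    HasGaloisStableCofixedLine (K := Kbar) ℚ E.toAffine p := by
  obtain ⟨hnt, hfin, hcard⟩ := h1
  haveI : Finite (Tors E p) := hfin
  -- a stable line
  have hex : ∃ N₀ : Submodule (ZMod p) (Tors E p),
      IsGaloisStable ℚ N₀ ∧ N₀ ≠ ⊥ ∧ N₀ ≠ ⊤ := by
    by_contra hno
    apply hred
    refine ⟨hnt, fun N hN => ?_⟩
    by_contra hN2
    rw [not_or] at hN2
    exact hno ⟨N, hN, hN2.1, hN2.2⟩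
  obtain ⟨N₀, hstab, hbot, htop⟩ := hex
  have hstab' : ∀ σ : GQ, ∀ x ∈ N₀, σ • x ∈ N₀ := hstab
  -- the two subgroups
  set H₁ : Subgroup GQ := fixer N₀ with hH₁
  set H₂ : Subgroup GQ := cofixer N₀ hstab' with hH₂
  have hH₁n : H₁.Normal := fixer_normal N₀ hstab'
  have hH₂n : H₂.Normal := cofixer_normal N₀ hstab'
  have hH₁o : IsOpen (H₁ : Set GQ) :=
    isOpen_of_stabiliser_le E p H₁ (fun σ hσ x _ => hσ x)
  have hH₂o : IsOpen (H₂ : Set GQ) :=
    isOpen_of_stabiliser_le E p H₂ (fun σ hσ x => by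
      show σ • x - x ∈ N₀
      rw [hσ x, sub_self]; exact N₀.zero_mem)
  -- inertia away from `p`
  have haway : ∀ ℓ : ℕ, ℓ.Prime → ℓ ≠ p → ∃ A : ValuationSubring Kbar,
      A.LiesOverPrime ℓ ∧ A.inertiaSubgroupIn ℚ ≤ H₁ ∧ A.inertiaSubgroupIn ℚ ≤ H₂ := by
    intro ℓ hℓ hℓp
    obtain ⟨A, hA, hu⟩ := h2 ℓ hℓ hℓp
    refine ⟨A, hA, fun σ hσ => ?_, fun σ hσ => ?_⟩
    · exact fixes_of_unipotent hcard N₀ htop σ (hstab' σ) (hu σ hσ)
    · exact sub_mem_of_unipotent hcard N₀ hbot htop σ (hstab' σ) (hu σ hσ)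
  -- inertia at `p`
  obtain ⟨Ap, hAp, hMI⟩ := h3 N₀ hstab hbot htop
  have hp : Ap.inertiaSubgroupIn ℚ ≤ H₁ ∨ Ap.inertiaSubgroupIn ℚ ≤ H₂ :=
    le_or_le_of_forall_mem_or _ H₁ H₂ (fun σ hσ => hMI σ hσ)
  have hpp : p.Prime := Fact.out
  rcases hp with hp | hp
  · -- `H₁ = ⊤`: the line consists of rational points; impossible
    exfalso
    have htop₁ : H₁ = ⊤ := by
      apply h4 H₁ hH₁n hH₁o
      intro ℓ hℓ
      by_cases hℓp : ℓ = p
      · subst hℓp
        exact ⟨Ap, hAp, hp⟩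
      · obtain ⟨A, hA, hA1, -⟩ := haway ℓ hℓ hℓp
        exact ⟨A, hA, hA1⟩
    obtain ⟨x, hx, hx0⟩ := (Submodule.ne_bot_iff N₀).mp hbot
    apply hx0
    apply h5 x
    intro σ
    have : σ ∈ H₁ := by rw [htop₁]; exact Subgroup.mem_top σ
    exact this x hx
  · -- `H₂ = ⊤`: the line is cofixed
    have htop₂ : H₂ = ⊤ := by
      apply h4 H₂ hH₂n hH₂o
      intro ℓ hℓ
      by_cases hℓp : ℓ = p
      · subst hℓp
        exact ⟨Ap, hAp, hp⟩
      · obtain ⟨A, hA, -, hA2⟩ := haway ℓ hℓ hℓp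
        exact ⟨A, hA, hA2⟩
    refine ⟨N₀, hstab, hbot, htop, fun σ x => ?_⟩
    have : σ ∈ H₂ := by rw [htop₂]; exact Subgroup.mem_top σ
    exact this x

/-- **Conditional S13**, with the input at `p` in the form `ProperAt`, allowed to depend on the
existence of a stable line. -/
theorem cofixedLine_of_inputs_line
    (h1 : TorsionSmall E p)
    (h2 : ∀ ℓ : ℕ, ℓ.Prime → ℓ ≠ p → UnipotentAt E p ℓ)
    (h3 : ∀ N₀ : Submodule (ZMod p) (Tors E p), IsGaloisStable ℚ N₀ → N₀ ≠ ⊥ → N₀ ≠ ⊤ →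
      ProperAt E p)
    (h4 : Minkowski)
    (h5 : NoRationalTorsion E p)
    (hred : ¬ GaloisRepIsIrreducible (K := Kbar) ℚ E.toAffine p) :
    HasGaloisStableCofixedLine (K := Kbar) ℚ E.toAffine p := by
  refine cofixedLine_of_inputs_core E p h1 h2 ?_ h4 h5 hred
  intro N₀ hstab hbot htop
  obtain ⟨hnt, hfin, hcard⟩ := h1
  haveI : Finite (Tors E p) := hfin
  have hstab' : ∀ σ : GQ, ∀ x ∈ N₀, σ • x ∈ N₀ := hstab
  obtain ⟨Ap, hAp, M, hM, hMI⟩ := h3 N₀ hstab hbot htop
  have hMtop : AddSubgroup.toZModSubmodule p M ≠ ⊤ := by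
    intro h
    apply hM
    have := congrArg (AddSubgroup.toZModSubmodule p).symm h
    simpa using this
  have hp : (∀ σ ∈ (Ap.inertiaSubgroupIn ℚ : Set GQ), ∀ x ∈ N₀, σ • x = x) ∨
      (∀ σ ∈ (Ap.inertiaSubgroupIn ℚ : Set GQ), ∀ x : Tors E p, σ • x - x ∈ N₀) :=
    fixes_or_sub_mem_of_proper hcard N₀ hbot htop _ (fun σ _ => hstab' σ)
      (AddSubgroup.toZModSubmodule p M) hMtop (fun σ hσ x => hMI σ hσ x)
  refine ⟨Ap, hAp, fun σ hσ => ?_⟩
  rcases hp with hp | hp
  · exact Or.inl (hp σ hσ)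
  · exact Or.inr (hp σ hσ)

/-- **Conditional S13.**  Reducible implies existence of a Galois-stable cofixed line. -/
theorem cofixedLine_of_inputs
    (h1 : TorsionSmall E p)
    (h2 : ∀ ℓ : ℕ, ℓ.Prime → ℓ ≠ p → UnipotentAt E p ℓ)
    (h3 : ProperAt E p)
    (h4 : Minkowski)
    (h5 : NoRationalTorsion E p)
    (hred : ¬ GaloisRepIsIrreducible (K := Kbar) ℚ E.toAffine p) :
    HasGaloisStableCofixedLine (K := Kbar) ℚ E.toAffine p :=
  cofixedLine_of_inputs_line E p h1 h2 (fun _ _ _ _ => h3) h4 h5 hred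

end Main

end Fermat.Agent.S13.helper38
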