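import Fermat.Agent.S13.helper64_TorsionCount
import Fermat.Agent.S13.helper38_Assembly
import Fermat.Agent.S04.Wiring

/-!
# Input (1) of the S13 assembly: `E[p]` is small (helper64)

`torsionSmall_of_Δ_ne_zero`: for a Weierstrass curve `E` over `ℚ` with `Δ ≠ 0` and an odd
`p > 1`, `E[p]` (over `ℚ̄`) is nontrivial, finite, with at most `p ^ 2` elements, in the exact
shape `helper38.TorsionSmall E p` consumed by the assembly.  `frey_torsionSmall` is the
instance for the Frey curve.
-/

set_option autoImplicit false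

open WeierstrassCurve WeierstrassCurve.Affine

namespace Fermat.Agent.S13.helper64

/-- Input (1) of the assembly for any curve over `ℚ` with nonzero discriminant. -/
theorem torsionSmall_of_Δ_ne_zero (E : WeierstrassCurve ℚ) (hΔ : E.Δ ≠ 0) {p : ℕ} (hp : Odd p)
    (hp1 : 1 < p) : Fermat.Agent.S13.helper38.TorsionSmall E p := by
  have hΔ' : (E.map (algebraMap ℚ (AlgebraicClosure ℚ))).Δ ≠ 0 := by
    rw [WeierstrassCurve.map_Δ]
    exact fun h => hΔ ((map_eq_zero_iff _ (algebraMap ℚ (AlgebraicClosure ℚ)).injective).1 h)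
  have hpF : ((p : ℕ) : AlgebraicClosure ℚ) ≠ 0 := by
    have : p ≠ 0 := by omega
    exact_mod_cast this
  exact torsionBy_small (E.map (algebraMap ℚ (AlgebraicClosure ℚ))) hΔ' hp hp1 hpF

/-- Input (1) of the assembly for the Frey curve. -/
theorem frey_torsionSmall (P : FreyPackage) :
    Fermat.Agent.S13.helper38.TorsionSmall P.freyCurve P.p := by
  have hΔ : P.freyCurve.Δ ≠ 0 := by
    rw [← Fermat.Agent.S04.freyCurveInt_map, WeierstrassCurve.map_Δ]
    simpa using Fermat.Agent.S04.freyCurveInt_Δ_ne_zero P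
  exact torsionSmall_of_Δ_ne_zero P.freyCurve hΔ P.hp_odd P.pp.one_lt

end Fermat.Agent.S13.helper64
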