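import Fermat.Agent.S13.helper64_LadderDeg
import Fermat.Agent.S51.Three

/-!
# Counting torsion points with the ladder polynomial (helper64, for S13)

For a Weierstrass curve `W` with `Δ ≠ 0` over a field `F` and an odd number `m = 2n+1` with
`(m : F) ≠ 0`:

* `torsPoly_ne_zero`, `natDegree_torsPoly`: the torsion polynomial has degree exactly `2n(n+1)`;
* `finite_torsion_and_card_le`: the set of `m`-torsion points is finite with at most `m ^ 2`
  elements;
* `exists_torsion_point`: over an algebraically closed field there is a nonzero `m`-torsion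
  point (for `n ≥ 1`);
* `torsionBy_small`: the statement `Nontrivial ∧ Finite ∧ Nat.card ≤ p ^ 2` for
  `Submodule.torsionBy ℤ W.toAffine.Point p`, `p` odd, `1 < p`.
-/

set_option autoImplicit false

open WeierstrassCurve WeierstrassCurve.Affine Polynomial

namespace Fermat.Agent.S13.helper64

section count

variable {F : Type*} [Field F] (W : WeierstrassCurve F)

lemma torsPoly_ne_zero (n : ℕ) (hn : ((2 * n + 1 : ℕ) : F) ≠ 0) : torsPoly W n ≠ 0 := by
  intro h
  have := coeff_torsPoly_top W n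
  rw [h, coeff_zero] at this
  apply hn
  push_cast
  linear_combination this

lemma natDegree_torsPoly (n : ℕ) (hn : ((2 * n + 1 : ℕ) : F) ≠ 0) :
    (torsPoly W n).natDegree = 2 * n * (n + 1) := by
  refine le_antisymm (natDegree_torsPoly_le W n) (le_natDegree_of_ne_zero ?_)
  rw [coeff_torsPoly_top]
  intro h
  apply hn
  push_cast
  linear_combination -h

lemma leadingCoeff_torsPoly (n : ℕ) (hn : ((2 * n + 1 : ℕ) : F) ≠ 0) :
    (torsPoly W n).leadingCoeff = -(2 * (n : F) + 1) := by
  rw [leadingCoeff, natDegree_torsPoly W n hn, coeff_torsPoly_top]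

/-- Over an algebraically closed field, every `x` is the x-coordinate of a point of the curve. -/
lemma exists_equation' [IsAlgClosed F] (x : F) : ∃ y, W.toAffine.Equation x y := by
  let q : F[X] := X ^ 2 + C (W.a₁ * x + W.a₃) * X - C (x ^ 3 + W.a₂ * x ^ 2 + W.a₄ * x + W.a₆)
  have hq : q.degree ≠ 0 := by
    have : q.degree = 2 := by
      simp only [q]
      compute_degree!
    rw [this]; norm_num
  obtain ⟨y, hy⟩ := IsAlgClosed.exists_root q hq
  refine ⟨y, ?_⟩
  rw [Affine.equation_iff]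
  simp only [q, IsRoot.def, eval_sub, eval_add, eval_pow, eval_X, eval_mul, eval_C] at hy
  linear_combination hy

variable [DecidableEq F]

/-- The set of `(2n+1)`-torsion points is finite with at most `(2n+1)^2` elements. -/
theorem finite_torsion_and_card_le (hΔ : W.Δ ≠ 0) (n : ℕ) (hn : ((2 * n + 1 : ℕ) : F) ≠ 0) :
    Finite {P : W.toAffine.Point | (2 * n + 1) • P = 0} ∧
      Nat.card {P : W.toAffine.Point | (2 * n + 1) • P = 0} ≤ (2 * n + 1) ^ 2 := by
  obtain ⟨h1, h2⟩ := Fermat.Agent.S51.finite_and_card_le_of_forall_root W.toAffine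
    {P : W.toAffine.Point | (2 * n + 1) • P = 0} (torsPoly W n) (torsPoly_ne_zero W n hn)
    (fun x y h hP => (nsmul_eq_zero_iff_eval_torsPoly W hΔ n h).mp hP)
  refine ⟨h1, h2.trans ?_⟩
  rw [natDegree_torsPoly W n hn]
  nlinarith

/-- Over an algebraically closed field there is a nonzero `(2n+1)`-torsion point, `n ≥ 1`. -/
theorem exists_torsion_point [IsAlgClosed F] (hΔ : W.Δ ≠ 0) (n : ℕ) (hn1 : 1 ≤ n)
    (hn : ((2 * n + 1 : ℕ) : F) ≠ 0) :
    ∃ P : W.toAffine.Point, P ≠ 0 ∧ (2 * n + 1) • P = 0 := by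
  have hdeg : (torsPoly W n).degree ≠ 0 := by
    rw [degree_eq_natDegree (torsPoly_ne_zero W n hn), natDegree_torsPoly W n hn]
    have : 0 < 2 * n * (n + 1) := by positivity
    exact_mod_cast this.ne'
  obtain ⟨x, hx⟩ := IsAlgClosed.exists_root (torsPoly W n) hdeg
  obtain ⟨y, hy⟩ := exists_equation' W x
  have hns : W.toAffine.Nonsingular x y := (equation_iff_nonsingular_of_Δ_ne_zero hΔ).mp hy
  exact ⟨Point.some x y hns, Point.some_ne_zero hns,
    (nsmul_eq_zero_iff_eval_torsPoly W hΔ n hns).mpr hx⟩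

/-- `E[p]` is nontrivial, finite and has at most `p ^ 2` elements, for odd `p > 1` invertible
in an algebraically closed field. -/
theorem torsionBy_small [IsAlgClosed F] (hΔ : W.Δ ≠ 0) {p : ℕ} (hp : Odd p) (hp1 : 1 < p)
    (hpF : (p : F) ≠ 0) :
    Nontrivial (Submodule.torsionBy ℤ W.toAffine.Point (p : ℤ)) ∧
      Finite (Submodule.torsionBy ℤ W.toAffine.Point (p : ℤ)) ∧
      Nat.card (Submodule.torsionBy ℤ W.toAffine.Point (p : ℤ)) ≤ p ^ 2 := by
  obtain ⟨n, rfl⟩ := hp
  have hn1 : 1 ≤ n := by omega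
  have key : ∀ P : W.toAffine.Point,
      P ∈ Submodule.torsionBy ℤ W.toAffine.Point ((2 * n + 1 : ℕ) : ℤ) ↔
        P ∈ {P : W.toAffine.Point | (2 * n + 1) • P = 0} := by
    intro P
    rw [Submodule.mem_torsionBy_iff, Set.mem_ofPred_eq, natCast_zsmul]
  have hset : ((Submodule.torsionBy ℤ W.toAffine.Point ((2 * n + 1 : ℕ) : ℤ) :
      Submodule ℤ W.toAffine.Point) : Set W.toAffine.Point) =
      {P : W.toAffine.Point | (2 * n + 1) • P = 0} := Set.ext key
  obtain ⟨hfin, hcard⟩ := finite_torsion_and_card_le W hΔ n hpF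
  obtain ⟨P, hP0, hP⟩ := exists_torsion_point W hΔ n hn1 hpF
  refine ⟨?_, ?_, ?_⟩
  · refine ⟨⟨⟨P, (key P).mpr hP⟩, 0, ?_⟩⟩
    intro h
    exact hP0 (congrArg Subtype.val h)
  · exact (Set.finite_coe_iff.mpr (hset ▸ Set.finite_coe_iff.mp hfin))
  · have : Nat.card (Submodule.torsionBy ℤ W.toAffine.Point ((2 * n + 1 : ℕ) : ℤ)) =
        Nat.card {P : W.toAffine.Point | (2 * n + 1) • P = 0} := by
      exact Nat.card_congr (Equiv.setCongr hset)
    rw [this]; exact hcard

end count

end Fermat.Agent.S13.helper64
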