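import Fermat.Agent.S13.LocalRedB

set_option autoImplicit false
set_option linter.unreachableTactic false
set_option linter.unusedTactic false

namespace Fermat.Agent.S13

open WeierstrassCurve WeierstrassCurve.Affine

variable {L : Type*} [Field L] {Γ₀ : Type*} [LinearOrderedCommGroupWithZero Γ₀]

/-! ### Small valuation toolkit -/

lemma v_natCast_le_one (v : Valuation L Γ₀) (n : ℕ) : v (n : L) ≤ 1 := by
  induction n with
  | zero => simp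
  | succ k ih =>
    rw [Nat.cast_succ]
    exact v.map_add_le ih (by simp)

lemma v_mul_le_of_le_one_left (v : Valuation L Γ₀) {a b : L} {s : Γ₀} (ha : v a ≤ 1)
    (hb : v b ≤ s) : v (a * b) ≤ s := by
  rw [map_mul]
  calc v a * v b ≤ 1 * s := mul_le_mul' ha hb
    _ = s := one_mul _

lemma v_mul_le_of_le_one_right (v : Valuation L Γ₀) {a b : L} {s : Γ₀} (ha : v a ≤ s)
    (hb : v b ≤ 1) : v (a * b) ≤ s := by
  rw [mul_comm]; exact v_mul_le_of_le_one_left v hb ha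

lemma v_mul_le_mul (v : Valuation L Γ₀) {a b : L} {s t : Γ₀} (ha : v a ≤ s)
    (hb : v b ≤ t) : v (a * b) ≤ s * t := by
  rw [map_mul]; exact mul_le_mul' ha hb

lemma v_mul_lt_one_of_lt_left (v : Valuation L Γ₀) {a b : L} (ha : v a < 1)
    (hb : v b ≤ 1) : v (a * b) < 1 := by
  rw [map_mul]
  calc v a * v b ≤ v a * 1 := mul_le_mul_right hb _
    _ = v a := mul_one _
    _ < 1 := ha

lemma v_mul_lt_one_of_lt_right (v : Valuation L Γ₀) {a b : L} (ha : v a ≤ 1)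
    (hb : v b < 1) : v (a * b) < 1 := by
  rw [mul_comm]; exact v_mul_lt_one_of_lt_left v hb ha

lemma v_add_lt_one (v : Valuation L Γ₀) {a b : L} (ha : v a < 1) (hb : v b < 1) :
    v (a + b) < 1 :=
  lt_of_le_of_lt (v.map_add _ _) (max_lt ha hb)

lemma v_sub_lt_one (v : Valuation L Γ₀) {a b : L} (ha : v a < 1) (hb : v b < 1) :
    v (a - b) < 1 :=
  lt_of_le_of_lt (v.map_sub _ _) (max_lt ha hb)

/-- `1 - (small)` has valuation one. -/
lemma v_one_sub_eq_one (v : Valuation L Γ₀) {a : L} (ha : v a < 1) : v (1 - a) = 1 := by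
  apply v_eq_one_of_sub_lt v (a := 1) v.map_one
  have : 1 - a - 1 = -a := by ring
  rw [this, Valuation.map_neg]; exact ha

/-- `1 + (small)` has valuation one. -/
lemma v_one_add_eq_one (v : Valuation L Γ₀) {a : L} (ha : v a < 1) : v (1 + a) = 1 := by
  apply v_eq_one_of_sub_lt v (a := 1) v.map_one
  have : 1 + a - 1 = a := by ring
  rw [this]; exact ha

lemma pow_le_of_le_one' {r : Γ₀} (hr : r ≤ 1) {m n : ℕ} (hmn : m ≤ n) : r ^ n ≤ r ^ m :=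
  pow_le_pow_right_of_le_one' hr hmn


/-! ### The `zw`-chart -/

/-- The polynomial `f(z,w)` such that the Weierstrass curve in the chart `z = -x/y`, `w = -1/y`
is `w = f(z,w)`. -/
def fzw (W : Affine L) (z w : L) : L :=
  z ^ 3 + W.a₁ * z * w + W.a₂ * z ^ 2 * w + W.a₃ * w ^ 2 + W.a₄ * z * w ^ 2 + W.a₆ * w ^ 3

/-- Data of a point of the kernel of reduction in the `zw`-chart. -/
structure ZWData (v : Valuation L Γ₀) (W : Affine L) (x y z w : L) : Prop where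
  y_ne : y ≠ 0
  z_eq : z = -x / y
  w_eq : w = -1 / y
  w_ne : w ≠ 0
  z_ne : z ≠ 0
  x_eq : x = z / w
  y_eq : y = -1 / w
  vz : v z < 1
  vw : v w = v z ^ 3
  eqn : w = fzw W z w

lemma ZWData.vw_lt {v : Valuation L Γ₀} {W : Affine L} {x y z w : L}
    (h : ZWData v W x y z w) : v w < 1 := by
  rw [h.vw]
  exact pow_lt_one₀ zero_le h.vz (by norm_num)

lemma ZWData.vw_le {v : Valuation L Γ₀} {W : Affine L} {x y z w : L}
    (h : ZWData v W x y z w) {r : Γ₀} (hr : v z ≤ r) : v w ≤ r ^ 3 := by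
  rw [h.vw]
  exact pow_le_pow_left₀ zero_le hr 3

/-- A point `(x, y)` on `W` with `1 < v x` has `zw`-data. -/
theorem zwData_of_one_lt (v : Valuation L Γ₀) (W : Affine L)
    (ha₁ : v W.a₁ ≤ 1) (ha₂ : v W.a₂ ≤ 1) (ha₃ : v W.a₃ ≤ 1) (ha₄ : v W.a₄ ≤ 1)
    (ha₆ : v W.a₆ ≤ 1) {x y : L} (h : W.Equation x y) (hx : 1 < v x) :
    ZWData v W x y (-x / y) (-1 / y) := by
  rw [equation_iff] at h
  have hX0 : (0 : Γ₀) < v x := lt_trans zero_lt_one hx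
  have hx0 : x ≠ 0 := (Valuation.ne_zero_iff v).mp (ne_of_gt hX0)
  -- valuation of the right hand side
  have hX2 : v x ^ 2 < v x ^ 3 := by
    have : v x ^ 3 = v x ^ 2 * v x := pow_succ _ _
    rw [this]
    calc v x ^ 2 = v x ^ 2 * 1 := (mul_one _).symm
      _ < v x ^ 2 * v x := mul_lt_mul_of_pos_left hx (pow_pos hX0 2)
  have hX1 : v x < v x ^ 2 := by
    rw [sq]
    calc v x = v x * 1 := (mul_one _).symm
      _ < v x * v x := mul_lt_mul_of_pos_left hx hX0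
  have hR : v (x ^ 3 + W.a₂ * x ^ 2 + W.a₄ * x + W.a₆) = v x ^ 3 := by
    have e : x ^ 3 + W.a₂ * x ^ 2 + W.a₄ * x + W.a₆ =
        x ^ 3 + (W.a₂ * x ^ 2 + W.a₄ * x + W.a₆) := by ring
    rw [e, Valuation.map_add_eq_of_lt_left, map_pow]
    rw [map_pow]
    refine lt_of_le_of_lt (v.map_add _ _) (max_lt (lt_of_le_of_lt (v.map_add _ _) (max_lt ?_ ?_)) ?_)
    · refine lt_of_le_of_lt (v_mul_le_of_le_one_left v ha₂ (le_of_eq (map_pow v x 2))) hX2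
    · exact lt_of_le_of_lt (v_mul_le_of_le_one_left v ha₄ le_rfl) (lt_trans hX1 hX2)
    · exact lt_of_le_of_lt ha₆ (lt_trans hx (lt_trans hX1 hX2))
  have hL : v (y * (y + W.a₁ * x + W.a₃)) = v x ^ 3 := by
    rw [← hR]; congr 1; linear_combination h
  -- `v x < v y`
  have hxy : v x < v y := by
    by_contra hcon
    rw [not_lt] at hcon
    have h1 : v (y + W.a₁ * x + W.a₃) ≤ v x := by
      refine v.map_add_le (v.map_add_le hcon (v_mul_le_of_le_one_left v ha₁ le_rfl)) ?_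
      exact le_trans ha₃ (le_of_lt hx)
    have h2 : v (y * (y + W.a₁ * x + W.a₃)) ≤ v x ^ 2 := by
      rw [sq]; exact v_mul_le_mul v hcon h1
    rw [hL] at h2
    exact absurd h2 (not_le.mpr hX2)
  have hY0 : (0 : Γ₀) < v y := lt_trans hX0 hxy
  have hy0 : y ≠ 0 := (Valuation.ne_zero_iff v).mp (ne_of_gt hY0)
  have hy1 : 1 < v y := lt_trans hx hxy
  have hY2 : v (y + W.a₁ * x + W.a₃) = v y := by
    have e : y + W.a₁ * x + W.a₃ = y + (W.a₁ * x + W.a₃) := by ring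
    rw [e, Valuation.map_add_eq_of_lt_left]
    refine lt_of_le_of_lt (v.map_add _ _) (max_lt ?_ ?_)
    · exact lt_of_le_of_lt (v_mul_le_of_le_one_left v ha₁ le_rfl) hxy
    · exact lt_of_le_of_lt ha₃ hy1
  have hYX : v y ^ 2 = v x ^ 3 := by
    rw [← hL, map_mul, hY2, sq]
  have hvz : v (-x / y) = v x / v y := by
    rw [map_div₀, Valuation.map_neg]
  have hvw : v (-1 / y) = (v y)⁻¹ := by
    rw [map_div₀, Valuation.map_neg, map_one, one_div]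
  have hYne : v y ≠ 0 := ne_of_gt hY0
  refine ⟨hy0, rfl, rfl, ?_, ?_, ?_, ?_, ?_, ?_, ?_⟩
  · exact div_ne_zero (neg_ne_zero.mpr one_ne_zero) hy0
  · exact div_ne_zero (neg_ne_zero.mpr hx0) hy0
  · field_simp
  · field_simp
  · rw [hvz]; exact (div_lt_one₀ hY0).mpr hxy
  · rw [hvz, hvw, div_pow, ← hYX]
    field_simp
  · simp only [fzw]
    field_simp
    linear_combination -h


/-! ### Lines in the `zw`-chart: pure algebra -/

/-- The unit `U` in `(w₁ - w₂) * U = (z₁ - z₂) * V`. -/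
def Uzw (W : Affine L) (z₁ w₁ w₂ : L) : L :=
  1 - W.a₁ * z₁ - W.a₂ * z₁ ^ 2 - W.a₃ * (w₁ + w₂) - W.a₄ * z₁ * (w₁ + w₂) -
    W.a₆ * (w₁ ^ 2 + w₁ * w₂ + w₂ ^ 2)

/-- The element `V` in `(w₁ - w₂) * U = (z₁ - z₂) * V`. -/
def Vzw (W : Affine L) (z₁ z₂ w₂ : L) : L :=
  z₁ ^ 2 + z₁ * z₂ + z₂ ^ 2 + W.a₁ * w₂ + W.a₂ * (z₁ + z₂) * w₂ + W.a₄ * w₂ ^ 2

/-- Coefficients of the cubic `g(z) = f(z, l z + n) - (l z + n)`. -/
def c3 (W : Affine L) (l : L) : L := 1 + W.a₂ * l + W.a₄ * l ^ 2 + W.a₆ * l ^ 3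

def c2 (W : Affine L) (l n : L) : L :=
  W.a₁ * l + W.a₂ * n + W.a₃ * l ^ 2 + 2 * W.a₄ * l * n + 3 * W.a₆ * l ^ 2 * n

def c1 (W : Affine L) (l n : L) : L :=
  W.a₁ * n + 2 * W.a₃ * l * n + W.a₄ * n ^ 2 + 3 * W.a₆ * l * n ^ 2 - l

def c0 (W : Affine L) (n : L) : L := W.a₃ * n ^ 2 + W.a₆ * n ^ 3 - n

lemma zw_sub_identity (W : Affine L) {z₁ w₁ z₂ w₂ : L} (h₁ : w₁ = fzw W z₁ w₁)
    (h₂ : w₂ = fzw W z₂ w₂) : (w₁ - w₂) * Uzw W z₁ w₁ w₂ = (z₁ - z₂) * Vzw W z₁ z₂ w₂ := by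
  simp only [fzw] at h₁ h₂
  simp only [Uzw, Vzw]
  linear_combination h₁ - h₂

lemma zw_G1 (W : Affine L) {z₁ w₁ l n : L} (h₁ : w₁ = fzw W z₁ w₁) (hw₁ : w₁ = l * z₁ + n) :
    c3 W l * z₁ ^ 3 + c2 W l n * z₁ ^ 2 + c1 W l n * z₁ + c0 W n = 0 := by
  subst hw₁
  simp only [fzw] at h₁
  simp only [c3, c2, c1, c0]
  linear_combination -h₁

lemma zw_D1 (W : Affine L) {z₁ w₁ z₂ w₂ l n : L} (hw₁ : w₁ = l * z₁ + n)
    (hw₂ : w₂ = l * z₂ + n) (hVU : Vzw W z₁ z₂ w₂ = l * Uzw W z₁ w₁ w₂) :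
    c3 W l * (z₁ ^ 2 + z₁ * z₂ + z₂ ^ 2) + c2 W l n * (z₁ + z₂) + c1 W l n = 0 := by
  subst hw₁ hw₂
  simp only [Uzw, Vzw] at hVU
  simp only [c3, c2, c1]
  linear_combination hVU

/-- Vieta: the product of the `w`-coordinates of the three intersection points. -/
lemma zw_vieta_prod (W : Affine L) {z₁ z₂ z₃ l n : L}
    (hG1 : c3 W l * z₁ ^ 3 + c2 W l n * z₁ ^ 2 + c1 W l n * z₁ + c0 W n = 0)
    (hD1 : c3 W l * (z₁ ^ 2 + z₁ * z₂ + z₂ ^ 2) + c2 W l n * (z₁ + z₂) + c1 W l n = 0)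
    (hE1 : c3 W l * (z₁ + z₂ + z₃) = -c2 W l n) :
    c3 W l * ((l * z₁ + n) * (l * z₂ + n) * (l * z₃ + n)) = n ^ 3 := by
  simp only [c3, c2, c1, c0] at *
  linear_combination (l ^ 3 * z₁ * z₂ + l ^ 2 * n * (z₁ + z₂) + l * n ^ 2) * hE1 +
    (-l ^ 3 * z₁ - l ^ 2 * n) * hD1 + l ^ 3 * hG1

/-- Vieta: the sum `z₁ w₂ w₃ + z₂ w₁ w₃ + z₃ w₁ w₂` for the three intersection points. -/
lemma zw_vieta_sum (W : Affine L) {z₁ z₂ z₃ l n : L}
    (hG1 : c3 W l * z₁ ^ 3 + c2 W l n * z₁ ^ 2 + c1 W l n * z₁ + c0 W n = 0)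
    (hD1 : c3 W l * (z₁ ^ 2 + z₁ * z₂ + z₂ ^ 2) + c2 W l n * (z₁ + z₂) + c1 W l n = 0)
    (hE1 : c3 W l * (z₁ + z₂ + z₃) = -c2 W l n) :
    c3 W l * (z₁ * (l * z₂ + n) * (l * z₃ + n) + z₂ * (l * z₁ + n) * (l * z₃ + n) +
      z₃ * (l * z₁ + n) * (l * z₂ + n)) = n * (l ^ 2 + W.a₁ * l * n - W.a₂ * n ^ 2) := by
  simp only [c3, c2, c1, c0] at *
  linear_combination (3 * l ^ 2 * z₁ * z₂ + 2 * l * n * (z₁ + z₂) + n ^ 2) * hE1 +
    (-3 * l ^ 2 * z₁ - 2 * l * n) * hD1 + 3 * l ^ 2 * hG1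

/-- The third intersection point of a line with the curve in the `zw`-chart: pure algebra. -/
theorem zw_third_point (W : Affine L) {z₁ w₁ z₂ w₂ l n z₃ : L}
    (h₁ : w₁ = fzw W z₁ w₁) (h₂ : w₂ = fzw W z₂ w₂)
    (hl : Vzw W z₁ z₂ w₂ = l * Uzw W z₁ w₁ w₂) (hU : Uzw W z₁ w₁ w₂ ≠ 0)
    (hn : n = w₁ - l * z₁)
    (hz₃ : c3 W l * (z₁ + z₂ + z₃) = -c2 W l n) :
    w₂ = l * z₂ + n ∧
    c3 W l * (w₁ * w₂ * (l * z₃ + n)) = n ^ 3 ∧
    c3 W l * (z₁ * w₂ * (l * z₃ + n) + z₂ * w₁ * (l * z₃ + n) + z₃ * w₁ * w₂) =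
      n * (l ^ 2 + W.a₁ * l * n - W.a₂ * n ^ 2) := by
  have hw₁ : w₁ = l * z₁ + n := by rw [hn]; ring
  have hw₂ : w₂ = l * z₂ + n := by
    have h := zw_sub_identity W h₁ h₂
    rw [hl] at h
    have h' : (w₁ - w₂ - (z₁ - z₂) * l) * Uzw W z₁ w₁ w₂ = 0 := by linear_combination h
    rcases mul_eq_zero.mp h' with h'' | h''
    · rw [hn]; linear_combination -h''
    · exact absurd h'' hU
  have hG1 := zw_G1 W h₁ hw₁
  have hD1 := zw_D1 W hw₁ hw₂ hl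
  refine ⟨hw₂, ?_, ?_⟩
  · have := zw_vieta_prod W hG1 hD1 hz₃
    rw [← hw₁, ← hw₂] at this
    exact this
  · have := zw_vieta_sum W hG1 hD1 hz₃
    rw [← hw₁, ← hw₂] at this
    rw [← this]

/-- The Mathlib slope of the line through two points, in terms of the `zw`-line
`w = l z + n`. -/
theorem zw_slope [DecidableEq L] (W : Affine L) {x₁ y₁ x₂ y₂ z₁ w₁ z₂ w₂ l n : L}
    (hE₁ : W.Equation x₁ y₁) (hE₂ : W.Equation x₂ y₂)
    (hx₁ : x₁ * w₁ = z₁) (hy₁ : y₁ * w₁ = -1) (hx₂ : x₂ * w₂ = z₂) (hy₂ : y₂ * w₂ = -1)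
    (h₁ : w₁ = fzw W z₁ w₁)
    (hl : Vzw W z₁ z₂ w₂ = l * Uzw W z₁ w₁ w₂) (hU : Uzw W z₁ w₁ w₂ ≠ 0)
    (hn : n = w₁ - l * z₁) (hw₂ : w₂ = l * z₂ + n)
    (hxy : ¬(x₁ = x₂ ∧ y₁ = W.negY x₂ y₂)) :
    n ≠ 0 ∧ W.slope x₁ x₂ y₁ y₂ * n = l ∧ l * x₁ - n * y₁ = 1 := by
  have hw₁0 : w₁ ≠ 0 := by
    rintro rfl; simp at hy₁
  have hw₂0 : w₂ ≠ 0 := by
    rintro rfl; simp at hy₂
  have hw₁ : w₁ = l * z₁ + n := by rw [hn]; ring
  have L1 : l * x₁ - n * y₁ = 1 := by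
    apply mul_right_cancel₀ hw₁0
    linear_combination l * hx₁ - n * hy₁ - hw₁
  have L2 : l * x₂ - n * y₂ = 1 := by
    apply mul_right_cancel₀ hw₂0
    linear_combination l * hx₂ - n * hy₂ - hw₂
  by_cases hx : x₁ = x₂
  · have hy : y₁ ≠ W.negY x₂ y₂ := fun h => hxy ⟨hx, h⟩
    have hyy : y₁ = y₂ := Y_eq_of_Y_ne hE₁ hE₂ hx hy
    subst hx hyy
    have hy₁0 : y₁ ≠ 0 := by
      rintro rfl; simp at hy₁
    have hww : w₁ = w₂ := by
      apply mul_left_cancel₀ hy₁0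
      rw [hy₁, hy₂]
    subst hww
    have hzz : z₁ = z₂ := by rw [← hx₁, ← hx₂]
    subst hzz
    have key1 : Uzw W z₁ w₁ w₁ * n = Uzw W z₁ w₁ w₁ * w₁ - Vzw W z₁ z₁ w₁ * z₁ := by
      linear_combination (Uzw W z₁ w₁ w₁) * hn + z₁ * hl
    have key2 : Uzw W z₁ w₁ w₁ * w₁ - Vzw W z₁ z₁ w₁ * z₁ =
        w₁ * (-2 + W.a₁ * z₁ + W.a₃ * w₁) := by
      simp only [Uzw, Vzw, fzw] at h₁ ⊢
      linear_combination 3 * h₁
    have key3 : w₁ * (-2 + W.a₁ * z₁ + W.a₃ * w₁) = w₁ * w₁ * (y₁ - W.negY x₁ y₁) := by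
      simp only [negY]
      linear_combination -2 * w₁ * hy₁ - W.a₁ * w₁ * hx₁
    have key : Uzw W z₁ w₁ w₁ * n = w₁ * w₁ * (y₁ - W.negY x₁ y₁) :=
      key1.trans (key2.trans key3)
    have hV : Vzw W z₁ z₁ w₁ =
        (3 * x₁ ^ 2 + 2 * W.a₂ * x₁ + W.a₄ - W.a₁ * y₁) * w₁ * w₁ := by
      simp only [Vzw]
      linear_combination (-3 * (x₁ * w₁ + z₁) - 2 * W.a₂ * w₁) * hx₁ + W.a₁ * w₁ * hy₁
    have hd : y₁ - W.negY x₁ y₁ ≠ 0 := sub_ne_zero.mpr hy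
    have hn0 : n ≠ 0 := by
      rintro rfl
      rw [mul_zero] at key
      exact (mul_ne_zero (mul_ne_zero hw₁0 hw₁0) hd) key.symm
    refine ⟨hn0, ?_, L1⟩
    rw [slope_of_Y_ne rfl hy, div_mul_eq_mul_div, div_eq_iff hd]
    apply mul_right_cancel₀ (mul_ne_zero hU (mul_ne_zero hw₁0 hw₁0))
    linear_combination (3 * x₁ ^ 2 + 2 * W.a₂ * x₁ + W.a₄ - W.a₁ * y₁) * w₁ * w₁ * key +
      w₁ * w₁ * (y₁ - W.negY x₁ y₁) * (hl - hV)
  · have hd : x₁ - x₂ ≠ 0 := sub_ne_zero.mpr hx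
    have hn0 : n ≠ 0 := by
      rintro rfl
      have : l * (x₁ - x₂) = 0 := by linear_combination L1 - L2
      rcases mul_eq_zero.mp this with h | h
      · rw [h] at L1; simp at L1
      · exact hd h
    refine ⟨hn0, ?_, L1⟩
    rw [slope_of_X_ne hx, div_mul_eq_mul_div, div_eq_iff hd]
    linear_combination L2 - L1

/-- The addition formula in the `zw`-chart: pure algebra. -/
theorem zw_add_formula [DecidableEq L] (W : Affine L) {x₁ y₁ x₂ y₂ z₁ w₁ z₂ w₂ l n z₃ : L}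
    (hE₁ : W.Equation x₁ y₁) (hE₂ : W.Equation x₂ y₂)
    (hx₁ : x₁ * w₁ = z₁) (hy₁ : y₁ * w₁ = -1) (hx₂ : x₂ * w₂ = z₂) (hy₂ : y₂ * w₂ = -1)
    (h₁ : w₁ = fzw W z₁ w₁) (h₂ : w₂ = fzw W z₂ w₂)
    (hl : Vzw W z₁ z₂ w₂ = l * Uzw W z₁ w₁ w₂) (hU : Uzw W z₁ w₁ w₂ ≠ 0)
    (hn : n = w₁ - l * z₁) (hc₃ : c3 W l ≠ 0)
    (hz₃ : c3 W l * (z₁ + z₂ + z₃) = -c2 W l n)
    (hxy : ¬(x₁ = x₂ ∧ y₁ = W.negY x₂ y₂)) :
    l * z₃ + n ≠ 0 ∧
    W.addX x₁ x₂ (W.slope x₁ x₂ y₁ y₂) * (l * z₃ + n) = z₃ ∧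
    W.addY x₁ x₂ y₁ (W.slope x₁ x₂ y₁ y₂) * (l * z₃ + n) =
      1 - W.a₁ * z₃ - W.a₃ * (l * z₃ + n) := by
  obtain ⟨hw₂, hprod, hsum⟩ := zw_third_point W h₁ h₂ hl hU hn hz₃
  obtain ⟨hn0, hs, L1⟩ := zw_slope W hE₁ hE₂ hx₁ hy₁ hx₂ hy₂ h₁ hl hU hn hw₂ hxy
  have hw₁0 : w₁ ≠ 0 := by
    rintro rfl; simp at hy₁
  have hw₂0 : w₂ ≠ 0 := by
    rintro rfl; simp at hy₂
  obtain ⟨s, hsdef⟩ : ∃ s, s = W.slope x₁ x₂ y₁ y₂ := ⟨_, rfl⟩
  obtain ⟨w₃, hw₃⟩ : ∃ w₃, w₃ = l * z₃ + n := ⟨_, rfl⟩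
  rw [← hsdef] at hs ⊢
  rw [← hw₃] at hprod hsum ⊢
  have hw₃0 : w₃ ≠ 0 := by
    rintro rfl
    rw [mul_zero, mul_zero] at hprod
    exact pow_ne_zero 3 hn0 hprod.symm
  have hX : W.addX x₁ x₂ s * w₃ = z₃ := by
    simp only [addX]
    apply mul_right_cancel₀
      (mul_ne_zero hc₃ (mul_ne_zero (mul_ne_zero hw₁0 hw₂0) (pow_ne_zero 2 hn0)))
    linear_combination (s * n + l + W.a₁ * n) * (c3 W l * (w₁ * w₂ * w₃)) * hs +
      (l ^ 2 + W.a₁ * l * n - W.a₂ * n ^ 2) * hprod - n ^ 2 * hsum -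
      n ^ 2 * c3 W l * w₂ * w₃ * hx₁ - n ^ 2 * c3 W l * w₁ * w₃ * hx₂
  refine ⟨hw₃0, hX, ?_⟩
  rw [addY, negAddY, negY]
  apply mul_right_cancel₀ hn0
  linear_combination -(W.addX x₁ x₂ s - x₁) * w₃ * hs + w₃ * L1 -
    (l + W.a₁ * n) * hX + hw₃

/-! ### Valuation estimates for the third point -/

lemma exists_scaled (v : Valuation L Γ₀) {p a : L} (hp0 : p ≠ 0) (k : ℕ)
    (ha : v a ≤ v p ^ k) : ∃ b ∈ v.integer, a = p ^ k * b := by
  refine ⟨a / p ^ k, ?_, ?_⟩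
  · rw [Valuation.mem_integer_iff, map_div₀, map_pow]
    have hpk : (0 : Γ₀) < v p ^ k := pow_pos ((Valuation.pos_iff v).mpr hp0) k
    exact (div_le_one₀ hpk).mpr ha
  · field_simp

lemma v_scaled_le (v : Valuation L Γ₀) {p b : L} (k : ℕ) (hb : b ∈ v.integer) :
    v (p ^ k * b) ≤ v p ^ k := by
  rw [map_mul, map_pow]
  calc v p ^ k * v b ≤ v p ^ k * 1 := mul_le_mul_right hb _
    _ = v p ^ k := mul_one _

lemma inv_mem_integer_of_v_eq_one (v : Valuation L Γ₀) {a : L} (ha : v a = 1) :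
    a⁻¹ ∈ v.integer := by
  rw [Valuation.mem_integer_iff, map_inv₀, ha, inv_one]

lemma ne_zero_of_v_eq_one (v : Valuation L Γ₀) {a : L} (ha : v a = 1) : a ≠ 0 := by
  rintro rfl
  simp at ha

lemma v_one_sub_mul_eq_one (v : Valuation L Γ₀) {p t : L} (hp : v p < 1) (ht : t ∈ v.integer) :
    v (1 - p * t) = 1 :=
  v_one_sub_eq_one v (v_mul_lt_one_of_lt_left v hp ht)

theorem zw_estimates (v : Valuation L Γ₀) (W : Affine L)
    (ha₁ : v W.a₁ ≤ 1) (ha₂ : v W.a₂ ≤ 1) (ha₃ : v W.a₃ ≤ 1) (ha₄ : v W.a₄ ≤ 1)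
    (ha₆ : v W.a₆ ≤ 1)
    {p z₁ w₁ z₂ w₂ : L} (hp0 : p ≠ 0) (hp : v p < 1)
    (hz₁ : v z₁ ≤ v p) (hz₂ : v z₂ ≤ v p) (hw₁ : v w₁ ≤ v p ^ 3) (hw₂ : v w₂ ≤ v p ^ 3) :
    ∃ l n z₃ : L, Uzw W z₁ w₁ w₂ ≠ 0 ∧ Vzw W z₁ z₂ w₂ = l * Uzw W z₁ w₁ w₂ ∧
      n = w₁ - l * z₁ ∧ c3 W l ≠ 0 ∧ c3 W l * (z₁ + z₂ + z₃) = -c2 W l n ∧
      v (l * z₃ + n) ≤ v p ^ 3 ∧
      v (1 - W.a₁ * z₃ - W.a₃ * (l * z₃ + n)) = 1 ∧
      v (-z₃ / (1 - W.a₁ * z₃ - W.a₃ * (l * z₃ + n)) - z₁ - z₂) ≤ v p ^ 2 := by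
  have hz₁' : v z₁ ≤ v p ^ 1 := by rwa [pow_one]
  have hz₂' : v z₂ ≤ v p ^ 1 := by rwa [pow_one]
  obtain ⟨ζ₁, hζ₁, rfl⟩ := exists_scaled v hp0 1 hz₁'
  obtain ⟨ζ₂, hζ₂, rfl⟩ := exists_scaled v hp0 1 hz₂'
  obtain ⟨ω₁, hω₁, rfl⟩ := exists_scaled v hp0 3 hw₁
  obtain ⟨ω₂, hω₂, rfl⟩ := exists_scaled v hp0 3 hw₂
  have hpI : p ∈ v.integer := hp.le
  have ha₁' : W.a₁ ∈ v.integer := ha₁
  have ha₂' : W.a₂ ∈ v.integer := ha₂
  have ha₃' : W.a₃ ∈ v.integer := ha₃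
  have ha₄' : W.a₄ ∈ v.integer := ha₄
  have ha₆' : W.a₆ ∈ v.integer := ha₆
  -- the unit `U`
  obtain ⟨tU, htU, hU⟩ : ∃ t ∈ v.integer,
      Uzw W (p ^ 1 * ζ₁) (p ^ 3 * ω₁) (p ^ 3 * ω₂) = 1 - p * t := by
    refine ⟨W.a₁ * ζ₁ + W.a₂ * p * ζ₁ ^ 2 + W.a₃ * p ^ 2 * (ω₁ + ω₂) +
      W.a₄ * p ^ 3 * ζ₁ * (ω₁ + ω₂) + W.a₆ * p ^ 5 * (ω₁ ^ 2 + ω₁ * ω₂ + ω₂ ^ 2), ?_, ?_⟩
    · exact (by
      repeat' first
        | assumption
        | apply Subring.add_mem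
        | apply Subring.mul_mem
        | apply Subring.sub_mem
        | apply Subring.neg_mem
        | apply Subring.pow_mem
        | apply Subring.one_mem
        | apply ofNat_mem)
    · simp only [Uzw]; ring
  have hvU : v (Uzw W (p ^ 1 * ζ₁) (p ^ 3 * ω₁) (p ^ 3 * ω₂)) = 1 := by
    rw [hU]; exact v_one_sub_mul_eq_one v hp htU
  have hU0 := ne_zero_of_v_eq_one v hvU
  have huI := inv_mem_integer_of_v_eq_one v hvU
  -- `V`
  obtain ⟨V', hV', hV⟩ : ∃ t ∈ v.integer,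
      Vzw W (p ^ 1 * ζ₁) (p ^ 1 * ζ₂) (p ^ 3 * ω₂) = p ^ 2 * t := by
    refine ⟨ζ₁ ^ 2 + ζ₁ * ζ₂ + ζ₂ ^ 2 + W.a₁ * p * ω₂ + W.a₂ * p ^ 2 * (ζ₁ + ζ₂) * ω₂ +
      W.a₄ * p ^ 4 * ω₂ ^ 2, ?_, ?_⟩
    · exact (by
      repeat' first
        | assumption
        | apply Subring.add_mem
        | apply Subring.mul_mem
        | apply Subring.sub_mem
        | apply Subring.neg_mem
        | apply Subring.pow_mem
        | apply Subring.one_mem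
        | apply ofNat_mem)
    · simp only [Vzw]; ring
  generalize Uzw W (p ^ 1 * ζ₁) (p ^ 3 * ω₁) (p ^ 3 * ω₂) = U at *
  generalize Vzw W (p ^ 1 * ζ₁) (p ^ 1 * ζ₂) (p ^ 3 * ω₂) = V at *
  -- the slope `l = p ^ 2 * l'`
  obtain ⟨l', hl'I, hl'⟩ : ∃ l' ∈ v.integer, V = p ^ 2 * l' * U := by
    refine ⟨V' * U⁻¹, Subring.mul_mem _ hV' huI, ?_⟩
    rw [hV]; field_simp
  -- `n = p ^ 3 * n'`
  obtain ⟨n', hn'I, hn'⟩ : ∃ n' ∈ v.integer, p ^ 3 * ω₁ - p ^ 2 * l' * (p ^ 1 * ζ₁) = p ^ 3 * n' :=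
    ⟨ω₁ - l' * ζ₁, (by
      repeat' first
        | assumption
        | apply Subring.add_mem
        | apply Subring.mul_mem
        | apply Subring.sub_mem
        | apply Subring.neg_mem
        | apply Subring.pow_mem
        | apply Subring.one_mem
        | apply ofNat_mem), by ring⟩
  -- `c₃`
  obtain ⟨t₃, ht₃, hc₃⟩ : ∃ t ∈ v.integer, c3 W (p ^ 2 * l') = 1 - p * t := by
    refine ⟨-(W.a₂ * p * l' + W.a₄ * p ^ 3 * l' ^ 2 + W.a₆ * p ^ 5 * l' ^ 3), ?_, ?_⟩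
    · exact (by
      repeat' first
        | assumption
        | apply Subring.add_mem
        | apply Subring.mul_mem
        | apply Subring.sub_mem
        | apply Subring.neg_mem
        | apply Subring.pow_mem
        | apply Subring.one_mem
        | apply ofNat_mem)
    · simp only [c3]; ring
  have hvc₃ : v (c3 W (p ^ 2 * l')) = 1 := by
    rw [hc₃]; exact v_one_sub_mul_eq_one v hp ht₃
  have hc₃0 := ne_zero_of_v_eq_one v hvc₃
  have hkI := inv_mem_integer_of_v_eq_one v hvc₃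
  -- `c₂`
  obtain ⟨c₂', hc₂'I, hc₂⟩ : ∃ t ∈ v.integer, c2 W (p ^ 2 * l') (p ^ 3 * n') = p ^ 2 * t := by
    refine ⟨W.a₁ * l' + W.a₂ * p * n' + W.a₃ * p ^ 2 * l' ^ 2 + 2 * W.a₄ * p ^ 3 * l' * n' +
      3 * W.a₆ * p ^ 5 * l' ^ 2 * n', ?_, ?_⟩
    · exact (by
      repeat' first
        | assumption
        | apply Subring.add_mem
        | apply Subring.mul_mem
        | apply Subring.sub_mem
        | apply Subring.neg_mem
        | apply Subring.pow_mem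
        | apply Subring.one_mem
        | apply ofNat_mem)
    · simp only [c2]; ring
  generalize hc₃def : c3 W (p ^ 2 * l') = C₃ at *
  generalize hc₂def : c2 W (p ^ 2 * l') (p ^ 3 * n') = C₂ at *
  -- `z₃ = p * ζ₃`
  obtain ⟨ζ₃, hζ₃I, hζ₃⟩ : ∃ ζ₃ ∈ v.integer, ζ₃ = -ζ₁ - ζ₂ - p * c₂' * C₃⁻¹ :=
    ⟨_, (by
      repeat' first
        | assumption
        | apply Subring.add_mem
        | apply Subring.mul_mem
        | apply Subring.sub_mem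
        | apply Subring.neg_mem
        | apply Subring.pow_mem
        | apply Subring.one_mem
        | apply ofNat_mem), rfl⟩
  -- `w₃ = p ^ 3 * ω₃`
  obtain ⟨ω₃, hω₃I, hω₃⟩ : ∃ ω₃ ∈ v.integer, p ^ 2 * l' * (p * ζ₃) + p ^ 3 * n' = p ^ 3 * ω₃ :=
    ⟨l' * ζ₃ + n', (by
      repeat' first
        | assumption
        | apply Subring.add_mem
        | apply Subring.mul_mem
        | apply Subring.sub_mem
        | apply Subring.neg_mem
        | apply Subring.pow_mem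
        | apply Subring.one_mem
        | apply ofNat_mem), by ring⟩
  -- `D`
  obtain ⟨tD, htD, hD⟩ : ∃ t ∈ v.integer,
      1 - W.a₁ * (p * ζ₃) - W.a₃ * (p ^ 3 * ω₃) = 1 - p * t :=
    ⟨W.a₁ * ζ₃ + W.a₃ * p ^ 2 * ω₃, (by
      repeat' first
        | assumption
        | apply Subring.add_mem
        | apply Subring.mul_mem
        | apply Subring.sub_mem
        | apply Subring.neg_mem
        | apply Subring.pow_mem
        | apply Subring.one_mem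
        | apply ofNat_mem), by ring⟩
  have hvD : v (1 - W.a₁ * (p * ζ₃) - W.a₃ * (p ^ 3 * ω₃)) = 1 := by
    rw [hD]; exact v_one_sub_mul_eq_one v hp htD
  have hD0 := ne_zero_of_v_eq_one v hvD
  have hdI := inv_mem_integer_of_v_eq_one v hvD
  refine ⟨p ^ 2 * l', p ^ 3 * n', p * ζ₃, hU0, hl', hn'.symm, ?_, ?_, ?_, ?_, ?_⟩
  · rw [hc₃def]; exact hc₃0
  · rw [hc₃def, hc₂def, hc₂, hζ₃]
    field_simp
    ring
  · rw [hω₃]; exact v_scaled_le v 3 hω₃I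
  · rw [hω₃]; exact hvD
  · rw [hω₃]
    have : -(p * ζ₃) / (1 - W.a₁ * (p * ζ₃) - W.a₃ * (p ^ 3 * ω₃)) - p ^ 1 * ζ₁ - p ^ 1 * ζ₂ =
        p ^ 2 * ((1 - W.a₁ * (p * ζ₃) - W.a₃ * (p ^ 3 * ω₃))⁻¹ *
          (c₂' * C₃⁻¹ + (ζ₁ + ζ₂) * (W.a₁ * ζ₃ + W.a₃ * p ^ 2 * ω₃))) := by
      generalize hDv : (1 - W.a₁ * (p * ζ₃) - W.a₃ * (p ^ 3 * ω₃)) = Dv at hD0 ⊢
      have key : -(p * ζ₃) - (p * ζ₁ + p * ζ₂) * Dv =
          p ^ 2 * (c₂' * C₃⁻¹ + (ζ₁ + ζ₂) * (W.a₁ * ζ₃ + W.a₃ * p ^ 2 * ω₃)) := by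
        rw [← hDv, hζ₃]; ring
      calc -(p * ζ₃) / Dv - p ^ 1 * ζ₁ - p ^ 1 * ζ₂
          = Dv⁻¹ * (-(p * ζ₃) - (p * ζ₁ + p * ζ₂) * Dv) := by
            field_simp
            ring
        _ = _ := by rw [key]; ring
    rw [this]
    apply v_scaled_le v 2
    exact (by
      repeat' first
        | assumption
        | apply Subring.add_mem
        | apply Subring.mul_mem
        | apply Subring.sub_mem
        | apply Subring.neg_mem
        | apply Subring.pow_mem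
        | apply Subring.one_mem
        | apply ofNat_mem)


/-! ### The kernel of reduction -/

/-- On an integral Weierstrass curve a point with integral `x` has integral `y`. -/
theorem v_y_le_one_of_v_x_le_one (v : Valuation L Γ₀) (W : Affine L)
    (ha₁ : v W.a₁ ≤ 1) (ha₂ : v W.a₂ ≤ 1) (ha₃ : v W.a₃ ≤ 1) (ha₄ : v W.a₄ ≤ 1)
    (ha₆ : v W.a₆ ≤ 1) {x y : L} (h : W.Equation x y) (hx : v x ≤ 1) : v y ≤ 1 := by
  by_contra hy
  rw [not_le] at hy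
  rw [equation_iff] at h
  have h1 : v (W.a₁ * x + W.a₃) ≤ 1 :=
    v.map_add_le (v_mul_le_of_le_one_left v ha₁ hx) ha₃
  have h2 : v (y + W.a₁ * x + W.a₃) = v y := by
    have e : y + W.a₁ * x + W.a₃ = y + (W.a₁ * x + W.a₃) := by ring
    rw [e, Valuation.map_add_eq_of_lt_left]
    exact lt_of_le_of_lt h1 hy
  have h3 : v (x ^ 3 + W.a₂ * x ^ 2 + W.a₄ * x + W.a₆) ≤ 1 := by
    refine v.map_add_le (v.map_add_le (v.map_add_le ?_ ?_) ?_) ha₆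
    · rw [map_pow]; exact pow_le_one₀ zero_le hx
    · refine v_mul_le_of_le_one_left v ha₂ ?_
      rw [map_pow]; exact pow_le_one₀ zero_le hx
    · exact v_mul_le_of_le_one_left v ha₄ hx
  have h4 : v (y * (y + W.a₁ * x + W.a₃)) ≤ 1 := by
    have e : y * (y + W.a₁ * x + W.a₃) = x ^ 3 + W.a₂ * x ^ 2 + W.a₄ * x + W.a₆ := by
      linear_combination h
    rw [e]; exact h3
  rw [map_mul, h2] at h4
  have h5 : 1 < v y * v y := by
    calc (1 : Γ₀) = 1 * 1 := (one_mul 1).symm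
      _ < v y * v y := mul_lt_mul'' hy hy zero_le zero_le
  exact absurd h4 (not_le.mpr h5)

/-- The `z`-coordinate `-x / y` of a point (`0` at the origin). -/
def zOf {W : Affine L} : W.Point → L
  | .zero => 0
  | .some x y _ => -x / y

/-- The kernel of reduction: the origin together with the points with non-integral `x`. -/
def InKer (v : Valuation L Γ₀) {W : Affine L} : W.Point → Prop
  | .zero => True
  | .some x _ _ => 1 < v x

@[simp] lemma zOf_zero {W : Affine L} : zOf (0 : W.Point) = 0 := rfl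

@[simp] lemma zOf_some {W : Affine L} {x y : L} (h : W.Nonsingular x y) :
    zOf (Point.some x y h) = -x / y := rfl

@[simp] lemma inKer_zero (v : Valuation L Γ₀) {W : Affine L} : InKer v (0 : W.Point) := trivial

@[simp] lemma inKer_some (v : Valuation L Γ₀) {W : Affine L} {x y : L} (h : W.Nonsingular x y) :
    InKer v (Point.some x y h) ↔ 1 < v x := Iff.rfl

lemma inKer_neg (v : Valuation L Γ₀) {W : Affine L} {P : W.Point} (hP : InKer v P) :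
    InKer v (-P) := by
  cases P with
  | zero => exact trivial
  | some x y h => exact hP

/-- The kernel of reduction is closed under addition, and `z` is additive modulo
higher order terms. -/
theorem ker_add [DecidableEq L] (v : Valuation L Γ₀) (W : Affine L)
    (ha₁ : v W.a₁ ≤ 1) (ha₂ : v W.a₂ ≤ 1) (ha₃ : v W.a₃ ≤ 1) (ha₄ : v W.a₄ ≤ 1)
    (ha₆ : v W.a₆ ≤ 1) {p : L} (hp : v p < 1) {P Q : W.Point} (hP : InKer v P)
    (hQ : InKer v Q) (hPp : v (zOf P) ≤ v p) (hQp : v (zOf Q) ≤ v p) :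
    InKer v (P + Q) ∧ v (zOf (P + Q) - zOf P - zOf Q) ≤ v p ^ 2 := by
  cases P with
  | zero =>
    have e : (Point.zero : W.Point) = 0 := rfl
    rw [e, zero_add, zOf_zero]
    refine ⟨hQ, ?_⟩
    have : zOf Q - 0 - zOf Q = 0 := by ring
    rw [this, map_zero]; exact zero_le
  | some x₁ y₁ h₁ =>
    cases Q with
    | zero =>
      have e : (Point.zero : W.Point) = 0 := rfl
      rw [e, add_zero, zOf_zero]
      refine ⟨hP, ?_⟩
      have : zOf (Point.some x₁ y₁ h₁) - zOf (Point.some x₁ y₁ h₁) - 0 = 0 := by ring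
      rw [this, map_zero]; exact zero_le
    | some x₂ y₂ h₂ =>
      have d₁ := zwData_of_one_lt v W ha₁ ha₂ ha₃ ha₄ ha₆ h₁.1 hP
      have d₂ := zwData_of_one_lt v W ha₁ ha₂ ha₃ ha₄ ha₆ h₂.1 hQ
      simp only [zOf_some] at hPp hQp ⊢
      have hp0 : p ≠ 0 := by
        rintro rfl
        rw [map_zero] at hPp
        exact d₁.z_ne ((Valuation.zero_iff v).mp (le_antisymm hPp zero_le))
      have hy₁0 := d₁.y_ne
      have hy₂0 := d₂.y_ne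
      by_cases hxy : x₁ = x₂ ∧ y₁ = W.negY x₂ y₂
      · rw [Point.add_of_Y_eq hxy.1 hxy.2]
        refine ⟨trivial, ?_⟩
        obtain ⟨hx, hy⟩ := hxy
        have e : zOf (0 : W.Point) - -x₁ / y₁ - -x₂ / y₂ =
            -(-x₁ / y₁ * (W.a₁ * (-x₂ / y₂) + W.a₃ * (-1 / y₂))) := by
          rw [zOf_zero]
          simp only [negY] at hy
          subst hx
          field_simp
          linear_combination x₁ * hy
        rw [e, Valuation.map_neg, sq]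
        refine v_mul_le_mul v hPp (v.map_add_le (v_mul_le_of_le_one_left v ha₁ hQp)
          (v_mul_le_of_le_one_left v ha₃ ?_))
        exact (d₂.vw_le hQp).trans
          ((pow_le_of_le_one' hp.le (by norm_num : 1 ≤ 3)).trans_eq (pow_one _))
      · rw [Point.add_some hxy]
        obtain ⟨l, n, z₃, hU0, hl, hn, hc₃, hz₃, hvw₃, hvD, hest⟩ :=
          zw_estimates v W ha₁ ha₂ ha₃ ha₄ ha₆ hp0 hp hPp hQp (d₁.vw_le hPp) (d₂.vw_le hQp)
        have hx₁ : x₁ * (-1 / y₁) = -x₁ / y₁ := by ring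
        have hx₂ : x₂ * (-1 / y₂) = -x₂ / y₂ := by ring
        have hy₁ : y₁ * (-1 / y₁) = -1 := by field_simp
        have hy₂ : y₂ * (-1 / y₂) = -1 := by field_simp
        obtain ⟨hw₃0, hX, hY⟩ := zw_add_formula W h₁.1 h₂.1 hx₁ hy₁ hx₂ hy₂ d₁.eqn d₂.eqn hl hU0
          hn hc₃ hz₃ hxy
        have hE := (nonsingular_add h₁ h₂ hxy).1
        simp only [zOf_some, inKer_some]
        generalize W.addX x₁ x₂ (W.slope x₁ x₂ y₁ y₂) = X at *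
        generalize W.addY x₁ x₂ y₁ (W.slope x₁ x₂ y₁ y₂) = Y at *
        have hvw₃lt : v (l * z₃ + n) < 1 :=
          lt_of_le_of_lt hvw₃ (pow_lt_one₀ zero_le hp (by norm_num))
        have hvY : ¬ v Y ≤ 1 := by
          intro hY1
          have : v (Y * (l * z₃ + n)) < 1 := v_mul_lt_one_of_lt_right v hY1 hvw₃lt
          rw [hY, hvD] at this
          exact lt_irrefl _ this
        refine ⟨?_, ?_⟩
        · by_contra hX1
          rw [not_lt] at hX1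
          exact hvY (v_y_le_one_of_v_x_le_one v W ha₁ ha₂ ha₃ ha₄ ha₆ hE hX1)
        · have hY0 : Y ≠ 0 := by
            rintro rfl
            exact hvY (by rw [map_zero]; exact zero_le)
          have hD0 := ne_zero_of_v_eq_one v hvD
          have e : -X / Y = -z₃ / (1 - W.a₁ * z₃ - W.a₃ * (l * z₃ + n)) := by
            rw [div_eq_div_iff hY0 hD0]
            linear_combination X * hY - Y * hX
          rw [e]
          exact hest

lemma v_zOf_lt_one (v : Valuation L Γ₀) (W : Affine L)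
    (ha₁ : v W.a₁ ≤ 1) (ha₂ : v W.a₂ ≤ 1) (ha₃ : v W.a₃ ≤ 1) (ha₄ : v W.a₄ ≤ 1)
    (ha₆ : v W.a₆ ≤ 1) {P : W.Point} (hP : InKer v P) : v (zOf P) < 1 := by
  cases P with
  | zero =>
    have e : (Point.zero : W.Point) = 0 := rfl
    rw [e, zOf_zero, map_zero]; exact zero_lt_one
  | some x y h => exact (zwData_of_one_lt v W ha₁ ha₂ ha₃ ha₄ ha₆ h.1 hP).vz

/-- The kernel of reduction is closed under addition. -/
theorem inKer_add [DecidableEq L] (v : Valuation L Γ₀) (W : Affine L)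
    (ha₁ : v W.a₁ ≤ 1) (ha₂ : v W.a₂ ≤ 1) (ha₃ : v W.a₃ ≤ 1) (ha₄ : v W.a₄ ≤ 1)
    (ha₆ : v W.a₆ ≤ 1) {P Q : W.Point} (hP : InKer v P) (hQ : InKer v Q) :
    InKer v (P + Q) := by
  rcases le_total (v (zOf P)) (v (zOf Q)) with hle | hle
  · exact (ker_add v W ha₁ ha₂ ha₃ ha₄ ha₆ (p := zOf Q)
      (v_zOf_lt_one v W ha₁ ha₂ ha₃ ha₄ ha₆ hQ) hP hQ hle le_rfl).1
  · exact (ker_add v W ha₁ ha₂ ha₃ ha₄ ha₆ (p := zOf P)
      (v_zOf_lt_one v W ha₁ ha₂ ha₃ ha₄ ha₆ hP) hP hQ le_rfl hle).1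

/-- The kernel of reduction is closed under subtraction. -/
theorem inKer_sub [DecidableEq L] (v : Valuation L Γ₀) (W : Affine L)
    (ha₁ : v W.a₁ ≤ 1) (ha₂ : v W.a₂ ≤ 1) (ha₃ : v W.a₃ ≤ 1) (ha₄ : v W.a₄ ≤ 1)
    (ha₆ : v W.a₆ ≤ 1) {P Q : W.Point} (hP : InKer v P) (hQ : InKer v Q) :
    InKer v (P - Q) := by
  rw [sub_eq_add_neg]
  exact inKer_add v W ha₁ ha₂ ha₃ ha₄ ha₆ hP (inKer_neg v hQ)

/-- Multiples of a point in the kernel of reduction: `z (k • P) ≡ k * z P` modulo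
higher order terms. -/
theorem ker_nsmul [DecidableEq L] (v : Valuation L Γ₀) (W : Affine L)
    (ha₁ : v W.a₁ ≤ 1) (ha₂ : v W.a₂ ≤ 1) (ha₃ : v W.a₃ ≤ 1) (ha₄ : v W.a₄ ≤ 1)
    (ha₆ : v W.a₆ ≤ 1) {p : L} (hp : v p < 1) {P : W.Point} (hP : InKer v P)
    (hPp : v (zOf P) ≤ v p) (k : ℕ) :
    InKer v (k • P) ∧ v (zOf (k • P) - k * zOf P) ≤ v p ^ 2 := by
  induction k with
  | zero =>
    rw [zero_smul]
    refine ⟨trivial, ?_⟩
    have : zOf (0 : W.Point) - ((0 : ℕ) : L) * zOf P = 0 := by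
      rw [zOf_zero]; push_cast; ring
    rw [this, map_zero]; exact zero_le
  | succ k ih =>
    obtain ⟨ih1, ih2⟩ := ih
    have hsq : v p ^ 2 ≤ v p :=
      (pow_le_of_le_one' hp.le (by norm_num : 1 ≤ 2)).trans_eq (pow_one _)
    have hk : v (zOf (k • P)) ≤ v p := by
      have e : zOf (k • P) = (zOf (k • P) - k * zOf P) + k * zOf P := by ring
      rw [e]
      exact v.map_add_le (ih2.trans hsq) (v_mul_le_of_le_one_left v (v_natCast_le_one v k) hPp)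
    obtain ⟨h1, h2⟩ := ker_add v W ha₁ ha₂ ha₃ ha₄ ha₆ hp ih1 hP hk hPp
    rw [succ_nsmul]
    refine ⟨h1, ?_⟩
    have e : zOf (k • P + P) - ((k + 1 : ℕ) : L) * zOf P =
        (zOf (k • P + P) - zOf (k • P) - zOf P) + (zOf (k • P) - k * zOf P) := by
      push_cast; ring
    rw [e]
    exact v.map_add_le h2 ih2

/-- **Lemma A**: the kernel of reduction has no `n`-torsion for `n` a unit.
A point `(x, y)` killed by `n` with `v n = 1` has integral `x`-coordinate. -/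
theorem v_x_le_one_of_nsmul_eq_zero [DecidableEq L] (v : Valuation L Γ₀) (W : Affine L)
    (ha₁ : v W.a₁ ≤ 1) (ha₂ : v W.a₂ ≤ 1) (ha₃ : v W.a₃ ≤ 1) (ha₄ : v W.a₄ ≤ 1)
    (ha₆ : v W.a₆ ≤ 1) {n : ℕ} (hn : v (n : L) = 1) {x y : L} (h : W.Nonsingular x y)
    (hP : n • Point.some x y h = 0) : v x ≤ 1 := by
  by_contra hx
  rw [not_le] at hx
  have d := zwData_of_one_lt v W ha₁ ha₂ ha₃ ha₄ ha₆ h.1 hx
  have hker : InKer v (Point.some x y h) := hx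
  obtain ⟨-, h2⟩ := ker_nsmul v W ha₁ ha₂ ha₃ ha₄ ha₆ (p := -x / y) d.vz hker
    (by rw [zOf_some]) n
  rw [hP, zOf_zero, zOf_some, zero_sub, Valuation.map_neg, map_mul, hn, one_mul] at h2
  have hz0 : 0 < v (-x / y) := (Valuation.pos_iff v).mpr d.z_ne
  have : v (-x / y) ^ 2 < v (-x / y) := by
    rw [sq]
    calc v (-x / y) * v (-x / y) < v (-x / y) * 1 := mul_lt_mul_of_pos_left d.vz hz0
      _ = v (-x / y) := mul_one _
  exact absurd h2 (not_le.mpr this)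

/-- **Lemma A** (both coordinates): a point `(x, y)` killed by `n` with `v n = 1` is integral. -/
theorem v_le_one_of_nsmul_eq_zero [DecidableEq L] (v : Valuation L Γ₀) (W : Affine L)
    (ha₁ : v W.a₁ ≤ 1) (ha₂ : v W.a₂ ≤ 1) (ha₃ : v W.a₃ ≤ 1) (ha₄ : v W.a₄ ≤ 1)
    (ha₆ : v W.a₆ ≤ 1) {n : ℕ} (hn : v (n : L) = 1) {x y : L} (h : W.Nonsingular x y)
    (hP : n • Point.some x y h = 0) : v x ≤ 1 ∧ v y ≤ 1 := by
  have hx := v_x_le_one_of_nsmul_eq_zero v W ha₁ ha₂ ha₃ ha₄ ha₆ hn h hP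
  exact ⟨hx, v_y_le_one_of_v_x_le_one v W ha₁ ha₂ ha₃ ha₄ ha₆ h.1 hx⟩

/-- The kernel of reduction has no nonzero `n`-torsion for `n` a unit. -/
theorem eq_zero_of_inKer_of_nsmul_eq_zero [DecidableEq L] (v : Valuation L Γ₀) (W : Affine L)
    (ha₁ : v W.a₁ ≤ 1) (ha₂ : v W.a₂ ≤ 1) (ha₃ : v W.a₃ ≤ 1) (ha₄ : v W.a₄ ≤ 1)
    (ha₆ : v W.a₆ ≤ 1) {n : ℕ} (hn : v (n : L) = 1) {P : W.Point} (hker : InKer v P)
    (hP : n • P = 0) : P = 0 := by
  cases P with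
  | zero => rfl
  | some x y h =>
    exact absurd (v_x_le_one_of_nsmul_eq_zero v W ha₁ ha₂ ha₃ ha₄ ha₆ hn h hP)
      (not_le.mpr hker)

/-- **Injectivity of reduction on torsion**: two `n`-torsion points (`n` a unit) with the same
nonsingular reduction are equal. -/
theorem eq_of_same_reduction_of_nsmul_eq_zero [DecidableEq L] (v : Valuation L Γ₀)
    (W : Affine L) (ha₁ : v W.a₁ ≤ 1) (ha₂ : v W.a₂ ≤ 1) (ha₃ : v W.a₃ ≤ 1) (ha₄ : v W.a₄ ≤ 1)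
    (ha₆ : v W.a₆ ≤ 1) {n : ℕ} (hn : v (n : L) = 1) {x₁ y₁ x₂ y₂ : L}
    (h₁ : W.Nonsingular x₁ y₁) (h₂ : W.Nonsingular x₂ y₂)
    (hP : n • Point.some x₁ y₁ h₁ = 0) (hQ : n • Point.some x₂ y₂ h₂ = 0)
    (hx : v (x₁ - x₂) < 1) (hy : v (y₁ - y₂) < 1)
    (hns : v (W.polynomialX.evalEval x₁ y₁) = 1 ∨ v (W.polynomialY.evalEval x₁ y₁) = 1) :
    Point.some x₁ y₁ h₁ = Point.some x₂ y₂ h₂ := by
  by_contra hne
  have hx₁ := v_x_le_one_of_nsmul_eq_zero v W ha₁ ha₂ ha₃ ha₄ ha₆ hn h₁ hP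
  have hx₂ := v_x_le_one_of_nsmul_eq_zero v W ha₁ ha₂ ha₃ ha₄ ha₆ hn h₂ hQ
  obtain ⟨x₃, y₃, h₃, he, hv⟩ :=
    exists_sub_eq_some_of_same_reduction v W ha₁ ha₂ h₁ h₂ hx₁ hx₂ hx hy hns hne
  have h0 : n • Point.some x₃ y₃ h₃ = 0 := by
    rw [← he, smul_sub, hP, hQ, sub_zero]
  exact absurd (v_x_le_one_of_nsmul_eq_zero v W ha₁ ha₂ ha₃ ha₄ ha₆ hn h₃ h0) (not_le.mpr hv)

/-! ### Versions for a valuation subring -/

section ValuationSubringVersions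

variable (A : ValuationSubring L)

lemma valuation_eq_one_iff_mem_and_not_mem_nonunits {x : L} :
    A.valuation x = 1 ↔ x ∈ A ∧ x ∉ A.nonunits := by
  rw [← A.valuation_le_one_iff, A.mem_nonunits_iff, not_lt]
  exact ⟨fun h => ⟨h.le, h.ge⟩, fun h => le_antisymm h.1 h.2⟩

/-- **Lemma A**, valuation subring version: torsion points of order a unit are integral. -/
theorem mem_of_nsmul_eq_zero [DecidableEq L] (W : Affine L)
    (ha₁ : W.a₁ ∈ A) (ha₂ : W.a₂ ∈ A) (ha₃ : W.a₃ ∈ A) (ha₄ : W.a₄ ∈ A) (ha₆ : W.a₆ ∈ A)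
    {n : ℕ} (hn : (n : L) ∉ A.nonunits) {x y : L} (h : W.Nonsingular x y)
    (hP : n • Point.some x y h = 0) : x ∈ A ∧ y ∈ A := by
  have hn1 : A.valuation (n : L) = 1 :=
    (valuation_eq_one_iff_mem_and_not_mem_nonunits A).mpr ⟨natCast_mem A n, hn⟩
  have := v_le_one_of_nsmul_eq_zero A.valuation W ((A.valuation_le_one_iff _).mpr ha₁)
    ((A.valuation_le_one_iff _).mpr ha₂) ((A.valuation_le_one_iff _).mpr ha₃)
    ((A.valuation_le_one_iff _).mpr ha₄) ((A.valuation_le_one_iff _).mpr ha₆) hn1 h hP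
  exact ⟨(A.valuation_le_one_iff _).mp this.1, (A.valuation_le_one_iff _).mp this.2⟩

/-- **Lemma B**, valuation subring version: two integral points with the same nonsingular
reduction differ by a point with non-integral `x`-coordinate. -/
theorem exists_sub_eq_some_of_same_reduction_of_mem [DecidableEq L] (W : Affine L)
    (ha₁ : W.a₁ ∈ A) (ha₂ : W.a₂ ∈ A) {x₁ y₁ x₂ y₂ : L}
    (h₁ : W.Nonsingular x₁ y₁) (h₂ : W.Nonsingular x₂ y₂) (hx₁ : x₁ ∈ A) (hx₂ : x₂ ∈ A)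
    (hx : x₁ - x₂ ∈ A.nonunits) (hy : y₁ - y₂ ∈ A.nonunits)
    (hns : W.polynomialX.evalEval x₁ y₁ ∉ A.nonunits ∨ W.polynomialY.evalEval x₁ y₁ ∉ A.nonunits)
    (hXY : W.polynomialX.evalEval x₁ y₁ ∈ A ∧ W.polynomialY.evalEval x₁ y₁ ∈ A)
    (hne : Point.some x₁ y₁ h₁ ≠ Point.some x₂ y₂ h₂) :
    ∃ x₃ y₃ h₃, Point.some x₁ y₁ h₁ - Point.some x₂ y₂ h₂ = Point.some x₃ y₃ h₃ ∧ x₃ ∉ A := by
  have hns' : A.valuation (W.polynomialX.evalEval x₁ y₁) = 1 ∨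
      A.valuation (W.polynomialY.evalEval x₁ y₁) = 1 := by
    rcases hns with h | h
    · exact Or.inl ((valuation_eq_one_iff_mem_and_not_mem_nonunits A).mpr ⟨hXY.1, h⟩)
    · exact Or.inr ((valuation_eq_one_iff_mem_and_not_mem_nonunits A).mpr ⟨hXY.2, h⟩)
  obtain ⟨x₃, y₃, h₃, he, hv⟩ := exists_sub_eq_some_of_same_reduction A.valuation W
    ((A.valuation_le_one_iff _).mpr ha₁) ((A.valuation_le_one_iff _).mpr ha₂) h₁ h₂
    ((A.valuation_le_one_iff _).mpr hx₁) ((A.valuation_le_one_iff _).mpr hx₂)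
    (A.mem_nonunits_iff.mp hx) (A.mem_nonunits_iff.mp hy) hns' hne
  refine ⟨x₃, y₃, h₃, he, fun hmem => ?_⟩
  exact absurd ((A.valuation_le_one_iff _).mpr hmem) (not_le.mpr hv)

/-- The partial derivatives at an integral point of an integral curve are integral. -/
lemma polynomialXY_evalEval_mem (W : Affine L)
    (ha₁ : W.a₁ ∈ A) (ha₂ : W.a₂ ∈ A) (ha₃ : W.a₃ ∈ A) (ha₄ : W.a₄ ∈ A)
    {x y : L} (hx : x ∈ A) (hy : y ∈ A) :
    W.polynomialX.evalEval x y ∈ A ∧ W.polynomialY.evalEval x y ∈ A := by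
  rw [evalEval_polynomialX, evalEval_polynomialY]
  constructor
  · repeat' first
      | assumption
      | apply Subring.add_mem
      | apply Subring.mul_mem
      | apply Subring.sub_mem
      | apply Subring.neg_mem
      | apply Subring.pow_mem
      | apply Subring.one_mem
      | apply ofNat_mem
  · repeat' first
      | assumption
      | apply Subring.add_mem
      | apply Subring.mul_mem
      | apply Subring.sub_mem
      | apply Subring.neg_mem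
      | apply Subring.pow_mem
      | apply Subring.one_mem
      | apply ofNat_mem

/-- **Injectivity of reduction on torsion**, valuation subring version: two `n`-torsion points
(`n` a unit of `A`) of an integral Weierstrass curve which have the same reduction, nonsingular
on the reduced curve, are equal. -/
theorem eq_of_same_reduction_of_nsmul_eq_zero_of_mem [DecidableEq L] (W : Affine L)
    (ha₁ : W.a₁ ∈ A) (ha₂ : W.a₂ ∈ A) (ha₃ : W.a₃ ∈ A) (ha₄ : W.a₄ ∈ A) (ha₆ : W.a₆ ∈ A)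
    {n : ℕ} (hn : (n : L) ∉ A.nonunits) {x₁ y₁ x₂ y₂ : L}
    (h₁ : W.Nonsingular x₁ y₁) (h₂ : W.Nonsingular x₂ y₂)
    (hP : n • Point.some x₁ y₁ h₁ = 0) (hQ : n • Point.some x₂ y₂ h₂ = 0)
    (hx : x₁ - x₂ ∈ A.nonunits) (hy : y₁ - y₂ ∈ A.nonunits)
    (hns : W.polynomialX.evalEval x₁ y₁ ∉ A.nonunits ∨
      W.polynomialY.evalEval x₁ y₁ ∉ A.nonunits) :
    Point.some x₁ y₁ h₁ = Point.some x₂ y₂ h₂ := by
  have hn1 : A.valuation (n : L) = 1 :=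
    (valuation_eq_one_iff_mem_and_not_mem_nonunits A).mpr ⟨natCast_mem A n, hn⟩
  obtain ⟨hx₁, hy₁⟩ := mem_of_nsmul_eq_zero A W ha₁ ha₂ ha₃ ha₄ ha₆ hn h₁ hP
  have hXY := polynomialXY_evalEval_mem A W ha₁ ha₂ ha₃ ha₄ hx₁ hy₁
  have hns' : A.valuation (W.polynomialX.evalEval x₁ y₁) = 1 ∨
      A.valuation (W.polynomialY.evalEval x₁ y₁) = 1 := by
    rcases hns with h | h
    · exact Or.inl ((valuation_eq_one_iff_mem_and_not_mem_nonunits A).mpr ⟨hXY.1, h⟩)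
    · exact Or.inr ((valuation_eq_one_iff_mem_and_not_mem_nonunits A).mpr ⟨hXY.2, h⟩)
  exact eq_of_same_reduction_of_nsmul_eq_zero A.valuation W
    ((A.valuation_le_one_iff _).mpr ha₁) ((A.valuation_le_one_iff _).mpr ha₂)
    ((A.valuation_le_one_iff _).mpr ha₃) ((A.valuation_le_one_iff _).mpr ha₄)
    ((A.valuation_le_one_iff _).mpr ha₆) hn1 h₁ h₂ hP hQ
    (A.mem_nonunits_iff.mp hx) (A.mem_nonunits_iff.mp hy) hns'

end ValuationSubringVersions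

end Fermat.Agent.S13
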