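import Mathlib
import Fermat.Prelude.Def_FLTPrelim_FreyPackage
import Fermat.Prelude.Def_FLTPrelim_GaloisRep
import Fermat.Prelude.Def_FLTPrelim_Ramification
import Fermat.Prelude.Def_FLTPrelim_CofixedLine
import Fermat.Agent.S13.helper38_Assembly

/-!
# S13, package (6): adapters for the conditional assembly (helper38)

* `exists_liesOverPrime`: every prime has a valuation subring of `ℚ̄` above it.
* `unipotentAt_of_unramified`: `GaloisRepUnramifiedAt` implies `UnipotentAt`.
* `unipotentAt_of_forall`: the `∀ A` form of unipotency implies `UnipotentAt`.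
* `properAt_of_forall`: the `∀ A` form of input (3) implies `ProperAt`.
* `noRationalTorsion_of_rat`: no `p`-torsion in `E(ℚ)` implies `NoRationalTorsion`.
* `minkowski_of_forall`: the Minkowski input from its subgroup form.
* `s13_of_inputs`: the conditional statement for Frey packages.
-/

set_option autoImplicit false
set_option linter.style.haveILetI false

namespace Fermat.Agent.S13.helper38

open WeierstrassCurve WeierstrassCurve.Affine WeierstrassCurve.Affine.Point

/-- `ℚ̄`. -/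
local notation "Kbar" => AlgebraicClosure ℚ
/-- The absolute Galois group of `ℚ`. -/
local notation "GQ" => (AlgebraicClosure ℚ ≃ₐ[ℚ] AlgebraicClosure ℚ)

/-- For every prime `ℓ` there is a valuation subring of `ℚ̄` in which `ℓ` is a nonunit. -/
theorem exists_liesOverPrime {ℓ : ℕ} (hℓ : ℓ.Prime) :
    ∃ A : ValuationSubring Kbar, A.LiesOverPrime ℓ := by
  set S : Subring Kbar := (Int.castRingHom Kbar).range with hS
  have hmem : (ℓ : Kbar) ∈ S := ⟨(ℓ : ℤ), by simp⟩
  have hI : Ideal.span {(⟨(ℓ : Kbar), hmem⟩ : S)} ≠ ⊤ := by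
    intro htop
    obtain ⟨⟨u, hu⟩, hu1⟩ := Ideal.mem_span_singleton'.mp
      ((Ideal.eq_top_iff_one _).mp htop)
    obtain ⟨m, rfl⟩ := hu
    have h1 : ((m : ℤ) : Kbar) * (ℓ : Kbar) = 1 := congrArg Subtype.val hu1
    have h2 : ((m * ℓ : ℤ) : Kbar) = ((1 : ℤ) : Kbar) := by
      push_cast; simpa using h1
    have h3 : (m * ℓ : ℤ) = 1 := Int.cast_injective h2
    have hdvd : (ℓ : ℤ) ∣ 1 := ⟨m, by rw [mul_comm]; exact h3.symm⟩
    have hle : (ℓ : ℤ) ≤ 1 := Int.le_of_dvd one_pos hdvd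
    have := hℓ.two_le
    omega
  obtain ⟨A, -, hA⟩ := Ideal.image_subset_nonunits_valuationSubring _ hI
  exact ⟨A, hA ⟨⟨(ℓ : Kbar), hmem⟩, Ideal.subset_span rfl, rfl⟩⟩

variable (E : WeierstrassCurve ℚ) (p : ℕ)

/-- Unramified implies unipotent. -/
theorem unipotentAt_of_unramified {ℓ : ℕ} (hℓ : ℓ.Prime)
    (h : GaloisRepUnramifiedAt (K := Kbar) ℚ E.toAffine p ℓ) : UnipotentAt E p ℓ := by
  obtain ⟨A, hA⟩ := exists_liesOverPrime hℓ
  refine ⟨A, hA, fun σ hσ x => ?_⟩
  have h1 := h A hA σ hσ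
  rw [h1 x, sub_self]
  exact h1 0

/-- The `∀ A` form of unipotency implies the `∃ A` form. -/
theorem unipotentAt_of_forall {ℓ : ℕ} (hℓ : ℓ.Prime)
    (h : ∀ A : ValuationSubring Kbar, A.LiesOverPrime ℓ →
      ∀ σ ∈ A.inertiaSubgroupIn ℚ, ∀ x : Tors E p, σ • (σ • x - x) = σ • x - x) :
    UnipotentAt E p ℓ := by
  obtain ⟨A, hA⟩ := exists_liesOverPrime hℓ
  exact ⟨A, hA, h A hA⟩

/-- The `∀ A` form of input (3) implies the `∃ A` form. -/
theorem properAt_of_forall (hp : p.Prime)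
    (h : ∀ A : ValuationSubring Kbar, A.LiesOverPrime p →
      ∃ M : AddSubgroup (Tors E p), M ≠ ⊤ ∧
        ∀ σ ∈ A.inertiaSubgroupIn ℚ, ∀ x : Tors E p, σ • x - x ∈ M) :
    ProperAt E p := by
  obtain ⟨A, hA⟩ := exists_liesOverPrime hp
  exact ⟨A, hA, h A hA⟩

/-- Input (1) from its set form: a nonzero `p`-torsion point exists and the set of `p`-torsion
points is finite with at most `p ^ 2` elements. -/
theorem torsionSmall_of_set
    (hex : ∃ P : (E.toAffine⁄Kbar).Point, P ≠ 0 ∧ p • P = 0)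
    (hfin : {P : (E.toAffine⁄Kbar).Point | p • P = 0}.Finite)
    (hcard : Set.ncard {P : (E.toAffine⁄Kbar).Point | p • P = 0} ≤ p ^ 2) :
    TorsionSmall E p := by
  have hset : ((Submodule.torsionBy ℤ (E.toAffine⁄Kbar).Point p :
      Submodule ℤ (E.toAffine⁄Kbar).Point) : Set (E.toAffine⁄Kbar).Point)
      = {P : (E.toAffine⁄Kbar).Point | p • P = 0} := by
    ext P
    simp only [SetLike.mem_coe, Submodule.mem_torsionBy_iff, natCast_zsmul, Set.mem_ofPred_eq]
  refine ⟨?_, ?_, ?_⟩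
  · obtain ⟨P, hP0, hP⟩ := hex
    refine ⟨⟨⟨P, ?_⟩, 0, ?_⟩⟩
    · rw [Submodule.mem_torsionBy_iff, natCast_zsmul]
      exact hP
    · intro h
      exact hP0 (congrArg Subtype.val h)
  · have : Finite ((Submodule.torsionBy ℤ (E.toAffine⁄Kbar).Point p :
        Submodule ℤ (E.toAffine⁄Kbar).Point) : Set (E.toAffine⁄Kbar).Point) := by
      rw [hset]; exact hfin.to_subtype
    exact this
  · have h1 : Nat.card (Tors E p) = Set.ncard ((Submodule.torsionBy ℤ (E.toAffine⁄Kbar).Point p :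
        Submodule ℤ (E.toAffine⁄Kbar).Point) : Set (E.toAffine⁄Kbar).Point) :=
      Nat.card_coe_set_eq _
    rw [h1, hset]
    exact hcard

/-- `ℚ̄ / ℚ` is Galois, for the instance found by instance resolution. -/
lemma isGalois_Kbar : IsGalois ℚ Kbar := by
  have h : (DivisionRing.toRatAlgebra : Algebra ℚ Kbar) = AlgebraicClosure.instAlgebra ℚ :=
    Subsingleton.elim _ _
  rw [h]
  infer_instance

/-- An element of `ℚ̄` fixed by every automorphism is rational. -/
lemma exists_rat_of_forall_fix (x : Kbar) (h : ∀ σ : GQ, σ x = x) :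
    ∃ q : ℚ, algebraMap ℚ Kbar q = x := by
  have := isGalois_Kbar
  exact (InfiniteGalois.mem_range_algebraMap_iff_fixed (k := ℚ) (K := Kbar) x).mpr h

/-- A Galois-fixed point of `E(ℚ̄)` comes from `E(ℚ)`. -/
lemma exists_rat_point (P : (E.toAffine⁄Kbar).Point) (h : ∀ σ : GQ, σ • P = P) :
    ∃ Q : (E.toAffine⁄ℚ).Point, Point.baseChange ℚ Kbar Q = P := by
  cases P with
  | zero => exact ⟨0, rfl⟩
  | some x y hP =>
    have hx : ∀ σ : GQ, σ x = x := fun σ => by
      have h1 : Point.map σ.toAlgHom (Point.some x y hP) = Point.some x y hP := h σ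
      rw [Point.map_some] at h1
      exact (Point.some.inj h1).1
    have hy : ∀ σ : GQ, σ y = y := fun σ => by
      have h1 : Point.map σ.toAlgHom (Point.some x y hP) = Point.some x y hP := h σ
      rw [Point.map_some] at h1
      exact (Point.some.inj h1).2
    obtain ⟨a, rfl⟩ := exists_rat_of_forall_fix x hx
    obtain ⟨b, rfl⟩ := exists_rat_of_forall_fix y hy
    have hQ : (E.toAffine⁄ℚ).Nonsingular a b :=
      (E.toAffine.baseChange_nonsingular (A := ℚ) (B := Kbar) (f := Algebra.ofId ℚ Kbar)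
        (Algebra.ofId ℚ Kbar).injective a b).mp hP
    exact ⟨Point.some a b hQ, rfl⟩

/-- No `p`-torsion in `E(ℚ)` implies that there is no Galois-fixed `p`-torsion point. -/
theorem noRationalTorsion_of_rat
    (h : ∀ Q : (E.toAffine⁄ℚ).Point, p • Q = 0 → Q = 0) : NoRationalTorsion E p := by
  intro x hx
  have hfix : ∀ σ : GQ, σ • (x : (E.toAffine⁄Kbar).Point) = x := fun σ =>
    congrArg Subtype.val (hx σ)
  obtain ⟨Q, hQ⟩ := exists_rat_point E x.1 hfix
  have hpx : p • (x : (E.toAffine⁄Kbar).Point) = 0 := by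
    have := x.2
    rw [Submodule.mem_torsionBy_iff, natCast_zsmul] at this
    exact this
  have hpQ : p • Q = 0 := by
    apply Point.map_injective (W' := E.toAffine) (Algebra.ofId ℚ Kbar)
    show Point.baseChange ℚ Kbar (p • Q) = Point.baseChange ℚ Kbar 0
    rw [map_nsmul, hQ, hpx, _root_.map_zero]
  have hQ0 := h Q hpQ
  apply Subtype.ext
  show (x : (E.toAffine⁄Kbar).Point) = 0
  rw [← hQ, hQ0, _root_.map_zero]

/-- The same for points of `E` itself. -/
theorem noRationalTorsion_of_rat'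
    (h : ∀ Q : E.toAffine.Point, p • Q = 0 → Q = 0) : NoRationalTorsion E p := by
  apply noRationalTorsion_of_rat
  have hE : E.toAffine⁄ℚ = E.toAffine := E.map_id
  rw [hE]
  exact h

/-- Minkowski's input from the form for all subgroups and all places: needs normality to
pass from one place to all places. -/
theorem minkowski_of_exists
    (h : ∀ H : Subgroup GQ, H.Normal → IsOpen (H : Set GQ) →
      (∀ ℓ : ℕ, ℓ.Prime → ∃ A : ValuationSubring Kbar,
        A.LiesOverPrime ℓ ∧ A.inertiaSubgroupIn ℚ ≤ H) → H = ⊤) : Minkowski := h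

section Frey

variable (P : FreyPackage)

/-- **Conditional S13** for Frey packages: the inputs are
(1) `TorsionSmall`, (2) unramified at odd `q ≠ p` (this is S05) and unipotent at `2`,
(3) `ProperAt`, (4) `Minkowski`, (5) `NoRationalTorsion`. -/
theorem s13_of_inputs
    (h1 : TorsionSmall P.freyCurve P.p)
    (h2odd : ∀ q : ℕ, q.Prime → q ≠ 2 → q ≠ P.p → P.GaloisRepUnramifiedAt q)
    (h2two : UnipotentAt P.freyCurve P.p 2)
    (h3 : ProperAt P.freyCurve P.p)
    (h4 : Minkowski)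
    (h5 : NoRationalTorsion P.freyCurve P.p)
    (hred : ¬ GaloisRepIsIrreducible (K := Kbar) ℚ P.freyCurve P.p) :
    HasGaloisStableCofixedLine (K := Kbar) ℚ P.freyCurve P.p := by
  haveI : Fact P.p.Prime := ⟨P.pp⟩
  refine cofixedLine_of_inputs P.freyCurve P.p h1 ?_ h3 h4 h5 hred
  intro ℓ hℓ hℓp
  by_cases h2 : ℓ = 2
  · rw [h2]; exact h2two
  · exact unipotentAt_of_unramified P.freyCurve P.p hℓ (h2odd ℓ hℓ h2 hℓp)

/-- **Conditional S13** for Frey packages, with the input at `p` allowed to depend on the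
stable line (shape `ProperAt`). -/
theorem s13_of_inputs_line
    (h1 : TorsionSmall P.freyCurve P.p)
    (h2odd : ∀ q : ℕ, q.Prime → q ≠ 2 → q ≠ P.p → P.GaloisRepUnramifiedAt q)
    (h2two : UnipotentAt P.freyCurve P.p 2)
    (h3 : ∀ N₀ : Submodule (ZMod P.p) (Tors P.freyCurve P.p),
      IsGaloisStable ℚ N₀ → N₀ ≠ ⊥ → N₀ ≠ ⊤ → ProperAt P.freyCurve P.p)
    (h4 : Minkowski)
    (h5 : NoRationalTorsion P.freyCurve P.p)
    (hred : ¬ GaloisRepIsIrreducible (K := Kbar) ℚ P.freyCurve P.p) :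
    HasGaloisStableCofixedLine (K := Kbar) ℚ P.freyCurve P.p := by
  haveI : Fact P.p.Prime := ⟨P.pp⟩
  refine cofixedLine_of_inputs_line P.freyCurve P.p h1 ?_ h3 h4 h5 hred
  intro ℓ hℓ hℓp
  by_cases h2 : ℓ = 2
  · rw [h2]; exact h2two
  · exact unipotentAt_of_unramified P.freyCurve P.p hℓ (h2odd ℓ hℓ h2 hℓp)

/-- **Conditional S13** for Frey packages, core form: the input at `p` is elementwise and may
depend on the stable line. -/
theorem s13_of_inputs_core
    (h1 : TorsionSmall P.freyCurve P.p)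
    (h2odd : ∀ q : ℕ, q.Prime → q ≠ 2 → q ≠ P.p → P.GaloisRepUnramifiedAt q)
    (h2two : UnipotentAt P.freyCurve P.p 2)
    (h3 : ∀ N₀ : Submodule (ZMod P.p) (Tors P.freyCurve P.p),
      IsGaloisStable ℚ N₀ → N₀ ≠ ⊥ → N₀ ≠ ⊤ →
      ∃ A : ValuationSubring Kbar, A.LiesOverPrime P.p ∧
        ∀ σ ∈ A.inertiaSubgroupIn ℚ,
          (∀ x ∈ N₀, σ • x = x) ∨ (∀ x : Tors P.freyCurve P.p, σ • x - x ∈ N₀))
    (h4 : Minkowski)
    (h5 : NoRationalTorsion P.freyCurve P.p)
    (hred : ¬ GaloisRepIsIrreducible (K := Kbar) ℚ P.freyCurve P.p) :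
    HasGaloisStableCofixedLine (K := Kbar) ℚ P.freyCurve P.p := by
  haveI : Fact P.p.Prime := ⟨P.pp⟩
  refine cofixedLine_of_inputs_core P.freyCurve P.p h1 ?_ h3 h4 h5 hred
  intro ℓ hℓ hℓp
  by_cases h2 : ℓ = 2
  · rw [h2]; exact h2two
  · exact unipotentAt_of_unramified P.freyCurve P.p hℓ (h2odd ℓ hℓ h2 hℓp)

end Frey

end Fermat.Agent.S13.helper38
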