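import Mathlib

/-!
# x-only arithmetic on Weierstrass curves (helper64, for S13)

Point-level lemmas, over a field `F`, for a Weierstrass curve `W` in affine coordinates:

* `psi2sq`, `dupNum`, `sumNum`: the numerators/denominators of the x-only doubling and
  "sum of `x(A+B)` and `x(A-B)`" formulas, in homogeneous form;
* `xRep_two_nsmul`: projective x-only doubling;
* `xRep_add_of_sub`: projective x-only differential addition.
-/

set_option autoImplicit false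

open WeierstrassCurve WeierstrassCurve.Affine

namespace Fermat.Agent.S13.helper64

section defs

variable {A : Type*} [CommRing A]

/-- Homogeneous numerator of the x-only doubling formula. -/
def dblX (b₄ b₆ b₈ U V : A) : A :=
  U ^ 4 - b₄ * U ^ 2 * V ^ 2 - 2 * b₆ * U * V ^ 3 - b₈ * V ^ 4

/-- Homogeneous denominator of the x-only doubling formula. -/
def dblZ (b₂ b₄ b₆ U V : A) : A :=
  V * (4 * U ^ 3 + b₂ * U ^ 2 * V + 2 * b₄ * U * V ^ 2 + b₆ * V ^ 3)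

/-- The difference `X₁ Z₂ - X₂ Z₁`. -/
def oddT (X₁ Z₁ X₂ Z₂ : A) : A := X₁ * Z₂ - X₂ * Z₁

/-- Homogeneous numerator of `x(A+B) + x(A-B)`. -/
def sumNum (b₂ b₄ b₆ X₁ Z₁ X₂ Z₂ : A) : A :=
  2 * X₁ * X₂ * (X₁ * Z₂ + X₂ * Z₁) + b₂ * X₁ * X₂ * Z₁ * Z₂
    + b₄ * Z₁ * Z₂ * (X₁ * Z₂ + X₂ * Z₁) + b₆ * Z₁ ^ 2 * Z₂ ^ 2

/-- The `X`-coordinate of the differential addition, where `x` is the x-coordinate of `A - B`. -/
def oddX (b₂ b₄ b₆ x X₁ Z₁ X₂ Z₂ : A) : A :=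
  sumNum b₂ b₄ b₆ X₁ Z₁ X₂ Z₂ - x * oddT X₁ Z₁ X₂ Z₂ ^ 2

/-- The `Z`-coordinate of the differential addition. -/
def oddZ (X₁ Z₁ X₂ Z₂ : A) : A := oddT X₁ Z₁ X₂ Z₂ ^ 2

lemma dblX_smul (b₄ b₆ b₈ c U V : A) :
    dblX b₄ b₆ b₈ (c * U) (c * V) = c ^ 4 * dblX b₄ b₆ b₈ U V := by
  simp only [dblX]; ring

lemma dblZ_smul (b₂ b₄ b₆ c U V : A) :
    dblZ b₂ b₄ b₆ (c * U) (c * V) = c ^ 4 * dblZ b₂ b₄ b₆ U V := by
  simp only [dblZ]; ring

lemma oddX_smul (b₂ b₄ b₆ x c₁ c₂ X₁ Z₁ X₂ Z₂ : A) :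
    oddX b₂ b₄ b₆ x (c₁ * X₁) (c₁ * Z₁) (c₂ * X₂) (c₂ * Z₂) =
      (c₁ * c₂) ^ 2 * oddX b₂ b₄ b₆ x X₁ Z₁ X₂ Z₂ := by
  simp only [oddX, sumNum, oddT]; ring

lemma oddZ_smul (c₁ c₂ X₁ Z₁ X₂ Z₂ : A) :
    oddZ (c₁ * X₁) (c₁ * Z₁) (c₂ * X₂) (c₂ * Z₂) = (c₁ * c₂) ^ 2 * oddZ X₁ Z₁ X₂ Z₂ := by
  simp only [oddZ, oddT]; ring

end defs

section field

variable {F : Type*} [Field F] {W : Affine F}

/-- `ψ₂² = 4x³ + b₂x² + 2b₄x + b₆`. -/
lemma psi2sq_eq {x y : F} (h : W.Equation x y) :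
    dblZ W.b₂ W.b₄ W.b₆ x 1 = (y - W.negY x y) ^ 2 := by
  rw [equation_iff] at h
  simp only [dblZ, negY, WeierstrassCurve.b₂, WeierstrassCurve.b₄, WeierstrassCurve.b₆]
  linear_combination (-4 : F) * h

/-- Bezout identity between `ψ₂²` and the doubling numerator: they have no common zero when
`Δ ≠ 0`. -/
lemma bezout_dbl (W : WeierstrassCurve F) (x : F) :
    (-(48 * x ^ 2 + 8 * W.b₂ * x - W.b₂ ^ 2 + 32 * W.b₄)) * dblX W.b₄ W.b₆ W.b₈ x 1 +
      (12 * x ^ 3 - W.b₂ * x ^ 2 - 10 * W.b₄ * x + W.b₂ * W.b₄ - 27 * W.b₆) *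
        dblZ W.b₂ W.b₄ W.b₆ x 1 = W.Δ := by
  have hb := W.b_relation
  simp only [dblX, dblZ, WeierstrassCurve.Δ]
  linear_combination (12 * x ^ 2 + 2 * W.b₂ * x + 8 * W.b₄) * hb

lemma dblZ_zero (b₂ b₄ b₆ U : F) : dblZ b₂ b₄ b₆ U 0 = 0 := by simp [dblZ]

lemma dblX_zero (b₄ b₆ b₈ U : F) : dblX b₄ b₆ b₈ U 0 = U ^ 4 := by simp [dblX]

/-- x-only doubling formula, in the form `dupNum(x) = x(2P) ψ₂²(x)`. -/
lemma dblX_eq_addX_mul {x y : F} (h : W.Equation x y) (ℓ : F)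
    (hℓ : ℓ * (y - W.negY x y) = 3 * x ^ 2 + 2 * W.a₂ * x + W.a₄ - W.a₁ * y) :
    dblX W.b₄ W.b₆ W.b₈ x 1 = W.addX x x ℓ * dblZ W.b₂ W.b₄ W.b₆ x 1 := by
  rw [psi2sq_eq h]
  rw [equation_iff] at h
  simp only [dblX, negY, addX, WeierstrassCurve.b₄, WeierstrassCurve.b₆,
    WeierstrassCurve.b₈] at hℓ ⊢
  linear_combination (8 * x + W.a₁ ^ 2 + 4 * W.a₂) * h +
    (-(3 * x ^ 2 + 2 * W.a₂ * x + W.a₄ - W.a₁ * y) - ℓ * (y - (-y - W.a₁ * x - W.a₃))
      - W.a₁ * (y - (-y - W.a₁ * x - W.a₃))) * hℓ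

/-- x-only formula for `x(A+B) + x(A-B)`. -/
lemma sumNum_eq {x₁ y₁ x₂ y₂ : F} (h₁ : W.Equation x₁ y₁) (h₂ : W.Equation x₂ y₂) (ℓp ℓm : F)
    (hp : ℓp * (x₁ - x₂) = y₁ - y₂) (hm : ℓm * (x₁ - x₂) = y₁ - W.negY x₂ y₂) :
    sumNum W.b₂ W.b₄ W.b₆ x₁ 1 x₂ 1 =
      (W.addX x₁ x₂ ℓp + W.addX x₁ x₂ ℓm) * (x₁ - x₂) ^ 2 := by
  rw [equation_iff] at h₁ h₂
  simp only [sumNum, negY, addX, WeierstrassCurve.b₂, WeierstrassCurve.b₄,
    WeierstrassCurve.b₆] at hm ⊢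
  linear_combination (-2 : F) * h₁ - 2 * h₂ +
    (-(ℓp * (x₁ - x₂)) - (y₁ - y₂) - W.a₁ * (x₁ - x₂)) * hp +
    (-(ℓm * (x₁ - x₂)) - (y₁ - (-y₂ - W.a₁ * x₂ - W.a₃)) - W.a₁ * (x₁ - x₂)) * hm

end field

section point

variable {F : Type*} [Field F] {W : Affine F}

/-- `(U, V)` is a projective representative of the x-coordinate of `P`. -/
def IsRep (P : W.Point) (U V : F) : Prop :=
  ∃ c : F, c ≠ 0 ∧ U = c * P.xRep 0 ∧ V = c * P.xRep 1

lemma isRep_zero_iff {U V : F} : IsRep (0 : W.Point) U V ↔ U ≠ 0 ∧ V = 0 := by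
  constructor
  · rintro ⟨c, hc, rfl, rfl⟩
    simp [hc]
  · rintro ⟨hU, rfl⟩
    exact ⟨U, hU, by simp, by simp⟩

lemma isRep_some_iff {x y : F} {h : W.Nonsingular x y} {U V : F} :
    IsRep (Point.some x y h) U V ↔ V ≠ 0 ∧ U = x * V := by
  constructor
  · rintro ⟨c, hc, rfl, rfl⟩
    simp [hc, mul_comm]
  · rintro ⟨hV, rfl⟩
    exact ⟨V, hV, by simp [mul_comm], by simp⟩

lemma IsRep.eq_zero_iff {P : W.Point} {U V : F} (h : IsRep P U V) : V = 0 ↔ P = 0 := by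
  cases P with
  | zero => exact ⟨fun _ => rfl, fun _ => (isRep_zero_iff.mp h).2⟩
  | some x y hP =>
    have := (isRep_some_iff.mp h).1
    exact ⟨fun h0 => absurd h0 this, fun h0 => absurd h0 (Point.some_ne_zero hP)⟩

/-- Projective x-only doubling. -/
theorem IsRep.two_nsmul [DecidableEq F] (hΔ : W.Δ ≠ 0) {P : W.Point} {U V : F} (h : IsRep P U V) :
    IsRep (2 • P) (dblX W.b₄ W.b₆ W.b₈ U V) (dblZ W.b₂ W.b₄ W.b₆ U V) := by
  cases P with
  | zero =>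
    obtain ⟨hU, rfl⟩ := isRep_zero_iff.mp h
    have h0 : (2 : ℕ) • (Point.zero : W.Point) = 0 := smul_zero 2
    rw [h0, isRep_zero_iff, dblX_zero, dblZ_zero]
    exact ⟨pow_ne_zero 4 hU, rfl⟩
  | some x y hP =>
    obtain ⟨hV, rfl⟩ := isRep_some_iff.mp h
    have e1 : dblX W.b₄ W.b₆ W.b₈ (x * V) V = V ^ 4 * dblX W.b₄ W.b₆ W.b₈ x 1 := by
      simp only [dblX]; ring
    have e2 : dblZ W.b₂ W.b₄ W.b₆ (x * V) V = V ^ 4 * dblZ W.b₂ W.b₄ W.b₆ x 1 := by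
      simp only [dblZ]; ring
    rw [e1, e2]
    have hV4 : V ^ 4 ≠ 0 := pow_ne_zero 4 hV
    by_cases hy : y = W.negY x y
    · have h0 : (2 : ℕ) • Point.some x y hP = 0 := by
        rw [_root_.two_nsmul]; exact Point.add_self_of_Y_eq hy
      have hz : dblZ W.b₂ W.b₄ W.b₆ x 1 = 0 := by
        rw [psi2sq_eq hP.1, sub_eq_zero.mpr hy]; ring
      have hx : dblX W.b₄ W.b₆ W.b₈ x 1 ≠ 0 := by
        intro hx
        have := bezout_dbl W x
        rw [hx, hz, mul_zero, mul_zero, add_zero] at this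
        exact hΔ this.symm
      rw [h0, isRep_zero_iff, hz, mul_zero]
      exact ⟨mul_ne_zero hV4 hx, rfl⟩
    · have h2 : (2 : ℕ) • Point.some x y hP = Point.some _ _
          (nonsingular_add hP hP fun hxy => hy hxy.right) := by
        rw [_root_.two_nsmul]; exact Point.add_self_of_Y_ne hy
      have hψ : y - W.negY x y ≠ 0 := sub_ne_zero.mpr hy
      have hz : dblZ W.b₂ W.b₄ W.b₆ x 1 ≠ 0 := by
        rw [psi2sq_eq hP.1]; exact pow_ne_zero 2 hψ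
      have hℓ : W.slope x x y y * (y - W.negY x y) =
          3 * x ^ 2 + 2 * W.a₂ * x + W.a₄ - W.a₁ * y := by
        rw [slope_of_Y_ne rfl hy, div_mul_cancel₀ _ hψ]
      rw [h2, isRep_some_iff, dblX_eq_addX_mul hP.1 _ hℓ]
      exact ⟨mul_ne_zero hV4 hz, by ring⟩

/-- Projective x-only differential addition: from representatives of `A`, `B` and the affine
x-coordinate of `A - B` we get a representative of `A + B`. -/
theorem IsRep.add_of_sub [DecidableEq F] {A B : W.Point} {X₁ Z₁ X₂ Z₂ x y : F} {h : W.Nonsingular x y}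
    (hA : IsRep A X₁ Z₁) (hB : IsRep B X₂ Z₂) (hAB : A - B = Point.some x y h) :
    IsRep (A + B) (oddX W.b₂ W.b₄ W.b₆ x X₁ Z₁ X₂ Z₂) (oddZ X₁ Z₁ X₂ Z₂) := by
  cases A with
  | zero =>
    obtain ⟨hU, rfl⟩ := isRep_zero_iff.mp hA
    have hB' : B = -Point.some x y h := by
      rw [← hAB]; change B = -(0 - B); simp
    subst hB'
    rw [Point.neg_some] at hB
    obtain ⟨hV, rfl⟩ := isRep_some_iff.mp hB
    have : (Point.zero : W.Point) + -Point.some x y h = Point.some _ _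
        ((nonsingular_neg ..).mpr h) := by
      change (0 : W.Point) + _ = _; rw [zero_add, Point.neg_some]
    rw [this, isRep_some_iff]
    refine ⟨?_, ?_⟩
    · simp only [oddZ, oddT]
      exact pow_ne_zero 2 (by simpa using mul_ne_zero hU hV)
    · simp only [oddX, oddZ, oddT, sumNum]; ring
  | some x₁ y₁ h₁ =>
    obtain ⟨hZ₁, rfl⟩ := isRep_some_iff.mp hA
    cases B with
    | zero =>
      obtain ⟨hU, rfl⟩ := isRep_zero_iff.mp hB
      have hx : x₁ = x := by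
        have : Point.some x₁ y₁ h₁ = Point.some x y h := by
          rw [← hAB]; change _ = _ - (0 : W.Point); simp
        injection this
      subst hx
      have : Point.some x₁ y₁ h₁ + (Point.zero : W.Point) = Point.some x₁ y₁ h₁ := by
        change _ + (0 : W.Point) = _; rw [add_zero]
      rw [this, isRep_some_iff]
      refine ⟨?_, ?_⟩
      · simp only [oddZ, oddT]
        exact pow_ne_zero 2 (by simpa using mul_ne_zero hU hZ₁)
      · simp only [oddX, oddZ, oddT, sumNum]; ring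
    | some x₂ y₂ h₂ =>
      obtain ⟨hZ₂, rfl⟩ := isRep_some_iff.mp hB
      have e1 : oddX W.b₂ W.b₄ W.b₆ x (x₁ * Z₁) Z₁ (x₂ * Z₂) Z₂ =
          (Z₁ * Z₂) ^ 2 * oddX W.b₂ W.b₄ W.b₆ x x₁ 1 x₂ 1 := by
        simp only [oddX, sumNum, oddT]; ring
      have e2 : oddZ (x₁ * Z₁) Z₁ (x₂ * Z₂) Z₂ = (Z₁ * Z₂) ^ 2 * oddZ x₁ 1 x₂ 1 := by
        simp only [oddZ, oddT]; ring
      rw [e1, e2]
      have hZZ : (Z₁ * Z₂) ^ 2 ≠ 0 := pow_ne_zero 2 (mul_ne_zero hZ₁ hZ₂)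
      by_cases hx : x₁ = x₂
      · -- `A = ± B`
        rcases Point.X_eq_iff.mp hx with hAB' | hAB'
        · rw [hAB', sub_self] at hAB
          exact absurd hAB.symm (Point.some_ne_zero h)
        · -- `A = -B`, so `A + B = 0` and `A - B = 2A ≠ 0`
          have hsum : Point.some x₁ y₁ h₁ + Point.some x₂ y₂ h₂ = 0 := by
            rw [hAB']; exact neg_add_cancel _
          have hy : y₁ ≠ W.negY x₁ y₁ := by
            intro hy
            have h2 : Point.some x₁ y₁ h₁ + Point.some x₁ y₁ h₁ = 0 :=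
              Point.add_self_of_Y_eq hy
            have : Point.some x₁ y₁ h₁ - Point.some x₂ y₂ h₂ = 0 := by
              have hB2 : Point.some x₂ y₂ h₂ = -Point.some x₁ y₁ h₁ := by
                rw [hAB', neg_neg]
              rw [hB2, sub_neg_eq_add, h2]
            rw [this] at hAB
            exact absurd hAB.symm (Point.some_ne_zero h)
          rw [hsum, isRep_zero_iff]
          subst hx
          refine ⟨mul_ne_zero hZZ ?_, by simp [oddZ, oddT]⟩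
          have : oddX W.b₂ W.b₄ W.b₆ x x₁ 1 x₁ 1 = dblZ W.b₂ W.b₄ W.b₆ x₁ 1 := by
            simp only [oddX, sumNum, oddT, dblZ]; ring
          rw [this, psi2sq_eq h₁.1]
          exact pow_ne_zero 2 (sub_ne_zero.mpr hy)
      · have hD : x₁ - x₂ ≠ 0 := sub_ne_zero.mpr hx
        have hsum : Point.some x₁ y₁ h₁ + Point.some x₂ y₂ h₂ = Point.some _ _
            (nonsingular_add h₁ h₂ fun hxy => hx hxy.left) := Point.add_of_X_ne hx
        have hdiff : Point.some x₁ y₁ h₁ - Point.some x₂ y₂ h₂ = Point.some _ _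
            (nonsingular_add h₁ ((nonsingular_neg ..).mpr h₂) fun hxy => hx hxy.left) := by
          rw [sub_eq_add_neg, Point.neg_some]; exact Point.add_of_X_ne hx
        rw [hdiff] at hAB
        have hxeq : W.addX x₁ x₂ (W.slope x₁ x₂ y₁ (W.negY x₂ y₂)) = x := by
          injection hAB
        rw [hsum, isRep_some_iff]
        have hp : W.slope x₁ x₂ y₁ y₂ * (x₁ - x₂) = y₁ - y₂ := by
          rw [slope_of_X_ne hx, div_mul_cancel₀ _ hD]
        have hm : W.slope x₁ x₂ y₁ (W.negY x₂ y₂) * (x₁ - x₂) = y₁ - W.negY x₂ y₂ := by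
          rw [slope_of_X_ne hx, div_mul_cancel₀ _ hD]
        have key := sumNum_eq h₁.1 h₂.1 _ _ hp hm
        rw [hxeq] at key
        refine ⟨mul_ne_zero hZZ (by simpa [oddZ, oddT] using hD), ?_⟩
        simp only [oddX, oddZ, oddT, key]
        ring

end point

end Fermat.Agent.S13.helper64
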