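/-
S13, node at `2`: valuation estimates in node coordinates, WITHOUT the hypothesis `v 2 = 1`
(port of `Fermat.Agent.S05.helper7` `NodeVal` to arbitrary residue characteristic).

The model is `M ^ 2 = 4 X ^ 3 + C2 X ^ 2 + 4 a4 X` with `v C2 = 1`, `v a4 < 1`; the quantities
`D₁₂ = (M₁ X₂ + M₂ X₁) / 2` and `E₁₂ = (M₂ X₁ - M₁ X₂) / 2` enter only through the identities
they satisfy.
-/
import Fermat.Agent.S05.helper7_Sawtooth

set_option autoImplicit false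
set_option linter.unusedSimpArgs false
set_option linter.unusedVariables false
set_option linter.unusedSectionVars false

namespace Fermat.Agent.S13.helper95

open Fermat.Agent.S05.helper7

variable {K : Type*} [Field K] {Γ₀ : Type*} [LinearOrderedCommGroupWithZero Γ₀]
  {v : Valuation K Γ₀} {a4 C2 : K}

/-- Valuation hypotheses on the node model `M ^ 2 = 4 X ^ 3 + C2 X ^ 2 + 4 a4 X`. -/
structure NodeVal2 (v : Valuation K Γ₀) (a4 C2 : K) : Prop where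
  vC2 : v C2 = 1
  va4 : v a4 < 1

lemma v_two_le_one (v : Valuation K Γ₀) : v (2 : K) ≤ 1 := by
  have h : (2 : K) = 1 + 1 := by norm_num
  rw [h]
  refine le_trans (Valuation.map_add _ _ _) ?_
  rw [max_self, map_one]

lemma v_four_le_one (v : Valuation K Γ₀) : v (4 : K) ≤ 1 := by
  have h : (4 : K) = 2 + 2 := by norm_num
  rw [h]
  refine le_trans (Valuation.map_add _ _ _) ?_
  rw [max_self]
  exact v_two_le_one v

/-- The lower order terms `4 X ^ 3 + 4 a4 X` are small compared with `X ^ 2`. -/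
lemma v_lower_lt2 (hv : NodeVal2 v a4 C2) {X : K} (hX : Mid v a4 X) :
    v (4 * X ^ 3 + 4 * a4 * X) < v X ^ 2 := by
  have h1 : v (4 * X ^ 3) < v X ^ 2 := by
    rw [map_mul, map_pow]
    calc v 4 * v X ^ 3 ≤ 1 * v X ^ 3 := mul_le_mul_left (v_four_le_one v) _
      _ = v X ^ 2 * v X := by rw [one_mul, pow_succ]
      _ < v X ^ 2 := mul_lt_of_lt_one_right (pow_pos hX.pos 2) hX.2
  have h2 : v (4 * a4 * X) < v X ^ 2 := by
    rw [map_mul, map_mul, pow_two]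
    calc v 4 * v a4 * v X ≤ 1 * v a4 * v X :=
          mul_le_mul_left (mul_le_mul_left (v_four_le_one v) _) _
      _ = v a4 * v X := by rw [one_mul]
      _ < v X * v X := mul_lt_mul_of_pos_right hX.1 hX.pos
  exact lt_of_le_of_lt (Valuation.map_add _ _ _) (max_lt h1 h2)

/-- `v M = v X` for a point near the node. -/
lemma v_M_eq2 (hv : NodeVal2 v a4 C2) {X M : K} (hp : IsPt (4 * a4) C2 X M)
    (hX : Mid v a4 X) : v M = v X := by
  have h : v (M ^ 2) = v X ^ 2 := by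
    have e : M ^ 2 = (4 * X ^ 3 + 4 * a4 * X) + C2 * X ^ 2 := by rw [hp]; ring
    rw [e, Valuation.map_add_eq_of_lt_right]
    · rw [map_mul, hv.vC2, one_mul, map_pow]
    · rw [map_mul, hv.vC2, one_mul, map_pow]
      exact v_lower_lt2 hv hX
  rw [map_pow] at h
  exact pow_left_injective (M := Γ₀) (two_ne_zero) h

section Rules

variable {X₁ X₂ X₃ M₂ D₁₂ D₃₁ D₃₂ E₁₂ : K}

/-- Same sign, product of valuations above `v a4`: valuations multiply, sign is kept. -/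
lemma rule2_same_gt (hX₁ : Mid v a4 X₁) (hX₂ : Mid v a4 X₂) (hS : v D₁₂ = v (X₁ * X₂))
    (J2 : X₃ * D₁₂ ^ 2 = X₁ * X₂ * (X₁ * X₂ - a4) ^ 2)
    (J3 : D₃₁ ^ 2 = (X₃ - X₁) ^ 2 * (X₁ * X₂ * X₃))
    (J3' : D₃₂ ^ 2 = (X₃ - X₂) ^ 2 * (X₁ * X₂ * X₃))
    (hgt : v a4 < v X₁ * v X₂) :
    v X₃ = v X₁ * v X₂ ∧ v D₃₁ = v (X₃ * X₁) ∧ v D₃₂ = v (X₃ * X₂) := by
  have h12 : v X₁ * v X₂ ≠ 0 := mul_ne_zero hX₁.ne_zero hX₂.ne_zero
  have hT : v (X₁ * X₂ - a4) = v X₁ * v X₂ := by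
    have : v (X₁ * X₂) = v X₁ * v X₂ := map_mul _ _ _
    rw [Valuation.map_sub_eq_of_lt_left, this]
    rw [this]; exact hgt
  have hX₃ : v X₃ = v X₁ * v X₂ := by
    have := congrArg v J2
    simp only [map_mul, map_pow, hT] at this
    rw [hS, map_mul] at this
    have h3 : v X₃ * (v X₁ * v X₂) ^ 2 = (v X₁ * v X₂) * (v X₁ * v X₂) ^ 2 := this
    exact (mul_left_inj' (pow_ne_zero 2 h12)).mp h3
  have hlt₁ : v X₃ < v X₁ := by
    rw [hX₃]; exact mul_lt_of_lt_one_right hX₁.pos hX₂.2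
  have hlt₂ : v X₃ < v X₂ := by
    rw [hX₃]; exact mul_lt_of_lt_one_left hX₂.pos hX₁.2
  refine ⟨hX₃, ?_, ?_⟩
  · have := congrArg v J3
    simp only [map_mul, map_pow] at this
    rw [Valuation.map_sub_eq_of_lt_right _ hlt₁] at this
    have h3 : v D₃₁ ^ 2 = (v X₃ * v X₁) ^ 2 := by
      rw [this, hX₃]; simp only [pow_two, mul_assoc, mul_comm, mul_left_comm]
    rw [map_mul]
    exact pow_left_injective (M := Γ₀) (two_ne_zero) h3
  · have := congrArg v J3'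
    simp only [map_mul, map_pow] at this
    rw [Valuation.map_sub_eq_of_lt_right _ hlt₂] at this
    have h3 : v D₃₂ ^ 2 = (v X₃ * v X₂) ^ 2 := by
      rw [this, hX₃]; simp only [pow_two, mul_assoc, mul_comm, mul_left_comm]
    rw [map_mul]
    exact pow_left_injective (M := Γ₀) (two_ne_zero) h3

/-- Criterion for opposite signs from the identity `J3`. -/
lemma oppS2_of_J3 (h₁ : v X₁ ≠ 0) (h₃ : v X₃ ≠ 0)
    (J3 : D₃₁ ^ 2 = (X₃ - X₁) ^ 2 * (X₁ * X₂ * X₃))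
    (h : v (X₃ - X₁) ^ 2 * v X₂ < v X₁ * v X₃) : v D₃₁ < v (X₃ * X₁) := by
  have := congrArg v J3
  simp only [map_mul, map_pow] at this
  have h13 : 0 < v X₁ * v X₃ := zero_lt_iff.mpr (mul_ne_zero h₁ h₃)
  have hlt : v D₃₁ ^ 2 < (v X₃ * v X₁) ^ 2 := by
    rw [this]
    calc v (X₃ - X₁) ^ 2 * (v X₁ * v X₂ * v X₃)
        = (v (X₃ - X₁) ^ 2 * v X₂) * (v X₁ * v X₃) := by
          simp only [pow_two, mul_assoc, mul_comm, mul_left_comm]
      _ < (v X₁ * v X₃) * (v X₁ * v X₃) := mul_lt_mul_of_pos_right h h13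
      _ = (v X₃ * v X₁) ^ 2 := by simp only [pow_two, mul_assoc, mul_comm, mul_left_comm]
  rw [map_mul]
  by_contra hcon
  rw [not_lt] at hcon
  exact absurd (pow_le_pow_left₀ zero_le hcon 2) (not_le.mpr hlt)

/-- Same sign, product of valuations below `v a4`: the valuation comes back, sign flips. -/
lemma rule2_same_lt (hX₁ : Mid v a4 X₁) (hX₂ : Mid v a4 X₂) (hS : v D₁₂ = v (X₁ * X₂))
    (J2 : X₃ * D₁₂ ^ 2 = X₁ * X₂ * (X₁ * X₂ - a4) ^ 2)
    (J3 : D₃₁ ^ 2 = (X₃ - X₁) ^ 2 * (X₁ * X₂ * X₃))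
    (J3' : D₃₂ ^ 2 = (X₃ - X₂) ^ 2 * (X₁ * X₂ * X₃))
    (hlt : v X₁ * v X₂ < v a4) :
    v X₃ * (v X₁ * v X₂) = v a4 ^ 2 ∧ v D₃₁ < v (X₃ * X₁) ∧ v D₃₂ < v (X₃ * X₂) := by
  have h12 : v X₁ * v X₂ ≠ 0 := mul_ne_zero hX₁.ne_zero hX₂.ne_zero
  have hC1 : v a4 ≠ 0 := ne_of_gt (lt_of_le_of_lt zero_le hlt)
  have hT : v (X₁ * X₂ - a4) = v a4 := by
    have : v (X₁ * X₂) = v X₁ * v X₂ := map_mul _ _ _
    rw [Valuation.map_sub_eq_of_lt_right]
    rw [this]; exact hlt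
  have hX₃ : v X₃ * (v X₁ * v X₂) = v a4 ^ 2 := by
    have := congrArg v J2
    simp only [map_mul, map_pow, hT] at this
    rw [hS, map_mul] at this
    have h3 : (v X₃ * (v X₁ * v X₂)) * (v X₁ * v X₂) = v a4 ^ 2 * (v X₁ * v X₂) := by
      rw [mul_comm (v a4 ^ 2), ← this]
      simp only [pow_two, mul_assoc, mul_comm, mul_left_comm]
    exact (mul_left_inj' h12).mp h3
  have h3ne : v X₃ ≠ 0 := by
    intro h0
    rw [h0, zero_mul] at hX₃
    exact (pow_ne_zero 2 hC1) hX₃.symm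
  have h3pos : 0 < v X₃ := zero_lt_iff.mpr h3ne
  have hprod_lt : v X₁ * v X₂ < v X₃ := by
    by_contra hcon
    rw [not_lt] at hcon
    have h1 : v X₃ * (v X₁ * v X₂) ≤ (v X₁ * v X₂) * (v X₁ * v X₂) :=
      mul_le_mul_left hcon _
    have h2 : (v X₁ * v X₂) * (v X₁ * v X₂) < v a4 * v a4 :=
      mul_lt_mul'' hlt hlt zero_le zero_le
    rw [hX₃, pow_two] at h1
    exact absurd h1 (not_le.mpr h2)
  have key : ∀ (Y₁ Y₂ : K), Mid v a4 Y₁ → Mid v a4 Y₂ → v X₃ * (v Y₁ * v Y₂) = v a4 ^ 2 →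
      v Y₁ * v Y₂ < v X₃ → v (X₃ - Y₁) ^ 2 * v Y₂ < v Y₁ * v X₃ := by
    intro Y₁ Y₂ hY₁ hY₂ hprod hpl
    have hle : v (X₃ - Y₁) ≤ max (v X₃) (v Y₁) := Valuation.map_sub _ _ _
    rcases le_total (v X₃) (v Y₁) with h31 | h13
    · rw [max_eq_right h31] at hle
      calc v (X₃ - Y₁) ^ 2 * v Y₂ ≤ v Y₁ ^ 2 * v Y₂ :=
            mul_le_mul_left (pow_le_pow_left₀ zero_le hle 2) _
        _ = v Y₁ * (v Y₁ * v Y₂) := by simp only [pow_two, mul_assoc]
        _ < v Y₁ * v X₃ := mul_lt_mul_of_pos_left hpl hY₁.pos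
    · rw [max_eq_left h13] at hle
      have hlt' : v X₃ * v Y₂ < v Y₁ := by
        have h1 : (v X₃ * v Y₂) * v Y₁ < v Y₁ * v Y₁ := by
          calc (v X₃ * v Y₂) * v Y₁ = v X₃ * (v Y₁ * v Y₂) := by
                simp only [mul_assoc, mul_comm, mul_left_comm]
            _ = v a4 ^ 2 := hprod
            _ = v a4 * v a4 := pow_two _
            _ < v Y₁ * v Y₁ := mul_lt_mul'' hY₁.1 hY₁.1 zero_le zero_le
        exact lt_of_mul_lt_mul_right' h1
      calc v (X₃ - Y₁) ^ 2 * v Y₂ ≤ v X₃ ^ 2 * v Y₂ :=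
            mul_le_mul_left (pow_le_pow_left₀ zero_le hle 2) _
        _ = (v X₃ * v Y₂) * v X₃ := by simp only [pow_two, mul_assoc, mul_comm, mul_left_comm]
        _ < v Y₁ * v X₃ := mul_lt_mul_of_pos_right hlt' h3pos
  refine ⟨hX₃, ?_, ?_⟩
  · exact oppS2_of_J3 hX₁.ne_zero h3ne J3 (key X₁ X₂ hX₁ hX₂ hX₃ hprod_lt)
  · have J3'' : D₃₂ ^ 2 = (X₃ - X₂) ^ 2 * (X₂ * X₁ * X₃) := by
      rw [J3']; ring
    refine oppS2_of_J3 hX₂.ne_zero h3ne J3'' (key X₂ X₁ hX₂ hX₁ ?_ ?_)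
    · rw [mul_comm (v X₂)]; exact hX₃
    · rw [mul_comm (v X₂)]; exact hprod_lt

/-- Same sign, product of valuations equal to `v a4`: the sum is very near the node. -/
lemma rule2_same_eq (hX₁ : Mid v a4 X₁) (hX₂ : Mid v a4 X₂) (hS : v D₁₂ = v (X₁ * X₂))
    (J2 : X₃ * D₁₂ ^ 2 = X₁ * X₂ * (X₁ * X₂ - a4) ^ 2)
    (heq : v X₁ * v X₂ = v a4) :
    v X₃ ≤ v a4 := by
  have h12 : v X₁ * v X₂ ≠ 0 := mul_ne_zero hX₁.ne_zero hX₂.ne_zero
  have hT : v (X₁ * X₂ - a4) ≤ v a4 := by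
    have : v (X₁ * X₂) = v a4 := by
      rw [map_mul, heq]
    refine le_trans (Valuation.map_sub _ _ _) ?_
    rw [this, max_self]
  have := congrArg v J2
  simp only [map_mul, map_pow] at this
  rw [hS, map_mul, heq] at this
  have hC1 : v a4 ≠ 0 := heq ▸ h12
  have h3 : v X₃ * v a4 ^ 2 ≤ v a4 * v a4 ^ 2 := by
    rw [this]
    exact mul_le_mul_right (pow_le_pow_left₀ zero_le hT 2) _
  exact le_of_mul_le_mul_right h3 (zero_lt_iff.mpr (pow_ne_zero 2 hC1))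

/-- If the signs are opposite then the difference is as large as possible. -/
lemma oppS2_v_sub (hM₂ : v M₂ = v X₂) (hDE : D₁₂ + E₁₂ = M₂ * X₁)
    (h : v D₁₂ < v (X₁ * X₂)) : v E₁₂ = v (X₁ * X₂) := by
  have e : E₁₂ = M₂ * X₁ - D₁₂ := by rw [← hDE]; ring
  have h2 : v (M₂ * X₁) = v (X₁ * X₂) := by
    rw [map_mul, map_mul, hM₂, mul_comm]
  rw [e, Valuation.map_sub_eq_of_lt_left, h2]
  rw [h2]
  exact h

/-- Opposite signs, different valuations: valuations divide, the sign is opposite to the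
one of the point further from the node. -/
lemma rule2_opp_lt (hM₂ : v M₂ = v X₂) (hDE : D₁₂ + E₁₂ = M₂ * X₁)
    (hX₁ : Mid v a4 X₁) (hX₂ : Mid v a4 X₂) (hO : v D₁₂ < v (X₁ * X₂))
    (J1 : X₁ * X₂ * X₃ * (X₁ - X₂) ^ 2 = E₁₂ ^ 2)
    (J3 : D₃₁ ^ 2 = (X₃ - X₁) ^ 2 * (X₁ * X₂ * X₃))
    (hlt : v X₂ < v X₁) :
    v X₃ * v X₁ = v X₂ ∧ v D₃₁ < v (X₃ * X₁) := by
  have hD := oppS2_v_sub hM₂ hDE hO
  have hd : v (X₁ - X₂) = v X₁ := Valuation.map_sub_eq_of_lt_left _ hlt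
  have hX₃ : v X₃ * v X₁ = v X₂ := by
    have := congrArg v J1
    simp only [map_mul, map_pow, hd, hD] at this
    have h3 : (v X₃ * v X₁) * (v X₁ ^ 2 * v X₂) = v X₂ * (v X₁ ^ 2 * v X₂) := by
      calc (v X₃ * v X₁) * (v X₁ ^ 2 * v X₂) = v X₁ * v X₂ * v X₃ * v X₁ ^ 2 := by
            simp only [pow_two, mul_assoc, mul_comm, mul_left_comm]
        _ = (v X₁ * v X₂) ^ 2 := this
        _ = v X₂ * (v X₁ ^ 2 * v X₂) := by
            simp only [pow_two, mul_assoc, mul_comm, mul_left_comm]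
    exact (mul_left_inj' (mul_ne_zero (pow_ne_zero 2 hX₁.ne_zero) hX₂.ne_zero)).mp h3
  have h3ne : v X₃ ≠ 0 := by
    intro h0
    rw [h0, zero_mul] at hX₃
    exact hX₂.ne_zero hX₃.symm
  have h3lt : v X₃ < 1 := by
    by_contra hcon
    rw [not_lt] at hcon
    have : v X₁ ≤ v X₃ * v X₁ := by
      calc v X₁ = 1 * v X₁ := (one_mul _).symm
        _ ≤ v X₃ * v X₁ := mul_le_mul_left hcon _
    rw [hX₃] at this
    exact absurd this (not_le.mpr hlt)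
  refine ⟨hX₃, oppS2_of_J3 hX₁.ne_zero h3ne J3 ?_⟩
  have hle : v (X₃ - X₁) < 1 :=
    lt_of_le_of_lt (Valuation.map_sub _ _ _) (max_lt h3lt hX₁.2)
  have hsq : v (X₃ - X₁) ^ 2 < 1 := by
    calc v (X₃ - X₁) ^ 2 ≤ v (X₃ - X₁) := by
          rw [pow_two]
          exact mul_le_of_le_one_left zero_le hle.le
      _ < 1 := hle
  calc v (X₃ - X₁) ^ 2 * v X₂ < 1 * v X₂ := mul_lt_mul_of_pos_right hsq hX₂.pos
    _ = v X₂ := one_mul _
    _ = v X₁ * v X₃ := by rw [← hX₃, mul_comm]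

/-- Opposite signs, equal valuations, different `X`: the sum is not near the node. -/
lemma rule2_opp_eq (hM₂ : v M₂ = v X₂) (hDE : D₁₂ + E₁₂ = M₂ * X₁)
    (hX₁ : Mid v a4 X₁) (hX₂ : Mid v a4 X₂) (hO : v D₁₂ < v (X₁ * X₂))
    (J1 : X₁ * X₂ * X₃ * (X₁ - X₂) ^ 2 = E₁₂ ^ 2)
    (hne : X₁ ≠ X₂) (heq : v X₁ = v X₂) :
    1 ≤ v X₃ := by
  have hD := oppS2_v_sub hM₂ hDE hO
  have hd : v (X₁ - X₂) ≤ v X₁ := by
    refine le_trans (Valuation.map_sub _ _ _) ?_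
    rw [heq, max_self]
  have hd0 : v (X₁ - X₂) ≠ 0 := (Valuation.ne_zero_iff v).mpr (sub_ne_zero.mpr hne)
  have := congrArg v J1
  simp only [map_mul, map_pow, hD] at this
  by_contra hcon
  rw [not_le] at hcon
  have h1 : v X₁ * v X₂ * v X₃ * v (X₁ - X₂) ^ 2 < (v X₁ * v X₂) ^ 2 := by
    calc v X₁ * v X₂ * v X₃ * v (X₁ - X₂) ^ 2
        = v X₃ * ((v X₁ * v X₂) * v (X₁ - X₂) ^ 2) := by
          simp only [pow_two, mul_assoc, mul_comm, mul_left_comm]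
      _ < 1 * ((v X₁ * v X₂) * v (X₁ - X₂) ^ 2) :=
          mul_lt_mul_of_pos_right hcon (zero_lt_iff.mpr
            (mul_ne_zero (mul_ne_zero hX₁.ne_zero hX₂.ne_zero) (pow_ne_zero 2 hd0)))
      _ = (v X₁ * v X₂) * v (X₁ - X₂) ^ 2 := one_mul _
      _ ≤ (v X₁ * v X₂) * v X₁ ^ 2 :=
          mul_le_mul_right (pow_le_pow_left₀ zero_le hd 2) _
      _ = (v X₁ * v X₂) ^ 2 := by
          rw [heq]; simp only [pow_two, mul_assoc, mul_comm, mul_left_comm]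
  exact absurd this (ne_of_lt h1)

/-- Doubling a point which is very near the node gives a point which is not near the node. -/
lemma rule2_double_small (hv : NodeVal2 v a4 C2) {X M : K}
    (hp : IsPt (4 * a4) C2 X M) (hX0 : X ≠ 0) (hM0 : M ≠ 0) (hX : v X ≤ v a4)
    (J2 : X₃ * (M * X) ^ 2 = X * X * (X * X - a4) ^ 2) :
    1 ≤ v X₃ := by
  have hXne : v X ≠ 0 := (Valuation.ne_zero_iff v).mpr hX0
  have hMne : v M ≠ 0 := (Valuation.ne_zero_iff v).mpr hM0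
  have hXpos : 0 < v X := zero_lt_iff.mpr hXne
  have hXlt : v X < 1 := lt_of_le_of_lt hX hv.va4
  have hsq : v X * v X < v a4 :=
    lt_of_lt_of_le (mul_lt_of_lt_one_left hXpos hXlt) hX
  have hT : v (X * X - a4) = v a4 := by
    have : v (X * X) = v X * v X := map_mul _ _ _
    rw [Valuation.map_sub_eq_of_lt_right]
    rw [this]; exact hsq
  have hMle : v M ^ 2 ≤ v a4 ^ 2 := by
    have e : M ^ 2 = X * (4 * X ^ 2 + C2 * X + 4 * a4) := by rw [hp]; ring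
    have h1 : v (4 * X ^ 2 + C2 * X + 4 * a4) ≤ v a4 := by
      refine le_trans (Valuation.map_add _ _ _) (max_le ?_ ?_)
      · refine le_trans (Valuation.map_add _ _ _) (max_le ?_ ?_)
        · rw [map_mul, map_pow, pow_two]
          calc v 4 * (v X * v X) ≤ 1 * (v X * v X) := mul_le_mul_left (v_four_le_one v) _
            _ = v X * v X := one_mul _
            _ ≤ v a4 := hsq.le
        · rw [map_mul, hv.vC2, one_mul]
          exact hX
      · rw [map_mul]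
        calc v 4 * v a4 ≤ 1 * v a4 := mul_le_mul_left (v_four_le_one v) _
          _ = v a4 := one_mul _
    rw [← map_pow, e, map_mul]
    calc v X * v (4 * X ^ 2 + C2 * X + 4 * a4) ≤ v a4 * v a4 := mul_le_mul' hX h1
      _ = v a4 ^ 2 := (pow_two _).symm
  have := congrArg v J2
  simp only [map_mul, map_pow, hT] at this
  by_contra hcon
  rw [not_le] at hcon
  have h1 : v X₃ * (v M * v X) ^ 2 < v X * v X * v a4 ^ 2 := by
    calc v X₃ * (v M * v X) ^ 2 < 1 * (v M * v X) ^ 2 :=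
          mul_lt_mul_of_pos_right hcon (zero_lt_iff.mpr (pow_ne_zero 2 (mul_ne_zero hMne hXne)))
      _ = v X * v X * v M ^ 2 := by
          simp only [one_mul, pow_two, mul_assoc, mul_comm, mul_left_comm]
      _ ≤ v X * v X * v a4 ^ 2 := mul_le_mul_right hMle _
  exact absurd this (ne_of_lt h1)

end Rules

end Fermat.Agent.S13.helper95
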