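/-
S13, node at `2`: the "sawtooth" induction in arbitrary residue characteristic
(port of `Fermat.Agent.S05.helper7` `Sawtooth` without the hypothesis `v 2 = 1`).

Model: `W` with `a₃ = a₆ = 0` (node at `(0, 0)`), `v b₂ = 1`, `v a₄ < 1`, `2 ≠ 0` in `K`.
Main result `node_sawtooth`: if `P` has odd prime order `p` and all nonzero multiples of `P`
reduce to the node, then some nonzero multiple `k • P` satisfies `v (x (k • P)) ^ p = v a₄ ^ 2`.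
-/
import Fermat.Agent.S13.helper95_NodeVal2

set_option autoImplicit false
set_option linter.unusedSimpArgs false
set_option linter.unusedVariables false
set_option linter.unusedSectionVars false

namespace Fermat.Agent.S13.helper95

open WeierstrassCurve Fermat.Agent.S05.helper7

variable {K : Type*} [Field K] [DecidableEq K] {Γ₀ : Type*} [LinearOrderedCommGroupWithZero Γ₀]
  {v : Valuation K Γ₀} {W : WeierstrassCurve K}

/-- Hypotheses of the node model at `(0, 0)`. -/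
structure NodeHyp (v : Valuation K Γ₀) (W : WeierstrassCurve K) : Prop where
  h2 : (2 : K) ≠ 0
  ha₃ : W.a₃ = 0
  ha₆ : W.a₆ = 0
  vb₂ : v W.b₂ = 1
  va₄ : v W.a₄ < 1

lemma NodeHyp.nodeModel (h : NodeHyp v W) : NodeModel W 0 (4 * W.a₄) W.b₂ where
  hC2 := by ring
  hC1 := by
    simp only [WeierstrassCurve.b₄, h.ha₃]
    ring
  he := by
    simp only [WeierstrassCurve.b₆, h.ha₃, h.ha₆]
    ring

lemma NodeHyp.nodeVal2 (h : NodeHyp v W) : NodeVal2 v W.a₄ W.b₂ := ⟨h.vb₂, h.va₄⟩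

/-- `(M₁ X₂ + M₂ X₁) / 2`. -/
noncomputable def dP (W : WeierstrassCurve K) (Q₁ Q₂ : W.toAffine.Point) : K :=
  (pM W Q₁ * pX W 0 Q₂ + pM W Q₂ * pX W 0 Q₁) / 2

/-- `(M₂ X₁ - M₁ X₂) / 2`. -/
noncomputable def dE (W : WeierstrassCurve K) (Q₁ Q₂ : W.toAffine.Point) : K :=
  (pM W Q₂ * pX W 0 Q₁ - pM W Q₁ * pX W 0 Q₂) / 2

lemma dP_comm (Q₁ Q₂ : W.toAffine.Point) : dP W Q₁ Q₂ = dP W Q₂ Q₁ := by
  unfold dP; ring

lemma two_mul_dP (h2 : (2 : K) ≠ 0) (Q₁ Q₂ : W.toAffine.Point) :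
    2 * dP W Q₁ Q₂ = pM W Q₁ * pX W 0 Q₂ + pM W Q₂ * pX W 0 Q₁ := by
  unfold dP; field_simp

lemma two_mul_dE (h2 : (2 : K) ≠ 0) (Q₁ Q₂ : W.toAffine.Point) :
    2 * dE W Q₁ Q₂ = pM W Q₂ * pX W 0 Q₁ - pM W Q₁ * pX W 0 Q₂ := by
  unfold dE; field_simp

lemma dP_add_dE (h2 : (2 : K) ≠ 0) (Q₁ Q₂ : W.toAffine.Point) :
    dP W Q₁ Q₂ + dE W Q₁ Q₂ = pM W Q₂ * pX W 0 Q₁ := by
  apply mul_left_cancel₀ h2
  rw [mul_add, two_mul_dP h2, two_mul_dE h2]; ring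

lemma dP_self (h2 : (2 : K) ≠ 0) (Q : W.toAffine.Point) :
    dP W Q Q = pM W Q * pX W 0 Q := by
  apply mul_left_cancel₀ h2
  rw [two_mul_dP h2]; ring

lemma dP_neg_self (h2 : (2 : K) ≠ 0) (Q : W.toAffine.Point) : dP W (-Q) Q = 0 := by
  apply mul_left_cancel₀ h2
  rw [two_mul_dP h2, pM_neg, pX_neg]; ring

/-- The identities for the sum of two nonzero points with nonzero sum, without factors `4`. -/
lemma add_identities2 (h : NodeHyp v W) {Q₁ Q₂ : W.toAffine.Point} (h₁ : Q₁ ≠ 0)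
    (h₂ : Q₂ ≠ 0) (h₁₂ : Q₁ + Q₂ ≠ 0) :
    pX W 0 (Q₁ + Q₂) * dP W Q₁ Q₂ ^ 2 =
        pX W 0 Q₁ * pX W 0 Q₂ * (pX W 0 Q₁ * pX W 0 Q₂ - W.a₄) ^ 2 ∧
    dP W (Q₁ + Q₂) Q₁ ^ 2 =
        (pX W 0 (Q₁ + Q₂) - pX W 0 Q₁) ^ 2 * (pX W 0 Q₁ * pX W 0 Q₂ * pX W 0 (Q₁ + Q₂)) ∧
    dP W (Q₁ + Q₂) Q₂ ^ 2 =
        (pX W 0 (Q₁ + Q₂) - pX W 0 Q₂) ^ 2 * (pX W 0 Q₁ * pX W 0 Q₂ * pX W 0 (Q₁ + Q₂)) ∧
    (pX W 0 Q₁ ≠ pX W 0 Q₂ →
      pX W 0 Q₁ * pX W 0 Q₂ * pX W 0 (Q₁ + Q₂) * (pX W 0 Q₁ - pX W 0 Q₂) ^ 2 =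
        dE W Q₁ Q₂ ^ 2) := by
  have h2 := h.h2
  have h4 : (4 : K) ≠ 0 := by
    have : (4 : K) = 2 * 2 := by norm_num
    rw [this]; exact mul_ne_zero h2 h2
  have h16 : (16 : K) ≠ 0 := by
    have : (16 : K) = 4 * 4 := by norm_num
    rw [this]; exact mul_ne_zero h4 h4
  obtain ⟨I2, I3, I3', I1⟩ := add_identities h.nodeModel h₁ h₂ h₁₂
  rw [← two_mul_dP h2] at I2 I3 I3'
  refine ⟨?_, ?_, ?_, ?_⟩
  · apply mul_left_cancel₀ h16
    linear_combination I2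
  · apply mul_left_cancel₀ h4
    linear_combination I3
  · apply mul_left_cancel₀ h4
    linear_combination I3'
  · intro hne
    have I1' := I1 hne
    rw [← two_mul_dE h2] at I1'
    apply mul_left_cancel₀ h4
    linear_combination I1'

lemma isPt2_of_ne_zero (h : NodeHyp v W) {Q : W.toAffine.Point} (hQ : Q ≠ 0) :
    IsPt (4 * W.a₄) W.b₂ (pX W 0 Q) (pM W Q) :=
  isPt_of_ne_zero h.nodeModel hQ

lemma v_pM_eq (h : NodeHyp v W) {Q : W.toAffine.Point} (hQ : Q ≠ 0)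
    (hmid : Mid v W.a₄ (pX W 0 Q)) : v (pM W Q) = v (pX W 0 Q) :=
  v_M_eq2 h.nodeVal2 (isPt2_of_ne_zero h hQ) hmid

/-- A nonzero point near the node whose double is nonzero and also near the node lies in the
middle region. -/
lemma mid_of_double2 (h : NodeHyp v W) {Q : W.toAffine.Point}
    (hQ : Q ≠ 0) (hQQ : Q + Q ≠ 0) (h1 : v (pX W 0 Q) < 1) (h2 : v (pX W 0 (Q + Q)) < 1) :
    Mid v W.a₄ (pX W 0 Q) := by
  have h2K := h.h2
  have hp := isPt2_of_ne_zero h hQ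
  have hM0 : pM W Q ≠ 0 := fun h' => hQQ (add_self_eq_zero_of_pM_eq_zero h2K hQ h')
  have hX0 : pX W 0 Q ≠ 0 := by
    intro h'
    apply hM0
    unfold IsPt at hp
    rw [h'] at hp
    have : pM W Q ^ 2 = 0 := by rw [hp]; ring
    exact (pow_eq_zero_iff two_ne_zero).mp this
  refine ⟨?_, h1⟩
  by_contra hcon
  rw [not_lt] at hcon
  obtain ⟨J2, -, -, -⟩ := add_identities2 h hQ hQ hQQ
  rw [dP_self h2K] at J2
  exact absurd (rule2_double_small h.nodeVal2 hp hX0 hM0 hcon J2) (not_le.mpr h2)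

/-- The invariant of the sawtooth induction (`D = dP W Q Q0`). -/
def SawInv2 (v : Valuation K Γ₀) (a4 : K) (γ0 : Γ₀) (m : ℕ) (X X0 D : K) : Prop :=
  (v X = γ0 ^ m ∧ v a4 < γ0 ^ m ∧ v D = v (X * X0)) ∨
  (v X * γ0 ^ m = v a4 ^ 2 ∧ γ0 ^ m < v a4 ∧ v D < v (X * X0))

lemma sawtooth_step2 (h : NodeHyp v W)
    {Q0 Q : W.toAffine.Point} (hQ0 : Q0 ≠ 0) (hQ : Q ≠ 0) (hsum : Q0 + Q ≠ 0)
    (hmid0 : Mid v W.a₄ (pX W 0 Q0)) (hmid : Mid v W.a₄ (pX W 0 Q))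
    (hmidS : Mid v W.a₄ (pX W 0 (Q0 + Q)))
    (hmax : v (pX W 0 Q) ≤ v (pX W 0 Q0)) {m : ℕ}
    (hinv : SawInv2 v W.a₄ (v (pX W 0 Q0)) m (pX W 0 Q) (pX W 0 Q0) (dP W Q Q0)) :
    SawInv2 v W.a₄ (v (pX W 0 Q0)) (m + 1) (pX W 0 (Q0 + Q)) (pX W 0 Q0)
      (dP W (Q0 + Q) Q0) := by
  obtain ⟨J2, J3, J3', J1⟩ := add_identities2 h hQ0 hQ hsum
  have hMQ : v (pM W Q) = v (pX W 0 Q) := v_pM_eq h hQ hmid
  have hDE := dP_add_dE h.h2 Q0 Q
  rcases hinv with ⟨hval, hgt, hS⟩ | ⟨hval, hlt, hO⟩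
  · -- same sign
    have hS' : v (dP W Q0 Q) = v (pX W 0 Q0 * pX W 0 Q) := by
      rw [dP_comm, hS, mul_comm]
    have hprod : v (pX W 0 Q0) * v (pX W 0 Q) = v (pX W 0 Q0) ^ (m + 1) := by
      rw [hval, pow_succ']
    rcases lt_trichotomy (v W.a₄) (v (pX W 0 Q0) * v (pX W 0 Q)) with h' | h' | h'
    · obtain ⟨h3, hS3, -⟩ := rule2_same_gt hmid0 hmid hS' J2 J3 J3' h'
      exact Or.inl ⟨by rw [h3, hprod], by rw [← hprod]; exact h', hS3⟩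
    · exact absurd (rule2_same_eq hmid0 hmid hS' J2 h'.symm) (not_le.mpr hmidS.1)
    · obtain ⟨h3, hO3, -⟩ := rule2_same_lt hmid0 hmid hS' J2 J3 J3' h'
      exact Or.inr ⟨by rw [← hprod]; exact h3, by rw [← hprod]; exact h', hO3⟩
  · -- opposite sign
    have hO' : v (dP W Q0 Q) < v (pX W 0 Q0 * pX W 0 Q) := by
      rw [dP_comm, mul_comm]; exact hO
    rcases lt_or_eq_of_le hmax with hlt' | heq
    · have hne : pX W 0 Q0 ≠ pX W 0 Q := by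
        intro h'
        rw [h'] at hlt'
        exact lt_irrefl _ hlt'
      obtain ⟨h3, hO3⟩ := rule2_opp_lt hMQ hDE hmid0 hmid hO' (J1 hne) J3 hlt'
      refine Or.inr ⟨?_, ?_, hO3⟩
      · rw [pow_succ', ← mul_assoc, h3, hval]
      · calc v (pX W 0 Q0) ^ (m + 1) = v (pX W 0 Q0) ^ m * v (pX W 0 Q0) := pow_succ _ _
          _ ≤ v (pX W 0 Q0) ^ m := mul_le_of_le_one_right' hmid0.2.le
          _ < v W.a₄ := hlt
    · by_cases hne : pX W 0 Q0 = pX W 0 Q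
      · rcases eq_or_eq_neg_of_pX_eq h.nodeModel h.h2 hQ0 hQ hne with h' | h'
        · exfalso
          rw [← h', dP_self h.h2, map_mul, map_mul, v_pM_eq h hQ0 hmid0] at hO
          exact lt_irrefl _ hO
        · exact absurd (by rw [h']; exact neg_add_cancel Q) hsum
      · exact absurd (rule2_opp_eq hMQ hDE hmid0 hmid hO' (J1 hne) hne heq.symm)
          (not_le.mpr hmidS.2)

section Induction

variable {p : ℕ} {Q0 : W.toAffine.Point}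

lemma sawtooth_ind2 (h : NodeHyp v W) (hp : p.Prime)
    (hpQ : p • Q0 = 0) (hQ0 : Q0 ≠ 0)
    (hMid : ∀ k : ℕ, k • Q0 ≠ 0 → Mid v W.a₄ (pX W 0 (k • Q0)))
    (hmax : ∀ k : ℕ, k • Q0 ≠ 0 → v (pX W 0 (k • Q0)) ≤ v (pX W 0 Q0)) :
    ∀ m : ℕ, 1 ≤ m → m < p →
      SawInv2 v W.a₄ (v (pX W 0 Q0)) m (pX W 0 (m • Q0)) (pX W 0 Q0) (dP W (m • Q0) Q0) := by
  have hmid0 : Mid v W.a₄ (pX W 0 Q0) := by
    have := hMid 1 (by rw [one_nsmul]; exact hQ0)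
    rwa [one_nsmul] at this
  intro m hm1
  induction m, hm1 using Nat.le_induction with
  | base =>
    intro _
    rw [one_nsmul]
    refine Or.inl ⟨(pow_one _).symm, by rw [pow_one]; exact hmid0.1, ?_⟩
    rw [dP_self h.h2, map_mul, map_mul, v_pM_eq h hQ0 hmid0]
  | succ m hm1 ih =>
    intro hlt
    have hmlt : m < p := Nat.lt_of_succ_lt hlt
    have hQm : m • Q0 ≠ 0 := nsmul_ne_zero_of_pos_of_lt hp hpQ hQ0 hm1 hmlt
    have hQm1 : (m + 1) • Q0 ≠ 0 :=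
      nsmul_ne_zero_of_pos_of_lt hp hpQ hQ0 (Nat.succ_pos m) hlt
    have hsum : Q0 + m • Q0 ≠ 0 := by rw [← succ_nsmul']; exact hQm1
    have hmidS : Mid v W.a₄ (pX W 0 (Q0 + m • Q0)) := by
      rw [← succ_nsmul']; exact hMid (m + 1) hQm1
    have := sawtooth_step2 h hQ0 hQm hsum hmid0 (hMid m hQm) hmidS (hmax m hQm) (ih hmlt)
    rw [succ_nsmul']
    exact this

lemma sawtooth_pow_eq2 (h : NodeHyp v W) (hp : p.Prime)
    (hpQ : p • Q0 = 0) (hQ0 : Q0 ≠ 0)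
    (hMid : ∀ k : ℕ, k • Q0 ≠ 0 → Mid v W.a₄ (pX W 0 (k • Q0)))
    (hmax : ∀ k : ℕ, k • Q0 ≠ 0 → v (pX W 0 (k • Q0)) ≤ v (pX W 0 Q0)) :
    v (pX W 0 Q0) ^ p = v W.a₄ ^ 2 := by
  have hmid0 : Mid v W.a₄ (pX W 0 Q0) := by
    have := hMid 1 (by rw [one_nsmul]; exact hQ0)
    rwa [one_nsmul] at this
  have h2 := hp.two_le
  have h1 : 1 ≤ p - 1 := by omega
  have hinv := sawtooth_ind2 h hp hpQ hQ0 hMid hmax (p - 1) h1 (by omega)
  have hneg : (p - 1) • Q0 = -Q0 := by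
    have : (p - 1) • Q0 + Q0 = 0 := by
      rw [← succ_nsmul, Nat.sub_add_cancel hp.one_le]
      exact hpQ
    exact eq_neg_of_add_eq_zero_left this
  rw [hneg, pX_neg, dP_neg_self h.h2] at hinv
  rcases hinv with ⟨-, -, hS⟩ | ⟨hval, -, -⟩
  · exfalso
    rw [map_zero, map_mul] at hS
    exact (mul_ne_zero hmid0.ne_zero hmid0.ne_zero) hS.symm
  · calc v (pX W 0 Q0) ^ p = v (pX W 0 Q0) ^ (p - 1 + 1) := by
          rw [Nat.sub_add_cancel hp.one_le]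
      _ = v (pX W 0 Q0) * v (pX W 0 Q0) ^ (p - 1) := pow_succ' _ _
      _ = v W.a₄ ^ 2 := hval

end Induction

/-- All nonzero multiples of a point of odd prime order whose multiples are near the node
lie in the middle region. -/
lemma mid_of_torsion2 (h : NodeHyp v W) {p : ℕ} (hp : p.Prime)
    (hp2 : p ≠ 2) {P : W.toAffine.Point} (hpP : p • P = 0) (hP : P ≠ 0)
    (hE0 : ∀ k : ℕ, k • P ≠ 0 → v (pX W 0 (k • P)) < 1) :
    ∀ k : ℕ, k • P ≠ 0 → Mid v W.a₄ (pX W 0 (k • P)) := by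
  intro k hk
  have hkk' : (k + k) • P ≠ 0 := by
    intro h'
    rw [nsmul_eq_zero_iff_of_prime hp hpP hP] at h'
    have h2 : p ∣ 2 * k := by rwa [two_mul]
    have : p ∣ k := by
      rcases (Nat.Prime.dvd_mul hp).mp h2 with h'' | h''
      · exact absurd ((Nat.prime_dvd_prime_iff_eq hp Nat.prime_two).mp h'') hp2
      · exact h''
    exact hk ((nsmul_eq_zero_iff_of_prime hp hpP hP k).mpr this)
  have hkk : k • P + k • P ≠ 0 := by rw [← add_nsmul]; exact hkk'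
  refine mid_of_double2 h hk hkk (hE0 k hk) ?_
  rw [← add_nsmul]
  exact hE0 (k + k) hkk'

/-- **The sawtooth theorem in arbitrary residue characteristic.**  If `P` has odd prime order
`p` and all its nonzero multiples reduce to the node `(0, 0)`, then some nonzero multiple
`k • P` has `v (x (k • P)) ^ p = v a₄ ^ 2`. -/
theorem node_sawtooth_of_nodeHyp (h : NodeHyp v W) {p : ℕ} (hp : p.Prime)
    (hp2 : p ≠ 2) {P : W.toAffine.Point} (hpP : p • P = 0) (hP : P ≠ 0)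
    (hE0 : ∀ k : ℕ, k • P ≠ 0 → v (pX W 0 (k • P)) < 1) :
    ∃ k : ℕ, k • P ≠ 0 ∧ v (pX W 0 (k • P)) ^ p = v W.a₄ ^ 2 := by
  have hMidP := mid_of_torsion2 h hp hp2 hpP hP hE0
  have h2 := hp.two_le
  obtain ⟨k0, hk0mem, hk0max⟩ := Finset.exists_max_image (Finset.Icc 1 (p - 1))
    (fun k => v (pX W 0 (k • P))) ⟨1, Finset.mem_Icc.mpr ⟨le_rfl, by omega⟩⟩
  rw [Finset.mem_Icc] at hk0mem
  have hQ0 : k0 • P ≠ 0 :=
    nsmul_ne_zero_of_pos_of_lt hp hpP hP (by omega) (by omega)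
  have hpQ0 : p • (k0 • P) = 0 := by
    rw [smul_comm, hpP, smul_zero]
  have hmult : ∀ k : ℕ, k • (k0 • P) ≠ 0 →
      ∃ i, 1 ≤ i ∧ i ≤ p - 1 ∧ k • (k0 • P) = i • P := by
    intro k hk
    have e1 : k • (k0 • P) = ((k0 * k) % p) • P := by
      rw [nsmul_mod_prime hp hpP hP, mul_nsmul]
    refine ⟨(k0 * k) % p, ?_, ?_, e1⟩
    · rcases Nat.eq_zero_or_pos ((k0 * k) % p) with h0 | h0
      · exfalso
        apply hk
        rw [e1, h0, zero_nsmul]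
      · exact h0
    · have := Nat.mod_lt (k0 * k) hp.pos
      omega
  have hMid : ∀ k : ℕ, k • (k0 • P) ≠ 0 → Mid v W.a₄ (pX W 0 (k • (k0 • P))) := by
    intro k hk
    obtain ⟨i, -, -, hi⟩ := hmult k hk
    rw [hi]
    exact hMidP i (by rw [← hi]; exact hk)
  have hmax : ∀ k : ℕ, k • (k0 • P) ≠ 0 →
      v (pX W 0 (k • (k0 • P))) ≤ v (pX W 0 (k0 • P)) := by
    intro k hk
    obtain ⟨i, hi1, hi2, hi⟩ := hmult k hk
    rw [hi]
    exact hk0max i (Finset.mem_Icc.mpr ⟨hi1, hi2⟩)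
  exact ⟨k0, hQ0, sawtooth_pow_eq2 h hp hpQ0 hQ0 hMid hmax⟩

/-- **(5b)**: the sawtooth theorem with unbundled hypotheses. -/
theorem node_sawtooth (v : Valuation K Γ₀) (W : WeierstrassCurve K) (h2 : (2 : K) ≠ 0)
    (ha₃ : W.a₃ = 0) (ha₆ : W.a₆ = 0) (hb₂ : v W.b₂ = 1) (ha₄ : v W.a₄ < 1) {p : ℕ}
    (hp : p.Prime) (hp2 : p ≠ 2) {P : W.toAffine.Point} (hpP : p • P = 0) (hP : P ≠ 0)
    (hnode : ∀ k : ℕ, k • P ≠ 0 → v (pX W 0 (k • P)) < 1) :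
    ∃ k : ℕ, k • P ≠ 0 ∧ v (pX W 0 (k • P)) ^ p = v W.a₄ ^ 2 :=
  node_sawtooth_of_nodeHyp ⟨h2, ha₃, ha₆, hb₂, ha₄⟩ hp hp2 hpP hP hnode

/-- **(5b)**, coordinate form: under the hypotheses of `node_sawtooth` there is a nonzero
multiple `k • P = (x, y)` with `v x ^ p = v a₄ ^ 2`. -/
theorem node_sawtooth_some (v : Valuation K Γ₀) (W : WeierstrassCurve K) (h2 : (2 : K) ≠ 0)
    (ha₃ : W.a₃ = 0) (ha₆ : W.a₆ = 0) (hb₂ : v W.b₂ = 1) (ha₄ : v W.a₄ < 1) {p : ℕ}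
    (hp : p.Prime) (hp2 : p ≠ 2) {P : W.toAffine.Point} (hpP : p • P = 0) (hP : P ≠ 0)
    (hnode : ∀ (k : ℕ) (x y : K) (hxy : W.toAffine.Nonsingular x y),
      k • P = Affine.Point.some x y hxy → v x < 1) :
    ∃ (k : ℕ) (x y : K) (hxy : W.toAffine.Nonsingular x y),
      k • P = Affine.Point.some x y hxy ∧ v x ^ p = v W.a₄ ^ 2 := by
  have hnode' : ∀ k : ℕ, k • P ≠ 0 → v (pX W 0 (k • P)) < 1 := by
    intro k hk
    rcases hkP : k • P with _ | ⟨x, y, hxy⟩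
    · exact absurd hkP hk
    · have := hnode k x y hxy hkP
      simpa [pX, nX] using this
  obtain ⟨k, hk, hv⟩ := node_sawtooth v W h2 ha₃ ha₆ hb₂ ha₄ hp hp2 hpP hP hnode'
  rcases hkP : k • P with _ | ⟨x, y, hxy⟩
  · exact absurd hkP hk
  · refine ⟨k, x, y, hxy, hkP, ?_⟩
    rw [hkP] at hv
    simpa [pX, nX] using hv

end Fermat.Agent.S13.helper95
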