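import Fermat.Agent.S13.Frey2
import Fermat.Agent.S13.helper95_Sawtooth2
import Fermat.Agent.S13.helper38_Adapters

/-!
# Input (5) of S13: the Frey curve has no nonzero rational point of order `p`

Wiring of `Fermat.Agent.S13.frey_no_rational_torsion` (reduction at `2`) with the node
sawtooth `Fermat.Agent.S13.helper95.node_sawtooth_some` and the adapter
`Fermat.Agent.S13.helper38.noRationalTorsion_of_rat'`.
-/

set_option autoImplicit false

namespace Fermat.Agent.S13

open WeierstrassCurve WeierstrassCurve.Affine

/-- The node input at `2` holds for the Frey curve. -/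
theorem frey_nodeSawtoothAtTwo (P : FreyPackage) : NodeSawtoothAtTwo P := by
  intro Q hQ hQ0 hnode
  have hp2 : P.p ≠ 2 := by
    have := P.hp5
    omega
  exact helper95.node_sawtooth_some v2 P.freyCurve frey_two_ne_zero rfl rfl
    (frey_v2_b₂ P) (frey_v2_a₄ P) P.pp hp2 hQ hQ0 hnode

/-- The Frey curve has no nonzero rational point of order `p`. -/
theorem frey_rational_torsion_eq_zero (P : FreyPackage)
    (Q : P.freyCurve.toAffine.Point) (hQ : P.p • Q = 0) : Q = 0 :=
  frey_no_rational_torsion P (frey_nodeSawtoothAtTwo P) Q hQ

/-- **Input (5) of the S13 assembly**: there is no nonzero Galois-fixed point in `E[p]` for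
the Frey curve. -/
theorem frey_noRationalTorsion (P : FreyPackage) :
    helper38.NoRationalTorsion P.freyCurve P.p :=
  helper38.noRationalTorsion_of_rat' P.freyCurve P.p (frey_rational_torsion_eq_zero P)

end Fermat.Agent.S13
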