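import Fermat.Agent.S13.helper1_AtTwo
import Fermat.Agent.S13.helper38_Adapters

/-!
# S13, package (2) at `ℓ = 2` (helper1): the input `UnipotentAt P.freyCurve P.p 2`

This is the form consumed by `Fermat.Agent.S13.helper38.s13_of_inputs` (input `h2two`).
-/

set_option autoImplicit false
set_option linter.style.haveILetI false

namespace Fermat.Agent.S13.helper1

open WeierstrassCurve WeierstrassCurve.Affine
open Fermat.Agent.S05.helper92

/-- For every place `A` of `ℚ̄` over `2` and every `σ` in its inertia group, `σ` acts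
unipotently on the `p`-torsion of the Frey curve. -/
theorem frey_unipotent_two_forall (P : FreyPackage)
    (A : ValuationSubring (AlgebraicClosure ℚ)) (hA : A.LiesOverPrime 2)
    (σ : AlgebraicClosure ℚ ≃ₐ[ℚ] AlgebraicClosure ℚ) (hσ : σ ∈ A.inertiaSubgroupIn ℚ)
    (x : Fermat.Agent.S13.helper38.Tors P.freyCurve P.p) :
    σ • (σ • x - x) = σ • x - x := by
  haveI : Algebra.IsAlgebraic ℚ (AlgebraicClosure ℚ) := AlgebraicClosure.isAlgebraic ℚ
  have hx : (P.p : ℤ) • (x : (freyK P (AlgebraicClosure ℚ)).Point) = 0 := by
    have := x.2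
    rw [Submodule.mem_torsionBy_iff] at this
    exact this
  apply Subtype.ext
  exact frey_inertia_two_unipotent P A hA σ hσ (x : (freyK P (AlgebraicClosure ℚ)).Point) hx

/-- **Input (2) at `ℓ = 2`** of the S13 assembly: some (in fact every) inertia group at `2`
acts unipotently on `E[p]` for the Frey curve `E`. -/
theorem frey_unipotentAt_two (P : FreyPackage) :
    Fermat.Agent.S13.helper38.UnipotentAt P.freyCurve P.p 2 :=
  Fermat.Agent.S13.helper38.unipotentAt_of_forall P.freyCurve P.p Nat.prime_two
    (fun A hA σ hσ x => frey_unipotent_two_forall P A hA σ hσ x)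

end Fermat.Agent.S13.helper1
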