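import Fermat.Agent.S05.FreyShift

/-!
# S13, package (3b): same reduction at `p` (helper5)

For the short model `y² = x³ + a₂ x² + a₄ x` over a valued field with `v 2 = 1` and an "inertial"
automorphism `σ` (acting trivially on the residue field and preserving the valuation), every
`p`-torsion point `P` satisfies `P - σ P ∈ E₁` (the kernel of reduction), *without* any
hypothesis on `v p`.  Then the statement is transported to the Frey curve.
-/

set_option autoImplicit false
set_option linter.unusedSectionVars false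
set_option linter.unusedVariables false

namespace Fermat.Agent.S13.helper5

open WeierstrassCurve WeierstrassCurve.Affine
open Fermat.Agent.S05

section Abstract

variable {K : Type*} [Field K] [DecidableEq K]
variable {Γ₀ : Type*} [LinearOrderedCommGroupWithZero Γ₀]
variable {v : Valuation K Γ₀} {W : Affine K}

lemma inE1_zero : InE1 v (0 : W.Point) := Or.inl rfl

lemma inE1_some {x y : K} (h : W.Nonsingular x y) (hx : 1 < v x) :
    InE1 v (Point.some x y h) := Or.inr ⟨x, y, h, rfl, hx⟩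

lemma inE1_some_iff {x y : K} (h : W.Nonsingular x y) :
    InE1 v (Point.some x y h) ↔ 1 < v x := by
  constructor
  · rintro (h0 | ⟨x', y', h', e, hx'⟩)
    · exact absurd h0 (Point.some_ne_zero _)
    · rw [Point.some.injEq] at e
      rw [e.1]; exact hx'
  · exact inE1_some h

lemma inE1_neg (hW : IsTwoNF W) {P : W.Point} (h : InE1 v P) : InE1 v (-P) := by
  rcases h with rfl | ⟨x, y, h, rfl, hx⟩
  · rw [neg_zero]; exact inE1_zero
  · obtain ⟨h', e⟩ := hW.neg_some h
    rw [e]; exact inE1_some h' hx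

lemma inE1_add (hW : IsTwoNF W) (ha : v W.a₂ ≤ 1) (hb : v W.a₄ ≤ 1) {P Q : W.Point}
    (hP : InE1 v P) (hQ : InE1 v Q) : InE1 v (P + Q) :=
  (hW.E1_add v ha hb hP hQ (r := max 1 (max (v (tC P)) (v (tC Q))))
    (lt_of_lt_of_le zero_lt_one (le_max_left _ _))
    (le_trans (le_max_left _ _) (le_max_right _ _))
    (le_trans (le_max_right _ _) (le_max_right _ _))).1

lemma inE1_sub (hW : IsTwoNF W) (ha : v W.a₂ ≤ 1) (hb : v W.a₄ ≤ 1) {P Q : W.Point}
    (hP : InE1 v P) (hQ : InE1 v Q) : InE1 v (P - Q) := by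
  rw [sub_eq_add_neg]
  exact inE1_add hW ha hb hP (inE1_neg hW hQ)

variable {σ : K →+* K} {f : W.Point →+ W.Point}

lemma inE1_map (hσv : ∀ x, v (σ x) = v x)
    (hf : ∀ x y (h : W.Nonsingular x y), ∃ h', f (Point.some x y h) = Point.some (σ x) (σ y) h')
    {P : W.Point} (h : InE1 v P) : InE1 v (f P) := by
  rcases h with rfl | ⟨x, y, h, rfl, hx⟩
  · rw [map_zero]; exact inE1_zero
  · obtain ⟨h', e⟩ := hf x y h
    rw [e]; exact inE1_some h' (by rw [hσv]; exact hx)

/-- the unit case -/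
lemma sub_unit (hW : IsTwoNF W) (hv2 : v 2 = 1) (ha : v W.a₂ ≤ 1) (hb : v W.a₄ ≤ 1)
    (hσ : ∀ x, v x ≤ 1 → v (σ x - x) < 1)
    (hf : ∀ x y (h : W.Nonsingular x y), ∃ h', f (Point.some x y h) = Point.some (σ x) (σ y) h')
    (hred : v (W.a₄ * (W.a₂ ^ 2 - 4 * W.a₄)) = 1 ∨ v W.a₄ < 1)
    {x y : K} (h : W.Nonsingular x y) (hx : v x = 1) :
    InE1 v (Point.some x y h - f (Point.some x y h)) := by
  by_cases hne : Point.some x y h = f (Point.some x y h)
  · rw [← hne, sub_self]; exact inE1_zero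
  obtain ⟨h', hf'⟩ := hf x y h
  rw [hf'] at hne ⊢
  have hy : v y ≤ 1 := hW.val_y_le_one v ha hb h hx.le
  obtain ⟨x₃, y₃, h₃, e, hx₃⟩ := hW.sub_of_close_unit v ha hb hv2 h h' hx
    (by rw [Valuation.map_sub_swap]; exact hσ x hx.le)
    (by rw [Valuation.map_sub_swap]; exact hσ y hy)
    (by
      intro hu
      rcases hred with hΔ | hb1
      · exact hns_good ha hb hx.le hΔ hu
      · apply val_sub_eq_one v _ hb1
        rw [map_pow, hx, one_pow])
    hne
  rw [e]; exact inE1_some h₃ hx₃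

/-- the node case -/
lemma sub_node (hW : IsTwoNF W) (hv2 : v 2 = 1) (ha : v W.a₂ = 1) (hb : v W.a₄ < 1)
    (hσ : ∀ x, v x ≤ 1 → v (σ x - x) < 1)
    (hf : ∀ x y (h : W.Nonsingular x y), ∃ h', f (Point.some x y h) = Point.some (σ x) (σ y) h')
    {x y : K} (h : W.Nonsingular x y) (hxl : v W.a₄ < v x) (hxu : v x < 1)
    (hclose : v (σ x - x) < v x) :
    InE1 v (Point.some x y h - f (Point.some x y h)) := by
  by_cases hne : Point.some x y h = f (Point.some x y h)
  · rw [← hne, sub_self]; exact inE1_zero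
  obtain ⟨h', hf'⟩ := hf x y h
  rw [hf'] at hne ⊢
  have hx0 : x ≠ 0 := by rintro rfl; simp at hxl
  have hα := hW.val_alpha_node v ha h hxl hxu
  obtain ⟨x₃, y₃, h₃, e, hx₃⟩ := hW.sub_of_close_node v ha.le hv2 h h' hx0 hxu.le
    (by rw [Valuation.map_sub_swap]; exact hclose)
    hα
    (by rw [← map_div₀, Valuation.map_sub_swap]; exact hσ _ hα.le)
    hne
  rw [e]; exact inE1_some h₃ hx₃

/-- **Same reduction**: for a `p`-torsion point `P` and an inertial automorphism, `P - σ P` lies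
in the kernel of reduction.  No hypothesis on `v p`. -/
theorem sub_mem_E1 (hW : IsTwoNF W) (hv2 : v 2 = 1) (ha : v W.a₂ ≤ 1)
    (hb : v W.a₄ ≤ 1) (hb0 : W.a₄ ≠ 0) (p : ℕ) (hp0 : p ≠ 0)
    (hσ : ∀ x, v x ≤ 1 → v (σ x - x) < 1) (hσv : ∀ x, v (σ x) = v x)
    (hf : ∀ x y (h : W.Nonsingular x y), ∃ h', f (Point.some x y h) = Point.some (σ x) (σ y) h')
    (hred : v (W.a₄ * (W.a₂ ^ 2 - 4 * W.a₄)) = 1 ∨
      (v W.a₂ = 1 ∧ v W.a₄ < 1 ∧ ∃ (ϖ : K) (m : ℕ), σ ϖ = ϖ ∧ v W.a₄ = v ϖ ^ (p * m)))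
    (P : W.Point) (hP : p • P = 0) : InE1 v (P - f P) := by
  have hred' : v (W.a₄ * (W.a₂ ^ 2 - 4 * W.a₄)) = 1 ∨ v W.a₄ < 1 := by
    rcases hred with hΔ | ⟨-, hb1, -⟩
    · exact Or.inl hΔ
    · exact Or.inr hb1
  rcases P with _ | ⟨x, y, h⟩
  · have : (Point.zero : W.Point) = 0 := rfl
    rw [this, map_zero, sub_zero]; exact inE1_zero
  by_cases hx1 : 1 < v x
  · exact inE1_sub hW ha hb (inE1_some h hx1) (inE1_map hσv hf (inE1_some h hx1))
  rw [not_lt] at hx1
  rcases eq_or_lt_of_le hx1 with hx | hx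
  · exact sub_unit hW hv2 ha hb hσ hf hred' h hx
  -- now `v x < 1`
  have hβpos : 0 < v W.a₄ := val_pos v hb0
  obtain ⟨T, hT⟩ : ∃ T, T = Point.some 0 0 (hW.nonsingular_zero hb0) := ⟨_, rfl⟩
  have hfT : f T = T := by
    obtain ⟨h', hf'⟩ := hf 0 0 (hW.nonsingular_zero hb0)
    rw [hT, hf']
    obtain ⟨h'', e⟩ := some_congr h' (map_zero σ) (map_zero σ)
    exact e
  have hredT : Point.some x y h + T - f (Point.some x y h + T) =
      Point.some x y h - f (Point.some x y h) := by
    rw [map_add, hfT]; abel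
  by_cases hx0 : x = 0
  · subst hx0
    have hy : y = 0 := by
      have := hW.eq_of_nonsingular h
      simpa using this
    subst hy
    have : Point.some 0 0 h = T := by rw [hT]
    rw [this, hfT, sub_self]; exact inE1_zero
  have hX : 0 < v x := val_pos v hx0
  obtain ⟨h', hadd⟩ := hW.add_T hb0 h hx0
  rw [← hT] at hadd
  rcases lt_trichotomy (v x) (v W.a₄) with hc | hc | hc
  · -- `P + T ∈ E₁`
    rw [← hredT, hadd]
    have h1 : 1 < v (W.a₄ / x) := by
      rw [map_div₀, one_lt_div₀ hX]; exact hc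
    exact inE1_sub hW ha hb (inE1_some h' h1) (inE1_map hσv hf (inE1_some h' h1))
  · -- `P + T` is a unit point
    rw [← hredT, hadd]
    have h1 : v (W.a₄ / x) = 1 := by
      rw [map_div₀, hc, div_self hβpos.ne']
    exact sub_unit hW hv2 ha hb hσ hf hred' h' h1
  · -- the node case
    have hb1 : v W.a₄ < 1 := lt_trans hc hx
    rcases hred with hΔ | ⟨ha1, -, ϖ, m, hσϖ, hβ⟩
    · exfalso
      rw [map_mul] at hΔ
      have h1 : v (W.a₂ ^ 2 - 4 * W.a₄) ≤ 1 := by
        apply v.map_sub_le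
        · rw [map_pow]; exact pow_le_one₀ zero_le ha
        · rw [map_mul]
          have h4 : v (4 : K) ≤ 1 := by
            have := val_natCast_le_one v 4
            simpa using this
          calc v 4 * v W.a₄ ≤ 1 * 1 := by gcongr
            _ = 1 := one_mul 1
      have : v W.a₄ * v (W.a₂ ^ 2 - 4 * W.a₄) < 1 := by
        calc v W.a₄ * v (W.a₂ ^ 2 - 4 * W.a₄) ≤ v W.a₄ * 1 := by gcongr
          _ = v W.a₄ := mul_one _
          _ < 1 := hb1
      rw [hΔ] at this
      exact lt_irrefl _ this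
    obtain ⟨i, j, hij⟩ := hW.node_torsion_val ha1 hb0 hb1 hv2 h hc hx p hP
    obtain ⟨k, hk⟩ := val_eq_pow_of_pow_eq hp0 hβpos.ne' hb1 hx.le hβ hij
    have hϖ0 : ϖ ≠ 0 := by
      rintro rfl
      rw [map_zero] at hk
      rcases Nat.eq_zero_or_pos k with h0 | h0
      · rw [h0, pow_zero] at hk
        rw [hk] at hx
        exact lt_irrefl _ hx
      · rw [zero_pow h0.ne'] at hk
        exact hX.ne' hk
    have hπk : 0 < v ϖ ^ k := pow_pos (val_pos v hϖ0) k
    apply sub_node hW hv2 ha1 hb1 hσ hf h hc hx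
    obtain ⟨ε, hε⟩ : ∃ ε, ε = x / ϖ ^ k := ⟨_, rfl⟩
    have hvε : v ε = 1 := by
      rw [hε, map_div₀, map_pow, hk, div_self hπk.ne']
    have hxε : x = ϖ ^ k * ε := by
      rw [hε]; field_simp
    have : σ x - x = ϖ ^ k * (σ ε - ε) := by
      rw [hxε, map_mul, map_pow, hσϖ]; ring
    rw [this, map_mul, map_pow, hk]
    calc v ϖ ^ k * v (σ ε - ε) < v ϖ ^ k * 1 :=
          mul_lt_mul_of_pos_left (hσ ε hvε.le) hπk
      _ = v ϖ ^ k := mul_one _

end Abstract

section Frey

open Fermat.Agent.S05.helper92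

variable {K : Type*} [Field K] [DecidableEq K]

/-- Membership in the kernel of reduction (with respect to a valuation subring `A`), for points
of an arbitrary Weierstrass curve: the point at infinity, or a point with non-integral
`x`-coordinate. -/
def InKer (A : ValuationSubring K) {W : Affine K} (T : W.Point) : Prop :=
  T = 0 ∨ ∃ x y, ∃ h : W.Nonsingular x y, T = Point.some x y h ∧ x ∉ A

lemma inKer_zero (A : ValuationSubring K) {W : Affine K} : InKer A (0 : W.Point) := Or.inl rfl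

lemma inKer_some_iff (A : ValuationSubring K) {W : Affine K} {x y : K} (h : W.Nonsingular x y) :
    InKer A (Point.some x y h) ↔ x ∉ A := by
  constructor
  · rintro (h0 | ⟨x', y', h', e, hx'⟩)
    · exact absurd h0 (Point.some_ne_zero _)
    · rw [Point.some.injEq] at e
      rw [e.1]; exact hx'
  · exact fun hx => Or.inr ⟨x, y, h, rfl, hx⟩

/-- the transport identifies the two notions of kernel of reduction -/
lemma inE1_hom_iff {A : ValuationSubring K} {W W' : Affine K} {e : K} (h : IsShift W W' e)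
    (he : e ∈ A) (T : W.Point) : InE1 A.valuation (h.hom T) ↔ InKer A T := by
  rcases T with _ | ⟨x, y, hxy⟩
  · exact ⟨fun _ => Or.inl rfl, fun _ => Or.inl rfl⟩
  · rw [IsShift.hom_some, inE1_some_iff, inKer_some_iff, ← not_le, A.valuation_le_one_iff]
    constructor
    · intro h1 h2
      exact h1 (sub_mem h2 he)
    · intro h1 h2
      apply h1
      have := add_mem h2 he
      simpa using this

variable [Algebra ℚ K] [CharZero K]

/-- the kernel of reduction of the Frey curve at a valuation subring over an odd prime is a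
subgroup -/
def freyE1 (P : FreyPackage) {q : ℕ} (hq : q.Prime) (hq2 : q ≠ 2) (A : ValuationSubring K)
    (hA : A.LiesOverPrime q) : AddSubgroup (freyK P K).Point where
  carrier := {T | InKer A T}
  zero_mem' := inKer_zero A
  add_mem' := by
    intro S T hS hT
    have h := isShift_ab P K
    have h4 := inv_four_mem (K := K) hq hA hq2
    have h16 := inv_sixteen_mem (K := K) hq hA hq2
    have ha : A.valuation ((shortAB P : Affine ℚ)⁄K).a₂ ≤ 1 := by
      rw [shortAB_a₂]
      exact (A.valuation_le_one_iff _).mpr (div_mem_of_mem (sub_mem (fB_mem P) (fA_mem P)) h4)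
    have hb : A.valuation ((shortAB P : Affine ℚ)⁄K).a₄ ≤ 1 := by
      rw [shortAB_a₄]
      exact (A.valuation_le_one_iff _).mpr
        (div_mem_of_mem (neg_mem (mul_mem (fA_mem P) (fB_mem P))) h16)
    have hS' := (inE1_hom_iff h (zero_mem A) S).mpr hS
    have hT' := (inE1_hom_iff h (zero_mem A) T).mpr hT
    have := inE1_add h.nf ha hb hS' hT'
    rw [← map_add] at this
    exact (inE1_hom_iff h (zero_mem A) (S + T)).mp this
  neg_mem' := by
    intro T hT
    have h := isShift_ab P K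
    have hT' := (inE1_hom_iff h (zero_mem A) T).mpr hT
    have := inE1_neg h.nf hT'
    rw [← map_neg] at this
    exact (inE1_hom_iff h (zero_mem A) (-T)).mp this

lemma mem_freyE1 (P : FreyPackage) {q : ℕ} (hq : q.Prime) (hq2 : q ≠ 2) (A : ValuationSubring K)
    (hA : A.LiesOverPrime q) (T : (freyK P K).Point) :
    T ∈ freyE1 P hq hq2 A hA ↔
      (T = 0 ∨ ∃ x y, ∃ h : (freyK P K).Nonsingular x y, T = Point.some x y h ∧ x ∉ A) :=
  Iff.rfl

variable [Algebra.IsAlgebraic ℚ K]

/-- The general step (any odd residue characteristic, including `q = p`). -/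
lemma inKer_of_shift (P : FreyPackage) {q : ℕ} (hq : q.Prime) (hq2 : q ≠ 2)
    (A : ValuationSubring K) (hA : A.LiesOverPrime q) (σ : K ≃ₐ[ℚ] K)
    (hσ : σ ∈ A.inertiaSubgroupIn ℚ)
    {W₀' : Affine ℚ} {e : K} (h : IsShift (freyK P K) (W₀'⁄K) e) (he : σ e = e) (heA : e ∈ A)
    (ha : A.valuation (W₀'⁄K).a₂ ≤ 1) (hb : A.valuation (W₀'⁄K).a₄ ≤ 1)
    (hb0 : (W₀'⁄K).a₄ ≠ 0)
    (hred : A.valuation ((W₀'⁄K).a₄ * ((W₀'⁄K).a₂ ^ 2 - 4 * (W₀'⁄K).a₄)) = 1 ∨
      (A.valuation (W₀'⁄K).a₂ = 1 ∧ A.valuation (W₀'⁄K).a₄ < 1 ∧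
        ∃ (ϖ : K) (m : ℕ), σ ϖ = ϖ ∧ A.valuation (W₀'⁄K).a₄ = A.valuation ϖ ^ (P.p * m)))
    (T : (freyK P K).Point) (hT : (P.p : ℤ) • T = 0) : InKer A (T - σ • T) := by
  have hσ' : ∀ x : K, A.valuation x ≤ 1 → A.valuation ((σ : K →+* K) x - x) < 1 := by
    intro x hx
    have hxA : x ∈ A := (A.valuation_le_one_iff x).mp hx
    have := apply_sub_mem_nonunits_of_mem_inertiaSubgroupIn hσ hxA
    exact A.mem_nonunits_iff.mp this
  have hσv : ∀ x : K, A.valuation ((σ : K →+* K) x) = A.valuation x :=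
    fun x => valuation_apply_of_mem_inertiaSubgroupIn hσ x
  have hP : P.p • h.hom T = 0 := by
    rw [← map_nsmul]
    have : P.p • T = 0 := by
      rw [← natCast_zsmul]; exact hT
    rw [this, map_zero]
  have key := sub_mem_E1 (v := A.valuation) (σ := (σ : K →+* K))
    (f := Point.map (W' := W₀') σ.toAlgHom) h.nf (valuation_two hq hA hq2) ha hb hb0
    P.p P.hp0 hσ' hσv (fun x y hxy => ⟨_, Point.map_some _ hxy⟩) hred (h.hom T) hP
  have hcomm : h.hom (σ • T) = Point.map (W' := W₀') σ.toAlgHom (h.hom T) := h.hom_map σ he T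
  rw [← hcomm, ← map_sub] at key
  exact (inE1_hom_iff h heA _).mp key

/-- **Same reduction, Frey curve**: for a valuation subring `A` of `K` over an odd prime `q`
(`q = p` allowed!), `σ` in the inertia group of `A` and a `p`-torsion point `T` of the Frey
curve, `T - σ T` lies in the kernel of reduction. -/
theorem frey_sub_smul_inKer (P : FreyPackage) {q : ℕ} (hq : q.Prime) (hq2 : q ≠ 2)
    (A : ValuationSubring K) (hA : A.LiesOverPrime q) (σ : K ≃ₐ[ℚ] K)
    (hσ : σ ∈ A.inertiaSubgroupIn ℚ) (T : (freyK P K).Point) (hT : (P.p : ℤ) • T = 0) :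
    InKer A (T - σ • T) := by
  have h4 := inv_four_mem (K := K) hq hA hq2
  by_cases hc : (q : ℤ) ∣ P.c
  · have hu := c₂_c_unit P (K := K) hq hA hq2 hc
    have hn := c₁_c_mem_nonunits P (K := K) hq hA hq2 hc
    refine inKer_of_shift P hq hq2 A hA σ hσ (isShift_c P K) (apply_fA_div_four P σ)
      (div_mem_of_mem (fA_mem P) h4) ?_ ?_ ?_ ?_ T hT
    · rw [shortC_a₂]; exact (A.valuation_le_one_iff _).mpr hu.1
    · rw [shortC_a₄]; exact (A.valuation_le_one_iff _).mpr (mem_of_mem_nonunits hn)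
    · rw [shortC_a₄]; exact c₁_c_ne_zero P
    · right
      rw [shortC_a₂, shortC_a₄]
      refine ⟨valuation_eq_one_iff.mpr hu, A.mem_nonunits_iff.mp hn,
        ((P.a * P.c : ℤ) : K), 1, apply_intCast σ _, ?_⟩
      rw [mul_one]
      exact valuation_c₁_c P hq hA hq2
  · by_cases hab : (q : ℤ) ∣ P.a * P.b
    · have hu := c₂_ab_unit P (K := K) hq hA hq2 hab
      have hn := c₁_ab_mem_nonunits P (K := K) hq hA hq2 hab
      refine inKer_of_shift P hq hq2 A hA σ hσ (isShift_ab P K) (map_zero σ) (zero_mem A)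
        ?_ ?_ ?_ ?_ T hT
      · rw [shortAB_a₂]; exact (A.valuation_le_one_iff _).mpr hu.1
      · rw [shortAB_a₄]; exact (A.valuation_le_one_iff _).mpr (mem_of_mem_nonunits hn)
      · rw [shortAB_a₄]; exact c₁_ab_ne_zero P
      · right
        rw [shortAB_a₂, shortAB_a₄]
        refine ⟨valuation_eq_one_iff.mpr hu, A.mem_nonunits_iff.mp hn,
          ((P.a * P.b : ℤ) : K), 1, apply_intCast σ _, ?_⟩
        rw [mul_one]
        exact valuation_c₁_ab P hq hA hq2
    · have hna : ¬ (q : ℤ) ∣ P.a := fun h => hab (dvd_mul_of_dvd_left h _)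
      have hnb : ¬ (q : ℤ) ∣ P.b := fun h => hab (dvd_mul_of_dvd_right h _)
      have vA := val_fA_eq_one P hq hA hna
      have vB := val_fB_eq_one P hq hA hnb
      have vC := val_fC_eq_one P hq hA hc
      have v16 := valuation_sixteen (K := K) hq hA hq2
      have h16 := inv_sixteen_mem (K := K) hq hA hq2
      refine inKer_of_shift P hq hq2 A hA σ hσ (isShift_ab P K) (map_zero σ) (zero_mem A)
        ?_ ?_ ?_ ?_ T hT
      · rw [shortAB_a₂]
        exact (A.valuation_le_one_iff _).mpr (div_mem_of_mem (sub_mem (fB_mem P) (fA_mem P)) h4)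
      · rw [shortAB_a₄]
        exact (A.valuation_le_one_iff _).mpr
          (div_mem_of_mem (neg_mem (mul_mem (fA_mem P) (fB_mem P))) h16)
      · rw [shortAB_a₄]; exact c₁_ab_ne_zero P
      · left
        rw [shortAB_a₂, shortAB_a₄]
        have hcc := fA_add_fB P K
        have e1 : -(fA P K * fB P K) / 16 * (((fB P K - fA P K) / 4) ^ 2
            - 4 * (-(fA P K * fB P K) / 16)) = -(fA P K * fB P K * fC P K ^ 2) / (16 * 16) := by
          rw [← hcc]
          ring
        rw [e1, map_div₀, Valuation.map_neg, map_mul, map_mul, map_mul, vA, vB, map_pow, vC, v16]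
        simp

/-- The same statement in the shape requested by the S13 assembly: `σ • T - T` is zero or has
non-integral `x`-coordinate. -/
theorem frey_inertia_sub_mem_kernel (P : FreyPackage) {q : ℕ} (hq : q.Prime) (hq2 : q ≠ 2)
    (A : ValuationSubring K) (hA : A.LiesOverPrime q) (σ : K ≃ₐ[ℚ] K)
    (hσ : σ ∈ A.inertiaSubgroupIn ℚ) (T : (freyK P K).Point) (hT : (P.p : ℤ) • T = 0) :
    σ • T - T = 0 ∨ ∃ x y, ∃ h : (freyK P K).Nonsingular x y,
      σ • T - T = Point.some x y h ∧ x ∉ A := by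
  have h1 := frey_sub_smul_inKer P hq hq2 A hA σ hσ T hT
  have h2 : T - σ • T ∈ freyE1 P hq hq2 A hA := h1
  have h3 := (freyE1 P hq hq2 A hA).neg_mem h2
  rw [neg_sub] at h3
  exact h3

/-- Special case `q = p`. -/
theorem frey_inertia_sub_mem_kernel_at_p (P : FreyPackage)
    (A : ValuationSubring K) (hA : A.LiesOverPrime P.p) (σ : K ≃ₐ[ℚ] K)
    (hσ : σ ∈ A.inertiaSubgroupIn ℚ) (T : (freyK P K).Point) (hT : (P.p : ℤ) • T = 0) :
    σ • T - T = 0 ∨ ∃ x y, ∃ h : (freyK P K).Nonsingular x y,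
      σ • T - T = Point.some x y h ∧ x ∉ A :=
  frey_inertia_sub_mem_kernel P P.pp (by have := P.hp5; omega) A hA σ hσ T hT

end Frey

end Fermat.Agent.S13.helper5
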