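import Fermat.Agent.S13.helper64_Ladder

/-!
# Degrees and leading coefficients of the ladder polynomials (helper64, for S13)

* `natDegree_torsPoly_le`: `(torsPoly W n).natDegree ≤ 2 * n * (n + 1)`;
* `coeff_torsPoly_top`: `(torsPoly W n).coeff (2 * n * (n + 1)) = -(2 * n + 1)`.
-/

set_option autoImplicit false

open WeierstrassCurve Polynomial

namespace Fermat.Agent.S13.helper64

section istop

variable {R : Type*} [CommRing R]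

/-- `p` has degree at most `d` and coefficient `c` in degree `d`. -/
def IsTop (p : R[X]) (d : ℕ) (c : R) : Prop := p.natDegree ≤ d ∧ p.coeff d = c

variable {p q : R[X]} {d e : ℕ} {c c' : R}

lemma IsTop.mul (hp : IsTop p d c) (hq : IsTop q e c') : IsTop (p * q) (d + e) (c * c') :=
  ⟨natDegree_mul_le_of_le hp.1 hq.1, by rw [coeff_mul_add_eq_of_natDegree_le hp.1 hq.1, hp.2, hq.2]⟩

lemma IsTop.pow (hp : IsTop p d c) (k : ℕ) : IsTop (p ^ k) (k * d) (c ^ k) :=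
  ⟨natDegree_pow_le_of_le k hp.1, by rw [coeff_pow_of_natDegree_le hp.1, hp.2]⟩

lemma IsTop.add (hp : IsTop p d c) (hq : IsTop q d c') : IsTop (p + q) d (c + c') :=
  ⟨natDegree_add_le_of_degree_le hp.1 hq.1, by rw [coeff_add, hp.2, hq.2]⟩

lemma IsTop.neg (hp : IsTop p d c) : IsTop (-p) d (-c) :=
  ⟨by rw [natDegree_neg]; exact hp.1, by rw [coeff_neg, hp.2]⟩

lemma IsTop.sub (hp : IsTop p d c) (hq : IsTop q d c') : IsTop (p - q) d (c - c') := by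
  rw [sub_eq_add_neg, sub_eq_add_neg]; exact hp.add hq.neg

lemma IsTop.lower (hp : IsTop p d c) (h : d < e) : IsTop p e 0 :=
  ⟨hp.1.trans h.le, coeff_eq_zero_of_natDegree_lt (hp.1.trans_lt h)⟩

lemma IsTop.congr {d' : ℕ} {c'' : R} (hp : IsTop p d c) (hd : d = d') (hc : c = c'') :
    IsTop p d' c'' := by
  subst hd hc; exact hp

lemma isTop_C (a : R) : IsTop (C a) 0 a := ⟨by simp, by simp⟩

lemma isTop_X : IsTop (X : R[X]) 1 1 := ⟨natDegree_X_le, by simp⟩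

lemma isTop_one : IsTop (1 : R[X]) 0 1 := ⟨by simp, by simp⟩

lemma isTop_zero (d : ℕ) : IsTop (0 : R[X]) d 0 := ⟨by simp, by simp⟩

lemma isTop_ofNat (k : ℕ) [k.AtLeastTwo] : IsTop (OfNat.ofNat k : R[X]) 0 (OfNat.ofNat k) :=
  ⟨by simp, by simp⟩

end istop

section steps

variable {R : Type*} [CommRing R] (b₂ b₄ b₆ b₈ : R)

lemma isTop_dblX {U V : R[X]} {a : ℕ} {m : R} (ha : 1 ≤ a) (hU : IsTop U a 1)
    (hV : IsTop V (a - 1) m) : IsTop (dblX (C b₄) (C b₆) (C b₈) U V) (4 * a) 1 := by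
  have t1 : IsTop (U ^ 4) (4 * a) (1 ^ 4) := hU.pow 4
  have t2 : IsTop (C b₄ * U ^ 2 * V ^ 2) (4 * a) 0 :=
    (((isTop_C b₄).mul (hU.pow 2)).mul (hV.pow 2)).lower (by omega)
  have t3 : IsTop (2 * C b₆ * U * V ^ 3) (4 * a) 0 :=
    ((((isTop_ofNat 2).mul (isTop_C b₆)).mul hU).mul (hV.pow 3)).lower (by omega)
  have t4 : IsTop (C b₈ * V ^ 4) (4 * a) 0 :=
    ((isTop_C b₈).mul (hV.pow 4)).lower (by omega)
  exact (((t1.sub t2).sub t3).sub t4).congr rfl (by ring)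

lemma isTop_dblZ {U V : R[X]} {a : ℕ} {m : R} (ha : 1 ≤ a) (hU : IsTop U a 1)
    (hV : IsTop V (a - 1) m) : IsTop (dblZ (C b₂) (C b₄) (C b₆) U V) (4 * a - 1) (4 * m) := by
  have t1 : IsTop (4 * U ^ 3) (3 * a) (4 * 1 ^ 3) :=
    ((isTop_ofNat 4).mul (hU.pow 3)).congr (by omega) rfl
  have t2 : IsTop (C b₂ * U ^ 2 * V) (3 * a) 0 :=
    (((isTop_C b₂).mul (hU.pow 2)).mul hV).lower (by omega)
  have t3 : IsTop (2 * C b₄ * U * V ^ 2) (3 * a) 0 :=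
    ((((isTop_ofNat 2).mul (isTop_C b₄)).mul hU).mul (hV.pow 2)).lower (by omega)
  have t4 : IsTop (C b₆ * V ^ 3) (3 * a) 0 :=
    ((isTop_C b₆).mul (hV.pow 3)).lower (by omega)
  exact (hV.mul (((t1.add t2).add t3).add t4)).congr (by omega) (by ring)

lemma isTop_oddT {X₁ Z₁ X₂ Z₂ : R[X]} {a a' : ℕ} {m m' : R} (ha : 1 ≤ a) (ha' : 1 ≤ a')
    (hX₁ : IsTop X₁ a' 1) (hZ₁ : IsTop Z₁ (a' - 1) m') (hX₂ : IsTop X₂ a 1)
    (hZ₂ : IsTop Z₂ (a - 1) m) : IsTop (oddT X₁ Z₁ X₂ Z₂) (a' + a - 1) (m - m') := by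
  have t1 : IsTop (X₁ * Z₂) (a' + a - 1) (1 * m) := (hX₁.mul hZ₂).congr (by omega) rfl
  have t2 : IsTop (X₂ * Z₁) (a' + a - 1) (1 * m') := (hX₂.mul hZ₁).congr (by omega) rfl
  exact (t1.sub t2).congr rfl (by ring)

lemma isTop_oddZ {X₁ Z₁ X₂ Z₂ : R[X]} {a a' : ℕ} {m m' : R} (ha : 1 ≤ a) (ha' : 1 ≤ a')
    (hX₁ : IsTop X₁ a' 1) (hZ₁ : IsTop Z₁ (a' - 1) m') (hX₂ : IsTop X₂ a 1)
    (hZ₂ : IsTop Z₂ (a - 1) m) :
    IsTop (oddZ X₁ Z₁ X₂ Z₂) (2 * (a' + a) - 2) ((m - m') ^ 2) :=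
  ((isTop_oddT ha ha' hX₁ hZ₁ hX₂ hZ₂).pow 2).congr (by omega) rfl

lemma isTop_oddX {X₁ Z₁ X₂ Z₂ : R[X]} {a a' : ℕ} {m m' : R} (ha : 1 ≤ a) (ha' : 1 ≤ a')
    (hX₁ : IsTop X₁ a' 1) (hZ₁ : IsTop Z₁ (a' - 1) m') (hX₂ : IsTop X₂ a 1)
    (hZ₂ : IsTop Z₂ (a - 1) m) :
    IsTop (oddX (C b₂) (C b₄) (C b₆) X X₁ Z₁ X₂ Z₂) (2 * (a' + a) - 1)
      (2 * (m + m') - (m - m') ^ 2) := by
  have s1 : IsTop (X₁ * Z₂ + X₂ * Z₁) (a' + a - 1) (1 * m + 1 * m') :=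
    ((hX₁.mul hZ₂).congr (by omega) rfl).add ((hX₂.mul hZ₁).congr (by omega) rfl)
  have t1 : IsTop (2 * X₁ * X₂ * (X₁ * Z₂ + X₂ * Z₁)) (2 * (a' + a) - 1)
      (2 * 1 * 1 * (1 * m + 1 * m')) :=
    ((((isTop_ofNat 2).mul hX₁).mul hX₂).mul s1).congr (by omega) rfl
  have t2 : IsTop (C b₂ * X₁ * X₂ * Z₁ * Z₂) (2 * (a' + a) - 1) 0 :=
    (((((isTop_C b₂).mul hX₁).mul hX₂).mul hZ₁).mul hZ₂).lower (by omega)
  have t3 : IsTop (C b₄ * Z₁ * Z₂ * (X₁ * Z₂ + X₂ * Z₁)) (2 * (a' + a) - 1) 0 :=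
    ((((isTop_C b₄).mul hZ₁).mul hZ₂).mul s1).lower (by omega)
  have t4 : IsTop (C b₆ * Z₁ ^ 2 * Z₂ ^ 2) (2 * (a' + a) - 1) 0 :=
    (((isTop_C b₆).mul (hZ₁.pow 2)).mul (hZ₂.pow 2)).lower (by omega)
  have t5 : IsTop (X * oddT X₁ Z₁ X₂ Z₂ ^ 2) (2 * (a' + a) - 1) (1 * (m - m') ^ 2) :=
    (isTop_X.mul ((isTop_oddT ha ha' hX₁ hZ₁ hX₂ hZ₂).pow 2)).congr (by omega) rfl
  exact ((((t1.add t2).add t3).add t4).sub t5).congr rfl (by ring)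

end steps

section invariant

variable {R : Type*} [CommRing R]

/-- The degree invariant of the ladder state at index `n`. -/
def DegInv (n : ℕ) (s : LadState R[X]) : Prop :=
  (IsTop s.X (n ^ 2) 1 ∧ IsTop s.Z (n ^ 2 - 1) ((n : R) ^ 2) ∧
    IsTop s.X' ((n + 1) ^ 2) 1 ∧ IsTop s.Z' ((n + 1) ^ 2 - 1) (((n : R) + 1) ^ 2)) ∧
  (n = 0 → s = ⟨1, 0, X, 1⟩)

lemma degInv_zero : DegInv (R := R) 0 ⟨1, 0, X, 1⟩ := by
  refine ⟨⟨?_, ?_, ?_, ?_⟩, fun _ => rfl⟩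
  · exact isTop_one
  · exact (isTop_zero 0).congr rfl (by simp)
  · exact isTop_X.congr (by norm_num) rfl
  · exact isTop_one.congr (by norm_num) (by simp)

lemma degInv_one (b₂ b₄ b₆ b₈ : R) :
    DegInv 1 (oddStep (C b₂) (C b₄) (C b₆) (C b₈) X ⟨1, 0, X, 1⟩) := by
  have hX : IsTop (X : R[X]) 1 1 := isTop_X
  have h1 : IsTop (1 : R[X]) (1 - 1) 1 := isTop_one
  refine ⟨⟨?_, ?_, ?_, ?_⟩, fun h => absurd h one_ne_zero⟩
  · have : oddX (C b₂) (C b₄) (C b₆) (X : R[X]) X 1 1 0 = X := by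
      simp only [oddX, sumNum, oddT]; ring
    simp only [oddStep]; rw [this]; exact isTop_X.congr (by norm_num) rfl
  · have : oddZ (X : R[X]) 1 1 0 = 1 := by
      simp only [oddZ, oddT]; ring
    simp only [oddStep]; rw [this]; exact isTop_one.congr (by norm_num) (by simp)
  · exact (isTop_dblX b₄ b₆ b₈ le_rfl hX h1).congr (by norm_num) rfl
  · exact (isTop_dblZ b₂ b₄ b₆ le_rfl hX h1).congr (by norm_num) (by norm_num)

lemma degInv_evenStep (b₂ b₄ b₆ b₈ : R) {n : ℕ} {s : LadState R[X]} (h : DegInv n s) :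
    DegInv (2 * n) (evenStep (C b₂) (C b₄) (C b₆) (C b₈) X s) := by
  rcases Nat.eq_zero_or_pos n with rfl | hn
  · rw [h.2 rfl, evenStep_init]; exact degInv_zero
  obtain ⟨⟨hX, hZ, hX', hZ'⟩, -⟩ := h
  have ha : 1 ≤ n ^ 2 := Nat.one_le_pow _ _ hn
  have ha' : 1 ≤ (n + 1) ^ 2 := Nat.one_le_pow _ _ (by omega)
  refine ⟨⟨?_, ?_, ?_, ?_⟩, fun h0 => by omega⟩
  · exact (isTop_dblX b₄ b₆ b₈ ha hX hZ).congr (by ring) rfl
  · exact (isTop_dblZ b₂ b₄ b₆ ha hX hZ).congr (by rw [mul_pow]; norm_num) (by push_cast; ring)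
  · refine (isTop_oddX b₂ b₄ b₆ ha ha' hX' hZ' hX hZ).congr ?_ (by ring)
    have : 2 * ((n + 1) ^ 2 + n ^ 2) = (2 * n + 1) ^ 2 + 1 := by ring
    omega
  · refine (isTop_oddZ ha ha' hX' hZ' hX hZ).congr ?_ (by push_cast; ring)
    have : 2 * ((n + 1) ^ 2 + n ^ 2) = (2 * n + 1) ^ 2 + 1 := by ring
    omega

lemma degInv_oddStep (b₂ b₄ b₆ b₈ : R) {n : ℕ} {s : LadState R[X]} (h : DegInv n s) :
    DegInv (2 * n + 1) (oddStep (C b₂) (C b₄) (C b₆) (C b₈) X s) := by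
  rcases Nat.eq_zero_or_pos n with rfl | hn
  · rw [h.2 rfl]; exact degInv_one b₂ b₄ b₆ b₈
  obtain ⟨⟨hX, hZ, hX', hZ'⟩, -⟩ := h
  have ha : 1 ≤ n ^ 2 := Nat.one_le_pow _ _ hn
  have ha' : 1 ≤ (n + 1) ^ 2 := Nat.one_le_pow _ _ (by omega)
  refine ⟨⟨?_, ?_, ?_, ?_⟩, fun h0 => by omega⟩
  · refine (isTop_oddX b₂ b₄ b₆ ha ha' hX' hZ' hX hZ).congr ?_ (by ring)
    have : 2 * ((n + 1) ^ 2 + n ^ 2) = (2 * n + 1) ^ 2 + 1 := by ring
    omega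
  · refine (isTop_oddZ ha ha' hX' hZ' hX hZ).congr ?_ (by push_cast; ring)
    have : 2 * ((n + 1) ^ 2 + n ^ 2) = (2 * n + 1) ^ 2 + 1 := by ring
    omega
  · exact (isTop_dblX b₄ b₆ b₈ ha' hX' hZ').congr (by ring) rfl
  · exact (isTop_dblZ b₂ b₄ b₆ ha' hX' hZ').congr
      (by have : 4 * (n + 1) ^ 2 = (2 * n + 1 + 1) ^ 2 := by ring
          omega) (by push_cast; ring)

theorem degInv_ladPoly (W : WeierstrassCurve R) (n : ℕ) : DegInv n (ladPoly W n) :=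
  lad_induction (C W.b₂) (C W.b₄) (C W.b₆) (C W.b₈) X (motive := DegInv) degInv_zero
    (fun _ _ h => degInv_evenStep _ _ _ _ h) (fun _ _ h => degInv_oddStep _ _ _ _ h) n

/-- Top-degree behaviour of the torsion polynomial. -/
theorem isTop_torsPoly (W : WeierstrassCurve R) (n : ℕ) :
    IsTop (torsPoly W n) (2 * n * (n + 1)) (-(2 * (n : R) + 1)) := by
  rcases Nat.eq_zero_or_pos n with rfl | hn
  · have : torsPoly W 0 = -1 := by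
      simp [torsPoly, ladPoly, lad_zero, oddT]
    rw [this]
    exact isTop_one.neg.congr (by norm_num) (by simp)
  obtain ⟨⟨hX, hZ, hX', hZ'⟩, -⟩ := degInv_ladPoly W n
  have ha : 1 ≤ n ^ 2 := Nat.one_le_pow _ _ hn
  have ha' : 1 ≤ (n + 1) ^ 2 := Nat.one_le_pow _ _ (by omega)
  refine (isTop_oddT ha ha' hX' hZ' hX hZ).congr ?_ (by ring)
  have : (n + 1) ^ 2 + n ^ 2 = 2 * n * (n + 1) + 1 := by ring
  omega

theorem natDegree_torsPoly_le (W : WeierstrassCurve R) (n : ℕ) :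
    (torsPoly W n).natDegree ≤ 2 * n * (n + 1) := (isTop_torsPoly W n).1

theorem coeff_torsPoly_top (W : WeierstrassCurve R) (n : ℕ) :
    (torsPoly W n).coeff (2 * n * (n + 1)) = -(2 * (n : R) + 1) := (isTop_torsPoly W n).2

end invariant

end Fermat.Agent.S13.helper64
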