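import Fermat.Agent.S13.helper72_EisensteinEC
import Fermat.Agent.S13.helper64_LadderDeg
import Fermat.Agent.S13.helper5_AtP
import Fermat.Agent.S13.helper38_Adapters
import Fermat.Agent.S04.Wiring

/-!
# S13, package (3): the input at `p` for the Frey curve

`frey_properAt`: if `E[p]` of the Frey curve has a Galois-stable submodule `N₀ ≠ ⊥, ⊤`, then
input (3) `ProperAt` of the assembly (helper38) holds: for a place `A` over `p`, the subgroup
`M = E[p] ∩ E₁` is proper (Eisenstein argument, `exists_torsion_x_mem`) and contains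
`(σ - 1) E[p]` for all `σ` in the inertia group at `A` (helper5, `frey_inertia_sub_mem_kernel`).
-/

set_option autoImplicit false
set_option linter.style.haveILetI false

namespace Fermat.Agent.S13.helper72

open Polynomial WeierstrassCurve WeierstrassCurve.Affine WeierstrassCurve.Affine.Point
open Fermat.Agent.S13.helper64 Fermat.Agent.S13.helper38 Fermat.Agent.S05.helper92

/-- `ℚ̄`. -/
local notation "Kbar" => AlgebraicClosure ℚ
/-- The absolute Galois group of `ℚ`. -/
local notation "GQ" => (AlgebraicClosure ℚ ≃ₐ[ℚ] AlgebraicClosure ℚ)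

/-- `ℚ̄ / ℚ` is algebraic, for the instance found by instance resolution. -/
lemma isAlgebraic_Kbar : Algebra.IsAlgebraic ℚ Kbar := by
  have h : (DivisionRing.toRatAlgebra : Algebra ℚ Kbar) = AlgebraicClosure.instAlgebra ℚ :=
    Subsingleton.elim _ _
  have h2 : @Algebra.IsAlgebraic ℚ Kbar _ _ (AlgebraicClosure.instAlgebra ℚ) :=
    AlgebraicClosure.isAlgebraic ℚ
  rw [← h] at h2
  exact h2

/-- **Input (3) of the S13 assembly for the Frey curve.** -/
theorem frey_properAt (P : FreyPackage)
    (N₀ : Submodule (ZMod P.p) (Tors P.freyCurve P.p))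
    (hN : IsGaloisStable ℚ N₀) (hbot : N₀ ≠ ⊥) (htop : N₀ ≠ ⊤) :
    ProperAt P.freyCurve P.p := by
  haveI := isAlgebraic_Kbar
  have hp2 : P.p ≠ 2 := by have := P.hp5; omega
  obtain ⟨A, hA⟩ := exists_liesOverPrime P.pp
  obtain ⟨n, hn⟩ := P.hp_odd
  have hcoeff : (torsPoly P.freyCurveInt n).coeff (2 * n * (n + 1)) = -((2 * n + 1 : ℕ) : ℤ) := by
    rw [coeff_torsPoly_top]; push_cast; ring
  have hΔ : P.freyCurve.Δ ≠ 0 := by
    rw [← Fermat.Agent.S04.freyCurveInt_map, WeierstrassCurve.map_Δ]
    simpa using Fermat.Agent.S04.freyCurveInt_Δ_ne_zero P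
  obtain ⟨x, y, h, ht, hx⟩ := exists_torsion_x_mem (K := Kbar) P.freyCurve P.freyCurveInt
    (Fermat.Agent.S04.freyCurveInt_map P) hΔ P.pp n hn (natDegree_torsPoly_le _ n) hcoeff A hA
    N₀ hN hbot htop
  refine ⟨A, hA, (Fermat.Agent.S13.helper5.freyE1 P P.pp hp2 A hA).comap
    (Submodule.torsionBy ℤ (freyK P Kbar).Point P.p).subtype.toAddMonoidHom, ?_, ?_⟩
  · intro hM
    have hmem : (⟨Point.some x y h, (Submodule.mem_torsionBy_iff _ _).mpr ht⟩ :
        Tors P.freyCurve P.p) ∈ (Fermat.Agent.S13.helper5.freyE1 P P.pp hp2 A hA).comap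
          (Submodule.torsionBy ℤ (freyK P Kbar).Point P.p).subtype.toAddMonoidHom := by
      rw [hM]; trivial
    have h2 : Fermat.Agent.S13.helper5.InKer A (Point.some x y h : (freyK P Kbar).Point) := hmem
    exact (Fermat.Agent.S13.helper5.inKer_some_iff A h).mp h2 hx
  · intro σ hσ T
    have := Fermat.Agent.S13.helper5.frey_inertia_sub_mem_kernel_at_p P A hA σ hσ
      (T : (freyK P Kbar).Point) ((Submodule.mem_torsionBy_iff _ _).mp T.2)
    exact this

end Fermat.Agent.S13.helper72
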