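import Fermat.Agent.S13.Tors2
import Fermat.Agent.S04.Wiring
import Mathlib.NumberTheory.Padics.PadicNumbers

/-!
# No rational `p`-torsion on the Frey curve: reduction at `2`

The wiring of package (5) of the S13 blueprint: a rational `p`-torsion point of the Frey curve
`y² + xy = x³ + a₂x² + a₄x` is zero, given the node (sawtooth) input at `2`.
-/

set_option autoImplicit false

namespace Fermat.Agent.S13

open WithZero WeierstrassCurve WeierstrassCurve.Affine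

instance fact_prime_two' : Fact (Nat.Prime 2) := ⟨Nat.prime_two⟩

/-- the `2`-adic valuation on `ℚ` -/
noncomputable abbrev v2 : Valuation ℚ ℤᵐ⁰ := Rat.padicValuation 2

lemma v2_two : v2 (2 : ℚ) = exp (-1) := by
  have := Rat.padicValuation_self 2
  simpa using this

lemma v2_two_lt_one : v2 (2 : ℚ) < 1 := by
  rw [v2_two, ← exp_zero, exp_lt_exp]
  norm_num

lemma v2_intCast_le_one (n : ℤ) : v2 (n : ℚ) ≤ 1 := Int.padicValuation_le_one 2 n

lemma v2_intCast_eq_one_iff {n : ℤ} : v2 (n : ℚ) = 1 ↔ ¬ (2 : ℤ) ∣ n := by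
  have h : v2 (n : ℚ) = Int.padicValuation 2 n := rfl
  rw [h, Int.padicValuation_eq_one_iff]
  norm_num

lemma v2_intCast_lt_one_iff {n : ℤ} : v2 (n : ℚ) < 1 ↔ (2 : ℤ) ∣ n := by
  rw [lt_iff_le_and_ne]
  constructor
  · rintro ⟨-, h⟩
    by_contra hn
    exact h (v2_intCast_eq_one_iff.mpr hn)
  · intro h
    exact ⟨v2_intCast_le_one n, fun h1 => (v2_intCast_eq_one_iff.mp h1) h⟩

/-- The residue field of `ℤ_(2)` is `𝔽₂`. -/
lemma v2_residue (x : ℚ) (hx : v2 x ≤ 1) : v2 x < 1 ∨ v2 (x - 1) < 1 := by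
  have hden0 : (x.den : ℚ) ≠ 0 := by exact_mod_cast x.den_ne_zero
  have hxe : x = (x.num : ℚ) / (x.den : ℚ) := (Rat.num_div_den x).symm
  have hdenI : v2 ((x.den : ℤ) : ℚ) ≤ 1 := v2_intCast_le_one _
  -- the denominator is odd
  have hden : v2 ((x.den : ℤ) : ℚ) = 1 := by
    by_contra hne
    have hlt : v2 ((x.den : ℤ) : ℚ) < 1 := lt_of_le_of_ne hdenI hne
    have h2den : (2 : ℤ) ∣ (x.den : ℤ) := v2_intCast_lt_one_iff.mp hlt
    have h2num : ¬ (2 : ℤ) ∣ x.num := by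
      intro h2n
      have hcop := x.reduced
      have h2n' : 2 ∣ x.num.natAbs := by
        have := Int.natAbs_dvd_natAbs.mpr h2n
        simpa using this
      have h2d' : 2 ∣ x.den := by exact_mod_cast h2den
      have := Nat.dvd_gcd h2n' h2d'
      rw [hcop] at this
      omega
    have hnum : v2 ((x.num : ℤ) : ℚ) = 1 := v2_intCast_eq_one_iff.mpr h2num
    have : v2 x * v2 ((x.den : ℤ) : ℚ) = v2 ((x.num : ℤ) : ℚ) := by
      rw [← map_mul]
      congr 1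
      push_cast
      field_simp
      exact (Rat.mul_den_eq_num x)
    rw [hnum] at this
    have h1 : v2 x * v2 ((x.den : ℤ) : ℚ) < 1 := by
      calc v2 x * v2 ((x.den : ℤ) : ℚ) ≤ 1 * v2 ((x.den : ℤ) : ℚ) := mul_le_mul_left hx _
        _ = v2 ((x.den : ℤ) : ℚ) := one_mul _
        _ < 1 := hlt
    rw [this] at h1
    exact lt_irrefl _ h1
  have hvx : v2 x = v2 ((x.num : ℤ) : ℚ) := by
    have : v2 x * v2 ((x.den : ℤ) : ℚ) = v2 ((x.num : ℤ) : ℚ) := by
      rw [← map_mul]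
      congr 1
      push_cast
      exact (Rat.mul_den_eq_num x)
    rw [hden, mul_one] at this
    exact this
  by_cases h2 : (2 : ℤ) ∣ x.num
  · left
    rw [hvx]; exact v2_intCast_lt_one_iff.mpr h2
  · right
    have h2den : ¬ (2 : ℤ) ∣ (x.den : ℤ) := v2_intCast_eq_one_iff.mp hden
    have hsub : (2 : ℤ) ∣ x.num - x.den := by omega
    have : v2 (x - 1) * v2 ((x.den : ℤ) : ℚ) = v2 ((x.num - x.den : ℤ) : ℚ) := by
      rw [← map_mul]
      congr 1
      push_cast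
      rw [sub_mul, one_mul]
      congr 1
      exact (Rat.mul_den_eq_num x)
    rw [hden, mul_one] at this
    rw [this]
    exact v2_intCast_lt_one_iff.mpr hsub


/-! ### The Frey curve at `2` -/

section Frey

variable (P : FreyPackage)

lemma frey_a₂_eq : (P.freyCurve : Affine ℚ).a₂ = ((P.freyCurveInt.a₂ : ℤ) : ℚ) := by
  rw [← Fermat.Agent.S04.freyCurveInt_map P]
  simp

lemma frey_a₄_eq : (P.freyCurve : Affine ℚ).a₄ = ((P.freyCurveInt.a₄ : ℤ) : ℚ) := by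
  rw [← Fermat.Agent.S04.freyCurveInt_map P]
  simp

lemma frey_two_dvd_a₄ : (2 : ℤ) ∣ P.freyCurveInt.a₄ := by
  obtain ⟨k, hk⟩ := Fermat.Agent.S04.thirtytwo_dvd_b_pow P
  have h := Fermat.Agent.S04.sixteen_mul_a₄ P
  rw [hk] at h
  refine ⟨-(P.a ^ P.p * k), ?_⟩
  linarith

lemma frey_v2_a₂ : v2 (P.freyCurve : Affine ℚ).a₂ ≤ 1 := by
  rw [frey_a₂_eq]; exact v2_intCast_le_one _

lemma frey_v2_a₄ : v2 (P.freyCurve : Affine ℚ).a₄ < 1 := by
  rw [frey_a₄_eq]; exact v2_intCast_lt_one_iff.mpr (frey_two_dvd_a₄ P)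

lemma frey_v2_b₂ : v2 (P.freyCurve : Affine ℚ).b₂ = 1 := by
  have ha₁ : (P.freyCurve : Affine ℚ).a₁ = 1 := rfl
  rw [WeierstrassCurve.b₂, ha₁]
  have e : (1 : ℚ) ^ 2 + 4 * (P.freyCurve : Affine ℚ).a₂ =
      1 + 2 * (2 * (P.freyCurve : Affine ℚ).a₂) := by ring
  rw [e]
  refine v_one_add_eq_one v2 (v_mul_lt_one_of_lt_left v2 v2_two_lt_one ?_)
  exact v_mul_le_of_le_one_left v2 v2_two_lt_one.le (frey_v2_a₂ P)

lemma frey_two_ne_zero : (2 : ℚ) ≠ 0 := by norm_num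

lemma frey_not_two_dvd_a : ¬ (2 : ℤ) ∣ P.a := by
  intro h
  have h4 := P.ha4
  obtain ⟨k, hk⟩ := h
  rw [hk] at h4
  push_cast at h4
  have : ∀ z : ZMod 4, (2 : ZMod 4) * z ≠ 3 := by decide
  exact this _ h4

lemma frey_v2_p : v2 ((P.p : ℕ) : ℚ) = 1 := by
  have h : ((P.p : ℕ) : ℚ) = ((P.p : ℤ) : ℚ) := by push_cast; rfl
  rw [h, v2_intCast_eq_one_iff]
  intro h2
  have h2' : 2 ∣ P.p := by exact_mod_cast h2
  have := (Nat.prime_dvd_prime_iff_eq Nat.prime_two P.pp).mp h2'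
  have := P.hp5
  omega

lemma frey_coprime_three : Nat.Coprime P.p 3 := by
  rw [Nat.coprime_primes P.pp Nat.prime_three]
  have := P.hp5
  omega

/-- The node (sawtooth) input at `2`, over `ℚ` with the `2`-adic valuation: a rational
`p`-torsion point all of whose nonzero multiples reduce to the node has a multiple whose
`x`-coordinate `t` satisfies `|t|^p = |a₄|^2`. -/
def NodeSawtoothAtTwo : Prop :=
  ∀ Q : P.freyCurve.toAffine.Point, P.p • Q = 0 → Q ≠ 0 →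
    (∀ (k : ℕ) (x y : ℚ) (h : P.freyCurve.toAffine.Nonsingular x y),
      k • Q = Point.some x y h → v2 x < 1) →
    ∃ (k : ℕ) (x y : ℚ) (h : P.freyCurve.toAffine.Nonsingular x y),
      k • Q = Point.some x y h ∧ v2 x ^ P.p = v2 (P.freyCurve : Affine ℚ).a₄ ^ 2

/-- Every nonzero multiple of a rational `p`-torsion point of the Frey curve reduces to the
node `(0, 0)` modulo `2`. -/
theorem frey_torsion_reduces_to_node {x y : ℚ}
    (h : P.freyCurve.toAffine.Nonsingular x y)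
    (hT : P.p • Point.some x y h = 0) : v2 x < 1 ∧ v2 y < 1 := by
  have ha₁ : (P.freyCurve : Affine ℚ).a₁ = 1 := rfl
  have ha₃ : (P.freyCurve : Affine ℚ).a₃ = 0 := rfl
  have ha₆ : (P.freyCurve : Affine ℚ).a₆ = 0 := rfl
  have hv1 : v2 (P.freyCurve : Affine ℚ).a₁ ≤ 1 := by rw [ha₁, map_one]
  have hv3 : v2 (P.freyCurve : Affine ℚ).a₃ ≤ 1 := by rw [ha₃, map_zero]; exact zero_le
  have hv6 : v2 (P.freyCurve : Affine ℚ).a₆ ≤ 1 := by rw [ha₆, map_zero]; exact zero_le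
  obtain ⟨hxi, hyi⟩ := v_le_one_of_nsmul_eq_zero v2 (P.freyCurve : Affine ℚ) hv1
    (frey_v2_a₂ P) hv3 (frey_v2_a₄ P).le hv6 (frey_v2_p P) h hT
  exact torsion_reduces_to_node_of_residue_two v2 (P.freyCurve : Affine ℚ) v2_two_lt_one
    ha₁ ha₃ ha₆ (frey_v2_a₂ P) (frey_v2_a₄ P) (frey_v2_p P) (frey_coprime_three P) h hT
    (v2_residue x hxi) (v2_residue y hyi)

/-- The arithmetic at `2`: no nonzero rational number `t` has `|t|^p = |a₄|^2`. -/
theorem frey_v2_pow_ne (x : ℚ) :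
    v2 x ^ P.p ≠ v2 (P.freyCurve : Affine ℚ).a₄ ^ 2 := by
  intro hpow
  have ha₄0 : (P.freyCurve : Affine ℚ).a₄ ≠ 0 := by
    rw [frey_a₄_eq]
    exact_mod_cast Fermat.Agent.S04.freyCurveInt_a₄_ne_zero P
  have hva₄ : v2 (P.freyCurve : Affine ℚ).a₄ ≠ 0 := (Valuation.ne_zero_iff v2).mpr ha₄0
  have hx0 : x ≠ 0 := by
    rintro rfl
    rw [map_zero, zero_pow P.hp0] at hpow
    exact pow_ne_zero 2 hva₄ hpow.symm
  have hvx : v2 x ≠ 0 := (Valuation.ne_zero_iff v2).mpr hx0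
  have hb0 : ((P.b : ℤ) : ℚ) ≠ 0 := by exact_mod_cast P.hb0
  have hvb : v2 ((P.b : ℤ) : ℚ) ≠ 0 := (Valuation.ne_zero_iff v2).mpr hb0
  have hva : v2 ((P.a : ℤ) : ℚ) = 1 := v2_intCast_eq_one_iff.mpr (frey_not_two_dvd_a P)
  have h2ne : v2 (2 : ℚ) ≠ 0 := by rw [v2_two]; exact exp_ne_zero
  -- `16 a₄ = -(a^p b^p)`
  have h16 : (16 : ℚ) * (P.freyCurve : Affine ℚ).a₄ =
      -(((P.a : ℤ) : ℚ) ^ P.p * ((P.b : ℤ) : ℚ) ^ P.p) := by
    rw [frey_a₄_eq]
    have := Fermat.Agent.S04.sixteen_mul_a₄ P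
    exact_mod_cast this
  have hv16 : v2 (2 : ℚ) ^ 4 * v2 (P.freyCurve : Affine ℚ).a₄ = v2 ((P.b : ℤ) : ℚ) ^ P.p := by
    have := congrArg v2 h16
    rw [map_mul, Valuation.map_neg, map_mul, map_pow, map_pow, hva, one_pow, one_mul] at this
    rw [← this, ← map_pow]
    norm_num
  -- the key identity of valuations
  have key : v2 x ^ P.p * v2 (2 : ℚ) ^ 8 = (v2 ((P.b : ℤ) : ℚ) ^ 2) ^ P.p := by
    rw [hpow, ← pow_mul, mul_comm 2 P.p, pow_mul, ← hv16, mul_pow, ← pow_mul, mul_comm]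
  have hlog := congrArg log key
  rw [log_mul (pow_ne_zero _ hvx) (pow_ne_zero _ h2ne), log_pow, log_pow, log_pow, log_pow,
    v2_two, log_exp] at hlog
  simp only [nsmul_eq_mul] at hlog
  have hdvd : (P.p : ℤ) ∣ 8 := by
    refine ⟨log (v2 x) - 2 * log (v2 ((P.b : ℤ) : ℚ)), ?_⟩
    push_cast at hlog
    linarith
  have hdvd' : P.p ∣ 8 := by exact_mod_cast hdvd
  have h8 : (8 : ℕ) = 2 ^ 3 := by norm_num
  rw [h8] at hdvd'
  have := (Nat.prime_dvd_prime_iff_eq P.pp Nat.prime_two).mp (P.pp.dvd_of_dvd_pow hdvd')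
  have := P.hp5
  omega

/-- **Package (5) of S13, conditional on the node input at `2`**: the Frey curve has no
nonzero rational point of order `p`. -/
theorem frey_no_rational_torsion (hsaw : NodeSawtoothAtTwo P)
    (Q : P.freyCurve.toAffine.Point) (hQ : P.p • Q = 0) : Q = 0 := by
  by_contra hQ0
  have hnode : ∀ (k : ℕ) (x y : ℚ) (h : P.freyCurve.toAffine.Nonsingular x y),
      k • Q = Point.some x y h → v2 x < 1 := by
    intro k x y h hk
    have hT : P.p • Point.some x y h = 0 := by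
      rw [← hk, smul_comm, hQ, nsmul_zero]
    exact (frey_torsion_reduces_to_node P h hT).1
  obtain ⟨k, x, y, h, -, hpow⟩ := hsaw Q hQ hQ0 hnode
  exact frey_v2_pow_ne P x hpow

end Frey

end Fermat.Agent.S13
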