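import Mathlib.AlgebraicGeometry.EllipticCurve.Affine.Point
import Mathlib.RingTheory.Valuation.ValuationSubring
import Mathlib.Tactic

set_option autoImplicit false

namespace Fermat.Agent.S13

open WeierstrassCurve WeierstrassCurve.Affine

variable {L : Type*} [Field L] {Γ₀ : Type*} [LinearOrderedCommGroupWithZero Γ₀]

/-- If `v a = 1` and `v (b - a) < 1` then `v b = 1`. -/
lemma v_eq_one_of_sub_lt (v : Valuation L Γ₀) {a b : L} (ha : v a = 1) (hab : v (b - a) < 1) :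
    v b = 1 := by
  have : b = a + (b - a) := by ring
  rw [this, Valuation.map_add_eq_of_lt_left v (by rw [ha]; exact hab), ha]

/-- If `v a = 1` and `0 < v b < 1` then `1 < v (a / b)`. -/
lemma one_lt_v_div (v : Valuation L Γ₀) {a b : L} (ha : v a = 1) (hb : v b < 1) (hb0 : b ≠ 0) :
    1 < v (a / b) := by
  rw [map_div₀, ha, one_div]
  have hpos : 0 < v b := by
    rw [pos_iff_ne_zero]
    exact (Valuation.ne_zero_iff v).mpr hb0
  exact (one_lt_inv₀ hpos).mpr hb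

/-- If `v l > 1` and the coefficients are integral, then `addX` has valuation `> 1`. -/
lemma one_lt_v_addX (v : Valuation L Γ₀) (W : Affine L) (ha₁ : v W.a₁ ≤ 1) (ha₂ : v W.a₂ ≤ 1)
    {x₁ x₂ l : L} (hx₁ : v x₁ ≤ 1) (hx₂ : v x₂ ≤ 1) (hl : 1 < v l) :
    1 < v (W.addX x₁ x₂ l) := by
  have hl2 : v (l ^ 2) = v l ^ 2 := map_pow v l 2
  have h1 : v l < v l ^ 2 := by
    calc v l = v l * 1 := (mul_one _).symm
      _ < v l * v l := by
        apply mul_lt_mul_of_pos_left hl (lt_trans zero_lt_one hl)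
      _ = v l ^ 2 := (sq _).symm
  have h2 : v (W.a₁ * l) < v l ^ 2 := by
    rw [map_mul]
    calc v W.a₁ * v l ≤ 1 * v l := mul_le_mul_left ha₁ _
      _ = v l := one_mul _
      _ < v l ^ 2 := h1
  have h3 : (1 : Γ₀) < v l ^ 2 := lt_trans hl h1
  have hrest : v (W.a₁ * l - W.a₂ - x₁ - x₂) < v (l ^ 2) := by
    rw [hl2]
    have e1 : v (W.a₁ * l - W.a₂) < v l ^ 2 :=
      lt_of_le_of_lt (v.map_sub _ _) (max_lt h2 (lt_of_le_of_lt ha₂ h3))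
    have e2 : v (W.a₁ * l - W.a₂ - x₁) < v l ^ 2 :=
      lt_of_le_of_lt (v.map_sub _ _) (max_lt e1 (lt_of_le_of_lt hx₁ h3))
    exact lt_of_le_of_lt (v.map_sub _ _) (max_lt e2 (lt_of_le_of_lt hx₂ h3))
  have : W.addX x₁ x₂ l = l ^ 2 + (W.a₁ * l - W.a₂ - x₁ - x₂) := by
    simp only [addX]; ring
  rw [this, Valuation.map_add_eq_of_lt_left v hrest, hl2]
  exact h3

variable [DecidableEq L]

/-- **Lemma B, slope form.** Two distinct integral points with the same nonsingular reduction: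
the slope of the line through `P` and `-Q` has valuation `> 1`. -/
lemma one_lt_v_slope_of_same_reduction (v : Valuation L Γ₀) (W : Affine L)
    (ha₁ : v W.a₁ ≤ 1) (ha₂ : v W.a₂ ≤ 1)
    {x₁ y₁ x₂ y₂ : L} (h₁ : W.Equation x₁ y₁) (h₂ : W.Equation x₂ y₂)
    (hx₁ : v x₁ ≤ 1) (hx₂ : v x₂ ≤ 1)
    (hx : v (x₁ - x₂) < 1) (hy : v (y₁ - y₂) < 1)
    (hns : v (W.polynomialX.evalEval x₁ y₁) = 1 ∨ v (W.polynomialY.evalEval x₁ y₁) = 1)
    (hne : ¬(x₁ = x₂ ∧ y₁ = y₂)) :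
    1 < v (W.slope x₁ x₂ y₁ (W.negY x₂ y₂)) := by
  rw [evalEval_polynomialX, evalEval_polynomialY] at hns
  rw [equation_iff] at h₁ h₂
  -- the key identity
  have key : (y₁ - y₂) * (y₁ + y₂ + W.a₁ * x₂ + W.a₃) =
      (x₁ - x₂) * (x₁ ^ 2 + x₁ * x₂ + x₂ ^ 2 + W.a₂ * (x₁ + x₂) + W.a₄ - W.a₁ * y₁) := by
    linear_combination h₁ - h₂
  -- `M` is congruent to `-W_X(P)`
  have hMsub : v ((x₁ ^ 2 + x₁ * x₂ + x₂ ^ 2 + W.a₂ * (x₁ + x₂) + W.a₄ - W.a₁ * y₁) -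
      -(W.a₁ * y₁ - (3 * x₁ ^ 2 + 2 * W.a₂ * x₁ + W.a₄))) < 1 := by
    have e : (x₁ ^ 2 + x₁ * x₂ + x₂ ^ 2 + W.a₂ * (x₁ + x₂) + W.a₄ - W.a₁ * y₁) -
        -(W.a₁ * y₁ - (3 * x₁ ^ 2 + 2 * W.a₂ * x₁ + W.a₄)) =
        (x₁ - x₂) * (-(x₂ + 2 * x₁) - W.a₂) := by ring
    rw [e, map_mul]
    have h2 : v (2 : L) ≤ 1 := by
      have : (2 : L) = 1 + 1 := by norm_num
      rw [this]
      exact le_trans (v.map_add _ _) (by simp)
    have hb : v (-(x₂ + 2 * x₁) - W.a₂) ≤ 1 := by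
      refine le_trans (v.map_sub _ _) (max_le ?_ ha₂)
      rw [Valuation.map_neg]
      refine le_trans (v.map_add _ _) (max_le hx₂ ?_)
      rw [map_mul]
      exact mul_le_one' h2 hx₁
    calc v (x₁ - x₂) * v (-(x₂ + 2 * x₁) - W.a₂) ≤ v (x₁ - x₂) * 1 := mul_le_mul_right hb _
      _ = v (x₁ - x₂) := mul_one _
      _ < 1 := hx
  -- `N` is congruent to `W_Y(P)`
  have hNsub : v ((y₁ + y₂ + W.a₁ * x₂ + W.a₃) - (2 * y₁ + W.a₁ * x₁ + W.a₃)) < 1 := by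
    have e : (y₁ + y₂ + W.a₁ * x₂ + W.a₃) - (2 * y₁ + W.a₁ * x₁ + W.a₃) =
        -(y₁ - y₂) - W.a₁ * (x₁ - x₂) := by ring
    rw [e]
    refine lt_of_le_of_lt (v.map_sub _ _) (max_lt (by rwa [Valuation.map_neg]) ?_)
    rw [map_mul]
    calc v W.a₁ * v (x₁ - x₂) ≤ 1 * v (x₁ - x₂) := mul_le_mul_left ha₁ _
      _ = v (x₁ - x₂) := one_mul _
      _ < 1 := hx
  by_cases hxx : x₁ = x₂
  · -- doubling-type case
    have hyy : y₁ ≠ y₂ := fun h => hne ⟨hxx, h⟩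
    have hy' : y₁ ≠ W.negY x₂ (W.negY x₂ y₂) := by rwa [negY_negY]
    rw [slope_of_Y_ne hxx hy']
    have hneg : W.negY x₁ y₁ = y₂ := by
      have hprod : (y₁ - y₂) * (y₁ + y₂ + W.a₁ * x₂ + W.a₃) = 0 := by
        rw [key, hxx, sub_self, zero_mul]
      rcases mul_eq_zero.mp hprod with h | h
      · exact absurd (sub_eq_zero.mp h) hyy
      · simp only [negY]; rw [hxx]; linear_combination -h
    rw [hneg]
    -- `W_Y(P) = y₁ - y₂` has valuation `< 1`, so `W_X(P)` is a unit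
    have hWY : 2 * y₁ + W.a₁ * x₁ + W.a₃ = y₁ - y₂ := by
      rw [← hneg]; simp only [negY]; ring
    have hWX : v (W.a₁ * y₁ - (3 * x₁ ^ 2 + 2 * W.a₂ * x₁ + W.a₄)) = 1 := by
      rcases hns with h | h
      · exact h
      · rw [hWY] at h; exact absurd h (ne_of_lt hy)
    have hnum : v (3 * x₁ ^ 2 + 2 * W.a₂ * x₁ + W.a₄ - W.a₁ * y₁) = 1 := by
      rw [← hWX, ← Valuation.map_neg]; congr 1; ring
    exact one_lt_v_div v hnum hy (sub_ne_zero.mpr hyy)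
  · rw [slope_of_X_ne hxx]
    have hxx' : x₁ - x₂ ≠ 0 := sub_ne_zero.mpr hxx
    have hNeq : y₁ - W.negY x₂ y₂ = y₁ + y₂ + W.a₁ * x₂ + W.a₃ := by
      simp only [negY]; ring
    rw [hNeq]
    by_cases hWY : v (2 * y₁ + W.a₁ * x₁ + W.a₃) = 1
    · exact one_lt_v_div v (v_eq_one_of_sub_lt v hWY hNsub) hx hxx'
    · have hWX : v (W.a₁ * y₁ - (3 * x₁ ^ 2 + 2 * W.a₂ * x₁ + W.a₄)) = 1 :=
        hns.resolve_right hWY
      have hM : v (x₁ ^ 2 + x₁ * x₂ + x₂ ^ 2 + W.a₂ * (x₁ + x₂) + W.a₄ - W.a₁ * y₁) = 1 := by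
        refine v_eq_one_of_sub_lt v ?_ hMsub
        rw [Valuation.map_neg]; exact hWX
      have hM0 : x₁ ^ 2 + x₁ * x₂ + x₂ ^ 2 + W.a₂ * (x₁ + x₂) + W.a₄ - W.a₁ * y₁ ≠ 0 := by
        intro h; rw [h, map_zero] at hM; exact zero_ne_one hM
      have hyy : y₁ - y₂ ≠ 0 := by
        intro h
        rw [h, zero_mul] at key
        exact (mul_ne_zero hxx' hM0) key.symm
      have : (y₁ + y₂ + W.a₁ * x₂ + W.a₃) / (x₁ - x₂) =
          (x₁ ^ 2 + x₁ * x₂ + x₂ ^ 2 + W.a₂ * (x₁ + x₂) + W.a₄ - W.a₁ * y₁) / (y₁ - y₂) := by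
        rw [div_eq_div_iff hxx' hyy]
        linear_combination key
      rw [this]
      exact one_lt_v_div v hM hy hyy

/-- **Lemma B.** If `P ≠ Q` are integral points with the same nonsingular reduction, then
`P - Q` is an affine point whose `x`-coordinate is not integral (it lies in the kernel of
reduction). -/
theorem exists_sub_eq_some_of_same_reduction (v : Valuation L Γ₀) (W : Affine L)
    (ha₁ : v W.a₁ ≤ 1) (ha₂ : v W.a₂ ≤ 1)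
    {x₁ y₁ x₂ y₂ : L} (h₁ : W.Nonsingular x₁ y₁) (h₂ : W.Nonsingular x₂ y₂)
    (hx₁ : v x₁ ≤ 1) (hx₂ : v x₂ ≤ 1)
    (hx : v (x₁ - x₂) < 1) (hy : v (y₁ - y₂) < 1)
    (hns : v (W.polynomialX.evalEval x₁ y₁) = 1 ∨ v (W.polynomialY.evalEval x₁ y₁) = 1)
    (hne : Point.some x₁ y₁ h₁ ≠ Point.some x₂ y₂ h₂) :
    ∃ (x₃ y₃ : L) (h₃ : W.Nonsingular x₃ y₃),
      Point.some x₁ y₁ h₁ - Point.some x₂ y₂ h₂ = Point.some x₃ y₃ h₃ ∧ 1 < v x₃ := by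
  have hne' : ¬(x₁ = x₂ ∧ y₁ = y₂) := by
    rintro ⟨rfl, rfl⟩; exact hne rfl
  have hxy : ¬(x₁ = x₂ ∧ y₁ = W.negY x₂ (W.negY x₂ y₂)) := by rwa [negY_negY]
  refine ⟨_, _, nonsingular_add h₁ ((nonsingular_neg ..).mpr h₂) hxy, ?_, ?_⟩
  · rw [sub_eq_add_neg, Point.neg_some, Point.add_some hxy]
  · exact one_lt_v_addX v W ha₁ ha₂ hx₁ hx₂
      (one_lt_v_slope_of_same_reduction v W ha₁ ha₂ h₁.1 h₂.1 hx₁ hx₂ hx hy hns hne')

end Fermat.Agent.S13
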