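import Fermat.Agent.S13.LocalRedA

/-!
# Torsion points and reduction at a place of residue field `𝔽₂`

For a Weierstrass curve `y² + xy = x³ + a₂x² + a₄x` with `a₄` in the maximal ideal (node at
`(0, 0)`), over a valued field with `v 2 < 1`, a torsion point of order prime to `6` whose
coordinates have residues in `𝔽₂` reduces to the node.
-/

set_option autoImplicit false
set_option linter.unreachableTactic false
set_option linter.unusedTactic false

namespace Fermat.Agent.S13

open WeierstrassCurve WeierstrassCurve.Affine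

variable {L : Type*} [Field L] {Γ₀ : Type*} [LinearOrderedCommGroupWithZero Γ₀]

/-- `c * m + r` is in the maximal ideal if `c` is integral and `m`, `r` are in the maximal
ideal. -/
lemma v_lin_lt_one (v : Valuation L Γ₀) {c m r : L} (hc : v c ≤ 1) (hm : v m < 1)
    (hr : v r < 1) : v (c * m + r) < 1 :=
  v_add_lt_one v (v_mul_lt_one_of_lt_right v hc hm) hr

lemma v_zero_lt_one (v : Valuation L Γ₀) : v (0 : L) < 1 := by
  rw [map_zero]; exact zero_lt_one

/-- If `n • T = 0` and `3 • T = 0` with `n` prime to `3` then `T = 0`. -/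
lemma eq_zero_of_nsmul_of_three_nsmul {G : Type*} [AddCommGroup G] {n : ℕ}
    (hn3 : Nat.Coprime n 3) {T : G} (hn : n • T = 0) (h3 : 3 • T = 0) : T = 0 := by
  have h1 : addOrderOf T ∣ n := addOrderOf_dvd_of_nsmul_eq_zero hn
  have h2 : addOrderOf T ∣ 3 := addOrderOf_dvd_of_nsmul_eq_zero h3
  have h3' : addOrderOf T ∣ Nat.gcd n 3 := Nat.dvd_gcd h1 h2
  rw [Nat.Coprime] at hn3
  rw [hn3, Nat.dvd_one] at h3'
  exact AddMonoid.addOrderOf_eq_one_iff.mp h3'

/-- **Torsion points reduce to the node at a place with residue field `𝔽₂`.**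
Let `W : y² + xy = x³ + a₂x² + a₄x` with `v a₂ ≤ 1`, `v a₄ < 1` and `v 2 < 1`. A point
`T = (x, y)` killed by `n` with `n` prime to `3` and `v n = 1`, whose coordinates have
residues in `𝔽₂` (i.e. are congruent to `0` or `1`), satisfies `v x < 1` and `v y < 1`. -/
theorem torsion_reduces_to_node_of_residue_two [DecidableEq L] (v : Valuation L Γ₀)
    (W : Affine L) (h2 : v (2 : L) < 1) (ha₁ : W.a₁ = 1) (ha₃ : W.a₃ = 0) (ha₆ : W.a₆ = 0)
    (ha₂ : v W.a₂ ≤ 1) (ha₄ : v W.a₄ < 1) {n : ℕ} (hn : v (n : L) = 1) (hn3 : Nat.Coprime n 3)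
    {x y : L} (h : W.Nonsingular x y) (hT : n • Point.some x y h = 0)
    (hx : v x < 1 ∨ v (x - 1) < 1) (hy : v y < 1 ∨ v (y - 1) < 1) :
    v x < 1 ∧ v y < 1 := by
  have hv1 : v W.a₁ ≤ 1 := by rw [ha₁, map_one]
  have hv3 : v W.a₃ ≤ 1 := by rw [ha₃, map_zero]; exact zero_le
  have hv6 : v W.a₆ ≤ 1 := by rw [ha₆, map_zero]; exact zero_le
  obtain ⟨hxi, hyi⟩ := v_le_one_of_nsmul_eq_zero v W hv1 ha₂ hv3 ha₄.le hv6 hn h hT
  have hE := h.1
  rw [equation_iff, ha₁, ha₃, ha₆] at hE
  have h2i : v (2 : L) ≤ 1 := h2.le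
  have h3i : v (3 : L) ≤ 1 := by
    have : (3 : L) = ((3 : ℕ) : L) := by norm_num
    rw [this]; exact v_natCast_le_one v 3
  by_contra hnode
  -- `x ≡ 1`
  have hx1 : v (x - 1) < 1 := by
    rcases hx with hx0 | hx1
    · exfalso
      apply hnode
      refine ⟨hx0, ?_⟩
      have e : y ^ 2 = x * (x ^ 2 + W.a₂ * x + W.a₄ - y) := by linear_combination hE
      have hlt : v (y ^ 2) < 1 := by
        rw [e]
        refine v_mul_lt_one_of_lt_left v hx0 ?_
        refine v.map_sub_le (v.map_add_le (v.map_add_le ?_ ?_) ha₄.le) hyi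
        · rw [map_pow]; exact pow_le_one₀ zero_le hxi
        · exact v_mul_le_of_le_one_left v ha₂ hxi
      rw [map_pow] at hlt
      by_contra hy1
      rw [not_lt] at hy1
      exact absurd hlt (not_lt.mpr (one_le_pow₀ hy1))
    · exact hx1
  -- `y (y - 1) ≡ 0`
  have hey : v (y ^ 2 - y) < 1 := by
    have e : y ^ 2 - y = y * (y - 1) := by ring
    rw [e]
    rcases hy with hy0 | hy1
    · exact v_mul_lt_one_of_lt_left v hy0
        (v.map_sub_le hyi (by rw [map_one]))
    · exact v_mul_lt_one_of_lt_right v hyi hy1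
  -- the denominator `2 y + x` of the tangent slope is a unit
  have hd1 : v (2 * y + (x - 1)) < 1 :=
    v_add_lt_one v (v_mul_lt_one_of_lt_left v h2 hyi) hx1
  have hd : v (2 * y + x) = 1 := by
    have e : 2 * y + x = 1 + (2 * y + (x - 1)) := by ring
    rw [e]; exact v_one_add_eq_one v hd1
  have hd0 : 2 * y + x ≠ 0 := ne_zero_of_v_eq_one v hd
  have hyne : y ≠ W.negY x y := by
    intro hyy
    apply hd0
    simp only [negY, ha₁, ha₃] at hyy
    linear_combination hyy
  have hxy : ¬(x = x ∧ y = W.negY x y) := fun hh => hyne hh.2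
  -- `a₂ ≡ 1`
  have hda₂ : v (W.a₂ - 1) < 1 := by
    have e : W.a₂ - 1 = 1 * (y ^ 2 - y) + (y * (2 + (x - 1)) +
        (-(x ^ 2 - x + 1) * (2 + (x - 1)) + (-x * W.a₄ + (-(W.a₂ * (x + 1)) * (x - 1) + 0)))) := by
      linear_combination (-1 : L) * hE
    rw [e]
    have h2x : v (2 + (x - 1)) < 1 := v_add_lt_one v h2 hx1
    refine v_lin_lt_one v (by rw [map_one]) hey (v_lin_lt_one v hyi h2x
      (v_lin_lt_one v ?_ h2x (v_lin_lt_one v ?_ ha₄ (v_lin_lt_one v ?_ hx1 (v_zero_lt_one v)))))
    · rw [Valuation.map_neg]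
      refine v.map_add_le (v.map_sub_le ?_ hxi) (by rw [map_one])
      rw [map_pow]; exact pow_le_one₀ zero_le hxi
    · rw [Valuation.map_neg]; exact hxi
    · rw [Valuation.map_neg]
      exact v_mul_le_of_le_one_left v ha₂ (v.map_add_le hxi (by rw [map_one]))
  -- the slope
  obtain ⟨l, hl⟩ : ∃ l, l = W.slope x x y y := ⟨_, rfl⟩
  have hlmul : l * (2 * y + x) = 3 * x ^ 2 + 2 * W.a₂ * x + W.a₄ - y := by
    rw [hl, slope_of_Y_ne rfl hyne]
    have hd' : y - W.negY x y ≠ 0 := sub_ne_zero.mpr hyne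
    rw [div_mul_eq_mul_div, div_eq_iff hd']
    simp only [negY, ha₁, ha₃]
    ring
  have hnum : v (3 * x ^ 2 + 2 * W.a₂ * x + W.a₄ - y) ≤ 1 := by
    refine v.map_sub_le (v.map_add_le (v.map_add_le ?_ ?_) ha₄.le) hyi
    · refine v_mul_le_of_le_one_left v h3i ?_
      rw [map_pow]; exact pow_le_one₀ zero_le hxi
    · exact v_mul_le_of_le_one_right v (v_mul_le_of_le_one_left v h2i ha₂) hxi
  have hli : v l ≤ 1 := by
    have : v (l * (2 * y + x)) ≤ 1 := by rw [hlmul]; exact hnum
    rwa [map_mul, hd, mul_one] at this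
  -- `l ≡ 1 - y`
  have hdl : v (l - (1 - y)) < 1 := by
    have e : l - (1 - y) = -l * (2 * y + (x - 1)) + ((3 * (x + 1)) * (x - 1) +
        ((1 + W.a₂ * x) * 2 + (1 * W.a₄ + 0))) := by
      linear_combination hlmul
    rw [e]
    refine v_lin_lt_one v (by rw [Valuation.map_neg]; exact hli) hd1
      (v_lin_lt_one v ?_ hx1 (v_lin_lt_one v ?_ h2 (v_lin_lt_one v (by rw [map_one]) ha₄
        (v_zero_lt_one v))))
    · exact v_mul_le_of_le_one_left v h3i (v.map_add_le hxi (by rw [map_one]))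
    · exact v.map_add_le (by rw [map_one]) (v_mul_le_of_le_one_left v ha₂ hxi)
  -- the double of `T`
  have hns2 : W.Nonsingular (W.addX x x l) (W.addY x x y l) := by
    rw [hl]; exact nonsingular_add h h hxy
  have hadd : Point.some x y h + Point.some x y h =
      Point.some (W.addX x x l) (W.addY x x y l) hns2 := by
    subst hl
    exact Point.add_some hxy
  -- `x(2T) ≡ x(T)`
  have hdx : v (W.addX x x l - x) < 1 := by
    have e : W.addX x x l - x = (l + (1 - y) + 1) * (l - (1 - y)) + (1 * (y ^ 2 - y) +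
        ((-y + 1 - 2) * 2 + (-1 * (W.a₂ - 1) + (-3 * (x - 1) + 0)))) := by
      simp only [addX, ha₁]
      ring
    rw [e]
    refine v_lin_lt_one v ?_ hdl (v_lin_lt_one v (by rw [map_one]) hey
      (v_lin_lt_one v ?_ h2 (v_lin_lt_one v ?_ hda₂ (v_lin_lt_one v ?_ hx1 (v_zero_lt_one v)))))
    · exact v.map_add_le (v.map_add_le hli (v.map_sub_le (by rw [map_one]) hyi))
        (by rw [map_one])
    · refine v.map_sub_le (v.map_add_le ?_ (by rw [map_one])) h2i
      rw [Valuation.map_neg]; exact hyi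
    · rw [Valuation.map_neg, map_one]
    · rw [Valuation.map_neg]; exact h3i
  -- `y(2T) ≡ y(-T)`
  have hdy : v (W.negY x y - W.addY x x y l) < 1 := by
    have e : W.negY x y - W.addY x x y l = (l + 1) * (W.addX x x l - x) + 0 := by
      simp only [addY, negAddY, negY, ha₁, ha₃]
      ring
    rw [e]
    exact v_lin_lt_one v (v.map_add_le hli (by rw [map_one])) hdx (v_zero_lt_one v)
  have hdx' : v (x - W.addX x x l) < 1 := by
    rw [← Valuation.map_neg]
    have : -(x - W.addX x x l) = W.addX x x l - x := by ring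
    rw [this]; exact hdx
  -- `-T` has nonsingular reduction
  have hnsneg : W.Nonsingular x (W.negY x y) := (nonsingular_neg ..).mpr h
  have hpY : v (W.polynomialY.evalEval x (W.negY x y)) = 1 := by
    rw [evalEval_polynomialY]
    simp only [negY, ha₁, ha₃]
    have e : 2 * (-y - 1 * x - 0) + 1 * x + 0 = -(2 * y + x) := by ring
    rw [e, Valuation.map_neg]; exact hd
  have hnegT : n • Point.some x (W.negY x y) hnsneg = 0 := by
    have : Point.some x (W.negY x y) hnsneg = -Point.some x y h := (Point.neg_some h).symm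
    rw [this, smul_neg, hT, neg_zero]
  have h2T : n • Point.some (W.addX x x l) (W.addY x x y l) hns2 = 0 := by
    rw [← hadd, smul_add, hT, add_zero]
  have key := eq_of_same_reduction_of_nsmul_eq_zero v W hv1 ha₂ hv3 ha₄.le hv6 hn hnsneg hns2
    hnegT h2T hdx' hdy (Or.inr hpY)
  -- hence `3 • T = 0`
  have h3T : 3 • Point.some x y h = 0 := by
    have e3 : (3 : ℕ) • Point.some x y h =
        Point.some x y h + (Point.some x y h + Point.some x y h) := by
      rw [succ_nsmul, two_nsmul]; abel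
    rw [e3, hadd, ← key, ← Point.neg_some h, add_neg_cancel]
  exact Point.some_ne_zero h (eq_zero_of_nsmul_of_three_nsmul hn3 hT h3T)

end Fermat.Agent.S13
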