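import Fermat.Agent.S13.helper1_NodeTwo
import Fermat.Agent.S05.helper92_FreyLocal

/-!
# S13, package (2) at `ℓ = 2` (helper1): inertia at `2` acts unipotently on `E[p]`

The Frey curve `y² + x y = x³ + a₂ x² + a₄ x` has a node at `(0, 0)` modulo `2`
(`2 ∣ a₄`, `b₂ = 1 + 4 a₂` is a unit).  For a valuation subring `A` of `K` over `2` and `σ` in
the inertia group of `A`, every `p`-torsion point `T` satisfies `σ (σ T - T) = σ T - T`.
-/

set_option autoImplicit false
set_option linter.unusedSectionVars false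
set_option linter.unusedVariables false

namespace Fermat.Agent.S13.helper1

open WeierstrassCurve WeierstrassCurve.Affine
open Fermat.Agent.S05.helper92

lemma two_dvd_freyCurveInt_a₄ (P : FreyPackage) : (2 : ℤ) ∣ P.freyCurveInt.a₄ := by
  obtain ⟨k, hk⟩ := Fermat.Agent.S04.thirtytwo_dvd_b_pow P
  have h := Fermat.Agent.S04.sixteen_mul_a₄ P
  rw [hk] at h
  have h' : 16 * P.freyCurveInt.a₄ = 16 * (2 * (-(P.a ^ P.p * k))) := by rw [h]; ring
  exact ⟨_, mul_left_cancel₀ (by norm_num) h'⟩

variable {K : Type*} [Field K] [DecidableEq K] [Algebra ℚ K] [CharZero K]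

lemma freyK_a₄_mem_nonunits (P : FreyPackage) (A : ValuationSubring K)
    (hA : A.LiesOverPrime 2) : (freyK P K).a₄ ∈ A.nonunits := by
  rw [freyK_a₄]
  have h2 := two_dvd_freyCurveInt_a₄ P
  exact (intCast_mem_nonunits_iff Nat.prime_two hA _).2 (by exact_mod_cast h2)

lemma freyK_a₄_ne_zero (P : FreyPackage) : (freyK P K).a₄ ≠ 0 := by
  rw [freyK_a₄]
  exact Int.cast_ne_zero.2 (Fermat.Agent.S04.freyCurveInt_a₄_ne_zero P)

lemma four_mem_nonunits (A : ValuationSubring K) (hA : A.LiesOverPrime 2) :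
    (4 : K) ∈ A.nonunits := by
  have h := (natCast_mem_nonunits_iff (L := K) Nat.prime_two hA 4).2 (by norm_num)
  simpa using h

/-- The nodal data of the Frey curve at a valuation subring over `2`. -/
lemma exists_nodeData [IsAlgClosed K] (P : FreyPackage) (A : ValuationSubring K)
    (hA : A.LiesOverPrime 2) :
    ∃ α β : K, NodeData A.valuation (freyK P K) α β := by
  obtain ⟨s, hs⟩ := IsAlgClosed.exists_pow_nat_eq (1 + 4 * (freyK P K).a₂) (n := 2) (by norm_num)
  have h2 : (2 : K) ≠ 0 := two_ne_zero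
  have hv4 : A.valuation (4 * (freyK P K).a₂) < 1 := by
    rw [← A.mem_nonunits_iff]
    exact mul_mem_nonunits (four_mem_nonunits A hA) (freyK_a₂_mem P K A)
  have hvs2 : A.valuation s ^ 2 = 1 := by
    rw [← map_pow, hs]
    exact Valuation.map_one_add_of_lt _ hv4
  have hvs : A.valuation s = 1 := by
    rcases lt_trichotomy (A.valuation s) 1 with h | h | h
    · exfalso
      have := pow_lt_one₀ zero_le h (two_ne_zero)
      rw [hvs2] at this
      exact lt_irrefl _ this
    · exact h
    · exfalso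
      have := one_lt_pow₀ h (two_ne_zero)
      rw [hvs2] at this
      exact lt_irrefl _ this
  refine ⟨(s - 1) / 2, (-s - 1) / 2, ?_⟩
  refine
    { a₃ := freyK_a₃ P K
      a₆ := freyK_a₆ P K
      va₁ := ?_
      va₂ := (A.valuation_le_one_iff _).mpr (freyK_a₂_mem P K A)
      va₄ := A.mem_nonunits_iff.mp (freyK_a₄_mem_nonunits P A hA)
      a₄_ne := freyK_a₄_ne_zero P
      sum := ?_
      prod := ?_
      vsub := ?_ }
  · rw [freyK_a₁, map_one]
  · rw [freyK_a₁]; field_simp; ring
  · have : (freyK P K).a₂ = (s ^ 2 - 1) / 4 := by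
      rw [hs]; field_simp; ring
    rw [this]; field_simp; ring
  · have : (s - 1) / 2 - (-s - 1) / 2 = s := by field_simp; ring
    rw [this]; exact hvs

variable [Algebra.IsAlgebraic ℚ K]

/-- **Unipotence of inertia at `2`** on the `p`-torsion of the Frey curve. -/
theorem frey_inertia_two_unipotent [IsAlgClosed K] (P : FreyPackage) (A : ValuationSubring K)
    (hA : A.LiesOverPrime 2) (σ : K ≃ₐ[ℚ] K) (hσ : σ ∈ A.inertiaSubgroupIn ℚ)
    (T : (freyK P K).Point) (hT : (P.p : ℤ) • T = 0) :
    σ • (σ • T - T) = σ • T - T := by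
  obtain ⟨α, β, D⟩ := exists_nodeData P A hA
  have hσ' : ∀ x : K, A.valuation x ≤ 1 → A.valuation ((σ : K →+* K) x - x) < 1 := by
    intro x hx
    have hxA : x ∈ A := (A.valuation_le_one_iff x).mp hx
    have := apply_sub_mem_nonunits_of_mem_inertiaSubgroupIn hσ hxA
    exact A.mem_nonunits_iff.mp this
  have hσv : ∀ x : K, A.valuation ((σ : K →+* K) x) = A.valuation x :=
    fun x => valuation_apply_of_mem_inertiaSubgroupIn hσ x
  have hσ₁ : (σ : K →+* K) (freyK P K).a₁ = (freyK P K).a₁ := by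
    rw [freyK_a₁]; exact map_one _
  have hσ₂ : (σ : K →+* K) (freyK P K).a₂ = (freyK P K).a₂ := by
    rw [freyK_a₂]; exact map_intCast _ _
  have hp : A.valuation ((P.p : ℕ) : K) = 1 := by
    have h := valuation_intCast_eq_one_of_not_dvd (L := K) Nat.prime_two hA (n := (P.p : ℤ))
      (by
        intro h
        have h2 : (2 : ℕ) ∣ P.p := by exact_mod_cast h
        have := (Nat.prime_dvd_prime_iff_eq Nat.prime_two P.pp).1 h2
        have := P.hp5
        omega)
    simpa using h
  have hT' : P.p • T = 0 := by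
    rw [← natCast_zsmul]; exact hT
  exact D.map_sub_fixed (σ := (σ : K →+* K))
    (f := Point.map (W' := (P.freyCurve : Affine ℚ)) σ.toAlgHom) hσv hσ' hσ₁ hσ₂
    (fun x y hxy => ⟨_, Point.map_some _ hxy⟩) hp T hT'

/-- Consequence for a Galois-stable line: on a subgroup `N` of `E[p]` on which `σ` acts by a
scalar, and on the quotient, `σ` acts trivially; here in the elementary form
`(σ - 1)² = 0` on `E[p]`. -/
theorem frey_inertia_two_sub_sq [IsAlgClosed K] (P : FreyPackage) (A : ValuationSubring K)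
    (hA : A.LiesOverPrime 2) (σ : K ≃ₐ[ℚ] K) (hσ : σ ∈ A.inertiaSubgroupIn ℚ)
    (T : (freyK P K).Point) (hT : (P.p : ℤ) • T = 0) :
    σ • (σ • T) - σ • T - (σ • T - T) = 0 := by
  have h := frey_inertia_two_unipotent P A hA σ hσ T hT
  have e : σ • (σ • T - T) = σ • (σ • T) - σ • T := smul_sub σ (σ • T) T
  rw [← e, h, sub_self]

end Fermat.Agent.S13.helper1
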