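import Fermat.Agent.S13.LocalRedA

/-!
# S13, local theory at a node in arbitrary residue characteristic (helper1)

Model `y² + a₁ x y = x³ + a₂ x² + a₄ x` over a valued field `(K, v)` with `v a₄ < 1`
(node at `(0, 0)`) and tangent directions `α ≠ β` modulo the maximal ideal
(`α + β = -a₁`, `α β = -a₂`, `v (α - β) = 1`).  No hypothesis on `v 2`: this covers the
Frey curve at the prime `2`.

Main result `NodeData.map_sub_fixed`: an "inertial" automorphism `σ` acts unipotently on the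
`n`-torsion, `n` a unit: `σ (σ P - P) = σ P - P`.
-/

set_option autoImplicit false
set_option linter.unusedSectionVars false
set_option linter.unusedVariables false

namespace Fermat.Agent.S13.helper1

open WeierstrassCurve WeierstrassCurve.Affine

variable {K : Type*} [Field K] {Γ₀ : Type*} [LinearOrderedCommGroupWithZero Γ₀]

/-- A nodal model `y² + a₁ x y = x³ + a₂ x² + a₄ x` with tangent directions `α`, `β`. -/
structure NodeData (v : Valuation K Γ₀) (W : Affine K) (α β : K) : Prop where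
  a₃ : W.a₃ = 0
  a₆ : W.a₆ = 0
  va₁ : v W.a₁ ≤ 1
  va₂ : v W.a₂ ≤ 1
  va₄ : v W.a₄ < 1
  a₄_ne : W.a₄ ≠ 0
  sum : α + β = -W.a₁
  prod : α * β = -W.a₂
  vsub : v (α - β) = 1

namespace NodeData

variable {v : Valuation K Γ₀} {W : Affine K} {α β : K}

lemma symm (D : NodeData v W α β) : NodeData v W β α where
  a₃ := D.a₃
  a₆ := D.a₆
  va₁ := D.va₁
  va₂ := D.va₂
  va₄ := D.va₄
  a₄_ne := D.a₄_ne
  sum := by rw [add_comm]; exact D.sum
  prod := by rw [mul_comm]; exact D.prod
  vsub := by rw [Valuation.map_sub_swap]; exact D.vsub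

lemma va₃ (D : NodeData v W α β) : v W.a₃ ≤ 1 := by rw [D.a₃, map_zero]; exact zero_le_one

lemma va₆ (D : NodeData v W α β) : v W.a₆ ≤ 1 := by rw [D.a₆, map_zero]; exact zero_le_one

lemma va₄_le (D : NodeData v W α β) : v W.a₄ ≤ 1 := D.va₄.le

lemma b₂_eq (D : NodeData v W α β) : W.a₁ ^ 2 + 4 * W.a₂ = (α - β) ^ 2 := by
  have h1 : W.a₁ = -(α + β) := by rw [D.sum, neg_neg]
  have h2 : W.a₂ = -(α * β) := by rw [D.prod, neg_neg]
  rw [h1, h2]; ring

lemma vb₂ (D : NodeData v W α β) : v (W.a₁ ^ 2 + 4 * W.a₂) = 1 := by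
  rw [D.b₂_eq, map_pow, D.vsub, one_pow]

/-- The tangent directions are integral. -/
lemma vα (D : NodeData v W α β) : v α ≤ 1 := by
  by_contra h
  rw [not_le] at h
  have hα0 : α ≠ 0 := by
    rintro rfl
    rw [map_zero] at h
    exact absurd h (not_lt.mpr zero_le_one)
  have hαpos : 0 < v α := (Valuation.pos_iff v).mpr hα0
  have hprod : v α * v β ≤ 1 := by
    rw [← map_mul, D.prod, Valuation.map_neg]; exact D.va₂
  have hβ : v β < v α := by
    by_contra hc
    rw [not_lt] at hc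
    have : 1 < v α * v β := by
      calc (1 : Γ₀) = 1 * 1 := (one_mul 1).symm
        _ < v α * v β := mul_lt_mul'' h (lt_of_lt_of_le h hc) zero_le_one zero_le_one
    exact absurd hprod (not_le.mpr this)
  have hsum : v (α + β) = v α := Valuation.map_add_eq_of_lt_left v hβ
  rw [D.sum, Valuation.map_neg] at hsum
  rw [← hsum] at h
  exact absurd D.va₁ (not_le.mpr h)

lemma vβ (D : NodeData v W α β) : v β ≤ 1 := D.symm.vα

lemma nonsingular_zero (D : NodeData v W α β) : W.Nonsingular 0 0 := by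
  rw [Affine.nonsingular_zero]
  exact ⟨D.a₆, Or.inr D.a₄_ne⟩

/-- The equation of the curve in factored form. -/
lemma eqn (D : NodeData v W α β) {x y : K} (h : W.Equation x y) :
    (y - α * x) * (y - β * x) = x * (x ^ 2 + W.a₄) := by
  have e := (W.equation_iff x y).mp h
  rw [D.a₃, D.a₆] at e
  have h1 : W.a₁ = -(α + β) := by rw [D.sum, neg_neg]
  have h2 : W.a₂ = -(α * β) := by rw [D.prod, neg_neg]
  rw [h1, h2] at e
  linear_combination e

lemma eqn' (D : NodeData v W α β) {x y : K} (h : W.Equation x y) :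
    y ^ 2 + W.a₁ * x * y = x ^ 3 + W.a₂ * x ^ 2 + W.a₄ * x := by
  have e := (W.equation_iff x y).mp h
  rw [D.a₃, D.a₆] at e
  linear_combination e

lemma negY_eq (D : NodeData v W α β) (x y : K) : W.negY x y = -y - W.a₁ * x := by
  rw [Affine.negY, D.a₃, sub_zero]

/-- **Key computation.** Two points near the node with the same `v x`, both on the side `α`,
and with distinct `x`-coordinates: the `x`-coordinate of the difference is not in the maximal
ideal. -/
lemma one_le_v_addX [DecidableEq K] (D : NodeData v W α β) {x₁ y₁ x₂ y₂ : K}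
    (hx : x₁ ≠ x₂) (hv : v x₁ = v x₂) (hx1 : v x₁ < 1)
    (hf₁ : v (y₁ - α * x₁) < v x₁) (hf₂ : v (y₂ - α * x₂) < v x₂) :
    1 ≤ v (W.addX x₁ x₂ (W.slope x₁ x₂ y₁ (W.negY x₂ y₂))) := by
  have hd : x₁ - x₂ ≠ 0 := sub_ne_zero.mpr hx
  have hdpos : 0 < v (x₁ - x₂) := (Valuation.pos_iff v).mpr hd
  have hx₁pos : 0 < v x₁ := lt_of_le_of_lt zero_le hf₁
  have h1 : W.a₁ = -(α + β) := by rw [D.sum, neg_neg]
  have h2 : W.a₂ = -(α * β) := by rw [D.prod, neg_neg]
  -- the two numerators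
  obtain ⟨N₁, hN₁⟩ : ∃ N₁, N₁ = (y₁ - α * x₁) + (y₂ - α * x₂) + (α - β) * x₂ := ⟨_, rfl⟩
  obtain ⟨N₂, hN₂⟩ : ∃ N₂, N₂ = (y₁ - α * x₁) + (y₂ - α * x₂) + (α - β) * x₁ := ⟨_, rfl⟩
  have hff : v ((y₁ - α * x₁) + (y₂ - α * x₂)) < v x₁ :=
    v.map_add_lt hf₁ (by rw [hv]; exact hf₂)
  have hvN₁ : v N₁ = v x₁ := by
    rw [hN₁]
    have : v ((α - β) * x₂) = v x₁ := by rw [map_mul, D.vsub, one_mul, hv]
    rw [← this]
    apply Valuation.map_add_eq_of_lt_right
    rw [this]; exact hff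
  have hvN₂ : v N₂ = v x₁ := by
    rw [hN₂]
    have : v ((α - β) * x₁) = v x₁ := by rw [map_mul, D.vsub, one_mul]
    rw [← this]
    apply Valuation.map_add_eq_of_lt_right
    rw [this]; exact hff
  have hvd : v (x₁ - x₂) ≤ v x₁ := v.map_sub_le le_rfl hv.symm.le
  have hformula : W.addX x₁ x₂ (W.slope x₁ x₂ y₁ (W.negY x₂ y₂)) =
      N₁ / (x₁ - x₂) * (N₂ / (x₁ - x₂)) - (x₁ + x₂) := by
    rw [slope_of_X_ne hx, D.negY_eq, Affine.addX, hN₁, hN₂, h1, h2]
    field_simp
    ring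
  rw [hformula]
  have hprod : 1 ≤ v (N₁ / (x₁ - x₂) * (N₂ / (x₁ - x₂))) := by
    rw [map_mul, map_div₀, map_div₀, hvN₁, hvN₂]
    have h1 : 1 ≤ v x₁ / v (x₁ - x₂) := (one_le_div₀ hdpos).mpr hvd
    calc (1 : Γ₀) = 1 * 1 := (one_mul 1).symm
      _ ≤ v x₁ / v (x₁ - x₂) * (v x₁ / v (x₁ - x₂)) := mul_le_mul' h1 h1
  have hsum : v (x₁ + x₂) < 1 := v.map_add_lt hx1 (by rw [← hv]; exact hx1)
  have hlt : v (x₁ + x₂) < v (N₁ / (x₁ - x₂) * (N₂ / (x₁ - x₂))) := lt_of_lt_of_le hsum hprod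
  rw [Valuation.map_sub_eq_of_lt_left v hlt]
  exact hprod

/-- **Dichotomy.** A point near the node, but not too near (`v a₄ < v x`), lies on one of the
two sides. -/
lemma sided (D : NodeData v W α β) {x y : K} (h : W.Equation x y) (hx1 : v x < 1)
    (hfar : v W.a₄ < v x) : v (y - α * x) < v x ∨ v (y - β * x) < v x := by
  by_contra hc
  rw [not_or, not_lt, not_lt] at hc
  have hxpos : 0 < v x := lt_of_le_of_lt zero_le hfar
  have e := congrArg v (D.eqn h)
  rw [map_mul, map_mul] at e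
  have h1 : v (x ^ 2 + W.a₄) < v x := by
    apply v.map_add_lt _ hfar
    rw [map_pow, sq]
    calc v x * v x < v x * 1 := mul_lt_mul_of_pos_left hx1 hxpos
      _ = v x := mul_one _
  have h2 : v x * v (x ^ 2 + W.a₄) < v x * v x := mul_lt_mul_of_pos_left h1 hxpos
  have h3 : v x * v x ≤ v (y - α * x) * v (y - β * x) := mul_le_mul' hc.1 hc.2
  rw [e] at h3
  exact absurd h3 (not_le.mpr h2)

/-- Opposite points near the node lie on opposite sides. -/
lemma not_sided_both (D : NodeData v W α β) {x y : K} (hx0 : x ≠ 0)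
    (h₁ : v (y - α * x) < v x) (h₂ : v (y - β * x) < v x) : False := by
  have e : (y - α * x) - (y - β * x) = -((α - β) * x) := by ring
  have h3 : v ((y - α * x) - (y - β * x)) < v x := v.map_sub_lt h₁ h₂
  rw [e, Valuation.map_neg, map_mul, D.vsub, one_mul] at h3
  exact lt_irrefl _ h3

/-- A point with unit `x`-coordinate has nonsingular reduction. -/
lemma nonsingular_reduction_of_unit (D : NodeData v W α β) {x y : K} (h : W.Equation x y)
    (hx : v x = 1) (hy : v y ≤ 1) :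
    v (W.polynomialX.evalEval x y) = 1 ∨ v (W.polynomialY.evalEval x y) = 1 := by
  rw [evalEval_polynomialX, evalEval_polynomialY, D.a₃, add_zero]
  have h2 : v (2 : K) ≤ 1 := by simpa using v_natCast_le_one v 2
  have h3 : v (3 : K) ≤ 1 := by simpa using v_natCast_le_one v 3
  have h4 : v (4 : K) ≤ 1 := by simpa using v_natCast_le_one v 4
  have hX : v (W.a₁ * y - (3 * x ^ 2 + 2 * W.a₂ * x + W.a₄)) ≤ 1 := by
    apply v.map_sub_le
    · rw [map_mul]; exact mul_le_one' D.va₁ hy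
    · apply v.map_add_le
      · apply v.map_add_le
        · rw [map_mul, map_pow, hx, one_pow, mul_one]; exact h3
        · rw [map_mul, map_mul, hx, mul_one]; exact mul_le_one' h2 D.va₂
      · exact D.va₄_le
  have hY : v (2 * y + W.a₁ * x) ≤ 1 := by
    apply v.map_add_le
    · rw [map_mul]; exact mul_le_one' h2 hy
    · rw [map_mul, hx, mul_one]; exact D.va₁
  by_contra hc
  rw [not_or] at hc
  have hX' : v (W.a₁ * y - (3 * x ^ 2 + 2 * W.a₂ * x + W.a₄)) < 1 := lt_of_le_of_ne hX hc.1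
  have hY' : v (2 * y + W.a₁ * x) < 1 := lt_of_le_of_ne hY hc.2
  have e := D.eqn' h
  -- `x² (b₂ + 4x) = Y² - 4 a₄ x`
  have id1 : x ^ 2 * ((W.a₁ ^ 2 + 4 * W.a₂) + 4 * x) =
      (2 * y + W.a₁ * x) ^ 2 - 4 * W.a₄ * x := by linear_combination (-4) * e
  -- `x (b₂ + 6x) = a₁ Y - 2 X - 2 a₄`
  have id2 : x * ((W.a₁ ^ 2 + 4 * W.a₂) + 6 * x) =
      W.a₁ * (2 * y + W.a₁ * x) - 2 * (W.a₁ * y - (3 * x ^ 2 + 2 * W.a₂ * x + W.a₄))
        - 2 * W.a₄ := by ring
  have k1 : v ((W.a₁ ^ 2 + 4 * W.a₂) + 4 * x) < 1 := by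
    have := congrArg v id1
    rw [map_mul, map_pow, hx, one_pow, one_mul] at this
    rw [this]
    apply v.map_sub_lt
    · rw [map_pow, sq]
      calc v (2 * y + W.a₁ * x) * v (2 * y + W.a₁ * x) ≤ 1 * v (2 * y + W.a₁ * x) :=
            mul_le_mul' hY le_rfl
        _ = v (2 * y + W.a₁ * x) := one_mul _
        _ < 1 := hY'
    · rw [map_mul, map_mul, hx, mul_one]
      calc v 4 * v W.a₄ ≤ 1 * v W.a₄ := mul_le_mul' h4 le_rfl
        _ = v W.a₄ := one_mul _
        _ < 1 := D.va₄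
  have k2 : v ((W.a₁ ^ 2 + 4 * W.a₂) + 6 * x) < 1 := by
    have := congrArg v id2
    rw [map_mul, hx, one_mul] at this
    rw [this]
    apply v.map_sub_lt
    · apply v.map_sub_lt
      · rw [map_mul]
        calc v W.a₁ * v (2 * y + W.a₁ * x) ≤ 1 * v (2 * y + W.a₁ * x) :=
              mul_le_mul' D.va₁ le_rfl
          _ = v (2 * y + W.a₁ * x) := one_mul _
          _ < 1 := hY'
      · rw [map_mul]
        calc v 2 * v (W.a₁ * y - (3 * x ^ 2 + 2 * W.a₂ * x + W.a₄))
            ≤ 1 * v (W.a₁ * y - (3 * x ^ 2 + 2 * W.a₂ * x + W.a₄)) := mul_le_mul' h2 le_rfl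
          _ = v (W.a₁ * y - (3 * x ^ 2 + 2 * W.a₂ * x + W.a₄)) := one_mul _
          _ < 1 := hX'
    · rw [map_mul]
      calc v 2 * v W.a₄ ≤ 1 * v W.a₄ := mul_le_mul' h2 le_rfl
        _ = v W.a₄ := one_mul _
        _ < 1 := D.va₄
  have k3 : v (2 * x) < 1 := by
    have e3 : 2 * x = ((W.a₁ ^ 2 + 4 * W.a₂) + 6 * x) - ((W.a₁ ^ 2 + 4 * W.a₂) + 4 * x) := by
      ring
    rw [e3]; exact v.map_sub_lt k2 k1
  have k4 : v (4 * x) < 1 := by
    have e4 : 4 * x = 2 * (2 * x) := by ring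
    rw [e4, map_mul]
    calc v 2 * v (2 * x) ≤ 1 * v (2 * x) := mul_le_mul' h2 le_rfl
      _ = v (2 * x) := one_mul _
      _ < 1 := k3
  have k5 : v (W.a₁ ^ 2 + 4 * W.a₂) < 1 := by
    have e5 : W.a₁ ^ 2 + 4 * W.a₂ = ((W.a₁ ^ 2 + 4 * W.a₂) + 4 * x) - 4 * x := by ring
    rw [e5]; exact v.map_sub_lt k1 k4
  rw [D.vb₂] at k5
  exact lt_irrefl _ k5

lemma some_congr_x {x x' y : K} (h : W.Nonsingular x y) (hx : x = x') :
    ∃ h' : W.Nonsingular x' y, Point.some x y h = Point.some x' y h' := by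
  subst hx
  exact ⟨h, rfl⟩

/-- Translation by the `2`-torsion point `T = (0, 0)`: the `x`-coordinate becomes `a₄ / x`. -/
lemma add_T [DecidableEq K] (D : NodeData v W α β) {x y : K} (h : W.Nonsingular x y)
    (hx : x ≠ 0) :
    ∃ y' : K, ∃ h' : W.Nonsingular (W.a₄ / x) y',
      Point.some x y h + Point.some 0 0 D.nonsingular_zero = Point.some (W.a₄ / x) y' h' := by
  rw [Point.add_of_X_ne hx]
  have e := D.eqn' h.1
  have hsl : W.slope x 0 y 0 = y / x := by
    rw [slope_of_X_ne hx]; simp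
  have hX : W.addX x 0 (W.slope x 0 y 0) = W.a₄ / x := by
    rw [hsl, Affine.addX]
    field_simp
    linear_combination e
  obtain ⟨h', e'⟩ := some_congr_x (nonsingular_add h D.nonsingular_zero fun hxy => hx hxy.left) hX
  exact ⟨_, h', e'⟩

section Inertia

variable [DecidableEq K] {σ : K →+* K} {f : W.Point →+ W.Point}

/-- An inertial automorphism fixing the coefficients fixes the tangent directions. -/
lemma apply_α (D : NodeData v W α β) (hσ : ∀ x, v x ≤ 1 → v (σ x - x) < 1)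
    (hσ₁ : σ W.a₁ = W.a₁) (hσ₂ : σ W.a₂ = W.a₂) : σ α = α := by
  have h1 : W.a₁ = -(α + β) := by rw [D.sum, neg_neg]
  have h2 : W.a₂ = -(α * β) := by rw [D.prod, neg_neg]
  have hroot : α ^ 2 + W.a₁ * α - W.a₂ = 0 := by rw [h1, h2]; ring
  have hσroot : σ α ^ 2 + W.a₁ * σ α - W.a₂ = 0 := by
    have := congrArg σ hroot
    rw [map_sub, map_add, map_mul, map_pow, hσ₁, hσ₂, map_zero] at this
    exact this
  have hfac : (σ α - α) * (σ α - β) = 0 := by
    rw [h1, h2] at hσroot
    linear_combination hσroot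
  rcases mul_eq_zero.mp hfac with h | h
  · exact sub_eq_zero.mp h
  · exfalso
    have hβ : σ α = β := sub_eq_zero.mp h
    have := hσ α D.vα
    rw [hβ, Valuation.map_sub_swap, D.vsub] at this
    exact lt_irrefl _ this

lemma map_T (D : NodeData v W α β)
    (hf : ∀ x y (h : W.Nonsingular x y), ∃ h', f (Point.some x y h) = Point.some (σ x) (σ y) h') :
    f (Point.some 0 0 D.nonsingular_zero) = Point.some 0 0 D.nonsingular_zero := by
  obtain ⟨h', e⟩ := hf 0 0 D.nonsingular_zero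
  rw [e]
  congr 1 <;> exact map_zero σ

/-- The conclusion of the main lemma: the point is `0` or has `x`-coordinate outside the
maximal ideal. -/
def OffNode (v : Valuation K Γ₀) {W : Affine K} (P : W.Point) : Prop :=
  P = 0 ∨ ∃ x y, ∃ h : W.Nonsingular x y, P = Point.some x y h ∧ 1 ≤ v x

lemma offNode_of_inKer {P : W.Point} (h : InKer v P) : OffNode v P := by
  cases P with
  | zero => exact Or.inl rfl
  | some x y hxy => exact Or.inr ⟨x, y, hxy, rfl, le_of_lt h⟩

/-- the unit case: same nonsingular reduction -/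
lemma offNode_of_unit (D : NodeData v W α β)
    (hσv : ∀ x, v (σ x) = v x) (hσ : ∀ x, v x ≤ 1 → v (σ x - x) < 1)
    (hf : ∀ x y (h : W.Nonsingular x y), ∃ h', f (Point.some x y h) = Point.some (σ x) (σ y) h')
    {x y : K} (h : W.Nonsingular x y) (hx : v x = 1) :
    OffNode v (f (Point.some x y h) - Point.some x y h) := by
  obtain ⟨h', e⟩ := hf x y h
  rw [e]
  by_cases hne : Point.some (σ x) (σ y) h' = Point.some x y h
  · rw [hne, sub_self]; exact Or.inl rfl
  have hy : v y ≤ 1 := v_y_le_one_of_v_x_le_one v W D.va₁ D.va₂ D.va₃ D.va₄_le D.va₆ h.1 hx.le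
  have hns := D.nonsingular_reduction_of_unit h'.1 (by rw [hσv]; exact hx)
    (by rw [hσv]; exact hy)
  obtain ⟨x₃, y₃, h₃, e₃, hx₃⟩ := exists_sub_eq_some_of_same_reduction v W D.va₁ D.va₂ h' h
    (by rw [hσv]; exact hx.le) hx.le (hσ x hx.le) (hσ y hy) hns hne
  rw [e₃]
  exact Or.inr ⟨x₃, y₃, h₃, rfl, le_of_lt hx₃⟩

/-- the case of a point with `1 ≤ v x` -/
lemma offNode_of_one_le (D : NodeData v W α β)
    (hσv : ∀ x, v (σ x) = v x) (hσ : ∀ x, v x ≤ 1 → v (σ x - x) < 1)
    (hf : ∀ x y (h : W.Nonsingular x y), ∃ h', f (Point.some x y h) = Point.some (σ x) (σ y) h')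
    {x y : K} (h : W.Nonsingular x y) (hx : 1 ≤ v x) :
    OffNode v (f (Point.some x y h) - Point.some x y h) := by
  rcases eq_or_lt_of_le hx with hx1 | hx1
  · exact D.offNode_of_unit hσv hσ hf h hx1.symm
  · apply offNode_of_inKer
    have hP : InKer v (Point.some x y h) := hx1
    have hfP : InKer v (f (Point.some x y h)) := by
      obtain ⟨h', e⟩ := hf x y h
      rw [e]
      show 1 < v (σ x)
      rw [hσv]; exact hx1
    exact inKer_sub v W D.va₁ D.va₂ D.va₃ D.va₄_le D.va₆ hfP hP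

/-- the sided case: the key computation -/
lemma offNode_of_sided (D : NodeData v W α β)
    (hσv : ∀ x, v (σ x) = v x) (hσα : σ α = α)
    (hf : ∀ x y (h : W.Nonsingular x y), ∃ h', f (Point.some x y h) = Point.some (σ x) (σ y) h')
    {x y : K} (h : W.Nonsingular x y) (hx0 : x ≠ 0) (hx1 : v x < 1)
    (hside : v (y - α * x) < v x) :
    OffNode v (f (Point.some x y h) - Point.some x y h) := by
  obtain ⟨h', e⟩ := hf x y h
  rw [e]
  have hside' : v (σ y - α * σ x) < v (σ x) := by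
    have : σ y - α * σ x = σ (y - α * x) := by rw [map_sub, map_mul, hσα]
    rw [this, hσv, hσv]; exact hside
  by_cases hxx : σ x = x
  · -- same `x`-coordinate: the points are equal (opposite points lie on opposite sides)
    rcases Y_eq_of_X_eq h'.1 h.1 hxx with hy | hy
    · have : Point.some (σ x) (σ y) h' = Point.some x y h := by
        congr 1
      rw [this, sub_self]; exact Or.inl rfl
    · exfalso
      rw [hxx] at hside'
      rw [hy, D.negY_eq] at hside'
      have h1 : W.a₁ = -(α + β) := by rw [D.sum, neg_neg]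
      have e2 : -y - W.a₁ * x - α * x = -(y - β * x) := by rw [h1]; ring
      rw [e2, Valuation.map_neg] at hside'
      exact D.not_sided_both hx0 hside hside'
  · have hneg : -Point.some x y h = Point.some x (W.negY x y) ((nonsingular_neg ..).mpr h) :=
      Point.neg_some h
    rw [sub_eq_add_neg, hneg, Point.add_of_X_ne hxx]
    refine Or.inr ⟨_, _, _, rfl, ?_⟩
    exact D.one_le_v_addX hxx (hσv x) (by rw [hσv]; exact hx1) hside' hside

/-- **Main lemma.** For every point `P`, `σ P - P` is `0` or has `x`-coordinate outside the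
maximal ideal. -/
theorem offNode_map_sub (D : NodeData v W α β)
    (hσv : ∀ x, v (σ x) = v x) (hσ : ∀ x, v x ≤ 1 → v (σ x - x) < 1)
    (hσ₁ : σ W.a₁ = W.a₁) (hσ₂ : σ W.a₂ = W.a₂)
    (hf : ∀ x y (h : W.Nonsingular x y), ∃ h', f (Point.some x y h) = Point.some (σ x) (σ y) h')
    (P : W.Point) : OffNode v (f P - P) := by
  have hσα : σ α = α := D.apply_α hσ hσ₁ hσ₂
  have hσβ : σ β = β := D.symm.apply_α hσ hσ₁ hσ₂
  rcases P with _ | ⟨x, y, h⟩
  · have : (Point.zero : W.Point) = 0 := rfl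
    rw [this, map_zero, sub_zero]; exact Or.inl rfl
  by_cases hx1 : 1 ≤ v x
  · exact D.offNode_of_one_le hσv hσ hf h hx1
  rw [not_le] at hx1
  by_cases hx0 : x = 0
  · -- `P = T`
    subst hx0
    have hy : y = 0 := by
      have := D.eqn' h.1
      simpa using this
    subst hy
    have hT := D.map_T hf
    have : Point.some 0 0 h = Point.some 0 0 D.nonsingular_zero := rfl
    rw [this, hT, sub_self]; exact Or.inl rfl
  by_cases hfar : v W.a₄ < v x
  · -- sided
    rcases D.sided h.1 hx1 hfar with hs | hs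
    · exact D.offNode_of_sided hσv hσα hf h hx0 hx1 hs
    · exact D.symm.offNode_of_sided hσv hσβ hf h hx0 hx1 hs
  · -- far: translate by `T`
    rw [not_lt] at hfar
    obtain ⟨y', h', e'⟩ := D.add_T h hx0
    have hT := D.map_T hf
    have hred : f (Point.some x y h) - Point.some x y h =
        f (Point.some (W.a₄ / x) y' h') - Point.some (W.a₄ / x) y' h' := by
      rw [← e', map_add, hT]; abel
    rw [hred]
    apply D.offNode_of_one_le hσv hσ hf h'
    rw [map_div₀]
    exact (one_le_div₀ ((Valuation.pos_iff v).mpr hx0)).mpr hfar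

/-- **Unipotence of inertia on torsion at a node** (any residue characteristic): for a torsion
point `P` of order prime to the residue characteristic, `σ (σ P - P) = σ P - P`. -/
theorem map_sub_fixed (D : NodeData v W α β)
    (hσv : ∀ x, v (σ x) = v x) (hσ : ∀ x, v x ≤ 1 → v (σ x - x) < 1)
    (hσ₁ : σ W.a₁ = W.a₁) (hσ₂ : σ W.a₂ = W.a₂)
    (hf : ∀ x y (h : W.Nonsingular x y), ∃ h', f (Point.some x y h) = Point.some (σ x) (σ y) h')
    {n : ℕ} (hn : v (n : K) = 1) (P : W.Point) (hP : n • P = 0) :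
    f (f P - P) = f P - P := by
  have hR : n • (f P - P) = 0 := by
    rw [smul_sub, ← map_nsmul, hP, map_zero, sub_zero]
  rcases D.offNode_map_sub hσv hσ hσ₁ hσ₂ hf P with h0 | ⟨x, y, h, e, hx⟩
  · rw [h0, map_zero]
  rw [e] at hR ⊢
  obtain ⟨hx', hy'⟩ := v_le_one_of_nsmul_eq_zero v W D.va₁ D.va₂ D.va₃ D.va₄_le D.va₆ hn h hR
  have hx1 : v x = 1 := le_antisymm hx' hx
  obtain ⟨h', e'⟩ := hf x y h
  have hR' : n • Point.some (σ x) (σ y) h' = 0 := by
    rw [← e', ← map_nsmul, hR, map_zero]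
  rw [e']
  symm
  refine eq_of_same_reduction_of_nsmul_eq_zero v W D.va₁ D.va₂ D.va₃ D.va₄_le D.va₆ hn h h'
    hR hR' ?_ ?_ (D.nonsingular_reduction_of_unit h.1 hx1 hy')
  · rw [Valuation.map_sub_swap]; exact hσ x hx'
  · rw [Valuation.map_sub_swap]; exact hσ y hy'

end Inertia

end NodeData

end Fermat.Agent.S13.helper1
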