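import Fermat.Agent.S05.MainA

/-!
# Local theory at the residue characteristic (package (3) of the S13 blueprint)

For a curve `y² = x³ + a₂ x² + a₄ x` over a valued field with `2` a unit, with good or
multiplicative reduction, and an "inertial" automorphism `σ` (i.e. `σ x ≡ x` modulo the maximal
ideal for integral `x`), every `p`-torsion point `P` (`p` an odd prime, possibly equal to the
residue characteristic) satisfies `P - σ P ∈ E₁` (the kernel of reduction).
-/

set_option autoImplicit false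
set_option linter.unusedSectionVars false
set_option linter.unusedVariables false

namespace Fermat.Agent.S13.helper32

open WeierstrassCurve WeierstrassCurve.Affine
open Fermat.Agent.S05

variable {K : Type*} [Field K] [DecidableEq K]
variable {Γ₀ : Type*} [LinearOrderedCommGroupWithZero Γ₀]
variable {v : Valuation K Γ₀} {W : Affine K}

lemma inE1_zero : InE1 v (0 : W.Point) := Or.inl rfl

lemma inE1_some {x y : K} (h : W.Nonsingular x y) (hx : 1 < v x) :
    InE1 v (Point.some x y h) := Or.inr ⟨x, y, h, rfl, hx⟩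

lemma inE1_some_iff {x y : K} (h : W.Nonsingular x y) :
    InE1 v (Point.some x y h) ↔ 1 < v x := by
  constructor
  · rintro (h0 | ⟨x', y', h', e, hx'⟩)
    · exact absurd h0 (Point.some_ne_zero _)
    · rw [Point.some.injEq] at e
      rw [e.1]; exact hx'
  · exact inE1_some h

lemma inE1_neg {P : W.Point} (h : InE1 v P) : InE1 v (-P) := by
  rcases h with rfl | ⟨x, y, h, rfl, hx⟩
  · rw [neg_zero]; exact inE1_zero
  · rw [Point.neg_some]
    exact inE1_some _ hx

lemma inE1_add (hW : IsTwoNF W) (ha : v W.a₂ ≤ 1) (hb : v W.a₄ ≤ 1) {P Q : W.Point}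
    (hP : InE1 v P) (hQ : InE1 v Q) : InE1 v (P + Q) := by
  have h1 : (0 : Γ₀) < max (v (tC P)) (max (v (tC Q)) 1) :=
    lt_of_lt_of_le zero_lt_one (le_trans (le_max_right _ _) (le_max_right _ _))
  exact (hW.E1_add v ha hb hP hQ h1 (le_max_left _ _)
    (le_trans (le_max_left _ _) (le_max_right _ _))).1

lemma inE1_sub (hW : IsTwoNF W) (ha : v W.a₂ ≤ 1) (hb : v W.a₄ ≤ 1) {P Q : W.Point}
    (hP : InE1 v P) (hQ : InE1 v Q) : InE1 v (P - Q) := by
  rw [sub_eq_add_neg]
  exact inE1_add hW ha hb hP (inE1_neg hQ)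

lemma inE1_nsmul (hW : IsTwoNF W) (ha : v W.a₂ ≤ 1) (hb : v W.a₄ ≤ 1) {P : W.Point}
    (hP : InE1 v P) (n : ℕ) : InE1 v (n • P) := by
  induction n with
  | zero => rw [zero_smul]; exact inE1_zero
  | succ k ih => rw [succ_nsmul]; exact inE1_add hW ha hb ih hP

/-- an inertial ring endomorphism preserves non-integrality -/
lemma one_lt_val_apply (σ : K →+* K) (hσ : ∀ x, v x ≤ 1 → v (σ x - x) < 1) {x : K}
    (hx : 1 < v x) : 1 < v (σ x) := by
  have hx0 : x ≠ 0 := ne_zero_of_one_lt_val v hx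
  have hi : v x⁻¹ < 1 := by
    rw [map_inv₀]
    exact inv_lt_one_of_one_lt₀ hx
  have h1 : v (σ x⁻¹ - x⁻¹) < 1 := hσ _ hi.le
  have h2 : v (σ x⁻¹) < 1 := by
    have : σ x⁻¹ = (σ x⁻¹ - x⁻¹) + x⁻¹ := by ring
    rw [this]
    exact v.map_add_lt h1 hi
  rw [map_inv₀, map_inv₀] at h2
  have hσx0 : σ x ≠ 0 := by
    intro h0
    have := (map_eq_zero σ).mp h0
    exact hx0 this
  have hpos : 0 < v (σ x) := val_pos v hσx0
  by_contra hcon
  rw [not_lt] at hcon
  have : 1 ≤ (v (σ x))⁻¹ := (one_le_inv₀ hpos).mpr hcon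
  exact absurd h2 (not_lt.mpr this)

lemma inE1_map (σ : K →+* K) (hσ : ∀ x, v x ≤ 1 → v (σ x - x) < 1)
    (f : W.Point →+ W.Point)
    (hf : ∀ x y (h : W.Nonsingular x y), ∃ h', f (Point.some x y h) = Point.some (σ x) (σ y) h')
    {P : W.Point} (hP : InE1 v P) : InE1 v (f P) := by
  rcases hP with rfl | ⟨x, y, h, rfl, hx⟩
  · rw [map_zero]; exact inE1_zero
  · obtain ⟨h', e⟩ := hf x y h
    rw [e]
    exact inE1_some _ (one_lt_val_apply σ hσ hx)

lemma inE1_of_close {R R' : W.Point}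
    (h : R ≠ R' → ∃ x₃ y₃, ∃ h₃ : W.Nonsingular x₃ y₃,
      R - R' = Point.some x₃ y₃ h₃ ∧ 1 < v x₃) : InE1 v (R - R') := by
  by_cases hne : R = R'
  · rw [hne, sub_self]; exact inE1_zero
  · obtain ⟨x₃, y₃, h₃, e, hx₃⟩ := h hne
    rw [e]
    exact inE1_some _ hx₃

/-- unit case: no torsion hypothesis is needed -/
lemma sub_inE1_unit (hW : IsTwoNF W) (hv2 : v 2 = 1) (ha : v W.a₂ ≤ 1) (hb : v W.a₄ ≤ 1)
    (σ : K →+* K) (hσ : ∀ x, v x ≤ 1 → v (σ x - x) < 1)
    (f : W.Point →+ W.Point)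
    (hf : ∀ x y (h : W.Nonsingular x y), ∃ h', f (Point.some x y h) = Point.some (σ x) (σ y) h')
    (hred : v (W.a₄ * (W.a₂ ^ 2 - 4 * W.a₄)) = 1 ∨ v W.a₄ < 1)
    {x y : K} (h : W.Nonsingular x y) (hx : v x = 1) :
    InE1 v (Point.some x y h - f (Point.some x y h)) := by
  apply inE1_of_close
  intro hne
  obtain ⟨h', hf'⟩ := hf x y h
  rw [hf'] at hne ⊢
  have hy : v y ≤ 1 := hW.val_y_le_one v ha hb h hx.le
  apply hW.sub_of_close_unit v ha hb hv2 h h' hx
  · rw [Valuation.map_sub_swap]; exact hσ x hx.le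
  · rw [Valuation.map_sub_swap]; exact hσ y hy
  · intro hu
    rcases hred with hΔ | hb1
    · exact hns_good ha hb hx.le hΔ hu
    · apply val_sub_eq_one v _ hb1
      rw [map_pow, hx, one_pow]
  · exact hne

/-- node case -/
lemma sub_inE1_node (hW : IsTwoNF W) (hv2 : v 2 = 1) (ha : v W.a₂ = 1) (hb : v W.a₄ < 1)
    (σ : K →+* K) (hσ : ∀ x, v x ≤ 1 → v (σ x - x) < 1)
    (f : W.Point →+ W.Point)
    (hf : ∀ x y (h : W.Nonsingular x y), ∃ h', f (Point.some x y h) = Point.some (σ x) (σ y) h')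
    {x y : K} (h : W.Nonsingular x y) (hxl : v W.a₄ < v x) (hxu : v x < 1)
    (hclose : v (σ x - x) < v x) :
    InE1 v (Point.some x y h - f (Point.some x y h)) := by
  apply inE1_of_close
  intro hne
  obtain ⟨h', hf'⟩ := hf x y h
  rw [hf'] at hne ⊢
  have hx0 : x ≠ 0 := by rintro rfl; simp at hxl
  have hα := hW.val_alpha_node v ha h hxl hxu
  apply hW.sub_of_close_node v ha.le hv2 h h' hx0 hxu.le
  · rw [Valuation.map_sub_swap]; exact hclose
  · exact hα
  · rw [← map_div₀, Valuation.map_sub_swap]; exact hσ _ hα.le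
  · exact hne

/-- **Local theorem at the residue characteristic**: for a `p`-torsion point `P` (`p` odd,
possibly the residue characteristic) and an inertial `σ`, the difference `P - σ P` lies in the
kernel of reduction. -/
theorem sub_inE1_of_torsion (hW : IsTwoNF W) (hv2 : v 2 = 1) (ha : v W.a₂ ≤ 1)
    (hb : v W.a₄ ≤ 1) (hb0 : W.a₄ ≠ 0)
    (p : ℕ) (hp : p.Prime) (hp2 : p ≠ 2)
    (σ : K →+* K) (hσ : ∀ x, v x ≤ 1 → v (σ x - x) < 1) (hσb : σ W.a₄ = W.a₄)
    (f : W.Point →+ W.Point)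
    (hf : ∀ x y (h : W.Nonsingular x y), ∃ h', f (Point.some x y h) = Point.some (σ x) (σ y) h')
    (hred : v (W.a₄ * (W.a₂ ^ 2 - 4 * W.a₄)) = 1 ∨
      (v W.a₂ = 1 ∧ v W.a₄ < 1 ∧ ∃ (ϖ : K) (m : ℕ), σ ϖ = ϖ ∧ v W.a₄ = v ϖ ^ (p * m)))
    (P : W.Point) (hP : p • P = 0) : InE1 v (P - f P) := by
  rcases P with _ | ⟨x, y, h⟩
  · have : (Point.zero : W.Point) = 0 := rfl
    rw [this, map_zero, sub_zero]; exact inE1_zero
  by_cases hx1 : v x ≤ 1
  swap
  · rw [not_le] at hx1
    have h1 : InE1 v (Point.some x y h) := inE1_some h hx1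
    exact inE1_sub hW ha hb h1 (inE1_map σ hσ f hf h1)
  have hred' : v (W.a₄ * (W.a₂ ^ 2 - 4 * W.a₄)) = 1 ∨ v W.a₄ < 1 := by
    rcases hred with hΔ | ⟨-, hb1, -⟩
    · exact Or.inl hΔ
    · exact Or.inr hb1
  have hβpos : 0 < v W.a₄ := val_pos v hb0
  -- the 2-torsion point
  have hTT := hW.T_add_T hb0
  obtain ⟨T, hT⟩ : ∃ T, T = Point.some 0 0 (hW.nonsingular_zero hb0) := ⟨_, rfl⟩
  rw [← hT] at hTT
  have hT0 : T ≠ 0 := by rw [hT]; exact Point.some_ne_zero _
  have hfT : f T = T := by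
    obtain ⟨h', hf'⟩ := hf 0 0 (hW.nonsingular_zero hb0)
    rw [hT, hf']
    obtain ⟨h'', e⟩ := some_congr h' (map_zero σ) (map_zero σ)
    exact e
  have h2T : (2 : ℕ) • T = 0 := by rw [two_smul]; exact hTT
  obtain ⟨k, hk⟩ := hp.odd_of_ne_two hp2
  have hpT : p • T = T := by
    rw [hk, add_smul, one_smul, mul_comm, mul_smul, h2T, smul_zero, zero_add]
  -- `P` is not in the kernel of reduction, hence neither is `P + T`
  have hnotE1 : ¬ InE1 v (Point.some x y h) := by
    rw [inE1_some_iff]; exact not_lt.mpr hx1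
  have hPT : ¬ InE1 v (Point.some x y h + T) := by
    intro hcon
    apply hnotE1
    have h2 : InE1 v ((2 : ℕ) • (Point.some x y h + T)) := inE1_nsmul hW ha hb hcon 2
    rw [smul_add, h2T, add_zero] at h2
    have h3 := inE1_nsmul hW ha hb h2 (k + 1)
    have e : (k + 1) • (2 : ℕ) • Point.some x y h = Point.some x y h := by
      rw [← mul_smul]
      have : (k + 1) * 2 = p + 1 := by rw [hk]; ring
      rw [this, add_smul, hP, zero_add, one_smul]
    rw [e] at h3
    exact h3
  -- reduction to `P + T`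
  have hred_T : InE1 v ((Point.some x y h + T) - f (Point.some x y h + T)) →
      InE1 v (Point.some x y h - f (Point.some x y h)) := by
    intro e
    rw [map_add, hfT] at e
    have : Point.some x y h + T - (f (Point.some x y h) + T) =
        Point.some x y h - f (Point.some x y h) := by abel
    rw [this] at e
    exact e
  rcases eq_or_lt_of_le hx1 with hx | hx
  · exact sub_inE1_unit hW hv2 ha hb σ hσ f hf hred' h hx
  -- now `v x < 1`
  have hx0 : x ≠ 0 := by
    rintro rfl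
    have hy : y = 0 := by
      have := hW.eq_of_nonsingular h
      simpa using this
    subst hy
    have : Point.some 0 0 h = T := by rw [hT]
    rw [this, hpT] at hP
    exact hT0 hP
  have hX : 0 < v x := val_pos v hx0
  obtain ⟨h', hadd⟩ := hW.add_T hb0 h hx0
  rw [← hT] at hadd
  have hbig : ¬ (1 < v (W.a₄ / x)) := by
    intro hlt
    apply hPT
    rw [hadd]
    exact inE1_some _ hlt
  have hunitT : v (W.a₄ / x) = 1 → InE1 v (Point.some x y h - f (Point.some x y h)) := by
    intro hu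
    apply hred_T
    rw [hadd]
    exact sub_inE1_unit hW hv2 ha hb σ hσ f hf hred' h' hu
  rcases hred with hΔ | ⟨ha1, hb1, ϖ, m, hσϖ, hβ⟩
  · -- good reduction: `v b = 1`, so `P + T` would be in the kernel of reduction
    exfalso
    apply hbig
    have hvb : v W.a₄ = 1 := by
      rw [map_mul] at hΔ
      have h1 : v (W.a₂ ^ 2 - 4 * W.a₄) ≤ 1 := by
        apply v.map_sub_le
        · rw [map_pow]; exact pow_le_one₀ zero_le ha
        · rw [map_mul]
          have h4 : v (4 : K) ≤ 1 := by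
            have := val_natCast_le_one v 4
            simpa using this
          calc v 4 * v W.a₄ ≤ 1 * 1 := by gcongr
            _ = 1 := one_mul 1
      by_contra hne
      have hlt : v W.a₄ < 1 := lt_of_le_of_ne hb hne
      have : v W.a₄ * v (W.a₂ ^ 2 - 4 * W.a₄) < 1 := by
        calc v W.a₄ * v (W.a₂ ^ 2 - 4 * W.a₄) ≤ v W.a₄ * 1 := by gcongr
          _ = v W.a₄ := mul_one _
          _ < 1 := hlt
      rw [hΔ] at this
      exact lt_irrefl _ this
    rw [map_div₀, hvb, one_lt_div₀ hX]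
    exact hx
  · -- multiplicative reduction
    rcases lt_trichotomy (v x) (v W.a₄) with hc | hc | hc
    · exfalso
      apply hbig
      rw [map_div₀, one_lt_div₀ hX]
      exact hc
    · apply hunitT
      rw [map_div₀, hc, div_self hβpos.ne']
    · -- the node case
      obtain ⟨i, j, hij⟩ := hW.node_torsion_val ha1 hb0 hb1 hv2 h hc hx p hP
      obtain ⟨k', hk'⟩ := val_eq_pow_of_pow_eq hp.ne_zero hβpos.ne' hb1 hx.le hβ hij
      have hϖ0 : ϖ ≠ 0 := by
        rintro rfl
        rw [map_zero] at hk'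
        rcases Nat.eq_zero_or_pos k' with h0 | h0
        · rw [h0, pow_zero] at hk'
          rw [hk'] at hx
          exact lt_irrefl _ hx
        · rw [zero_pow h0.ne'] at hk'
          exact hX.ne' hk'
      have hπk : 0 < v ϖ ^ k' := pow_pos (val_pos v hϖ0) k'
      apply sub_inE1_node hW hv2 ha1 hb1 σ hσ f hf h hc hx
      obtain ⟨ε, hε⟩ : ∃ ε, ε = x / ϖ ^ k' := ⟨_, rfl⟩
      have hvε : v ε = 1 := by
        rw [hε, map_div₀, map_pow, hk', div_self hπk.ne']
      have hxε : x = ϖ ^ k' * ε := by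
        rw [hε]; field_simp
      have : σ x - x = ϖ ^ k' * (σ ε - ε) := by
        rw [hxε, map_mul, map_pow, hσϖ]; ring
      rw [this, map_mul, map_pow, hk']
      calc v ϖ ^ k' * v (σ ε - ε) < v ϖ ^ k' * 1 :=
            mul_lt_mul_of_pos_left (hσ ε hvε.le) hπk
        _ = v ϖ ^ k' := mul_one _

end Fermat.Agent.S13.helper32
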