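import Fermat.Agent.S05.FreyShift
import Fermat.Agent.S13.helper32_LocalP

/-!
# The Frey curve at the prime `p` (package (3) of the S13 blueprint)

For a valuation subring `A` of `K` above `p = P.p` and `σ` in its inertia group, every
`p`-torsion point `T` of the Frey curve satisfies `T - σ T ∈ E₁`, the kernel of reduction
(`E₁ = {0} ∪ {(x, y) | x ∉ A}` in the coordinates of the Frey model itself).
-/

set_option autoImplicit false
set_option linter.unusedSectionVars false
set_option linter.unusedVariables false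

namespace Fermat.Agent.S13.helper32

open WeierstrassCurve WeierstrassCurve.Affine
open Fermat.Agent.S05 Fermat.Agent.S05.helper92

section Transport

variable {K : Type*} [Field K] [DecidableEq K]
variable {Γ₀ : Type*} [LinearOrderedCommGroupWithZero Γ₀]

omit [DecidableEq K] in
lemma one_lt_val_sub_iff (v : Valuation K Γ₀) {x e : K} (he : v e ≤ 1) :
    1 < v (x - e) ↔ 1 < v x := by
  constructor
  · intro h
    by_contra hcon
    rw [not_lt] at hcon
    exact absurd h (not_lt.mpr (v.map_sub_le hcon he))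
  · intro h
    rw [v.map_sub_eq_of_lt_left (lt_of_le_of_lt he h)]
    exact h

lemma inE1_hom_iff {W W' : Affine K} {e : K} (h : IsShift W W' e) (v : Valuation K Γ₀)
    (he : v e ≤ 1) (T : W.Point) : InE1 v (h.hom T) ↔ InE1 v T := by
  rcases T with _ | ⟨x, y, hxy⟩
  · have : (Point.zero : W.Point) = 0 := rfl
    rw [this, map_zero]
    exact ⟨fun _ => inE1_zero, fun _ => inE1_zero⟩
  · rw [IsShift.hom_some, inE1_some_iff, inE1_some_iff]
    exact one_lt_val_sub_iff v he

end Transport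

section Main

variable {K : Type*} [Field K] [DecidableEq K] [Algebra ℚ K] [CharZero K]

/-- The general step at `p`. -/
lemma sub_inE1_of_shift (P : FreyPackage)
    (A : ValuationSubring K) (hA : A.LiesOverPrime P.p) (σ : K ≃ₐ[ℚ] K)
    (hσ : σ ∈ A.inertiaSubgroupIn ℚ)
    {W₀' : Affine ℚ} {e : K} (h : IsShift (freyK P K) (W₀'⁄K) e) (he : σ e = e)
    (hev : A.valuation e ≤ 1)
    (ha : A.valuation (W₀'⁄K).a₂ ≤ 1) (hb : A.valuation (W₀'⁄K).a₄ ≤ 1)
    (hb0 : (W₀'⁄K).a₄ ≠ 0)
    (hred : A.valuation ((W₀'⁄K).a₄ * ((W₀'⁄K).a₂ ^ 2 - 4 * (W₀'⁄K).a₄)) = 1 ∨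
      (A.valuation (W₀'⁄K).a₂ = 1 ∧ A.valuation (W₀'⁄K).a₄ < 1 ∧
        ∃ (ϖ : K) (m : ℕ), σ ϖ = ϖ ∧ A.valuation (W₀'⁄K).a₄ = A.valuation ϖ ^ (P.p * m)))
    (T : (freyK P K).Point) (hT : (P.p : ℤ) • T = 0) :
    InE1 A.valuation (T - σ • T) := by
  have hp2 : P.p ≠ 2 := by have := P.hp5; omega
  have hσ' : ∀ x : K, A.valuation x ≤ 1 → A.valuation ((σ : K →+* K) x - x) < 1 := by
    intro x hx
    have hxA : x ∈ A := (A.valuation_le_one_iff x).mp hx
    have := apply_sub_mem_nonunits_of_mem_inertiaSubgroupIn hσ hxA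
    exact A.mem_nonunits_iff.mp this
  have hσb : (σ : K →+* K) (W₀'⁄K).a₄ = (W₀'⁄K).a₄ := by
    show σ (algebraMap ℚ K W₀'.a₄) = algebraMap ℚ K W₀'.a₄
    exact σ.commutes _
  have hP : P.p • h.hom T = 0 := by
    rw [← map_nsmul]
    have : P.p • T = 0 := by
      rw [← natCast_zsmul]; exact hT
    rw [this, map_zero]
  have hmain := sub_inE1_of_torsion (v := A.valuation) h.nf (valuation_two P.pp hA hp2) ha hb hb0
    P.p P.pp hp2 (σ : K →+* K) hσ' hσb
    (Point.map (W' := W₀') σ.toAlgHom) (fun x y hxy => ⟨_, Point.map_some _ hxy⟩) hred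
    (h.hom T) hP
  rw [← inE1_hom_iff h A.valuation hev, map_sub]
  have e1 : h.hom (σ • T) = Point.map (W' := W₀') σ.toAlgHom (h.hom T) := h.hom_map σ he T
  rw [e1]
  exact hmain

/-- **Inertia at `p` moves `p`-torsion points of the Frey curve only within the kernel of
reduction.** -/
theorem frey_sub_inE1 (P : FreyPackage)
    (A : ValuationSubring K) (hA : A.LiesOverPrime P.p) (σ : K ≃ₐ[ℚ] K)
    (hσ : σ ∈ A.inertiaSubgroupIn ℚ) (T : (freyK P K).Point) (hT : (P.p : ℤ) • T = 0) :
    InE1 A.valuation (T - σ • T) := by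
  have hq : P.p.Prime := P.pp
  have hq2 : P.p ≠ 2 := by have := P.hp5; omega
  by_cases hc : ((P.p : ℕ) : ℤ) ∣ P.c
  · have hu := c₂_c_unit P (K := K) hq hA hq2 hc
    have hn := c₁_c_mem_nonunits P (K := K) hq hA hq2 hc
    refine sub_inE1_of_shift P A hA σ hσ (isShift_c P K) (apply_fA_div_four P σ)
      ?_ ?_ ?_ ?_ ?_ T hT
    · exact (A.valuation_le_one_iff _).mpr
        (div_mem_of_mem (fA_mem P) (inv_four_mem (K := K) hq hA hq2))
    · rw [shortC_a₂]; exact (A.valuation_le_one_iff _).mpr hu.1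
    · rw [shortC_a₄]; exact (A.valuation_le_one_iff _).mpr (mem_of_mem_nonunits hn)
    · rw [shortC_a₄]; exact c₁_c_ne_zero P
    · right
      rw [shortC_a₂, shortC_a₄]
      refine ⟨valuation_eq_one_iff.mpr hu, A.mem_nonunits_iff.mp hn,
        ((P.a * P.c : ℤ) : K), 1, apply_intCast σ _, ?_⟩
      rw [mul_one]
      exact valuation_c₁_c P hq hA hq2
  · by_cases hab : ((P.p : ℕ) : ℤ) ∣ P.a * P.b
    · have hu := c₂_ab_unit P (K := K) hq hA hq2 hab
      have hn := c₁_ab_mem_nonunits P (K := K) hq hA hq2 hab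
      refine sub_inE1_of_shift P A hA σ hσ (isShift_ab P K) (map_zero σ)
        ?_ ?_ ?_ ?_ ?_ T hT
      · rw [map_zero]; exact zero_le_one
      · rw [shortAB_a₂]; exact (A.valuation_le_one_iff _).mpr hu.1
      · rw [shortAB_a₄]; exact (A.valuation_le_one_iff _).mpr (mem_of_mem_nonunits hn)
      · rw [shortAB_a₄]; exact c₁_ab_ne_zero P
      · right
        rw [shortAB_a₂, shortAB_a₄]
        refine ⟨valuation_eq_one_iff.mpr hu, A.mem_nonunits_iff.mp hn,
          ((P.a * P.b : ℤ) : K), 1, apply_intCast σ _, ?_⟩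
        rw [mul_one]
        exact valuation_c₁_ab P hq hA hq2
    · have hna : ¬ ((P.p : ℕ) : ℤ) ∣ P.a := fun h => hab (dvd_mul_of_dvd_left h _)
      have hnb : ¬ ((P.p : ℕ) : ℤ) ∣ P.b := fun h => hab (dvd_mul_of_dvd_right h _)
      have vA := val_fA_eq_one P hq hA hna
      have vB := val_fB_eq_one P hq hA hnb
      have vC := val_fC_eq_one P hq hA hc
      have v4 := valuation_four (K := K) hq hA hq2
      have v16 := valuation_sixteen (K := K) hq hA hq2
      have h4 := inv_four_mem (K := K) hq hA hq2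
      have h16 := inv_sixteen_mem (K := K) hq hA hq2
      refine sub_inE1_of_shift P A hA σ hσ (isShift_ab P K) (map_zero σ)
        ?_ ?_ ?_ ?_ ?_ T hT
      · rw [map_zero]; exact zero_le_one
      · rw [shortAB_a₂]
        exact (A.valuation_le_one_iff _).mpr (div_mem_of_mem (sub_mem (fB_mem P) (fA_mem P)) h4)
      · rw [shortAB_a₄]
        exact (A.valuation_le_one_iff _).mpr
          (div_mem_of_mem (neg_mem (mul_mem (fA_mem P) (fB_mem P))) h16)
      · rw [shortAB_a₄]; exact c₁_ab_ne_zero P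
      · left
        rw [shortAB_a₂, shortAB_a₄]
        have hcc := fA_add_fB P K
        have e1 : -(fA P K * fB P K) / 16 * (((fB P K - fA P K) / 4) ^ 2
            - 4 * (-(fA P K * fB P K) / 16)) = -(fA P K * fB P K * fC P K ^ 2) / (16 * 16) := by
          rw [← hcc]
          ring
        rw [e1, map_div₀, Valuation.map_neg, map_mul, map_mul, map_mul, vA, vB, map_pow, vC, v16]
        simp

end Main

end Fermat.Agent.S13.helper32
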