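import Mathlib
import Fermat.Agent.S04.Wiring
import Fermat.Agent.S05.helper7_NodePoint
import Fermat.Agent.S13.Tors2
import Fermat.Agent.S13.helper38_Adapters

/-!
# S13, input (5): the Frey curve has no rational `p`-torsion (wiring)

We work over `ℚ` with the `2`-adic valuation `vTwo`. A rational `p`-torsion point `T ≠ 0`:

* all nonzero multiples of `T` reduce to the node at `2` (input (5a),
  `Fermat.Agent.S13.torsion_reduces_to_node_of_residue_two`);
* the sawtooth/component statement at the node (input (5b), here the hypothesis `NodeHyp`)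
  then produces a nonzero rational `x` with `v(x)^p = v(a₄)^2`;
* this is impossible because `ord₂(a₄) = p ord₂(b) - 4`: it would give `p ∣ 8`.
-/

set_option autoImplicit false
set_option linter.style.haveILetI false
set_option linter.unusedSectionVars false
set_option linter.unusedVariables false

open WithZero

namespace Fermat.Agent.S13.helper32

open WeierstrassCurve WeierstrassCurve.Affine

section Arith

/-- the 2-adic valuation on `ℚ` -/
noncomputable abbrev vTwo : Valuation ℚ ℤᵐ⁰ :=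
  haveI : Fact (Nat.Prime 2) := ⟨Nat.prime_two⟩
  Rat.padicValuation 2

lemma vTwo_eq_exp {x : ℚ} (hx : x ≠ 0) : vTwo x = exp (-padicValRat 2 x) := by
  simp [vTwo, Rat.padicValuation, hx]

lemma vTwo_intCast_le_one (n : ℤ) : vTwo (n : ℚ) ≤ 1 := by
  haveI : Fact (Nat.Prime 2) := ⟨Nat.prime_two⟩
  exact Int.padicValuation_le_one 2 n

lemma vTwo_intCast_lt_one_iff {n : ℤ} : vTwo (n : ℚ) < 1 ↔ (2 : ℤ) ∣ n := by
  haveI : Fact (Nat.Prime 2) := ⟨Nat.prime_two⟩
  exact Int.padicValuation_lt_one_iff (p := 2)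

lemma vTwo_intCast_eq_one_iff {n : ℤ} : vTwo (n : ℚ) = 1 ↔ ¬ (2 : ℤ) ∣ n := by
  haveI : Fact (Nat.Prime 2) := ⟨Nat.prime_two⟩
  exact Int.padicValuation_eq_one_iff (p := 2)

lemma vTwo_two_lt_one : vTwo (2 : ℚ) < 1 := by
  have := vTwo_intCast_lt_one_iff (n := 2)
  simpa using this

/-- the residue field of `ℚ` at `2` is `𝔽₂` -/
lemma vTwo_residue {x : ℚ} (hx : vTwo x ≤ 1) : vTwo x < 1 ∨ vTwo (x - 1) < 1 := by
  haveI : Fact (Nat.Prime 2) := ⟨Nat.prime_two⟩
  have hden : ¬ 2 ∣ x.den := Rat.padicValuation_le_one_iff.mp hx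
  have hden' : ¬ (2 : ℤ) ∣ (x.den : ℤ) := by
    intro h
    apply hden
    exact_mod_cast h
  have hdv : vTwo ((x.den : ℤ) : ℚ) = 1 := vTwo_intCast_eq_one_iff.mpr hden'
  have hxe : x * ((x.den : ℤ) : ℚ) = (x.num : ℚ) := by
    have := Rat.mul_den_eq_num x
    exact_mod_cast this
  rcases Int.emod_two_eq_zero_or_one x.num with h0 | h1
  · left
    have h2 : (2 : ℤ) ∣ x.num := Int.dvd_of_emod_eq_zero h0
    have : vTwo (x * ((x.den : ℤ) : ℚ)) < 1 := by
      rw [hxe]; exact vTwo_intCast_lt_one_iff.mpr h2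
    rwa [map_mul, hdv, mul_one] at this
  · right
    have h2 : (2 : ℤ) ∣ x.num - x.den := by
      have hdodd : (x.den : ℤ) % 2 = 1 := by
        rcases Int.emod_two_eq_zero_or_one (x.den : ℤ) with h | h
        · exact absurd (Int.dvd_of_emod_eq_zero h) hden'
        · exact h
      omega
    have : vTwo ((x - 1) * ((x.den : ℤ) : ℚ)) < 1 := by
      have e : (x - 1) * ((x.den : ℤ) : ℚ) = ((x.num - x.den : ℤ) : ℚ) := by
        push_cast
        push_cast at hxe
        linear_combination hxe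
      rw [e]; exact vTwo_intCast_lt_one_iff.mpr h2
    rwa [map_mul, hdv, mul_one] at this

/-- the key arithmetic: `v(x)^p = v(a₄)^2` is impossible for rational `x` -/
lemma no_pow_eq {p : ℕ} (hp : p.Prime) (hp5 : 5 ≤ p) {x a4 a b : ℚ} (hx : x ≠ 0)
    (ha : vTwo a = 1) (hb0 : b ≠ 0) (h16 : 16 * a4 = -(a ^ p * b ^ p))
    (h : vTwo x ^ p = vTwo a4 ^ 2) : False := by
  have ha0 : a ≠ 0 := by
    rintro rfl
    simp at ha
  have ha40 : a4 ≠ 0 := by
    rintro rfl
    have : (a ^ p * b ^ p) = 0 := by linear_combination h16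
    exact (mul_ne_zero (pow_ne_zero _ ha0) (pow_ne_zero _ hb0)) this
  have e1 : vTwo (16 : ℚ) * vTwo a4 = vTwo b ^ p := by
    rw [← map_mul, h16, Valuation.map_neg, map_mul, map_pow, map_pow, ha, one_pow, one_mul]
  have e16 : vTwo (16 : ℚ) = vTwo 2 ^ 4 := by
    rw [← map_pow]; norm_num
  -- pass to exponents
  rw [vTwo_eq_exp hx, vTwo_eq_exp ha40] at h
  rw [e16, vTwo_eq_exp (two_ne_zero), vTwo_eq_exp ha40, vTwo_eq_exp hb0] at e1
  rw [← exp_nsmul, ← exp_nsmul] at h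
  rw [← exp_nsmul, ← exp_nsmul, ← exp_add] at e1
  have h1 := exp_injective h
  have h2 := exp_injective e1
  have h2' : padicValRat 2 (2 : ℚ) = 1 := by
    have := padicValRat.self (p := 2) (by norm_num)
    exact_mod_cast this
  rw [h2'] at h2
  simp only [nsmul_eq_mul] at h1 h2
  -- p * ord x = 2 * ord a4, 4 + ord a4 = p * ord b
  have h3 : (p : ℤ) ∣ 8 := by
    refine ⟨2 * padicValRat 2 b - padicValRat 2 x, ?_⟩
    push_cast at h1 h2
    linarith
  have h4 : p ∣ 8 := by exact_mod_cast h3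
  have h5 : p ≤ 8 := Nat.le_of_dvd (by norm_num) h4
  interval_cases p <;> simp_all (config := {decide := true})

end Arith

section FreyData

variable (P : FreyPackage)

lemma frey_a₁ : P.freyCurve.a₁ = 1 := rfl
lemma frey_a₃ : P.freyCurve.a₃ = 0 := rfl
lemma frey_a₆ : P.freyCurve.a₆ = 0 := rfl

lemma frey_a₂_eq : P.freyCurve.a₂ = ((P.freyCurveInt.a₂ : ℤ) : ℚ) := by
  rw [← Fermat.Agent.S04.freyCurveInt_map P]; simp

lemma frey_a₄_eq : P.freyCurve.a₄ = ((P.freyCurveInt.a₄ : ℤ) : ℚ) := by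
  rw [← Fermat.Agent.S04.freyCurveInt_map P]; simp

lemma frey_sixteen_mul_a₄ :
    16 * P.freyCurve.a₄ = -(((P.a : ℤ) : ℚ) ^ P.p * ((P.b : ℤ) : ℚ) ^ P.p) := by
  rw [frey_a₄_eq]
  have h := congrArg (fun z : ℤ => (z : ℚ)) (Fermat.Agent.S04.sixteen_mul_a₄ P)
  simpa using h

lemma frey_four_mul_a₂ :
    4 * P.freyCurve.a₂ = ((P.b : ℤ) : ℚ) ^ P.p - 1 - ((P.a : ℤ) : ℚ) ^ P.p := by
  rw [frey_a₂_eq]
  have h := congrArg (fun z : ℤ => (z : ℚ)) (Fermat.Agent.S04.four_mul_a₂ P)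
  simpa using h

lemma two_not_dvd_a : ¬ (2 : ℤ) ∣ P.a := by
  intro h
  have h1 : (2 : ℤ) ∣ gcd P.a P.b := dvd_gcd h (Fermat.Agent.S04.two_dvd_b P)
  rw [P.hgcdab] at h1
  have : (2 : ℤ) ≤ 1 := Int.le_of_dvd one_pos h1
  omega

lemma vTwo_a : vTwo ((P.a : ℤ) : ℚ) = 1 := vTwo_intCast_eq_one_iff.mpr (two_not_dvd_a P)

lemma vTwo_p : vTwo ((P.p : ℕ) : ℚ) = 1 := by
  have h : ¬ (2 : ℤ) ∣ ((P.p : ℕ) : ℤ) := by
    intro h
    have h2 : 2 ∣ P.p := by exact_mod_cast h
    have := (Nat.prime_dvd_prime_iff_eq Nat.prime_two P.pp).mp h2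
    have := P.hp5
    omega
  have := vTwo_intCast_eq_one_iff.mpr h
  simpa using this

lemma frey_vTwo_a₂ : vTwo P.freyCurve.a₂ ≤ 1 := by
  rw [frey_a₂_eq]; exact vTwo_intCast_le_one _

lemma frey_vTwo_a₄ : vTwo P.freyCurve.a₄ < 1 := by
  rw [frey_a₄_eq, vTwo_intCast_lt_one_iff]
  have h16 := Fermat.Agent.S04.sixteen_mul_a₄ P
  obtain ⟨c, hc⟩ := Fermat.Agent.S04.thirtytwo_dvd_b_pow P
  refine ⟨-(P.a ^ P.p * c), ?_⟩
  rw [hc] at h16
  have : 16 * P.freyCurveInt.a₄ = 16 * (2 * -(P.a ^ P.p * c)) := by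
    rw [h16]; ring
  exact mul_left_cancel₀ (by norm_num) this

lemma frey_b₂ : P.freyCurve.b₂ = ((P.b ^ P.p - P.a ^ P.p : ℤ) : ℚ) := by
  rw [WeierstrassCurve.b₂, frey_a₁]
  have := frey_four_mul_a₂ P
  push_cast
  linear_combination this

lemma frey_vTwo_b₂ : vTwo P.freyCurve.b₂ = 1 := by
  rw [frey_b₂, vTwo_intCast_eq_one_iff]
  intro h
  apply two_not_dvd_a P
  have hb : (2 : ℤ) ∣ P.b ^ P.p := dvd_pow (Fermat.Agent.S04.two_dvd_b P) P.hp0
  have ha : (2 : ℤ) ∣ P.a ^ P.p := by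
    have := dvd_sub hb h
    simpa using this
  exact Int.prime_two.dvd_of_dvd_pow ha

end FreyData

section Main

variable (P : FreyPackage)

/-- Input (5b) (node/sawtooth statement at `2`), in the shape announced by helper95, for the
Frey curve over `ℚ` and the `2`-adic valuation. -/
def NodeHyp : Prop :=
  ∀ T : P.freyCurve.toAffine.Point, P.p • T = 0 → T ≠ 0 →
    (∀ k : ℕ, k • T ≠ 0 → vTwo (Fermat.Agent.S05.helper7.pX P.freyCurve 0 (k • T)) < 1) →
    ∃ k : ℕ, k • T ≠ 0 ∧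
      vTwo (Fermat.Agent.S05.helper7.pX P.freyCurve 0 (k • T)) ^ P.p = vTwo P.freyCurve.a₄ ^ 2

/-- Every nonzero multiple of a rational `p`-torsion point reduces to the node at `2`. -/
lemma frey_multiple_node (T : P.freyCurve.toAffine.Point) (hT : P.p • T = 0) (k : ℕ)
    (hk : k • T ≠ 0) :
    vTwo (Fermat.Agent.S05.helper7.pX P.freyCurve 0 (k • T)) < 1 := by
  have hpk : P.p • (k • T) = 0 := by
    rw [smul_comm, hT, nsmul_zero]
  rcases hkT : k • T with _ | ⟨x, y, h⟩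
  · exact absurd hkT hk
  · rw [hkT] at hpk
    have hn3 : Nat.Coprime P.p 3 := by
      rw [Nat.coprime_primes P.pp Nat.prime_three]
      have := P.hp5
      omega
    have hv1 : vTwo P.freyCurve.toAffine.a₁ ≤ 1 := by
      show vTwo P.freyCurve.a₁ ≤ 1
      rw [frey_a₁, map_one]
    have hv3 : vTwo P.freyCurve.toAffine.a₃ ≤ 1 := by
      show vTwo P.freyCurve.a₃ ≤ 1
      rw [frey_a₃, map_zero]; exact zero_le_one
    have hv6 : vTwo P.freyCurve.toAffine.a₆ ≤ 1 := by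
      show vTwo P.freyCurve.a₆ ≤ 1
      rw [frey_a₆, map_zero]; exact zero_le_one
    obtain ⟨hxi, hyi⟩ := Fermat.Agent.S13.v_le_one_of_nsmul_eq_zero vTwo P.freyCurve.toAffine
      hv1 (frey_vTwo_a₂ P) hv3 (frey_vTwo_a₄ P).le hv6 (vTwo_p P) h hpk
    have := Fermat.Agent.S13.torsion_reduces_to_node_of_residue_two vTwo P.freyCurve.toAffine
      vTwo_two_lt_one (frey_a₁ P) (frey_a₃ P) (frey_a₆ P) (frey_vTwo_a₂ P) (frey_vTwo_a₄ P)
      (vTwo_p P) hn3 h hpk (vTwo_residue hxi) (vTwo_residue hyi)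
    show vTwo (x - 0) < 1
    rw [sub_zero]
    exact this.1

/-- **No rational `p`-torsion on the Frey curve**, given the node statement (5b). -/
theorem frey_rat_torsion_eq_zero (h5b : NodeHyp P) (T : P.freyCurve.toAffine.Point)
    (hT : P.p • T = 0) : T = 0 := by
  by_contra hne
  obtain ⟨k, hk, hval⟩ := h5b T hT hne (frey_multiple_node P T hT)
  rcases hkT : k • T with _ | ⟨x, y, h⟩
  · exact absurd hkT hk
  · rw [hkT] at hval
    have hval' : vTwo x ^ P.p = vTwo P.freyCurve.a₄ ^ 2 := by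
      have e : Fermat.Agent.S05.helper7.pX P.freyCurve 0 (Point.some x y h) = x - 0 := rfl
      rw [e, sub_zero] at hval
      exact hval
    have ha40 : P.freyCurve.a₄ ≠ 0 := by
      intro h0
      have h16 := frey_sixteen_mul_a₄ P
      rw [h0, mul_zero] at h16
      have ha : ((P.a : ℤ) : ℚ) ≠ 0 := by exact_mod_cast P.ha0
      have hb : ((P.b : ℤ) : ℚ) ≠ 0 := by exact_mod_cast P.hb0
      have : ((P.a : ℤ) : ℚ) ^ P.p * ((P.b : ℤ) : ℚ) ^ P.p = 0 := by linear_combination h16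
      exact (mul_ne_zero (pow_ne_zero _ ha) (pow_ne_zero _ hb)) this
    have hx0 : x ≠ 0 := by
      rintro rfl
      rw [map_zero, zero_pow P.hp0] at hval'
      have : vTwo P.freyCurve.a₄ = 0 := by
        by_contra hcon
        exact (pow_ne_zero 2 hcon) hval'.symm
      exact ha40 ((map_eq_zero _).mp this)
    have hb : ((P.b : ℤ) : ℚ) ≠ 0 := by exact_mod_cast P.hb0
    exact no_pow_eq P.pp P.hp5 hx0 (vTwo_a P) hb (frey_sixteen_mul_a₄ P) hval'

/-- Input (5) of the S13 assembly, given the node statement (5b). -/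
theorem frey_noRationalTorsion (h5b : NodeHyp P) :
    Fermat.Agent.S13.helper38.NoRationalTorsion P.freyCurve P.p :=
  Fermat.Agent.S13.helper38.noRationalTorsion_of_rat' P.freyCurve P.p
    (fun Q hQ => frey_rat_torsion_eq_zero P h5b Q hQ)

end Main

end Fermat.Agent.S13.helper32
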