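import Fermat.Agent.S05.FreyShift

/-!
# S13, package (5b): the node region in arbitrary residue characteristic (helper5)

The component bookkeeping ("sawtooth") of `Fermat.Agent.S05.Comp`/`Comp2` is redone for the short
model `η² = x³ + a x² + b x` *without* assuming `v 2 = 1`: it is enough that `4 a` is a unit
and `a - 1/4` is integral (i.e. the model comes from `y² + x y = x³ + c x² + b x` with `c`
integral and `b₂ = 1 + 4 c` a unit, via `η = y + x / 2`).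
-/

set_option autoImplicit false
set_option linter.unusedSectionVars false
set_option linter.unusedVariables false

namespace Fermat.Agent.S13.helper5

open WeierstrassCurve WeierstrassCurve.Affine
open Fermat.Agent.S05

variable {K : Type*} [Field K] [DecidableEq K]
variable {Γ₀ : Type*} [LinearOrderedCommGroupWithZero Γ₀]

/-- The hypotheses on the short model. -/
structure NodeHyp (v : Valuation K Γ₀) (W : Affine K) : Prop where
  nf : IsTwoNF W
  two : (2 : K) ≠ 0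
  a4 : v (4 * W.a₂) = 1
  c : v (W.a₂ - 1 / 4) ≤ 1
  b : v W.a₄ < 1
  b0 : W.a₄ ≠ 0

variable {v : Valuation K Γ₀} {W : Affine K}

lemma val_four_le_one (v : Valuation K Γ₀) : v (4 : K) ≤ 1 := by
  have := val_natCast_le_one v 4
  simpa using this

/-- the equation in terms of `u = α - 1/2` -/
lemma NodeHyp.u_eq (hN : NodeHyp v W) {x y : K} (h : W.Nonsingular x y) (hx : x ≠ 0) :
    ((y / x - 1 / 2) ^ 2 + (y / x - 1 / 2)) * x = x ^ 2 + (W.a₂ - 1 / 4) * x + W.a₄ := by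
  have e := hN.nf.alpha_sq h hx
  have h2 := hN.two
  have h4 : (4 : K) ≠ 0 := by
    have : (4 : K) = 2 * 2 := by norm_num
    rw [this]; exact mul_ne_zero h2 h2
  obtain ⟨α, hα⟩ : ∃ α, α = y / x := ⟨_, rfl⟩
  rw [← hα] at e ⊢
  field_simp
  linear_combination 16 * e

/-- for a point reducing to the node, `2 α = 2 y / x` is a unit -/
lemma NodeHyp.val_two_alpha (hN : NodeHyp v W) {x y : K} (h : W.Nonsingular x y)
    (hxl : v W.a₄ < v x) (hxu : v x < 1) : v (2 * (y / x)) = 1 := by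
  have hx0 : x ≠ 0 := by rintro rfl; simp at hxl
  have hvx : 0 < v x := val_pos v hx0
  have e := hN.nf.alpha_sq h hx0
  have h1 : (2 * (y / x)) ^ 2 * x = 4 * W.a₂ * x + 4 * (x ^ 2 + W.a₄) := by
    linear_combination 4 * e
  have h2 : v (4 * W.a₂ * x + 4 * (x ^ 2 + W.a₄)) = v x := by
    have hax : v (4 * W.a₂ * x) = v x := by rw [map_mul, hN.a4, one_mul]
    rw [v.map_add_eq_of_lt_left, hax]
    rw [hax, map_mul]
    have h3 : v (x ^ 2 + W.a₄) < v x := by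
      apply v.map_add_lt _ hxl
      rw [map_pow, pow_two]
      calc v x * v x < 1 * v x := mul_lt_mul_of_pos_right hxu hvx
        _ = v x := one_mul _
    calc v 4 * v (x ^ 2 + W.a₄) ≤ 1 * v (x ^ 2 + W.a₄) := by
          gcongr
          exact val_four_le_one v
      _ = v (x ^ 2 + W.a₄) := one_mul _
      _ < v x := h3
  have h3 := congrArg v h1
  rw [h2, map_mul, map_pow] at h3
  apply eq_one_of_sq_eq_one
  have : v (2 * (y / x)) ^ 2 * v x = 1 * v x := by rw [h3, one_mul]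
  exact mul_right_cancel₀ hvx.ne' this

/-- `v (u² + u) = v u ^ 2` if `1 < v u` -/
lemma val_sq_add_self {u : K} (hu : 1 < v u) : v (u ^ 2 + u) = v u ^ 2 := by
  have hpos : 0 < v u := lt_trans zero_lt_one hu
  rw [v.map_add_eq_of_lt_left, map_pow]
  rw [map_pow, pow_two]
  calc v u = 1 * v u := (one_mul _).symm
    _ < v u * v u := mul_lt_mul_of_pos_right hu hpos

/-- for a point reducing to the node, `u = α - 1/2` is integral -/
lemma NodeHyp.val_u_le_one (hN : NodeHyp v W) {x y : K} (h : W.Nonsingular x y)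
    (hxl : v W.a₄ < v x) (hxu : v x < 1) : v (y / x - 1 / 2) ≤ 1 := by
  have hx0 : x ≠ 0 := by rintro rfl; simp at hxl
  have hvx : 0 < v x := val_pos v hx0
  have e := hN.u_eq h hx0
  by_contra hu
  rw [not_le] at hu
  have h1 := congrArg v e
  rw [map_mul, val_sq_add_self hu] at h1
  have h2 : v (x ^ 2 + (W.a₂ - 1 / 4) * x + W.a₄) ≤ v x := by
    apply v.map_add_le
    · apply v.map_add_le
      · rw [map_pow, pow_two]
        calc v x * v x ≤ 1 * v x := by gcongr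
          _ = v x := one_mul _
      · rw [map_mul]
        calc v (W.a₂ - 1 / 4) * v x ≤ 1 * v x := by
              gcongr
              exact hN.c
          _ = v x := one_mul _
    · exact hxl.le
  rw [← h1] at h2
  have h3 : v (y / x - 1 / 2) ^ 2 ≤ 1 := by
    have : v (y / x - 1 / 2) ^ 2 * v x ≤ 1 * v x := by rw [one_mul]; exact h2
    exact le_of_mul_le_mul_right this hvx
  have h4 : 1 < v (y / x - 1 / 2) ^ 2 := one_lt_pow₀ hu (by norm_num)
  exact absurd h3 (not_le.mpr h4)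

/-- for a point with `1 ≤ v x`, `v u ^ 2 ≤ v x` where `u = α - 1/2` -/
lemma NodeHyp.val_u_sq_le (hN : NodeHyp v W) {x y : K} (h : W.Nonsingular x y)
    (hx : 1 ≤ v x) : v (y / x - 1 / 2) ^ 2 ≤ v x := by
  have hx0 : x ≠ 0 := ne_zero_of_one_le_val v hx
  have hvx : 0 < v x := val_pos v hx0
  have e := hN.u_eq h hx0
  by_cases hu : 1 < v (y / x - 1 / 2)
  · have h1 := congrArg v e
    rw [map_mul, val_sq_add_self hu] at h1
    have h2 : v (x ^ 2 + (W.a₂ - 1 / 4) * x + W.a₄) ≤ v x * v x := by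
      apply v.map_add_le
      · apply v.map_add_le
        · rw [map_pow, pow_two]
        · rw [map_mul]
          gcongr
          exact le_trans hN.c hx
      · calc v W.a₄ ≤ 1 * 1 := by rw [one_mul]; exact hN.b.le
          _ ≤ v x * v x := by gcongr
    rw [← h1] at h2
    exact le_of_mul_le_mul_right h2 hvx
  · rw [not_lt] at hu
    exact le_trans (pow_le_one₀ zero_le hu) hx

/-- a bound for `s = α₁ + α₂ = u₁ + u₂ + 1` and for `α₁ - α₂ = u₁ - u₂` -/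
lemma val_sq_le_of_u (h2 : (2 : K) ≠ 0) {α₁ α₂ : K} {γ : Γ₀} (hγ : 1 ≤ γ)
    (h₁ : v (α₁ - 1 / 2) ^ 2 ≤ γ)
    (h₂ : v (α₂ - 1 / 2) ≤ 1) : v (α₁ + α₂) ^ 2 ≤ γ ∧ v (α₁ - α₂) ^ 2 ≤ γ := by
  have hu2 : v (α₂ - 1 / 2) ^ 2 ≤ γ := le_trans (pow_le_one₀ zero_le h₂) hγ
  have h1 : v ((1 : K)) ^ 2 ≤ γ := by rw [map_one, one_pow]; exact hγ
  constructor
  · have e : α₁ + α₂ = (α₁ - 1 / 2) + ((α₂ - 1 / 2) + 1) := by field_simp; ring
    rw [e]
    rcases v.map_add' (α₁ - 1 / 2) ((α₂ - 1 / 2) + 1) with h | h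
    · exact le_trans (pow_le_pow_left₀ zero_le h 2) h₁
    · rcases v.map_add' (α₂ - 1 / 2) 1 with h' | h'
      · exact le_trans (pow_le_pow_left₀ zero_le (le_trans h h') 2) hu2
      · exact le_trans (pow_le_pow_left₀ zero_le (le_trans h h') 2) h1
  · have e : α₁ - α₂ = (α₁ - 1 / 2) + (-(α₂ - 1 / 2)) := by ring
    rw [e]
    rcases v.map_add' (α₁ - 1 / 2) (-(α₂ - 1 / 2)) with h | h
    · exact le_trans (pow_le_pow_left₀ zero_le h 2) h₁
    · rw [Valuation.map_neg] at h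
      exact le_trans (pow_le_pow_left₀ zero_le h 2) hu2

/-- (A-Z): adding a point of `E₀` to a point reducing to the node -/
lemma NodeHyp.add_Z_N (hN : NodeHyp v W)
    {x₁ y₁ x₂ y₂ : K} (h₁ : W.Nonsingular x₁ y₁) (h₂ : W.Nonsingular x₂ y₂)
    (hx₁ : 1 ≤ v x₁) (hx₂l : v W.a₄ < v x₂) (hx₂u : v x₂ < 1) :
    ∃ x₃ y₃ h₃, Point.some x₁ y₁ h₁ + Point.some x₂ y₂ h₂ = Point.some x₃ y₃ h₃ ∧
      v x₃ = v x₂ ∧ v (y₃ / x₃ - y₂ / x₂) < 1 := by
  have hW := hN.nf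
  have hx₁0 : x₁ ≠ 0 := ne_zero_of_one_le_val v hx₁
  have hx₂0 : x₂ ≠ 0 := by rintro rfl; simp at hx₂l
  have hX₁ : 0 < v x₁ := val_pos v hx₁0
  have hX₂ : 0 < v x₂ := val_pos v hx₂0
  have e₁ := hW.alpha_sq h₁ hx₁0
  have e₂ := hW.alpha_sq h₂ hx₂0
  have hu₂ := hN.val_u_le_one h₂ hx₂l hx₂u
  have hu₁ := hN.val_u_sq_le h₁ hx₁
  obtain ⟨α₁, hα₁'⟩ : ∃ α₁, α₁ = y₁ / x₁ := ⟨_, rfl⟩
  obtain ⟨α₂, hα₂'⟩ : ∃ α₂, α₂ = y₂ / x₂ := ⟨_, rfl⟩
  obtain ⟨s, hs'⟩ : ∃ s, s = α₁ + α₂ := ⟨_, rfl⟩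
  obtain ⟨d, hd'⟩ : ∃ d, d = x₁ * x₂ - W.a₄ := ⟨_, rfl⟩
  rw [← hα₁'] at e₁ hu₁
  rw [← hα₂'] at e₂ hu₂
  have hvd : v d = v x₁ * v x₂ := by
    rw [hd', ← map_mul]
    apply v.map_sub_eq_of_lt_left
    rw [map_mul]
    calc v W.a₄ < v x₂ := hx₂l
      _ = 1 * v x₂ := (one_mul _).symm
      _ ≤ v x₁ * v x₂ := by gcongr
  have hd0 : d ≠ 0 := by
    apply ne_zero_of_val_pos v; rw [hvd]; exact mul_pos hX₁ hX₂
  have hvx12 : v (x₁ - x₂) = v x₁ :=
    v.map_sub_eq_of_lt_left (lt_of_lt_of_le hx₂u hx₁)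
  -- `v s * v (α₁ - α₂) = v x₁`
  have hid : s * (α₁ - α₂) * (x₁ * x₂) = (x₁ - x₂) * d := by
    rw [hs', hd']; linear_combination x₂ * e₁ - x₁ * e₂
  have hsv : v s * v (α₁ - α₂) = v x₁ := by
    have := congrArg v hid
    simp only [map_mul] at this
    rw [hvx12, hvd] at this
    exact mul_right_cancel₀ (mul_pos hX₁ hX₂).ne' this
  obtain ⟨hs2, hm2⟩ : v s ^ 2 ≤ v x₁ ∧ v (α₁ - α₂) ^ 2 ≤ v x₁ := by
    rw [hs']
    exact val_sq_le_of_u hN.two hx₁ hu₁ hu₂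
  have hs2' : v s ^ 2 = v x₁ := by
    rcases lt_or_eq_of_le hs2 with hlt | heq
    · exfalso
      have h1 : v s ^ 2 * v (α₁ - α₂) ^ 2 = v x₁ * v x₁ := by
        rw [← mul_pow, hsv, pow_two]
      have hmpos : 0 < v (α₁ - α₂) ^ 2 := by
        rw [zero_lt_iff]
        intro h0
        rw [h0, mul_zero] at h1
        exact (mul_pos hX₁ hX₁).ne h1
      have h2 : v s ^ 2 * v (α₁ - α₂) ^ 2 < v x₁ * v x₁ := by
        calc v s ^ 2 * v (α₁ - α₂) ^ 2 < v x₁ * v (α₁ - α₂) ^ 2 :=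
              mul_lt_mul_of_pos_right hlt hmpos
          _ ≤ v x₁ * v x₁ := by gcongr
      exact h2.ne h1
    · exact heq
  have hS : 0 < v s := by
    rw [zero_lt_iff]; intro h0; rw [h0] at hs2'; simp at hs2'; exact hX₁.ne hs2'
  have hs0 : s ≠ 0 := ne_zero_of_val_pos v hS
  have hs0' : y₁ / x₁ + y₂ / x₂ ≠ 0 := by rw [← hα₁', ← hα₂', ← hs']; exact hs0
  obtain ⟨x₃, y₃, h₃, hadd, hx₃, hy₃⟩ := hW.add_sd h₁ h₂ hx₁0 hx₂0 hs0'
  rw [← hα₁', ← hα₂', ← hs', ← hd'] at hx₃ hy₃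
  refine ⟨x₃, y₃, h₃, hadd, ?_⟩
  have hvx₃ : v x₃ = v x₂ := by
    have := congrArg v hx₃
    simp only [map_mul, map_pow] at this
    rw [hvd, hs2'] at this
    have h0 : v x₁ * v x₂ * v x₁ ≠ 0 := (mul_pos (mul_pos hX₁ hX₂) hX₁).ne'
    apply mul_right_cancel₀ h0
    rw [this]; simp only [pow_two]; ac_rfl
  refine ⟨hvx₃, ?_⟩
  have hx₃0 : x₃ ≠ 0 := by apply ne_zero_of_val_pos v; rw [hvx₃]; exact hX₂
  obtain ⟨hf1, -⟩ := alpha3_formulas x₁ x₂ α₁ α₂ W.a₄ x₃ y₃ s d hx₁0 hx₂0 hs0 hd0 hx₃0 hs' hd'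
    hx₃ hy₃
  rw [← hα₂', hf1]
  apply v.map_sub_lt
  · apply lt_one_of_sq_lt_one
    rw [map_div₀, map_mul, div_pow, mul_pow, hs2', hvd]
    rw [div_lt_one₀ (pow_pos (mul_pos hX₁ hX₂) 2)]
    calc v x₁ * v W.a₄ ^ 2 < v x₁ * v x₂ ^ 2 := by
          apply mul_lt_mul_of_pos_left _ hX₁
          exact pow_lt_pow_left₀ hx₂l zero_le (by norm_num)
      _ = 1 * (v x₁ * v x₂ ^ 2) := (one_mul _).symm
      _ ≤ v x₁ * (v x₁ * v x₂ ^ 2) := by gcongr
      _ = (v x₁ * v x₂) ^ 2 := by simp only [pow_two]; ac_rfl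
  · apply lt_one_of_sq_lt_one
    rw [map_div₀, map_mul, div_pow, mul_pow, hs2', hvd]
    rw [div_lt_one₀ (mul_pos (pow_pos hX₁ 2) hX₁)]
    calc (v x₁ * v x₂) ^ 2 = v x₁ ^ 2 * (v x₂ ^ 2) := mul_pow _ _ _
      _ < v x₁ ^ 2 * 1 := by
          apply mul_lt_mul_of_pos_left _ (pow_pos hX₁ 2)
          exact pow_lt_one₀ zero_le hx₂u (by norm_num)
      _ ≤ v x₁ ^ 2 * v x₁ := by gcongr

/-- (A-N): adding two points reducing to the node with the same tangent direction -/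
lemma NodeHyp.add_N_N (hN : NodeHyp v W)
    {x₁ y₁ x₂ y₂ : K} (h₁ : W.Nonsingular x₁ y₁) (h₂ : W.Nonsingular x₂ y₂)
    (hx₁l : v W.a₄ < v x₁) (hx₁u : v x₁ < 1) (hx₂l : v W.a₄ < v x₂) (hx₂u : v x₂ < 1)
    (hα : v (y₁ / x₁ - y₂ / x₂) < 1) :
    ∃ x₃ y₃ h₃, Point.some x₁ y₁ h₁ + Point.some x₂ y₂ h₂ = Point.some x₃ y₃ h₃ ∧
      (v W.a₄ < v x₁ * v x₂ → v x₃ = v x₁ * v x₂ ∧ v (y₃ / x₃ - y₂ / x₂) < 1) ∧
      (v x₁ * v x₂ < v W.a₄ → v x₃ * (v x₁ * v x₂) = v W.a₄ ^ 2 ∧ v (y₃ / x₃ + y₂ / x₂) < 1) ∧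
      (v x₁ * v x₂ = v W.a₄ → v x₃ ≤ v W.a₄) := by
  have hW := hN.nf
  have hb0 := hN.b0
  have hx₁0 : x₁ ≠ 0 := by rintro rfl; simp at hx₁l
  have hx₂0 : x₂ ≠ 0 := by rintro rfl; simp at hx₂l
  have hX₁ : 0 < v x₁ := val_pos v hx₁0
  have hX₂ : 0 < v x₂ := val_pos v hx₂0
  have hβ : 0 < v W.a₄ := val_pos v hb0
  have hα₂ := hN.val_two_alpha h₂ hx₂l hx₂u
  obtain ⟨α₁, hα₁'⟩ : ∃ α₁, α₁ = y₁ / x₁ := ⟨_, rfl⟩
  obtain ⟨α₂, hα₂'⟩ : ∃ α₂, α₂ = y₂ / x₂ := ⟨_, rfl⟩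
  obtain ⟨s, hs'⟩ : ∃ s, s = α₁ + α₂ := ⟨_, rfl⟩
  obtain ⟨d, hd'⟩ : ∃ d, d = x₁ * x₂ - W.a₄ := ⟨_, rfl⟩
  rw [← hα₂'] at hα₂
  rw [← hα₁', ← hα₂'] at hα
  have hvs : v s = 1 := by
    have : s = 2 * α₂ + (α₁ - α₂) := by rw [hs']; ring
    rw [this]
    exact val_add_eq_one v hα₂ hα
  have hs0 : s ≠ 0 := ne_zero_of_val_eq_one v hvs
  have hs0' : y₁ / x₁ + y₂ / x₂ ≠ 0 := by rw [← hα₁', ← hα₂', ← hs']; exact hs0
  obtain ⟨x₃, y₃, h₃, hadd, hx₃, hy₃⟩ := hW.add_sd h₁ h₂ hx₁0 hx₂0 hs0'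
  rw [← hα₁', ← hα₂', ← hs', ← hd'] at hx₃ hy₃
  refine ⟨x₃, y₃, h₃, hadd, ?_⟩
  rw [← hα₂']
  have hvx₃ : v x₃ * (v x₁ * v x₂) = v d ^ 2 := by
    have := congrArg v hx₃
    simp only [map_mul, map_pow] at this
    rw [hvs, one_pow, mul_one] at this
    exact this
  have hX₁₂ : 0 < v x₁ * v x₂ := mul_pos hX₁ hX₂
  refine ⟨fun hgt => ?_, fun hlt => ?_, fun heq => ?_⟩
  · -- `v b < v (x₁ x₂)`
    have hvd : v d = v x₁ * v x₂ := by
      rw [hd', ← map_mul]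
      apply v.map_sub_eq_of_lt_left
      rw [map_mul]; exact hgt
    have hd0 : d ≠ 0 := by
      apply ne_zero_of_val_pos v; rw [hvd]; exact hX₁₂
    have hvx₃' : v x₃ = v x₁ * v x₂ := by
      rw [hvd, pow_two] at hvx₃
      exact mul_right_cancel₀ hX₁₂.ne' hvx₃
    refine ⟨hvx₃', ?_⟩
    have hx₃0 : x₃ ≠ 0 := by apply ne_zero_of_val_pos v; rw [hvx₃']; exact hX₁₂
    obtain ⟨hf1, -⟩ := alpha3_formulas x₁ x₂ α₁ α₂ W.a₄ x₃ y₃ s d hx₁0 hx₂0 hs0 hd0 hx₃0 hs' hd'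
      hx₃ hy₃
    rw [hf1]
    apply v.map_sub_lt
    · rw [map_div₀, map_mul, hvs, one_mul, hvd, div_lt_one₀ hX₁₂]
      exact hgt
    · rw [map_div₀, map_mul, hvs, mul_one, hvd, div_lt_one₀ hX₁]
      calc v x₁ * v x₂ < v x₁ * 1 := mul_lt_mul_of_pos_left hx₂u hX₁
        _ = v x₁ := mul_one _
  · -- `v (x₁ x₂) < v b`
    have hvd : v d = v W.a₄ := by
      rw [hd']
      apply v.map_sub_eq_of_lt_right
      rw [map_mul]; exact hlt
    have hd0 : d ≠ 0 := by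
      apply ne_zero_of_val_pos v; rw [hvd]; exact hβ
    rw [hvd] at hvx₃
    refine ⟨hvx₃, ?_⟩
    have hx₃0 : x₃ ≠ 0 := by
      rintro rfl
      rw [map_zero, zero_mul] at hvx₃
      exact (pow_pos hβ 2).ne hvx₃
    obtain ⟨-, hf2⟩ := alpha3_formulas x₁ x₂ α₁ α₂ W.a₄ x₃ y₃ s d hx₁0 hx₂0 hs0 hd0 hx₃0 hs' hd'
      hx₃ hy₃
    have : y₃ / x₃ + α₂ = (y₃ / x₃ + α₁) - (α₁ - α₂) := by ring
    rw [this, hf2]
    apply v.map_sub_lt _ hα
    apply v.map_add_lt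
    · rw [Valuation.map_neg, map_div₀, map_mul, hvs, mul_one, hvd, div_lt_one₀ hX₁]
      exact hx₁l
    · rw [map_div₀, map_mul, map_mul, hvs, mul_one, hvd, div_lt_one₀ hβ]
      exact hlt
  · -- `v (x₁ x₂) = v b`
    have hvd : v d ≤ v W.a₄ := by
      rw [hd']
      apply v.map_sub_le _ (le_refl _)
      rw [map_mul, heq]
    rw [heq] at hvx₃
    have : v x₃ * v W.a₄ ≤ v W.a₄ * v W.a₄ := by
      rw [hvx₃, pow_two]; gcongr
    exact le_of_mul_le_mul_right this hβ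

/-- adding a point of type `N+` to a point of type `Z` or `N+` -/
lemma NodeHyp.St_add_pos (hN : NodeHyp v W) {α₀ : K} {x₂ y₂ : K} (h₂ : W.Nonsingular x₂ y₂)
    (hx₂l : v W.a₄ < v x₂) (hx₂u : v x₂ < 1) (hα₂ : v (y₂ / x₂ - α₀) < 1)
    {Q : W.Point} {γ : Γ₀} (hQ : TZ v Q γ ∨ TP v α₀ Q γ) :
    St v α₀ (Q + Point.some x₂ y₂ h₂) (γ * v x₂) := by
  have hW := hN.nf
  have hb0 := hN.b0
  have hβ : 0 < v W.a₄ := val_pos v hb0
  have hX₂ : 0 < v x₂ := lt_trans hβ hx₂l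
  rcases hQ with ⟨hQ, i, j, hij⟩ | ⟨x₁, y₁, h₁, rfl, hx₁l, hx₁u, hα₁, i, j, hij⟩
  · have hexp : v x₂ * v W.a₄ ^ (2 * j) = γ * v x₂ * v W.a₄ ^ (2 * i) := by
      rw [← hij]; ac_rfl
    rcases hQ with rfl | ⟨x₁, y₁, h₁, rfl, hx₁⟩
    · rw [zero_add]
      exact Or.inr (Or.inl ⟨x₂, y₂, h₂, rfl, hx₂l, hx₂u, hα₂, j, i, hexp⟩)
    · obtain ⟨x₃, y₃, h₃, hadd, hvx₃, hα₃⟩ := hN.add_Z_N h₁ h₂ hx₁ hx₂l hx₂u
      rw [hadd]
      refine Or.inr (Or.inl ⟨x₃, y₃, h₃, rfl, hvx₃ ▸ hx₂l, hvx₃ ▸ hx₂u, ?_, j, i, hvx₃ ▸ hexp⟩)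
      have : y₃ / x₃ - α₀ = (y₃ / x₃ - y₂ / x₂) + (y₂ / x₂ - α₀) := by ring
      rw [this]
      exact v.map_add_lt hα₃ hα₂
  · have hX₁ : 0 < v x₁ := lt_trans hβ hx₁l
    have hα : v (y₁ / x₁ - y₂ / x₂) < 1 := by
      have : y₁ / x₁ - y₂ / x₂ = (y₁ / x₁ - α₀) - (y₂ / x₂ - α₀) := by ring
      rw [this]
      exact v.map_sub_lt hα₁ hα₂
    obtain ⟨x₃, y₃, h₃, hadd, hgt, hlt, heq⟩ :=
      hN.add_N_N h₁ h₂ hx₁l hx₁u hx₂l hx₂u hα
    rw [hadd]
    rcases lt_trichotomy (v W.a₄) (v x₁ * v x₂) with hc | hc | hc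
    · obtain ⟨hvx₃, hα₃⟩ := hgt hc
      refine Or.inr (Or.inl ⟨x₃, y₃, h₃, rfl, hvx₃ ▸ hc, ?_, ?_, i, j, ?_⟩)
      · rw [hvx₃]
        calc v x₁ * v x₂ < 1 * 1 := mul_lt_mul'' hx₁u hx₂u zero_le zero_le
          _ = 1 := one_mul 1
      · have : y₃ / x₃ - α₀ = (y₃ / x₃ - y₂ / x₂) + (y₂ / x₂ - α₀) := by ring
        rw [this]
        exact v.map_add_lt hα₃ hα₂
      · calc v x₃ * v W.a₄ ^ (2 * i) = (v x₁ * v W.a₄ ^ (2 * i)) * v x₂ := by
              rw [hvx₃]; ac_rfl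
          _ = γ * v x₂ * v W.a₄ ^ (2 * j) := by rw [hij]; ac_rfl
    · have hvx₃ := heq hc.symm
      refine Or.inr (Or.inr (Or.inr ⟨⟨x₃, y₃, h₃, rfl, hvx₃⟩, j, i, ?_⟩))
      calc γ * v x₂ * v W.a₄ ^ (2 * j) = (γ * v W.a₄ ^ (2 * j)) * v x₂ := by ac_rfl
        _ = (v x₁ * v x₂) * v W.a₄ ^ (2 * i) := by rw [← hij]; ac_rfl
        _ = v W.a₄ ^ (2 * i + 1) := by rw [← hc, pow_succ]; ac_rfl
    · obtain ⟨hvx₃, hα₃⟩ := hlt hc
      have hX₁₂ : 0 < v x₁ * v x₂ := mul_pos hX₁ hX₂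
      refine Or.inr (Or.inr (Or.inl ⟨x₃, y₃, h₃, rfl, ?_, ?_, ?_, j, i + 1, ?_⟩))
      · have : v W.a₄ * (v x₁ * v x₂) < v x₃ * (v x₁ * v x₂) := by
          rw [hvx₃, pow_two]
          exact mul_lt_mul_of_pos_left hc hβ
        exact lt_of_mul_lt_mul_right this zero_le
      · have : v x₃ * (v x₁ * v x₂) < 1 * (v x₁ * v x₂) := by
          rw [hvx₃, pow_two, one_mul]
          exact mul_lt_mul'' hx₁l hx₂l zero_le zero_le
        exact lt_of_mul_lt_mul_right this zero_le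
      · have : y₃ / x₃ + α₀ = (y₃ / x₃ + y₂ / x₂) - (y₂ / x₂ - α₀) := by ring
        rw [this]
        exact v.map_sub_lt hα₃ hα₂
      · calc v x₃ * (γ * v x₂) * v W.a₄ ^ (2 * j)
            = v x₃ * v x₂ * (γ * v W.a₄ ^ (2 * j)) := by ac_rfl
          _ = v x₃ * v x₂ * (v x₁ * v W.a₄ ^ (2 * i)) := by rw [hij]
          _ = (v x₃ * (v x₁ * v x₂)) * v W.a₄ ^ (2 * i) := by ac_rfl
          _ = v W.a₄ ^ (2 * (i + 1)) := by rw [hvx₃, pow_two_mul_succ, pow_two]; ac_rfl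

/-- adding a point of type `N+` to any point -/
lemma NodeHyp.St_add (hN : NodeHyp v W) {α₀ : K} {x₂ y₂ : K} (h₂ : W.Nonsingular x₂ y₂)
    (hx₂l : v W.a₄ < v x₂) (hx₂u : v x₂ < 1) (hα₂ : v (y₂ / x₂ - α₀) < 1)
    {Q : W.Point} {γ : Γ₀} (hQ : St v α₀ Q γ) :
    St v α₀ (Q + Point.some x₂ y₂ h₂) (γ * v x₂) := by
  have hW := hN.nf
  have hb0 := hN.b0
  have key : ∀ {R : W.Point} {δ : Γ₀}, (TZ v R δ ∨ TP v α₀ R δ) →
      R = Q + Point.some 0 0 (hW.nonsingular_zero hb0) → δ = γ * v W.a₄ →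
      St v α₀ (Q + Point.some x₂ y₂ h₂) (γ * v x₂) := by
    intro R δ hR hRQ hδ
    have h1 := hN.St_add_pos h₂ hx₂l hx₂u hα₂ hR
    have h2 := hW.St_T hb0 h1
    have e1 : R + Point.some x₂ y₂ h₂ + Point.some 0 0 (hW.nonsingular_zero hb0) =
        Q + Point.some x₂ y₂ h₂ := by
      rw [hRQ]
      have := hW.T_add_T hb0
      calc Q + Point.some 0 0 (hW.nonsingular_zero hb0) + Point.some x₂ y₂ h₂ +
            Point.some 0 0 (hW.nonsingular_zero hb0)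
          = Q + Point.some x₂ y₂ h₂ + (Point.some 0 0 (hW.nonsingular_zero hb0) +
              Point.some 0 0 (hW.nonsingular_zero hb0)) := by abel
        _ = Q + Point.some x₂ y₂ h₂ := by rw [this, add_zero]
    have e2 : δ * v x₂ * v W.a₄ = γ * v x₂ * v W.a₄ * v W.a₄ := by
      rw [hδ]; ac_rfl
    rw [e1, e2] at h2
    exact St_shift h2
  rcases hQ with h | h | h | h
  · exact hN.St_add_pos h₂ hx₂l hx₂u hα₂ (Or.inl h)
  · exact hN.St_add_pos h₂ hx₂l hx₂u hα₂ (Or.inr h)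
  · exact key (Or.inr (hW.T_M hb0 h)) rfl rfl
  · exact key (Or.inl (hW.T_H hb0 h)) rfl rfl

/-- the state of the multiples of a point reducing to the node -/
theorem NodeHyp.St_nsmul (hN : NodeHyp v W) {x y : K} (h : W.Nonsingular x y)
    (hxl : v W.a₄ < v x) (hxu : v x < 1) (k : ℕ) :
    St v (y / x) (k • Point.some x y h) (v x ^ k) := by
  induction k with
  | zero =>
    rw [zero_smul, pow_zero]
    exact Or.inl ⟨Or.inl rfl, 0, 0, by simp⟩
  | succ k ih =>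
    rw [succ_nsmul, pow_succ]
    exact hN.St_add h hxl hxu (by simp) ih

/-- Lemma Y in arbitrary residue characteristic: the valuation of the `x`-coordinate of a torsion
point reducing to the node -/
theorem NodeHyp.node_torsion_val (hN : NodeHyp v W) {x y : K} (h : W.Nonsingular x y)
    (hxl : v W.a₄ < v x) (hxu : v x < 1) (n : ℕ) (hn : n • Point.some x y h = 0) :
    ∃ i j : ℕ, v x ^ n * v W.a₄ ^ (2 * i) = v W.a₄ ^ (2 * j) := by
  have := hN.St_nsmul h hxl hxu n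
  rw [hn] at this
  rcases this with ⟨-, i, j, hij⟩ | ⟨x', y', h', h0, -⟩ | ⟨x', y', h', h0, -⟩ |
    ⟨⟨x', y', h', h0⟩, -⟩
  · exact ⟨i, j, hij⟩
  · exact absurd h0.symm (Point.some_ne_zero h')
  · exact absurd h0.symm (Point.some_ne_zero h')
  · exact absurd h0.1.symm (Point.some_ne_zero h')

section Arith

/-- the final arithmetic contradiction -/
lemma arith_contra {p m κ a b i j : ℕ} (hp : p.Prime) (hp5 : 5 ≤ p)
    (hκ : κ + 4 = p * m) (hκ0 : 0 < κ) (hba : b < a) (haκ : a < κ + b)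
    (h : a * p + 2 * κ * i = 2 * κ * j + b * p) : False := by
  have hpz : (p : ℤ) ≠ 0 := by exact_mod_cast hp.ne_zero
  have hκ' : (κ : ℤ) = p * m - 4 := by
    have : ((κ + 4 : ℕ) : ℤ) = ((p * m : ℕ) : ℤ) := by rw [hκ]
    push_cast at this
    linarith
  have h' : (p : ℤ) * ((a : ℤ) - b) = 2 * κ * ((j : ℤ) - i) := by
    have : ((a * p + 2 * κ * i : ℕ) : ℤ) = ((2 * κ * j + b * p : ℕ) : ℤ) := by rw [h]
    push_cast at this
    linarith
  have hdvd : (p : ℤ) ∣ 8 * ((j : ℤ) - i) := by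
    refine ⟨2 * m * ((j : ℤ) - i) - ((a : ℤ) - b), ?_⟩
    rw [hκ'] at h'
    linear_combination h'
  have hcop : IsCoprime (p : ℤ) 8 := by
    have h8 : Nat.Coprime p 8 := by
      rw [Nat.Prime.coprime_iff_not_dvd hp]
      intro hd
      have hle := Nat.le_of_dvd (by norm_num) hd
      interval_cases p
      · exact absurd hd (by decide)
      · exact absurd hp (by norm_num)
      · exact absurd hd (by decide)
      · exact absurd hp (by norm_num)
    exact Nat.isCoprime_iff_coprime.mpr h8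
  obtain ⟨z, hz⟩ := hcop.dvd_of_dvd_mul_left hdvd
  rw [hz] at h'
  have hk : (a : ℤ) - b = 2 * κ * z := by
    have : (p : ℤ) * ((a : ℤ) - b) = p * (2 * κ * z) := by rw [h']; ring
    exact mul_left_cancel₀ hpz this
  have hk0 : (0 : ℤ) < (a : ℤ) - b := by
    have : (b : ℤ) < a := by exact_mod_cast hba
    linarith
  have hκz : (0 : ℤ) < κ := by exact_mod_cast hκ0
  have hz1 : 1 ≤ z := by
    by_contra hlt
    have hz0 : z ≤ 0 := by omega
    have : 2 * (κ : ℤ) * z ≤ 0 := by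
      have := mul_nonpos_of_nonneg_of_nonpos (by linarith : (0 : ℤ) ≤ 2 * κ) hz0
      exact this
    linarith
  have hge : 2 * (κ : ℤ) ≤ 2 * κ * z := by
    have := mul_le_mul_of_nonneg_left hz1 (by linarith : (0 : ℤ) ≤ 2 * κ)
    linarith
  have hlt : (a : ℤ) < κ + b := by exact_mod_cast haκ
  linarith

end Arith

section ValPow

variable {L : Type*} [Field L]

open Fermat.Agent.S05.helper92

/-- the valuation of a nonzero natural number is a power of the valuation of `q` -/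
lemma val_natCast_eq_pow {A : ValuationSubring L} {q : ℕ} (hq : q.Prime)
    (hA : A.LiesOverPrime q) {n : ℕ} (hn : n ≠ 0) :
    ∃ e : ℕ, A.valuation (n : L) = A.valuation (q : L) ^ e := by
  obtain ⟨e, n', hn', rfl⟩ := Nat.exists_eq_pow_mul_and_not_dvd hn q hq.ne_one
  refine ⟨e, ?_⟩
  have h1 : A.valuation ((n' : ℤ) : L) = 1 :=
    valuation_intCast_eq_one_of_not_dvd hq hA (by rwa [Int.natCast_dvd_natCast])
  rw [Nat.cast_mul, Nat.cast_pow, map_mul, map_pow]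
  have : ((n' : ℤ) : L) = (n' : L) := by simp
  rw [this] at h1
  rw [h1, mul_one]

/-- the valuation of a nonzero integer is a power of the valuation of `q` -/
lemma val_intCast_eq_pow {A : ValuationSubring L} {q : ℕ} (hq : q.Prime)
    (hA : A.LiesOverPrime q) {n : ℤ} (hn : n ≠ 0) :
    ∃ e : ℕ, A.valuation (n : L) = A.valuation (q : L) ^ e := by
  obtain ⟨e, he⟩ := val_natCast_eq_pow hq hA (n := n.natAbs) (Int.natAbs_ne_zero.mpr hn)
  refine ⟨e, ?_⟩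
  rw [← he]
  rcases Int.natAbs_eq n with h | h
  · conv_lhs => rw [h]
    simp
  · conv_lhs => rw [h]
    simp

end ValPow

section FreyTwo

open Fermat.Agent.S05.helper92

lemma not_two_dvd_a (P : FreyPackage) : ¬ (2 : ℤ) ∣ P.a := by
  rintro ⟨k, hk⟩
  have h := P.ha4
  rw [hk] at h
  push_cast at h
  revert h
  generalize ((k : ℤ) : ZMod 4) = z
  revert z
  decide

variable {K : Type*} [Field K] [DecidableEq K] [Algebra ℚ K] [CharZero K]

/-- the data of the Frey curve at a place over `2` -/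
lemma frey_two_data (P : FreyPackage) (A : ValuationSubring K) (hA : A.LiesOverPrime 2) :
    0 < A.valuation (2 : K) ∧ A.valuation (2 : K) < 1 ∧
    ∃ κ m : ℕ, κ + 4 = P.p * m ∧ 0 < κ ∧
      A.valuation ((shortAB P : Affine ℚ)⁄K).a₄ = A.valuation (2 : K) ^ κ ∧
      NodeHyp A.valuation ((shortAB P : Affine ℚ)⁄K) := by
  have hA' : (2 : K) ∈ A.nonunits := by
    have : ((2 : ℕ) : K) ∈ A.nonunits := hA
    simpa using this
  have ht1 : A.valuation (2 : K) < 1 := A.mem_nonunits_iff.mp hA'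
  have ht0 : 0 < A.valuation (2 : K) := val_pos _ two_ne_zero
  have h2b : ((2 : ℕ) : ℤ) ∣ P.b := by
    have := Fermat.Agent.S04.two_dvd_b P
    simpa using this
  have h2a : ¬ ((2 : ℕ) : ℤ) ∣ P.a := by
    have := not_two_dvd_a P
    simpa using this
  have vA : A.valuation (fA P K) = 1 := val_fA_eq_one P Nat.prime_two hA h2a
  obtain ⟨m, hm⟩ := val_intCast_eq_pow (L := K) Nat.prime_two hA P.hb0
  have hm' : A.valuation ((P.b : ℤ) : K) = A.valuation (2 : K) ^ m := by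
    rw [hm]; simp
  have hblt : A.valuation ((P.b : ℤ) : K) < 1 :=
    A.mem_nonunits_iff.mp ((intCast_mem_nonunits_iff Nat.prime_two hA P.b).mpr h2b)
  have hm1 : 1 ≤ m := by
    rcases Nat.eq_zero_or_pos m with h0 | h0
    · rw [h0, pow_zero] at hm'
      rw [hm'] at hblt
      exact absurd hblt (lt_irrefl _)
    · exact h0
  have vB : A.valuation (fB P K) = A.valuation (2 : K) ^ (P.p * m) := by
    rw [map_pow, hm', ← pow_mul, mul_comm]
  have hp5 := P.hp5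
  have hpm : 5 ≤ P.p * m := by
    calc 5 ≤ P.p := hp5
      _ = P.p * 1 := (mul_one _).symm
      _ ≤ P.p * m := Nat.mul_le_mul_left _ hm1
  obtain ⟨κ, hκ⟩ : ∃ κ, κ + 4 = P.p * m := ⟨P.p * m - 4, by omega⟩
  have hκ0 : 0 < κ := by omega
  have v16 : A.valuation (16 : K) = A.valuation (2 : K) ^ 4 := by
    rw [← map_pow]; norm_num
  have hβ : A.valuation ((shortAB P : Affine ℚ)⁄K).a₄ = A.valuation (2 : K) ^ κ := by
    rw [shortAB_a₄]
    have h16 : (16 : K) ≠ 0 := by norm_num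
    have e : (-(fA P K * fB P K) / 16) * 16 = -(fA P K * fB P K) := by field_simp
    have e' := congrArg A.valuation e
    rw [map_mul, Valuation.map_neg, map_mul, vA, vB, one_mul, v16, ← hκ, pow_add] at e'
    exact mul_right_cancel₀ (pow_pos ht0 4).ne' e'
  refine ⟨ht0, ht1, κ, m, hκ, hκ0, hβ, ?_⟩
  refine ⟨shortAB_nf P K, two_ne_zero, ?_, ?_, ?_, ?_⟩
  · rw [shortAB_a₂]
    have e : 4 * ((fB P K - fA P K) / 4) = fB P K - fA P K := by field_simp
    rw [e]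
    have vBlt : A.valuation (fB P K) < 1 := by
      rw [vB]; exact pow_lt_one₀ ht0.le ht1 (by omega)
    rw [Valuation.map_sub_swap]
    rw [A.valuation.map_sub_eq_of_lt_left (by rw [vA]; exact vBlt)]
    exact vA
  · have e : ((shortAB P : Affine ℚ)⁄K).a₂ - 1 / 4 = (freyK P K).a₂ := by
      rw [shortAB_a₂]
      have := four_mul_freyK_a₂ P K
      field_simp
      linear_combination -this
    rw [e]
    exact (A.valuation_le_one_iff _).mpr (freyK_a₂_mem P K A)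
  · rw [hβ]; exact pow_lt_one₀ ht0.le ht1 hκ0.ne'
  · rw [shortAB_a₄]; exact c₁_ab_ne_zero P

omit [DecidableEq K] in
lemma freyK_a₄_eq_short (P : FreyPackage) :
    (freyK P K).a₄ = ((shortAB P : Affine ℚ)⁄K).a₄ := by
  rw [shortAB_a₄]
  have := sixteen_mul_freyK_a₄ P K
  field_simp
  linear_combination this

/-- The sawtooth relation for torsion points of the Frey curve reducing to the node at a place
over `2`. -/
theorem frey_node_torsion_val_two (P : FreyPackage) (A : ValuationSubring K)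
    (hA : A.LiesOverPrime 2) {x y : K} (h : (freyK P K).Nonsingular x y) (n : ℕ)
    (hT : n • Point.some x y h = 0)
    (hxl : A.valuation (freyK P K).a₄ < A.valuation x) (hxu : A.valuation x < 1) :
    ∃ i j : ℕ, A.valuation x ^ n * A.valuation (freyK P K).a₄ ^ (2 * i) =
      A.valuation (freyK P K).a₄ ^ (2 * j) := by
  obtain ⟨-, -, κ, m, -, -, -, hN⟩ := frey_two_data P A hA
  have hsh := isShift_ab P K
  have hT' : n • hsh.hom (Point.some x y h) = 0 := by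
    rw [← map_nsmul, hT, map_zero]
  rw [IsShift.hom_some] at hT'
  rw [freyK_a₄_eq_short] at hxl ⊢
  have e0 : x - 0 = x := sub_zero x
  have := hN.node_torsion_val (hsh.nonsingular h) (by rw [e0]; exact hxl)
    (by rw [e0]; exact hxu) n hT'
  rw [e0] at this
  exact this

/-- A `p`-torsion point of the Frey curve whose `x`-coordinate has valuation in the value group
of `ℚ` (at a place over `2`) does not reduce to the node strictly inside the node region. -/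
theorem frey_not_node_two_of_val (P : FreyPackage) (A : ValuationSubring K)
    (hA : A.LiesOverPrime 2) {x y : K} (h : (freyK P K).Nonsingular x y)
    (hT : P.p • Point.some x y h = 0)
    (hx : ∃ a b : ℕ, A.valuation x * A.valuation (2 : K) ^ b = A.valuation (2 : K) ^ a)
    (hxl : A.valuation (freyK P K).a₄ < A.valuation x) (hxu : A.valuation x < 1) : False := by
  obtain ⟨i, j, hij⟩ := frey_node_torsion_val_two P A hA h P.p hT hxl hxu
  obtain ⟨ht0, ht1, κ, m, hκ, hκ0, hβ, -⟩ := frey_two_data P A hA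
  rw [freyK_a₄_eq_short, hβ] at hij hxl
  obtain ⟨a, b, hab⟩ := hx
  obtain ⟨t, ht⟩ : ∃ t, t = A.valuation (2 : K) := ⟨_, rfl⟩
  obtain ⟨ξ, hξ⟩ : ∃ ξ, ξ = A.valuation x := ⟨_, rfl⟩
  rw [← ht] at ht0 ht1 hab hij hxl
  rw [← hξ] at hab hij hxl hxu
  have hinj := pow_right_injective₀ ht0 ht1.ne
  have hba : b < a := by
    have : t ^ a < t ^ b := by
      rw [← hab]
      calc ξ * t ^ b < 1 * t ^ b := mul_lt_mul_of_pos_right hxu (pow_pos ht0 b)
        _ = t ^ b := one_mul _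
    exact (pow_lt_pow_iff_right_of_lt_one₀ ht0 ht1).mp this
  have haκ : a < κ + b := by
    have : t ^ (κ + b) < t ^ a := by
      rw [← hab, pow_add]
      exact mul_lt_mul_of_pos_right hxl (pow_pos ht0 b)
    exact (pow_lt_pow_iff_right_of_lt_one₀ ht0 ht1).mp this
  have hmain : a * P.p + 2 * κ * i = 2 * κ * j + b * P.p := by
    apply hinj
    show t ^ (a * P.p + 2 * κ * i) = t ^ (2 * κ * j + b * P.p)
    have h1 : (t ^ κ) ^ (2 * i) = t ^ (2 * κ * i) := by rw [← pow_mul]; congr 1; ring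
    have h2 : (t ^ κ) ^ (2 * j) = t ^ (2 * κ * j) := by rw [← pow_mul]; congr 1; ring
    rw [h1, h2] at hij
    calc t ^ (a * P.p + 2 * κ * i) = (t ^ a) ^ P.p * t ^ (2 * κ * i) := by
          rw [pow_add, pow_mul]
      _ = (ξ * t ^ b) ^ P.p * t ^ (2 * κ * i) := by rw [hab]
      _ = ξ ^ P.p * t ^ (b * P.p) * t ^ (2 * κ * i) := by rw [mul_pow, ← pow_mul t b P.p]
      _ = (ξ ^ P.p * t ^ (2 * κ * i)) * t ^ (b * P.p) := mul_right_comm _ _ _
      _ = t ^ (2 * κ * j) * t ^ (b * P.p) := by rw [hij]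
      _ = t ^ (2 * κ * j + b * P.p) := by rw [pow_add]
  exact arith_contra P.pp P.hp5 hκ hκ0 hba haκ hmain

/-- **(5b)**: a `p`-torsion point of the Frey curve with rational `x`-coordinate does not reduce
to the node strictly inside the node region, at any place over `2`. -/
theorem frey_rational_not_node_two (P : FreyPackage) (A : ValuationSubring K)
    (hA : A.LiesOverPrime 2) {x y : K} (h : (freyK P K).Nonsingular x y)
    (hT : P.p • Point.some x y h = 0) (hx : ∃ r : ℚ, x = algebraMap ℚ K r)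
    (hxl : A.valuation (freyK P K).a₄ < A.valuation x) (hxu : A.valuation x < 1) : False := by
  apply frey_not_node_two_of_val P A hA h hT _ hxl hxu
  obtain ⟨r, rfl⟩ := hx
  have hr0 : r ≠ 0 := by
    rintro rfl
    rw [map_zero, map_zero] at hxl
    exact absurd hxl (not_lt.mpr zero_le)
  have hnum : r.num ≠ 0 := Rat.num_ne_zero.mpr hr0
  obtain ⟨a, ha⟩ := val_intCast_eq_pow (L := K) Nat.prime_two hA hnum
  obtain ⟨b, hb⟩ := val_natCast_eq_pow (L := K) Nat.prime_two hA r.den_ne_zero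
  have h2 : ((2 : ℕ) : K) = 2 := by norm_num
  rw [h2] at ha hb
  refine ⟨a, b, ?_⟩
  rw [← ha, ← hb, ← map_mul]
  congr 1
  have hden : (r.den : K) ≠ 0 := by exact_mod_cast r.den_ne_zero
  have : algebraMap ℚ K r = (r.num : K) / (r.den : K) := by
    conv_lhs => rw [← Rat.num_div_den r]
    simp
  rw [this]
  field_simp

end FreyTwo

end Fermat.Agent.S13.helper5
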