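import Fermat.Agent.S05.FreyShift

/-!
# S13, package (3b): the theory at `p` (helper60)

For a valuation subring `A` of `K` lying over an odd prime `q` (in particular `q = p`), and `σ` in
the inertia subgroup of `A`, every `p`-torsion point `T` of the Frey curve satisfies
`σ • T - T ∈ E₁`, the kernel of reduction (`0` or a point whose `x`-coordinate is not in `A`).
No hypothesis `q ≠ p` is needed.  The proofs reuse the local theory of `Fermat.Agent.S05`.
-/

set_option autoImplicit false
set_option linter.unusedSectionVars false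
set_option linter.unusedVariables false

namespace Fermat.Agent.S13.helper60

open WeierstrassCurve WeierstrassCurve.Affine
open Fermat.Agent.S05

section TwoNF

variable {K : Type*} [Field K] [DecidableEq K]
variable {Γ₀ : Type*} [LinearOrderedCommGroupWithZero Γ₀]
variable {v : Valuation K Γ₀} {W : Affine K}

lemma inE1_zero : InE1 v (0 : W.Point) := Or.inl rfl

lemma inE1_some {x y : K} (h : W.Nonsingular x y) (hx : 1 < v x) :
    InE1 v (Point.some x y h) := Or.inr ⟨x, y, h, rfl, hx⟩

lemma inE1_neg (hW : IsTwoNF W) {P : W.Point} (h : InE1 v P) : InE1 v (-P) := by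
  rcases h with rfl | ⟨x, y, h, rfl, hx⟩
  · rw [neg_zero]; exact inE1_zero
  · obtain ⟨h', e⟩ := hW.neg_some h
    rw [e]
    exact inE1_some h' hx

lemma inE1_add (hW : IsTwoNF W) (ha : v W.a₂ ≤ 1) (hb : v W.a₄ ≤ 1) {P Q : W.Point}
    (hP : InE1 v P) (hQ : InE1 v Q) : InE1 v (P + Q) := by
  have hr : (0 : Γ₀) < max (max (v (tC P)) (v (tC Q))) 1 :=
    lt_of_lt_of_le zero_lt_one (le_max_right _ _)
  exact (hW.E1_add v ha hb hP hQ hr
    (le_trans (le_max_left _ _) (le_max_left _ _))
    (le_trans (le_max_right _ _) (le_max_left _ _))).1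

lemma inE1_sub (hW : IsTwoNF W) (ha : v W.a₂ ≤ 1) (hb : v W.a₄ ≤ 1) {P Q : W.Point}
    (hP : InE1 v P) (hQ : InE1 v Q) : InE1 v (P - Q) := by
  rw [sub_eq_add_neg]
  exact inE1_add hW ha hb hP (inE1_neg hW hQ)

/-- an "inertial" ring homomorphism preserves non-integrality -/
lemma one_lt_val_map {σ : K →+* K} (hσ : ∀ x, v x ≤ 1 → v (σ x - x) < 1) {x : K}
    (hx : 1 < v x) : 1 < v (σ x) := by
  have hx0 : x ≠ 0 := ne_zero_of_one_lt_val v hx
  have hi : v x⁻¹ < 1 := by
    rw [map_inv₀]
    exact inv_lt_one_of_one_lt₀ hx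
  have h1 := hσ x⁻¹ hi.le
  have h2 : v (σ x⁻¹) < 1 := by
    have : σ x⁻¹ = (σ x⁻¹ - x⁻¹) + x⁻¹ := by ring
    rw [this]
    exact v.map_add_lt h1 hi
  rw [map_inv₀, map_inv₀] at h2
  have hσx0 : σ x ≠ 0 := (map_ne_zero σ).mpr hx0
  have hpos : 0 < v (σ x) := val_pos v hσx0
  by_contra hle
  rw [not_lt] at hle
  have : 1 ≤ (v (σ x))⁻¹ := (one_le_inv₀ hpos).mpr hle
  exact absurd h2 (not_lt.mpr this)

/-- the kernel of reduction is stable under a map induced by an inertial homomorphism -/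
lemma inE1_map {σ : K →+* K} (hσ : ∀ x, v x ≤ 1 → v (σ x - x) < 1)
    (f : W.Point →+ W.Point)
    (hf : ∀ x y (h : W.Nonsingular x y), ∃ h', f (Point.some x y h) = Point.some (σ x) (σ y) h')
    {P : W.Point} (hP : InE1 v P) : InE1 v (f P) := by
  rcases hP with rfl | ⟨x, y, h, rfl, hx⟩
  · rw [map_zero]; exact inE1_zero
  · obtain ⟨h', e⟩ := hf x y h
    rw [e]
    exact inE1_some h' (one_lt_val_map hσ hx)

/-- the unit case: `P` and `f P` have the same nonsingular reduction -/
lemma sub_map_unit (hW : IsTwoNF W) (hv2 : v 2 = 1) (ha : v W.a₂ ≤ 1) (hb : v W.a₄ ≤ 1)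
    (σ : K →+* K) (hσ : ∀ x, v x ≤ 1 → v (σ x - x) < 1)
    (f : W.Point →+ W.Point)
    (hf : ∀ x y (h : W.Nonsingular x y), ∃ h', f (Point.some x y h) = Point.some (σ x) (σ y) h')
    (hred : v (W.a₄ * (W.a₂ ^ 2 - 4 * W.a₄)) = 1 ∨ v W.a₄ < 1)
    {x y : K} (h : W.Nonsingular x y) (hx : v x = 1) :
    InE1 v (Point.some x y h - f (Point.some x y h)) := by
  by_cases hne : Point.some x y h = f (Point.some x y h)
  · rw [← hne, sub_self]; exact inE1_zero
  obtain ⟨h', hf'⟩ := hf x y h
  rw [hf'] at hne ⊢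
  have hy : v y ≤ 1 := hW.val_y_le_one v ha hb h hx.le
  obtain ⟨x₃, y₃, h₃, e, hx₃⟩ := hW.sub_of_close_unit v ha hb hv2 h h' hx
    (by rw [Valuation.map_sub_swap]; exact hσ x hx.le)
    (by rw [Valuation.map_sub_swap]; exact hσ y hy)
    (by
      intro hu
      rcases hred with hΔ | hb1
      · exact hns_good ha hb hx.le hΔ hu
      · apply val_sub_eq_one v _ hb1
        rw [map_pow, hx, one_pow])
    hne
  rw [e]
  exact inE1_some h₃ hx₃

/-- the node case -/
lemma sub_map_node (hW : IsTwoNF W) (hv2 : v 2 = 1) (ha : v W.a₂ = 1) (hb : v W.a₄ < 1)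
    (σ : K →+* K) (hσ : ∀ x, v x ≤ 1 → v (σ x - x) < 1)
    (f : W.Point →+ W.Point)
    (hf : ∀ x y (h : W.Nonsingular x y), ∃ h', f (Point.some x y h) = Point.some (σ x) (σ y) h')
    {x y : K} (h : W.Nonsingular x y) (hxl : v W.a₄ < v x) (hxu : v x < 1)
    (hclose : v (σ x - x) < v x) :
    InE1 v (Point.some x y h - f (Point.some x y h)) := by
  by_cases hne : Point.some x y h = f (Point.some x y h)
  · rw [← hne, sub_self]; exact inE1_zero
  obtain ⟨h', hf'⟩ := hf x y h
  rw [hf'] at hne ⊢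
  have hx0 : x ≠ 0 := by rintro rfl; simp at hxl
  have hα := hW.val_alpha_node v ha h hxl hxu
  obtain ⟨x₃, y₃, h₃, e, hx₃⟩ := hW.sub_of_close_node v ha.le hv2 h h' hx0 hxu.le
    (by rw [Valuation.map_sub_swap]; exact hclose)
    hα
    (by rw [← map_div₀, Valuation.map_sub_swap]; exact hσ _ hα.le)
    hne
  rw [e]
  exact inE1_some h₃ hx₃

/-- **Same reduction, without any hypothesis on the residue characteristic**: for a map `f` on
points induced by an inertial homomorphism `σ`, and a `p`-torsion point `P`, the difference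
`P - f P` lies in the kernel of reduction. -/
theorem sub_map_mem_E1 (hW : IsTwoNF W) (hv2 : v 2 = 1) (ha : v W.a₂ ≤ 1)
    (hb : v W.a₄ ≤ 1) (hb0 : W.a₄ ≠ 0)
    (p : ℕ) (hp : p.Prime) (hp2 : p ≠ 2)
    (σ : K →+* K) (hσ : ∀ x, v x ≤ 1 → v (σ x - x) < 1) (hσb : σ W.a₄ = W.a₄)
    (f : W.Point →+ W.Point)
    (hf : ∀ x y (h : W.Nonsingular x y), ∃ h', f (Point.some x y h) = Point.some (σ x) (σ y) h')
    (hred : v (W.a₄ * (W.a₂ ^ 2 - 4 * W.a₄)) = 1 ∨
      (v W.a₂ = 1 ∧ v W.a₄ < 1 ∧ ∃ (ϖ : K) (m : ℕ), σ ϖ = ϖ ∧ v W.a₄ = v ϖ ^ (p * m)))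
    (P : W.Point) (hP : p • P = 0) : InE1 v (P - f P) := by
  rcases P with _ | ⟨x, y, h⟩
  · have : f (Point.zero : W.Point) = 0 := map_zero f
    show InE1 v ((0 : W.Point) - f 0)
    rw [map_zero, sub_zero]; exact inE1_zero
  have hred' : v (W.a₄ * (W.a₂ ^ 2 - 4 * W.a₄)) = 1 ∨ v W.a₄ < 1 := by
    rcases hred with hΔ | ⟨-, hb1, -⟩
    · exact Or.inl hΔ
    · exact Or.inr hb1
  -- the case of a point in the kernel of reduction
  by_cases hx1 : v x ≤ 1
  swap
  · rw [not_le] at hx1
    have h1 : InE1 v (Point.some x y h) := inE1_some h hx1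
    exact inE1_sub hW ha hb h1 (inE1_map hσ f hf h1)
  have hβpos : 0 < v W.a₄ := val_pos v hb0
  -- the 2-torsion point
  have hTT := hW.T_add_T hb0
  obtain ⟨T, hT⟩ : ∃ T, T = Point.some 0 0 (hW.nonsingular_zero hb0) := ⟨_, rfl⟩
  rw [← hT] at hTT
  have hT0 : T ≠ 0 := by rw [hT]; exact Point.some_ne_zero _
  have hfT : f T = T := by
    obtain ⟨h', hf'⟩ := hf 0 0 (hW.nonsingular_zero hb0)
    rw [hT, hf']
    obtain ⟨h'', e⟩ := some_congr h' (map_zero σ) (map_zero σ)
    exact e
  -- reduction to `P + T`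
  have hred_T : InE1 v ((Point.some x y h + T) - f (Point.some x y h + T)) →
      InE1 v (Point.some x y h - f (Point.some x y h)) := by
    intro e
    rw [map_add, hfT] at e
    have : Point.some x y h + T - (f (Point.some x y h) + T) =
        Point.some x y h - f (Point.some x y h) := by abel
    rw [this] at e
    exact e
  rcases eq_or_lt_of_le hx1 with hx | hx
  · -- unit case
    exact sub_map_unit hW hv2 ha hb σ hσ f hf hred' h hx
  -- now `v x < 1`
  by_cases hx0 : x = 0
  · -- `P = T`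
    subst hx0
    have hy : y = 0 := by
      have := hW.eq_of_nonsingular h
      simpa using this
    subst hy
    have : Point.some 0 0 h = T := by rw [hT]
    rw [this, hfT, sub_self]
    exact inE1_zero
  have hX : 0 < v x := val_pos v hx0
  obtain ⟨h', hadd⟩ := hW.add_T hb0 h hx0
  rw [← hT] at hadd
  rcases lt_trichotomy (v (W.a₄ / x)) 1 with hc | hc | hc
  · -- the node case: `v a₄ < v x < 1`
    have hxl : v W.a₄ < v x := by
      rw [map_div₀, div_lt_one₀ hX] at hc
      exact hc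
    rcases hred with hΔ | ⟨ha1, hb1, ϖ, m, hσϖ, hβ⟩
    · -- impossible in the good reduction case
      exfalso
      have hvb : v W.a₄ = 1 := by
        rw [map_mul] at hΔ
        have h1 : v (W.a₂ ^ 2 - 4 * W.a₄) ≤ 1 := by
          apply v.map_sub_le
          · rw [map_pow]; exact pow_le_one₀ zero_le ha
          · rw [map_mul]
            have h4 : v (4 : K) ≤ 1 := by
              have := val_natCast_le_one v 4
              simpa using this
            calc v 4 * v W.a₄ ≤ 1 * 1 := by gcongr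
              _ = 1 := one_mul 1
        by_contra hne
        have hlt : v W.a₄ < 1 := lt_of_le_of_ne hb hne
        have : v W.a₄ * v (W.a₂ ^ 2 - 4 * W.a₄) < 1 := by
          calc v W.a₄ * v (W.a₂ ^ 2 - 4 * W.a₄) ≤ v W.a₄ * 1 := by gcongr
            _ = v W.a₄ := mul_one _
            _ < 1 := hlt
        rw [hΔ] at this
        exact lt_irrefl _ this
      rw [hvb] at hxl
      exact absurd hx (not_lt.mpr hxl.le)
    obtain ⟨i, j, hij⟩ := hW.node_torsion_val ha1 hb0 hb1 hv2 h hxl hx p hP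
    obtain ⟨k, hk⟩ := val_eq_pow_of_pow_eq hp.ne_zero hβpos.ne' hb1 hx.le hβ hij
    have hϖ0 : ϖ ≠ 0 := by
      rintro rfl
      rw [map_zero] at hk
      rcases Nat.eq_zero_or_pos k with h0 | h0
      · rw [h0, pow_zero] at hk
        rw [hk] at hx
        exact lt_irrefl _ hx
      · rw [zero_pow h0.ne'] at hk
        exact hX.ne' hk
    have hπk : 0 < v ϖ ^ k := pow_pos (val_pos v hϖ0) k
    apply sub_map_node hW hv2 ha1 hb1 σ hσ f hf h hxl hx
    obtain ⟨ε, hε⟩ : ∃ ε, ε = x / ϖ ^ k := ⟨_, rfl⟩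
    have hvε : v ε = 1 := by
      rw [hε, map_div₀, map_pow, hk, div_self hπk.ne']
    have hxε : x = ϖ ^ k * ε := by
      rw [hε]; field_simp
    have : σ x - x = ϖ ^ k * (σ ε - ε) := by
      rw [hxε, map_mul, map_pow, hσϖ]; ring
    rw [this, map_mul, map_pow, hk]
    calc v ϖ ^ k * v (σ ε - ε) < v ϖ ^ k * 1 :=
          mul_lt_mul_of_pos_left (hσ ε hvε.le) hπk
      _ = v ϖ ^ k := mul_one _
  · -- `P + T` has unit `x`-coordinate
    apply hred_T
    rw [hadd]
    exact sub_map_unit hW hv2 ha hb σ hσ f hf hred' h' hc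
  · -- `P + T` lies in the kernel of reduction
    apply hred_T
    have h1 : InE1 v (Point.some x y h + T) := by
      rw [hadd]; exact inE1_some h' hc
    exact inE1_sub hW ha hb h1 (inE1_map hσ f hf h1)

end TwoNF

section Frey

open Fermat.Agent.S05.helper92

variable {K : Type*} [Field K] [DecidableEq K] [Algebra ℚ K] [CharZero K]

/-- membership in the kernel of reduction `E₁` at `A`: the point is `0` or its `x`-coordinate is
not in `A`. -/
def InKer (A : ValuationSubring K) {W : Affine K} (T : W.Point) : Prop :=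
  T = 0 ∨ ∃ x y, ∃ h : W.Nonsingular x y, T = Point.some x y h ∧ x ∉ A

omit [Algebra ℚ K] [CharZero K] in
lemma inKer_zero (A : ValuationSubring K) {W : Affine K} : InKer A (0 : W.Point) := Or.inl rfl

omit [Algebra ℚ K] [CharZero K] in
lemma inKer_neg (A : ValuationSubring K) {W : Affine K} {T : W.Point} (h : InKer A T) :
    InKer A (-T) := by
  rcases h with rfl | ⟨x, y, h, rfl, hx⟩
  · rw [neg_zero]; exact inKer_zero A
  · rw [Point.neg_some]
    exact Or.inr ⟨x, _, _, rfl, hx⟩

omit [Algebra ℚ K] [CharZero K] in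
/-- transport of the kernel of reduction along a shift by an integral `e` -/
lemma inKer_iff_inE1_hom {A : ValuationSubring K} {W W' : Affine K} {e : K}
    (h : IsShift W W' e) (heA : e ∈ A) (T : W.Point) :
    InKer A T ↔ InE1 A.valuation (h.hom T) := by
  rcases T with _ | ⟨x, y, hxy⟩
  · exact ⟨fun _ => Or.inl rfl, fun _ => Or.inl rfl⟩
  · have key : x ∉ A ↔ 1 < A.valuation (x - e) := by
      rw [← not_le, A.valuation_le_one_iff]
      constructor
      · intro hx hxe
        apply hx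
        have : x = (x - e) + e := by ring
        rw [this]
        exact add_mem hxe heA
      · intro hxe hx
        exact hxe (sub_mem hx heA)
    constructor
    · rintro (h0 | ⟨x', y', h', e', hx'⟩)
      · exact absurd h0 (Point.some_ne_zero _)
      · rw [Point.some.injEq] at e'
        obtain ⟨rfl, rfl⟩ := e'
        rw [IsShift.hom_some]
        exact Or.inr ⟨_, _, _, rfl, key.mp hx'⟩
    · rintro (h0 | ⟨x', y', h', e', hx'⟩)
      · rw [IsShift.hom_some] at h0
        exact absurd h0 (Point.some_ne_zero _)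
      · rw [IsShift.hom_some, Point.some.injEq] at e'
        obtain ⟨rfl, rfl⟩ := e'
        exact Or.inr ⟨x, y, hxy, rfl, key.mpr hx'⟩

/-- The general step: once the Frey curve is transported to a short model satisfying the
reduction hypotheses at `q`, inertia at `q` moves every `p`-torsion point inside its class modulo
the kernel of reduction. -/
lemma sub_mem_of_shift (P : FreyPackage) {q : ℕ} (hq : q.Prime) (hq2 : q ≠ 2)
    (A : ValuationSubring K) (hA : A.LiesOverPrime q) (σ : K ≃ₐ[ℚ] K)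
    (hσ : σ ∈ A.inertiaSubgroupIn ℚ)
    {W₀' : Affine ℚ} {e : K} (h : IsShift (freyK P K) (W₀'⁄K) e) (he : σ e = e) (heA : e ∈ A)
    (ha : A.valuation (W₀'⁄K).a₂ ≤ 1) (hb : A.valuation (W₀'⁄K).a₄ ≤ 1)
    (hb0 : (W₀'⁄K).a₄ ≠ 0)
    (hred : A.valuation ((W₀'⁄K).a₄ * ((W₀'⁄K).a₂ ^ 2 - 4 * (W₀'⁄K).a₄)) = 1 ∨
      (A.valuation (W₀'⁄K).a₂ = 1 ∧ A.valuation (W₀'⁄K).a₄ < 1 ∧
        ∃ (ϖ : K) (m : ℕ), σ ϖ = ϖ ∧ A.valuation (W₀'⁄K).a₄ = A.valuation ϖ ^ (P.p * m)))
    (T : (freyK P K).Point) (hT : (P.p : ℤ) • T = 0) : InKer A (T - σ • T) := by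
  have hσ' : ∀ x : K, A.valuation x ≤ 1 → A.valuation ((σ : K →+* K) x - x) < 1 := by
    intro x hx
    have hxA : x ∈ A := (A.valuation_le_one_iff x).mp hx
    have := apply_sub_mem_nonunits_of_mem_inertiaSubgroupIn hσ hxA
    exact A.mem_nonunits_iff.mp this
  have hσb : (σ : K →+* K) (W₀'⁄K).a₄ = (W₀'⁄K).a₄ := by
    show σ (algebraMap ℚ K W₀'.a₄) = algebraMap ℚ K W₀'.a₄
    exact σ.commutes _
  have hP : P.p • h.hom T = 0 := by
    rw [← map_nsmul]
    have : P.p • T = 0 := by
      rw [← natCast_zsmul]; exact hT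
    rw [this, map_zero]
  have hmain := sub_map_mem_E1 (v := A.valuation) h.nf (valuation_two hq hA hq2) ha hb hb0
    P.p P.pp (by have := P.hp5; omega) (σ : K →+* K) hσ' hσb
    (Point.map (W' := W₀') σ.toAlgHom) (fun x y hxy => ⟨_, Point.map_some _ hxy⟩) hred
    (h.hom T) hP
  rw [inKer_iff_inE1_hom h heA, map_sub]
  have e1 : h.hom (σ • T) = Point.map (W' := W₀') σ.toAlgHom (h.hom T) := h.hom_map σ he T
  rw [e1]
  exact hmain

/-- **Package (3b)**: inertia at an odd prime `q` (for instance `q = p`) moves every `p`-torsion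
point of the Frey curve inside its class modulo the kernel of reduction. -/
theorem frey_inertia_sub_mem (P : FreyPackage) {q : ℕ} (hq : q.Prime) (hq2 : q ≠ 2)
    (A : ValuationSubring K) (hA : A.LiesOverPrime q) (σ : K ≃ₐ[ℚ] K)
    (hσ : σ ∈ A.inertiaSubgroupIn ℚ) (T : (freyK P K).Point) (hT : (P.p : ℤ) • T = 0) :
    InKer A (T - σ • T) := by
  have h4 := inv_four_mem (K := K) hq hA hq2
  have h16 := inv_sixteen_mem (K := K) hq hA hq2
  by_cases hc : (q : ℤ) ∣ P.c
  · have hu := c₂_c_unit P (K := K) hq hA hq2 hc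
    have hn := c₁_c_mem_nonunits P (K := K) hq hA hq2 hc
    refine sub_mem_of_shift P hq hq2 A hA σ hσ (isShift_c P K) (apply_fA_div_four P σ)
      (div_mem_of_mem (fA_mem P) h4) ?_ ?_ ?_ ?_ T hT
    · rw [shortC_a₂]; exact (A.valuation_le_one_iff _).mpr hu.1
    · rw [shortC_a₄]; exact (A.valuation_le_one_iff _).mpr (mem_of_mem_nonunits hn)
    · rw [shortC_a₄]; exact c₁_c_ne_zero P
    · right
      rw [shortC_a₂, shortC_a₄]
      refine ⟨valuation_eq_one_iff.mpr hu, A.mem_nonunits_iff.mp hn,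
        ((P.a * P.c : ℤ) : K), 1, apply_intCast σ _, ?_⟩
      rw [mul_one]
      exact valuation_c₁_c P hq hA hq2
  · by_cases hab : (q : ℤ) ∣ P.a * P.b
    · have hu := c₂_ab_unit P (K := K) hq hA hq2 hab
      have hn := c₁_ab_mem_nonunits P (K := K) hq hA hq2 hab
      refine sub_mem_of_shift P hq hq2 A hA σ hσ (isShift_ab P K) (map_zero σ)
        (zero_mem A) ?_ ?_ ?_ ?_ T hT
      · rw [shortAB_a₂]; exact (A.valuation_le_one_iff _).mpr hu.1
      · rw [shortAB_a₄]; exact (A.valuation_le_one_iff _).mpr (mem_of_mem_nonunits hn)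
      · rw [shortAB_a₄]; exact c₁_ab_ne_zero P
      · right
        rw [shortAB_a₂, shortAB_a₄]
        refine ⟨valuation_eq_one_iff.mpr hu, A.mem_nonunits_iff.mp hn,
          ((P.a * P.b : ℤ) : K), 1, apply_intCast σ _, ?_⟩
        rw [mul_one]
        exact valuation_c₁_ab P hq hA hq2
    · have hna : ¬ (q : ℤ) ∣ P.a := fun h => hab (dvd_mul_of_dvd_left h _)
      have hnb : ¬ (q : ℤ) ∣ P.b := fun h => hab (dvd_mul_of_dvd_right h _)
      have vA := val_fA_eq_one P hq hA hna
      have vB := val_fB_eq_one P hq hA hnb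
      have vC := val_fC_eq_one P hq hA hc
      have v4 := valuation_four (K := K) hq hA hq2
      have v16 := valuation_sixteen (K := K) hq hA hq2
      refine sub_mem_of_shift P hq hq2 A hA σ hσ (isShift_ab P K) (map_zero σ)
        (zero_mem A) ?_ ?_ ?_ ?_ T hT
      · rw [shortAB_a₂]
        exact (A.valuation_le_one_iff _).mpr (div_mem_of_mem (sub_mem (fB_mem P) (fA_mem P)) h4)
      · rw [shortAB_a₄]
        exact (A.valuation_le_one_iff _).mpr
          (div_mem_of_mem (neg_mem (mul_mem (fA_mem P) (fB_mem P))) h16)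
      · rw [shortAB_a₄]; exact c₁_ab_ne_zero P
      · left
        rw [shortAB_a₂, shortAB_a₄]
        have hcc := fA_add_fB P K
        have e1 : -(fA P K * fB P K) / 16 * (((fB P K - fA P K) / 4) ^ 2
            - 4 * (-(fA P K * fB P K) / 16)) = -(fA P K * fB P K * fC P K ^ 2) / (16 * 16) := by
          rw [← hcc]
          ring
        rw [e1, map_div₀, Valuation.map_neg, map_mul, map_mul, map_mul, vA, vB, map_pow, vC, v16]
        simp

/-- the same statement with the difference taken in the other order -/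
theorem frey_inertia_sub_mem' (P : FreyPackage) {q : ℕ} (hq : q.Prime) (hq2 : q ≠ 2)
    (A : ValuationSubring K) (hA : A.LiesOverPrime q) (σ : K ≃ₐ[ℚ] K)
    (hσ : σ ∈ A.inertiaSubgroupIn ℚ) (T : (freyK P K).Point) (hT : (P.p : ℤ) • T = 0) :
    σ • T - T = 0 ∨ ∃ x y, ∃ h : (freyK P K).Nonsingular x y,
      σ • T - T = Point.some x y h ∧ x ∉ A := by
  have := inKer_neg A (frey_inertia_sub_mem P hq hq2 A hA σ hσ T hT)
  rwa [neg_sub] at this

/-- The kernel of reduction of the Frey curve at a valuation subring over an odd prime is closed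
under addition. -/
theorem frey_inKer_add (P : FreyPackage) {q : ℕ} (hq : q.Prime) (hq2 : q ≠ 2)
    (A : ValuationSubring K) (hA : A.LiesOverPrime q) {T₁ T₂ : (freyK P K).Point}
    (h₁ : InKer A T₁) (h₂ : InKer A T₂) : InKer A (T₁ + T₂) := by
  have h4 := inv_four_mem (K := K) hq hA hq2
  have h16 := inv_sixteen_mem (K := K) hq hA hq2
  have h := isShift_ab P K
  rw [inKer_iff_inE1_hom h (zero_mem A)] at h₁ h₂ ⊢
  rw [map_add]
  refine inE1_add h.nf ?_ ?_ h₁ h₂
  · rw [shortAB_a₂]
    exact (A.valuation_le_one_iff _).mpr (div_mem_of_mem (sub_mem (fB_mem P) (fA_mem P)) h4)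
  · rw [shortAB_a₄]
    exact (A.valuation_le_one_iff _).mpr
      (div_mem_of_mem (neg_mem (mul_mem (fA_mem P) (fB_mem P))) h16)

/-- The kernel of reduction of the Frey curve at a valuation subring over an odd prime is closed
under subtraction. -/
theorem frey_inKer_sub (P : FreyPackage) {q : ℕ} (hq : q.Prime) (hq2 : q ≠ 2)
    (A : ValuationSubring K) (hA : A.LiesOverPrime q) {T₁ T₂ : (freyK P K).Point}
    (h₁ : InKer A T₁) (h₂ : InKer A T₂) : InKer A (T₁ - T₂) := by
  rw [sub_eq_add_neg]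
  exact frey_inKer_add P hq hq2 A hA h₁ (inKer_neg A h₂)

/-- The kernel of reduction inside the `p`-torsion of the Frey curve, at a valuation subring over
an odd prime `q`, as an additive subgroup of `E[p]`. -/
def kerAddSubgroup (P : FreyPackage) {q : ℕ} (hq : q.Prime) (hq2 : q ≠ 2)
    (A : ValuationSubring K) (hA : A.LiesOverPrime q) :
    AddSubgroup (Submodule.torsionBy ℤ (freyK P K).Point P.p) where
  carrier := {x | InKer A (x : (freyK P K).Point)}
  zero_mem' := inKer_zero A
  add_mem' := fun {a b} ha hb => frey_inKer_add P hq hq2 A hA ha hb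
  neg_mem' := fun {a} ha => inKer_neg A ha

/-- The kernel of reduction inside the `p`-torsion of the Frey curve, at a valuation subring over
an odd prime `q`, as a `ZMod p`-submodule of `E[p]`. -/
noncomputable def kerSubmodule (P : FreyPackage) {q : ℕ} (hq : q.Prime) (hq2 : q ≠ 2)
    (A : ValuationSubring K) (hA : A.LiesOverPrime q) :
    Submodule (ZMod P.p) (Submodule.torsionBy ℤ (freyK P K).Point P.p) :=
  AddSubgroup.toZModSubmodule P.p (kerAddSubgroup P hq hq2 A hA)

lemma mem_kerSubmodule_iff (P : FreyPackage) {q : ℕ} (hq : q.Prime) (hq2 : q ≠ 2)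
    (A : ValuationSubring K) (hA : A.LiesOverPrime q)
    (x : Submodule.torsionBy ℤ (freyK P K).Point P.p) :
    x ∈ kerSubmodule P hq hq2 A hA ↔
      ((x : (freyK P K).Point) = 0 ∨ ∃ a b, ∃ h : (freyK P K).Nonsingular a b,
        (x : (freyK P K).Point) = Point.some a b h ∧ a ∉ A) :=
  Iff.rfl

/-- **Package (3b), module form**: for `σ` in the inertia subgroup of a valuation subring `A` over
an odd prime `q` (for instance `q = p`), `σ • x - x` lies in the kernel of reduction for every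
`x ∈ E[p]`. -/
theorem smul_sub_mem_kerSubmodule (P : FreyPackage) {q : ℕ} (hq : q.Prime) (hq2 : q ≠ 2)
    (A : ValuationSubring K) (hA : A.LiesOverPrime q) (σ : K ≃ₐ[ℚ] K)
    (hσ : σ ∈ A.inertiaSubgroupIn ℚ) (x : Submodule.torsionBy ℤ (freyK P K).Point P.p) :
    σ • x - x ∈ kerSubmodule P hq hq2 A hA := by
  have hx : (P.p : ℤ) • (x : (freyK P K).Point) = 0 := by
    have := x.2
    rw [Submodule.mem_torsionBy_iff] at this
    exact this
  exact frey_inertia_sub_mem' P hq hq2 A hA σ hσ x hx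

/-- the odd prime `p` of a Frey package is not `2` -/
lemma frey_p_ne_two (P : FreyPackage) : P.p ≠ 2 := by
  have := P.hp5; omega

/-- **Package (3b) at `p`, in the shape of the frozen statement S13** (`K = AlgebraicClosure ℚ`):
there is a `ZMod p`-submodule `M` of `E[p]`, consisting of the points in the kernel of reduction at
`A`, such that inertia at `A` acts trivially on `E[p] / M`. -/
theorem exists_submodule_at_p (P : FreyPackage) (A : ValuationSubring (AlgebraicClosure ℚ))
    (hA : A.LiesOverPrime P.p) :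
    ∃ M : Submodule (ZMod P.p)
        (Submodule.torsionBy ℤ ((P.freyCurve : Affine ℚ)⁄(AlgebraicClosure ℚ)).Point P.p),
      (∀ x, x ∈ M ↔ ((x : ((P.freyCurve : Affine ℚ)⁄(AlgebraicClosure ℚ)).Point) = 0 ∨
        ∃ a b, ∃ h : ((P.freyCurve : Affine ℚ)⁄(AlgebraicClosure ℚ)).Nonsingular a b,
          (x : ((P.freyCurve : Affine ℚ)⁄(AlgebraicClosure ℚ)).Point) = Point.some a b h ∧
            a ∉ A)) ∧
      ∀ σ ∈ A.inertiaSubgroupIn ℚ, ∀ x, σ • x - x ∈ M :=
  ⟨kerSubmodule P P.pp (frey_p_ne_two P) A hA,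
    fun x => mem_kerSubmodule_iff P P.pp (frey_p_ne_two P) A hA x,
    fun σ hσ x => smul_sub_mem_kerSubmodule P P.pp (frey_p_ne_two P) A hA σ hσ x⟩

end Frey

end Fermat.Agent.S13.helper60
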