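import Fermat.Agent.S13.helper64_XOnly

/-!
# Montgomery-ladder polynomials and the torsion criterion (helper64, for S13)

For a Weierstrass curve `W` over a commutative ring `R` we define, by the x-only Montgomery
ladder, polynomials `X_n, Z_n ∈ R[X]` such that `(X_n(x) : Z_n(x))` is the projective
x-coordinate of `n • P` for every nonsingular affine point `P = (x, y)` of `W` over a field
(with `Δ ≠ 0`).  No division polynomials or elliptic-sequence identities are used.

Main definitions and results: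

* `lad b₂ b₄ b₆ b₈ x n : LadState A`: the ladder state `(X_n, Z_n, X_{n+1}, Z_{n+1})` in any
  commutative ring `A`;
* `isRep_lad`: the ladder computes representatives of `n • P` and `(n+1) • P`;
* `torsPoly W n : R[X]`: the polynomial attached to the odd number `2n+1`;
* `nsmul_eq_zero_iff_eval_torsPoly`: `(2n+1) • (x, y) = 0 ↔ (torsPoly W n).eval x = 0`.
-/

set_option autoImplicit false

open WeierstrassCurve WeierstrassCurve.Affine Polynomial

namespace Fermat.Agent.S13.helper64

/-- A state of the Montgomery ladder: `(X_n, Z_n, X_{n+1}, Z_{n+1})`. -/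
@[ext] structure LadState (A : Type*) where
  /-- `X_n` -/
  X : A
  /-- `Z_n` -/
  Z : A
  /-- `X_{n+1}` -/
  X' : A
  /-- `Z_{n+1}` -/
  Z' : A

section ladder

variable {A B : Type*} [CommRing A] [CommRing B]

/-- The image of a ladder state under a ring homomorphism. -/
def LadState.map (f : A →+* B) (s : LadState A) : LadState B :=
  ⟨f s.X, f s.Z, f s.X', f s.Z'⟩

/-- Ladder step `(n, n+1) ↦ (2n, 2n+1)`. -/
def evenStep (b₂ b₄ b₆ b₈ x : A) (s : LadState A) : LadState A :=
  ⟨dblX b₄ b₆ b₈ s.X s.Z, dblZ b₂ b₄ b₆ s.X s.Z,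
    oddX b₂ b₄ b₆ x s.X' s.Z' s.X s.Z, oddZ s.X' s.Z' s.X s.Z⟩

/-- Ladder step `(n, n+1) ↦ (2n+1, 2n+2)`. -/
def oddStep (b₂ b₄ b₆ b₈ x : A) (s : LadState A) : LadState A :=
  ⟨oddX b₂ b₄ b₆ x s.X' s.Z' s.X s.Z, oddZ s.X' s.Z' s.X s.Z,
    dblX b₄ b₆ b₈ s.X' s.Z', dblZ b₂ b₄ b₆ s.X' s.Z'⟩

/-- The Montgomery ladder: `lad … n = (X_n, Z_n, X_{n+1}, Z_{n+1})`. -/
def lad (b₂ b₄ b₆ b₈ x : A) : ℕ → LadState A
  | 0 => ⟨1, 0, x, 1⟩
  | (n + 1) =>
    if (n + 1) % 2 = 0 then evenStep b₂ b₄ b₆ b₈ x (lad b₂ b₄ b₆ b₈ x ((n + 1) / 2))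
    else oddStep b₂ b₄ b₆ b₈ x (lad b₂ b₄ b₆ b₈ x ((n + 1) / 2))
decreasing_by all_goals omega

variable (b₂ b₄ b₆ b₈ x : A)

lemma lad_zero : lad b₂ b₄ b₆ b₈ x 0 = ⟨1, 0, x, 1⟩ := by
  rw [lad]

lemma evenStep_init : evenStep b₂ b₄ b₆ b₈ x ⟨1, 0, x, 1⟩ = ⟨1, 0, x, 1⟩ := by
  ext <;> simp [evenStep, dblX, dblZ, oddX, oddZ, oddT, sumNum]
  ring

lemma lad_two_mul (n : ℕ) :
    lad b₂ b₄ b₆ b₈ x (2 * n) = evenStep b₂ b₄ b₆ b₈ x (lad b₂ b₄ b₆ b₈ x n) := by
  rcases n with _ | n
  · rw [mul_zero, lad_zero, evenStep_init]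
  · have h1 : 2 * (n + 1) = (2 * n + 1) + 1 := by ring
    rw [h1, lad]
    have h2 : (2 * n + 1 + 1) % 2 = 0 := by omega
    have h3 : (2 * n + 1 + 1) / 2 = n + 1 := by omega
    rw [if_pos h2, h3]

lemma lad_two_mul_add_one (n : ℕ) :
    lad b₂ b₄ b₆ b₈ x (2 * n + 1) = oddStep b₂ b₄ b₆ b₈ x (lad b₂ b₄ b₆ b₈ x n) := by
  rw [lad]
  have h2 : ¬ (2 * n + 1) % 2 = 0 := by omega
  have h3 : (2 * n + 1) / 2 = n := by omega
  rw [if_neg h2, h3]

/-- Induction along the ladder. -/
theorem lad_induction {motive : ℕ → LadState A → Prop}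
    (h0 : motive 0 ⟨1, 0, x, 1⟩)
    (heven : ∀ n s, motive n s → motive (2 * n) (evenStep b₂ b₄ b₆ b₈ x s))
    (hodd : ∀ n s, motive n s → motive (2 * n + 1) (oddStep b₂ b₄ b₆ b₈ x s)) (n : ℕ) :
    motive n (lad b₂ b₄ b₆ b₈ x n) := by
  induction n using Nat.strong_induction_on with
  | _ n ih =>
    rcases Nat.even_or_odd' n with ⟨k, hk | hk⟩
    · rcases Nat.eq_zero_or_pos k with rfl | hk0
      · subst hk; rw [mul_zero, lad_zero]; exact h0
      · subst hk
        rw [lad_two_mul]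
        exact heven k _ (ih k (by omega))
    · subst hk
      rw [lad_two_mul_add_one]
      exact hodd k _ (ih k (by omega))

/-- Naturality of the ladder with respect to ring homomorphisms. -/
theorem lad_map (f : A →+* B) (n : ℕ) :
    (lad b₂ b₄ b₆ b₈ x n).map f = lad (f b₂) (f b₄) (f b₆) (f b₈) (f x) n := by
  induction n using Nat.strong_induction_on with
  | _ n ih =>
    rcases Nat.even_or_odd' n with ⟨k, hk | hk⟩
    · rcases Nat.eq_zero_or_pos k with rfl | hk0
      · subst hk; rw [mul_zero, lad_zero, lad_zero]; simp [LadState.map]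
      · subst hk
        rw [lad_two_mul, lad_two_mul, ← ih k (by omega)]
        simp [LadState.map, evenStep, dblX, dblZ, oddX, oddZ, oddT, sumNum, map_ofNat]
    · subst hk
      rw [lad_two_mul_add_one, lad_two_mul_add_one, ← ih k (by omega)]
      simp [LadState.map, oddStep, dblX, dblZ, oddX, oddZ, oddT, sumNum, map_ofNat]

end ladder

section point

variable {F : Type*} [Field F] [DecidableEq F] {W : Affine F}

/-- The ladder computes projective representatives of the x-coordinates of `n • P` and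
`(n + 1) • P`. -/
theorem isRep_lad (hΔ : W.Δ ≠ 0) {x y : F} (h : W.Nonsingular x y) (n : ℕ) :
    IsRep (n • Point.some x y h) (lad W.b₂ W.b₄ W.b₆ W.b₈ x n).X (lad W.b₂ W.b₄ W.b₆ W.b₈ x n).Z ∧
    IsRep ((n + 1) • Point.some x y h) (lad W.b₂ W.b₄ W.b₆ W.b₈ x n).X'
      (lad W.b₂ W.b₄ W.b₆ W.b₈ x n).Z' := by
  refine lad_induction W.b₂ W.b₄ W.b₆ W.b₈ x
    (motive := fun n s => IsRep (n • Point.some x y h) s.X s.Z ∧
      IsRep ((n + 1) • Point.some x y h) s.X' s.Z') ?_ ?_ ?_ n
  · refine ⟨?_, ?_⟩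
    · rw [zero_smul]; exact isRep_zero_iff.mpr ⟨one_ne_zero, rfl⟩
    · rw [zero_add, one_smul]; exact isRep_some_iff.mpr ⟨one_ne_zero, by ring⟩
  · rintro n s ⟨h1, h2⟩
    have hsub : (n + 1) • Point.some x y h - n • Point.some x y h = Point.some x y h := by
      rw [add_smul, one_smul]; abel
    refine ⟨?_, ?_⟩
    · have := h1.two_nsmul hΔ
      rwa [← mul_smul] at this
    · have := h2.add_of_sub h1 hsub
      have e : (n + 1) • Point.some x y h + n • Point.some x y h =
          (2 * n + 1) • Point.some x y h := by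
        rw [← add_smul]; congr 1; ring
      rwa [e] at this
  · rintro n s ⟨h1, h2⟩
    have hsub : (n + 1) • Point.some x y h - n • Point.some x y h = Point.some x y h := by
      rw [add_smul, one_smul]; abel
    refine ⟨?_, ?_⟩
    · have := h2.add_of_sub h1 hsub
      have e : (n + 1) • Point.some x y h + n • Point.some x y h =
          (2 * n + 1) • Point.some x y h := by
        rw [← add_smul]; congr 1; ring
      rwa [e] at this
    · have := h2.two_nsmul hΔ
      rw [← mul_smul] at this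
      have e : 2 * (n + 1) = 2 * n + 1 + 1 := by ring
      rwa [e] at this

end point

section poly

variable {R S : Type*} [CommRing R] [CommRing S]

/-- The ladder state in `R[X]` attached to a Weierstrass curve. -/
noncomputable def ladPoly (W : WeierstrassCurve R) (n : ℕ) : LadState R[X] :=
  lad (C W.b₂) (C W.b₄) (C W.b₆) (C W.b₈) X n

/-- The torsion polynomial for the odd number `2n+1`: its roots are the x-coordinates of the
nonzero `(2n+1)`-torsion points. -/
noncomputable def torsPoly (W : WeierstrassCurve R) (n : ℕ) : R[X] :=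
  oddT (ladPoly W n).X' (ladPoly W n).Z' (ladPoly W n).X (ladPoly W n).Z

lemma ladPoly_map (W : WeierstrassCurve R) (f : R →+* S) (n : ℕ) :
    (ladPoly W n).map (Polynomial.mapRingHom f) = ladPoly (W.map f) n := by
  rw [ladPoly, lad_map, ladPoly]
  simp [WeierstrassCurve.map_b₂, WeierstrassCurve.map_b₄, WeierstrassCurve.map_b₆,
    WeierstrassCurve.map_b₈]

lemma torsPoly_map (W : WeierstrassCurve R) (f : R →+* S) (n : ℕ) :
    (torsPoly W n).map f = torsPoly (W.map f) n := by
  rw [torsPoly, torsPoly, ← ladPoly_map]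
  simp [LadState.map, oddT]

lemma ladPoly_eval (W : WeierstrassCurve R) (x : R) (n : ℕ) :
    (ladPoly W n).map (Polynomial.evalRingHom x) = lad W.b₂ W.b₄ W.b₆ W.b₈ x n := by
  rw [ladPoly, lad_map]
  simp

lemma torsPoly_eval (W : WeierstrassCurve R) (x : R) (n : ℕ) :
    (torsPoly W n).eval x =
      oddT (lad W.b₂ W.b₄ W.b₆ W.b₈ x n).X' (lad W.b₂ W.b₄ W.b₆ W.b₈ x n).Z'
        (lad W.b₂ W.b₄ W.b₆ W.b₈ x n).X (lad W.b₂ W.b₄ W.b₆ W.b₈ x n).Z := by
  rw [← ladPoly_eval]
  simp [torsPoly, LadState.map, oddT]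

end poly

section main

variable {F : Type*} [Field F] [DecidableEq F]

/-- **Torsion criterion**: for a nonsingular affine point `P = (x, y)` on a Weierstrass curve
with `Δ ≠ 0`, `(2n+1) • P = 0` iff `x` is a root of `torsPoly W n`. -/
theorem nsmul_eq_zero_iff_eval_torsPoly (W : WeierstrassCurve F) (hΔ : W.Δ ≠ 0) (n : ℕ)
    {x y : F} (h : W.toAffine.Nonsingular x y) :
    (2 * n + 1) • (Point.some x y h : W.toAffine.Point) = 0 ↔ (torsPoly W n).eval x = 0 := by
  obtain ⟨h1, h2⟩ := isRep_lad (W := W.toAffine) hΔ h n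
  have hsub : (n + 1) • Point.some x y h - n • Point.some x y h = Point.some x y h := by
    rw [add_smul, one_smul]; abel
  have := h2.add_of_sub h1 hsub
  have e : (n + 1) • Point.some x y h + n • Point.some x y h =
      (2 * n + 1) • Point.some x y h := by
    rw [← add_smul]; congr 1; ring
  rw [e] at this
  rw [← this.eq_zero_iff, torsPoly_eval, oddZ]
  exact pow_eq_zero_iff two_ne_zero

end main

end Fermat.Agent.S13.helper64
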