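import Mathlib

/-!
# Pair identities for points on a Weierstrass curve (helper65, S13 component (1))

For nonzero affine points `A`, `B` with different `x`-coordinates we record the classical
`x`-only formulas for `A + B` and `A - B`, and the duplication formulas, phrased with the
junk-valued coordinate functions `xc` and `psc` (`psc (x, y) = 2y + a₁x + a₃`).
-/

namespace Fermat.Agent.S13.helper65

open WeierstrassCurve WeierstrassCurve.Affine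

variable {F : Type*} [Field F] {W : WeierstrassCurve.Affine F}

/-- The `x`-coordinate of an affine point (junk value `0` at the point at infinity). -/
def xc : W.Point → F
  | .zero => 0
  | .some x _ _ => x

/-- The value `2y + a₁x + a₃` of the `2`-division polynomial at a point (`0` at infinity). -/
def psc : W.Point → F
  | .zero => 0
  | .some x y _ => y - W.negY x y

@[simp] lemma xc_some {x y : F} (h : W.Nonsingular x y) : xc (Point.some x y h) = x := rfl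

@[simp] lemma psc_some {x y : F} (h : W.Nonsingular x y) :
    psc (Point.some x y h) = y - W.negY x y := rfl

@[simp] lemma xc_zero : xc (0 : W.Point) = 0 := rfl

@[simp] lemma psc_zero : psc (0 : W.Point) = 0 := rfl

lemma xc_neg (A : W.Point) : xc (-A) = xc A := by
  cases A <;> rfl

lemma psc_neg (A : W.Point) : psc (-A) = -psc A := by
  cases A with
  | zero => exact neg_zero.symm
  | some x y h =>
    rw [Point.neg_some, psc_some, psc_some, negY_negY]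
    ring

/-- The value at `t` of the square of the `2`-division polynomial. -/
def q2 (W : WeierstrassCurve.Affine F) (t : F) : F := 4 * t ^ 3 + W.b₂ * t ^ 2 + 2 * W.b₄ * t + W.b₆

/-- The value at `t` of the numerator of the duplication formula. -/
def n2 (W : WeierstrassCurve.Affine F) (t : F) : F := t ^ 4 - W.b₄ * t ^ 2 - 2 * W.b₆ * t - W.b₈

/-- The value at `t` of the `3`-division polynomial. -/
def q3 (W : WeierstrassCurve.Affine F) (t : F) : F :=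
  3 * t ^ 4 + W.b₂ * t ^ 3 + 3 * W.b₄ * t ^ 2 + 3 * W.b₆ * t + W.b₈

/-- The value at `t` of the `4`-division polynomial divided by the `2`-division polynomial. -/
def q4 (W : WeierstrassCurve.Affine F) (t : F) : F :=
  2 * t ^ 6 + W.b₂ * t ^ 5 + 5 * W.b₄ * t ^ 4 + 10 * W.b₆ * t ^ 3 + 10 * W.b₈ * t ^ 2 +
    (W.b₂ * W.b₈ - W.b₄ * W.b₆) * t + (W.b₄ * W.b₈ - W.b₆ ^ 2)

/-- Numerator of `x(A+B) + x(A-B)`. -/
def gS (W : WeierstrassCurve.Affine F) (u v : F) : F :=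
  2 * (u + v) * (u * v) + W.b₂ * (u * v) + W.b₄ * (u + v) + W.b₆

/-- Numerator of `x(A+B) * x(A-B)`. -/
def gP (W : WeierstrassCurve.Affine F) (u v : F) : F :=
  (u * v) ^ 2 - W.b₄ * (u * v) - W.b₆ * (u + v) - W.b₈

/-- The symmetric biquadratic form `Φ(u, v, t) = (t - x(A+B)) (t - x(A-B)) (u - v)²`. -/
def gPhi (W : WeierstrassCurve.Affine F) (u v t : F) : F :=
  t ^ 2 * (u - v) ^ 2 - t * gS W u v + gP W u v

lemma gPhi_symm_right (u v t : F) : gPhi W u v t = gPhi W u t v := by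
  simp only [gPhi, gS, gP]; ring

lemma gPhi_symm_left (u v t : F) : gPhi W u v t = gPhi W v u t := by
  simp only [gPhi, gS, gP]; ring

lemma gPhi_self (u t : F) : gPhi W u t u = n2 W u - t * q2 W u := by
  simp only [gPhi, gS, gP, q2, n2]; ring

lemma n2_eq (t : F) : n2 W t = t * q2 W t - q3 W t := by
  simp only [n2, q2, q3]; ring

lemma eval_Ψ₂Sq (t : F) : (WeierstrassCurve.Ψ₂Sq W).eval t = q2 W t := by
  simp [WeierstrassCurve.Ψ₂Sq, q2]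

lemma eval_Ψ₃ (t : F) : (WeierstrassCurve.Ψ₃ W).eval t = q3 W t := by
  simp [WeierstrassCurve.Ψ₃, q3]

lemma eval_preΨ₄ (t : F) : (WeierstrassCurve.preΨ₄ W).eval t = q4 W t := by
  simp [WeierstrassCurve.preΨ₄, q4]

lemma psc_sq {A : W.Point} (hA : A ≠ 0) : psc A ^ 2 = q2 W (xc A) := by
  cases A with
  | zero => exact absurd rfl hA
  | some x y h =>
    have h1 := h.1
    rw [equation_iff] at h1
    simp only [psc_some, xc_some, negY, q2, WeierstrassCurve.b₂, WeierstrassCurve.b₄,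
      WeierstrassCurve.b₆]
    linear_combination 4 * h1

lemma xc_eq_iff {A B : W.Point} (hA : A ≠ 0) (hB : B ≠ 0) :
    xc A = xc B ↔ A = B ∨ A = -B := by
  cases A with
  | zero => exact absurd rfl hA
  | some x₁ y₁ h₁ =>
    cases B with
    | zero => exact absurd rfl hB
    | some x₂ y₂ h₂ => exact Point.X_eq_iff

variable [DecidableEq F]

lemma addX_slope_mul_sq (W : WeierstrassCurve.Affine F) {x₁ x₂ : F} (y₁ y₂ : F) (hx : x₁ ≠ x₂) :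
    W.addX x₁ x₂ (W.slope x₁ x₂ y₁ y₂) * (x₁ - x₂) ^ 2
      = (y₁ - y₂) ^ 2 + W.a₁ * (y₁ - y₂) * (x₁ - x₂) - (W.a₂ + x₁ + x₂) * (x₁ - x₂) ^ 2 := by
  have hne : x₁ - x₂ ≠ 0 := sub_ne_zero.mpr hx
  rw [slope_of_X_ne hx, addX]
  field_simp
  ring

/-- `x(P+Q) + x(P-Q)` in terms of `x(P), x(Q)`. -/
lemma addX_add_addX_negY (W : WeierstrassCurve.Affine F) {x₁ x₂ y₁ y₂ : F}
    (h₁ : W.Equation x₁ y₁) (h₂ : W.Equation x₂ y₂) (hx : x₁ ≠ x₂) :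
    (W.addX x₁ x₂ (W.slope x₁ x₂ y₁ y₂) + W.addX x₁ x₂ (W.slope x₁ x₂ y₁ (W.negY x₂ y₂)))
      * (x₁ - x₂) ^ 2 = gS W x₁ x₂ := by
  rw [equation_iff] at h₁ h₂
  rw [add_mul, addX_slope_mul_sq W y₁ y₂ hx, addX_slope_mul_sq W y₁ (W.negY x₂ y₂) hx]
  simp only [negY, gS, WeierstrassCurve.b₂, WeierstrassCurve.b₄, WeierstrassCurve.b₆]
  linear_combination 2 * h₁ + 2 * h₂

/-- `x(P+Q) * x(P-Q)` in terms of `x(P), x(Q)`. -/
lemma addX_mul_addX_negY (W : WeierstrassCurve.Affine F) {x₁ x₂ y₁ y₂ : F}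
    (h₁ : W.Equation x₁ y₁) (h₂ : W.Equation x₂ y₂) (hx : x₁ ≠ x₂) :
    (W.addX x₁ x₂ (W.slope x₁ x₂ y₁ y₂) * W.addX x₁ x₂ (W.slope x₁ x₂ y₁ (W.negY x₂ y₂)))
      * (x₁ - x₂) ^ 2 = gP W x₁ x₂ := by
  rw [equation_iff] at h₁ h₂
  have hne : (x₁ - x₂) ^ 2 ≠ 0 := pow_ne_zero 2 (sub_ne_zero.mpr hx)
  have hp := addX_slope_mul_sq W y₁ y₂ hx
  have hm := addX_slope_mul_sq W y₁ (W.negY x₂ y₂) hx
  apply mul_right_cancel₀ hne
  have : W.addX x₁ x₂ (W.slope x₁ x₂ y₁ y₂) * W.addX x₁ x₂ (W.slope x₁ x₂ y₁ (W.negY x₂ y₂))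
      * (x₁ - x₂) ^ 2 * (x₁ - x₂) ^ 2
      = (W.addX x₁ x₂ (W.slope x₁ x₂ y₁ y₂) * (x₁ - x₂) ^ 2) *
        (W.addX x₁ x₂ (W.slope x₁ x₂ y₁ (W.negY x₂ y₂)) * (x₁ - x₂) ^ 2) := by ring
  rw [this, hp, hm]
  simp only [negY, gP, WeierstrassCurve.b₄, WeierstrassCurve.b₆, WeierstrassCurve.b₈]
  linear_combination (W.a₁ ^ 2 * x₁ * x₂ - W.a₁ ^ 2 * x₂ ^ 2 + W.a₁ * W.a₃ * x₁ - W.a₁ * W.a₃ * x₂ + W.a₁ * x₁ * y₁ - 2 * W.a₁ * x₂ * y₂ - W.a₂ * x₁ ^ 2 + 4 * W.a₂ * x₁ * x₂ - 2 * W.a₂ * x₂ ^ 2 + W.a₃ * y₁ - 2 * W.a₃ * y₂ + W.a₄ * x₁ + W.a₆ - x₁ ^ 3 + 2 * x₁ ^ 2 * x₂ + 2 * x₁ * x₂ ^ 2 + y₁ ^ 2 - 2 * x₂ ^ 3 - 2 * y₂ ^ 2) * h₁ + (-W.a₁ ^ 2 * x₁ ^ 2 + W.a₁ ^ 2 * x₁ * x₂ - W.a₁ * W.a₃ * x₁ + W.a₁ * W.a₃ * x₂ + W.a₁ * x₂ * y₂ - 4 * W.a₂ * x₁ ^ 2 + 4 * W.a₂ * x₁ * x₂ - W.a₂ * x₂ ^ 2 + W.a₃ * y₂ - 2 * W.a₄ * x₁ + W.a₄ * x₂ - W.a₆ - 4 * x₁ ^ 3 + 2 * x₁ ^ 2 * x₂ + 2 *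 x₁ * x₂ ^ 2 - x₂ ^ 3 + y₂ ^ 2) * h₂

/-- The package of `x`-only formulas for `A + B` and `A - B`. -/
theorem pair_formulas {A B : W.Point} (hA : A ≠ 0) (hB : B ≠ 0) (hx : xc A ≠ xc B) :
    A + B ≠ 0 ∧ A - B ≠ 0 ∧
    (xc (A + B) - xc (A - B)) * (xc A - xc B) ^ 2 = -(psc A * psc B) ∧
    (xc (A + B) + xc (A - B)) * (xc A - xc B) ^ 2 = gS W (xc A) (xc B) ∧
    (xc (A + B) * xc (A - B)) * (xc A - xc B) ^ 2 = gP W (xc A) (xc B) := by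
  cases A with
  | zero => exact absurd rfl hA
  | some x₁ y₁ h₁ =>
    cases B with
    | zero => exact absurd rfl hB
    | some x₂ y₂ h₂ =>
      simp only [xc_some] at hx
      have hne : x₁ - x₂ ≠ 0 := sub_ne_zero.mpr hx
      have hadd := Point.add_of_X_ne (h₁ := h₁) (h₂ := h₂) hx
      have hsub : Point.some x₁ y₁ h₁ - Point.some x₂ y₂ h₂
          = Point.some _ _ (nonsingular_add h₁ ((nonsingular_neg ..).mpr h₂)
              fun hxy => hx hxy.left) := by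
        rw [sub_eq_add_neg, Point.neg_some]
        exact Point.add_of_X_ne hx
      rw [hadd, hsub]
      refine ⟨Point.some_ne_zero _, Point.some_ne_zero _, ?_, ?_, ?_⟩
      · simp only [xc_some, psc_some]
        rw [addX_eq_addX_negY_sub y₁ y₂ hx]
        have hne' : x₂ - x₁ ≠ 0 := sub_ne_zero.mpr (Ne.symm hx)
        field_simp
        ring
      · simp only [xc_some]
        exact addX_add_addX_negY W h₁.1 h₂.1 hx
      · simp only [xc_some]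
        exact addX_mul_addX_negY W h₁.1 h₂.1 hx

/-- `(t - x(A+B)) (t - x(A-B)) (x(A) - x(B))² = Φ(x(A), x(B), t)`. -/
theorem pair_gPhi {A B : W.Point} (hA : A ≠ 0) (hB : B ≠ 0) (hx : xc A ≠ xc B) (t : F) :
    (t - xc (A + B)) * (t - xc (A - B)) * (xc A - xc B) ^ 2 = gPhi W (xc A) (xc B) t := by
  obtain ⟨-, -, -, hS, hP⟩ := pair_formulas hA hB hx
  simp only [gPhi]
  linear_combination hP - t * hS

/-- Duplication formulas. -/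
theorem double_formulas {A : W.Point} (hA : A ≠ 0) (hψ : psc A ≠ 0) :
    2 • A ≠ 0 ∧ xc (2 • A) * psc A ^ 2 = n2 W (xc A) ∧
      psc (2 • A) * psc A ^ 3 = q4 W (xc A) := by
  cases A with
  | zero => exact absurd rfl hA
  | some x y h =>
    have hy : y ≠ W.negY x y := by
      intro hy
      apply hψ
      simp only [psc_some]
      exact sub_eq_zero.mpr hy
    have hb : y - W.negY x y ≠ 0 := sub_ne_zero.mpr hy
    have h1 := h.1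
    rw [equation_iff] at h1
    rw [two_nsmul, Point.add_self_of_Y_ne hy]
    have hℓ : W.slope x x y y * (2 * y + W.a₁ * x + W.a₃)
        = 3 * x ^ 2 + 2 * W.a₂ * x + W.a₄ - W.a₁ * y := by
      rw [slope_of_Y_ne rfl hy]
      have : (2 * y + W.a₁ * x + W.a₃) = y - W.negY x y := by simp only [negY]; ring
      rw [this, div_mul_cancel₀ _ hb]
    refine ⟨Point.some_ne_zero _, ?_, ?_⟩
    · simp only [xc_some, psc_some]
      generalize W.slope x x y y = ℓ at hℓ ⊢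
      simp only [addX, negY, n2, WeierstrassCurve.b₄, WeierstrassCurve.b₆,
        WeierstrassCurve.b₈]
      linear_combination (ℓ * W.a₁ * x + ℓ * W.a₃ + 2 * ℓ * y + W.a₁ ^ 2 * x + W.a₁ * W.a₃ + W.a₁ * y + 2 * W.a₂ * x + W.a₄ + 3 * x ^ 2) * hℓ + (-W.a₁ ^ 2 - 4 * W.a₂ - 8 * x) * h1
    · simp only [xc_some, psc_some]
      generalize W.slope x x y y = ℓ at hℓ ⊢
      simp only [addY, negAddY, addX, negY, q4, WeierstrassCurve.b₂,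
        WeierstrassCurve.b₄, WeierstrassCurve.b₆, WeierstrassCurve.b₈]
      linear_combination (-2 * ℓ ^ 2 * W.a₁ ^ 2 * x ^ 2 - 4 * ℓ ^ 2 * W.a₁ * W.a₃ * x - 8 * ℓ ^ 2 * W.a₁ * x * y - 2 * ℓ ^ 2 * W.a₃ ^ 2 - 8 * ℓ ^ 2 * W.a₃ * y - 8 * ℓ ^ 2 * y ^ 2 - 3 * ℓ * W.a₁ ^ 3 * x ^ 2 - 6 * ℓ * W.a₁ ^ 2 * W.a₃ * x - 10 * ℓ * W.a₁ ^ 2 * x * y - 4 * ℓ * W.a₁ * W.a₂ * x ^ 2 - 3 * ℓ * W.a₁ * W.a₃ ^ 2 - 10 * ℓ * W.a₁ * W.a₃ * y - 2 * ℓ * W.a₁ * W.a₄ * x - 6 * ℓ * W.a₁ * x ^ 3 - 8 * ℓ * W.a₁ * y ^ 2 - 4 * ℓ * W.a₂ * W.a₃ * x - 8 * ℓ * W.a₂ * x * y - 2 * ℓ * W.a₃ * W.a₄ - 6 * ℓ * W.a₃ * x ^ 2 - 4 * ℓ * W.a₄ * y - 12 * ℓ * x ^ 2 * y - W.a₁ ^ 4 * x ^ 2 - 2 * W.a₁ ^ 3 * W.a₃ * x - W.a₁ ^ 3 * x * y - 4 * W.a₁ ^ 2 * W.a₂ * x ^ 2 - W.a₁ ^ 2 * W.a₃ ^ 2 - W.a₁ ^ 2 * W.a₃ * y - 3 * W.a₁ ^ 2 * W.a₄ * x - 3 * W.a₁ ^ 2 * x ^ 3 - 2 * W.a₁ * W.a₂ * W.a₃ * x + 4 * W.a₁ * W.a₂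 * x * y - 3 * W.a₁ * W.a₃ * W.a₄ + 3 * W.a₁ * W.a₃ * x ^ 2 - 2 * W.a₁ * W.a₄ * y + 18 * W.a₁ * x ^ 2 * y - 8 * W.a₂ ^ 2 * x ^ 2 + 2 * W.a₂ * W.a₃ ^ 2 + 8 * W.a₂ * W.a₃ * y - 8 * W.a₂ * W.a₄ * x - 24 * W.a₂ * x ^ 3 + 8 * W.a₂ * y ^ 2 + 6 * W.a₃ ^ 2 * x + 24 * W.a₃ * x * y - 2 * W.a₄ ^ 2 - 12 * W.a₄ * x ^ 2 - 18 * x ^ 4 + 24 * x * y ^ 2) * hℓ + (W.a₁ ^ 4 * x + W.a₁ ^ 3 * W.a₃ + 8 * W.a₁ ^ 2 * W.a₂ * x + 2 * W.a₁ ^ 2 * W.a₄ + 10 * W.a₁ ^ 2 * x ^ 2 + 4 * W.a₁ * W.a₂ * W.a₃ - 4 * W.a₁ * W.a₃ * x - 16 * W.a₁ * x * y + 16 * W.a₂ ^ 2 * x + 8 * W.a₂ * W.a₄ + 56 * W.a₂ * x ^ 2 - 8 * W.a₃ ^ 2 - 16 * W.a₃ * y + 8 * W.a₄ * x - 16 * W.a₆ + 56 * x ^ 3 - 16 * y ^ 2) * h1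

/-- If `2y + a₁x + a₃ = 0` at a nonzero point then the point is `2`-torsion. -/
lemma two_nsmul_eq_zero_of_psc {A : W.Point} (hψ : psc A = 0) : 2 • A = 0 := by
  cases A with
  | zero => exact smul_zero 2
  | some x y h =>
    rw [two_nsmul]
    exact Point.add_self_of_Y_eq (sub_eq_zero.mp hψ)

end Fermat.Agent.S13.helper65
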