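import Mathlib
import Fermat.Agent.S13.helper65_Pair

/-!
# Multiples of a point and division values (helper65, S13 component (1))

For a nonzero point `A` of a Weierstrass curve over a field we consider the sequence
`v n = ψₙ(A)` (a `normEDS`).  In the range where the `v n` do not vanish, we prove
`x(A) - x(n • A) = v (n-1) v (n+1) / v n ^ 2` by induction along the doubling recurrences.
Consequently the first zero of `v` is the order of `A`.
-/

namespace Fermat.Agent.S13.helper65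

open WeierstrassCurve WeierstrassCurve.Affine

section Algebra

variable {F : Type*} [Field F]

/-- Algebra behind the `ψ₂`-formula at index `j+1`. -/
lemma alg_psi {x Xj Xj1 Xj2 ψ b wjm wj wj1 wj2 wj3 w2 : F}
    (R1 : (x - Xj) * wj ^ 2 = wjm * wj1)
    (R2 : (x - Xj1) * wj1 ^ 2 = wj * wj2)
    (R3 : (x - Xj2) * wj2 ^ 2 = wj1 * wj3)
    (RP : (Xj2 - Xj) * (Xj1 - x) ^ 2 = -(ψ * b))
    (RE : w2 * b = wj ^ 2 * wj1 * wj3 - wjm * wj1 * wj2 ^ 2)
    (hb : b ≠ 0) (hj : wj ≠ 0) (hj2 : wj2 ≠ 0) : ψ * wj1 ^ 4 = w2 := by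
  have hne : b * (wj * wj2) ^ 2 ≠ 0 := mul_ne_zero hb (pow_ne_zero 2 (mul_ne_zero hj hj2))
  apply mul_right_cancel₀ hne
  have hT : (Xj2 - Xj) * (wj * wj2) ^ 2 = -(w2 * b) := by
    linear_combination wj2 ^ 2 * R1 - wj ^ 2 * R3 + RE
  have hU : ((Xj1 - x) * wj1 ^ 2) ^ 2 = (wj * wj2) ^ 2 := by
    rw [← R2]; ring
  linear_combination (wj1 ^ 4 * (wj * wj2) ^ 2) * RP - (Xj2 - Xj) * (wj * wj2) ^ 2 * hU
    - (wj * wj2) ^ 2 * hT

/-- Algebra behind the `x`-formula at index `2m+1`. -/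
lemma alg_odd {x Xm Xm1 XN ψm ψm1 wmm wm wm1 wm2 w2m w2m2 wN : F}
    (Rm : (x - Xm) * wm ^ 2 = wmm * wm1)
    (Rm1 : (x - Xm1) * wm1 ^ 2 = wm * wm2)
    (Hm : ψm * wm ^ 4 = w2m)
    (Hm1 : ψm1 * wm1 ^ 4 = w2m2)
    (RO : wN = wm2 * wm ^ 3 - wmm * wm1 ^ 3)
    (RP : (XN - x) * (Xm1 - Xm) ^ 2 = -(ψm1 * ψm)) :
    (x - XN) * wN ^ 2 = w2m * w2m2 := by
  have hD : (Xm1 - Xm) * (wm * wm1) ^ 2 = -wN := by
    linear_combination wm1 ^ 2 * Rm - wm ^ 2 * Rm1 + RO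
  have hD2 : wN ^ 2 = ((Xm1 - Xm) * (wm * wm1) ^ 2) ^ 2 := by rw [hD]; ring
  rw [hD2, ← Hm, ← Hm1]
  linear_combination (-(wm * wm1) ^ 4) * RP

lemma alg_odd_ne {x Xm Xm1 wmm wm wm1 wm2 wN : F}
    (Rm : (x - Xm) * wm ^ 2 = wmm * wm1)
    (Rm1 : (x - Xm1) * wm1 ^ 2 = wm * wm2)
    (RO : wN = wm2 * wm ^ 3 - wmm * wm1 ^ 3) (hN : wN ≠ 0) : Xm1 ≠ Xm := by
  intro h
  apply hN
  have hD : (Xm1 - Xm) * (wm * wm1) ^ 2 = -wN := by
    linear_combination wm1 ^ 2 * Rm - wm ^ 2 * Rm1 + RO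
  rw [h, sub_self, zero_mul] at hD
  exact neg_eq_zero.mp hD.symm

/-- Algebra behind the `x`-formula at index `2m`. -/
lemma alg_even {x Xmm Xm Xm1 X2m ψm wm2m wmm wm wm1 wm2 w2m wNm wNp : F}
    (Rmm : (x - Xmm) * wmm ^ 2 = wm2m * wm)
    (Rm : (x - Xm) * wm ^ 2 = wmm * wm1)
    (Rm1 : (x - Xm1) * wm1 ^ 2 = wm * wm2)
    (Hm : ψm * wm ^ 4 = w2m)
    (ROm : wNm = wm1 * wmm ^ 3 - wm2m * wm ^ 3)
    (ROp : wNp = wm2 * wm ^ 3 - wmm * wm1 ^ 3)
    (RG : (Xm - Xm1) * (Xm - Xmm) * (Xm - x) ^ 2 = -((x - X2m) * ψm ^ 2))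
    (hmm : wmm ≠ 0) (hm1 : wm1 ≠ 0) :
    (x - X2m) * w2m ^ 2 = wNm * wNp := by
  have hne : (wmm * wm1) ^ 2 ≠ 0 := pow_ne_zero 2 (mul_ne_zero hmm hm1)
  apply mul_right_cancel₀ hne
  have hD1 : (Xm - Xm1) * (wm * wm1) ^ 2 = wNp := by
    linear_combination -(wm1 ^ 2) * Rm + wm ^ 2 * Rm1 - ROp
  have hD2 : (Xm - Xmm) * (wmm * wm) ^ 2 = -wNm := by
    linear_combination wm ^ 2 * Rmm - wmm ^ 2 * Rm + ROm
  have hU : ((Xm - x) * wm ^ 2) ^ 2 = (wmm * wm1) ^ 2 := by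
    rw [← Rm]; ring
  rw [← Hm]
  linear_combination (wm ^ 8 * (wmm * wm1) ^ 2) * RG
    - ((Xm - x) * wm ^ 2) ^ 2 * ((Xm - Xmm) * (wmm * wm) ^ 2) * hD1
    - ((Xm - x) * wm ^ 2) ^ 2 * wNp * hD2 + wNp * wNm * hU

end Algebra

variable {F : Type*} [Field F] {W : WeierstrassCurve.Affine F}

/-- The sequence of division values `ψₙ(A)` of a point, indexed by `ℤ`. -/
noncomputable def dseq (A : W.Point) (n : ℤ) : F :=
  normEDS (psc A) (q3 W (xc A)) (q4 W (xc A)) n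

/-- The sequence of division values `ψₙ(A)` of a point, indexed by `ℕ`. -/
noncomputable def dv (A : W.Point) (n : ℕ) : F := dseq A (n : ℤ)

lemma dv_zero (A : W.Point) : dv A 0 = 0 := by simp [dv, dseq]

lemma dv_one (A : W.Point) : dv A 1 = 1 := by simp [dv, dseq]

lemma dv_two (A : W.Point) : dv A 2 = psc A := by
  simp only [dv, dseq, Nat.cast_ofNat]; exact normEDS_two ..

lemma dv_three (A : W.Point) : dv A 3 = q3 W (xc A) := by
  simp only [dv, dseq, Nat.cast_ofNat]; exact normEDS_three ..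

lemma dv_four (A : W.Point) : dv A 4 = q4 W (xc A) * psc A := by
  simp only [dv, dseq, Nat.cast_ofNat]; exact normEDS_four ..

lemma dv_odd (A : W.Point) (j : ℕ) :
    dv A (2 * (j + 1) + 1) = dv A (j + 3) * dv A (j + 1) ^ 3 - dv A j * dv A (j + 2) ^ 3 := by
  have h := normEDS_odd (psc A) (q3 W (xc A)) (q4 W (xc A)) ((j : ℤ) + 1)
  simp only [dv, dseq]
  have e1 : ((2 * (j + 1) + 1 : ℕ) : ℤ) = 2 * ((j : ℤ) + 1) + 1 := by push_cast; ring
  have e2 : ((j + 3 : ℕ) : ℤ) = (j : ℤ) + 1 + 2 := by push_cast; ring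
  have e3 : ((j + 1 : ℕ) : ℤ) = (j : ℤ) + 1 := by push_cast; ring
  have e4 : ((j : ℕ) : ℤ) = (j : ℤ) + 1 - 1 := by ring
  have e5 : ((j + 2 : ℕ) : ℤ) = (j : ℤ) + 1 + 1 := by push_cast; ring
  rw [e1, e2, e3, e5, h]
  congr 2
  rw [← e4]

lemma dv_even (A : W.Point) (j : ℕ) :
    dv A (2 * (j + 2)) * dv A 2 =
      dv A (j + 1) ^ 2 * dv A (j + 2) * dv A (j + 4) - dv A j * dv A (j + 2) * dv A (j + 3) ^ 2 := by
  have h := normEDS_even (psc A) (q3 W (xc A)) (q4 W (xc A)) ((j : ℤ) + 2)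
  rw [dv_two]
  simp only [dv, dseq]
  have e1 : ((2 * (j + 2) : ℕ) : ℤ) = 2 * ((j : ℤ) + 2) := by push_cast; ring
  have e2 : ((j + 1 : ℕ) : ℤ) = (j : ℤ) + 2 - 1 := by push_cast; ring
  have e3 : ((j + 2 : ℕ) : ℤ) = (j : ℤ) + 2 := by push_cast; ring
  have e4 : ((j + 4 : ℕ) : ℤ) = (j : ℤ) + 2 + 2 := by push_cast; ring
  have e5 : ((j : ℕ) : ℤ) = (j : ℤ) + 2 - 2 := by ring
  have e6 : ((j + 3 : ℕ) : ℤ) = (j : ℤ) + 2 + 1 := by push_cast; ring
  rw [e1, e2, e3, e4, e6, h]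
  congr 2
  rw [← e5]

variable [DecidableEq F]

/-- The `x`-formula at index `k ≥ 1`. -/
def HX (A : W.Point) (k : ℕ) : Prop :=
  k • A ≠ 0 ∧ (xc A - xc (k • A)) * dv A k ^ 2 = dv A (k - 1) * dv A (k + 1)

/-- The `ψ₂`-formula at index `k`. -/
def HP (A : W.Point) (k : ℕ) : Prop :=
  psc (k • A) * dv A k ^ 4 = dv A (2 * k)

lemma hx_one {A : W.Point} (hA : A ≠ 0) : HX A 1 := by
  refine ⟨by rwa [one_nsmul], ?_⟩
  simp [dv_zero]

lemma hp_one (A : W.Point) : HP A 1 := by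
  simp [HP, dv_one, dv_two]

lemma hx_two {A : W.Point} (hA : A ≠ 0) (hb : dv A 2 ≠ 0) : HX A 2 := by
  rw [dv_two] at hb
  obtain ⟨h0, hx, -⟩ := double_formulas hA hb
  refine ⟨h0, ?_⟩
  have hsq := psc_sq hA
  show (xc A - xc (2 • A)) * dv A 2 ^ 2 = dv A 1 * dv A 3
  rw [dv_two, dv_one, dv_three, one_mul]
  have := n2_eq (W := W) (xc A)
  linear_combination (xc A) * hsq - hx - this

lemma hp_two {A : W.Point} (hA : A ≠ 0) (hb : dv A 2 ≠ 0) : HP A 2 := by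
  rw [dv_two] at hb
  obtain ⟨-, -, hψ⟩ := double_formulas hA hb
  show psc (2 • A) * dv A 2 ^ 4 = dv A 4
  rw [dv_two, dv_four]
  linear_combination (psc A) * hψ

lemma hp_succ {A : W.Point} (hA : A ≠ 0) (j : ℕ) (h1 : HX A (j + 1)) (h2 : HX A (j + 2))
    (h3 : HX A (j + 3)) (hb : dv A 2 ≠ 0) (hw1 : dv A (j + 1) ≠ 0) (hw3 : dv A (j + 3) ≠ 0) :
    HP A (j + 2) := by
  obtain ⟨-, R1⟩ := h1
  obtain ⟨hB, R2⟩ := h2
  obtain ⟨-, R3⟩ := h3
  simp only [Nat.add_sub_cancel] at R1 R2 R3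
  have hx : xc ((j + 2) • A) ≠ xc A := by
    intro h
    rw [h, sub_self, zero_mul] at R2
    exact mul_ne_zero hw1 hw3 R2.symm
  obtain ⟨-, -, hP, -, -⟩ := pair_formulas hB hA hx
  have e1 : (j + 2) • A + A = (j + 3) • A := (succ_nsmul A (j + 2)).symm
  have e2 : (j + 2) • A - A = (j + 1) • A := by
    rw [succ_nsmul A (j + 1)]; abel
  rw [e1, e2] at hP
  have RE := dv_even A j
  rw [← dv_two A] at hP
  exact alg_psi (x := xc A) R1 R2 R3 hP RE hb hw1 hw3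

lemma hx_odd {A : W.Point} (j : ℕ) (h1 : HX A (j + 1)) (h2 : HX A (j + 2))
    (p1 : HP A (j + 1)) (p2 : HP A (j + 2)) (hN : dv A (2 * (j + 1) + 1) ≠ 0) :
    HX A (2 * (j + 1) + 1) := by
  obtain ⟨hB, Rm⟩ := h1
  obtain ⟨hA', Rm1⟩ := h2
  simp only [Nat.add_sub_cancel] at Rm Rm1
  have RO := dv_odd A j
  have hx : xc ((j + 2) • A) ≠ xc ((j + 1) • A) := alg_odd_ne Rm Rm1 RO hN
  obtain ⟨h0, -, hP, -, -⟩ := pair_formulas hA' hB hx
  have e1 : (j + 2) • A + (j + 1) • A = (2 * (j + 1) + 1) • A := by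
    rw [← add_nsmul]; congr 1; ring
  have e2 : (j + 2) • A - (j + 1) • A = A := by
    rw [succ_nsmul A (j + 1)]; abel
  rw [e1, e2] at hP
  rw [e1] at h0
  refine ⟨h0, ?_⟩
  have := alg_odd (x := xc A) Rm Rm1 p1 p2 RO hP
  simp only [Nat.add_sub_cancel]
  rw [this]
  congr 2

lemma hx_even {A : W.Point} (hA : A ≠ 0) (j : ℕ) (h1 : HX A (j + 1)) (h2 : HX A (j + 2))
    (h3 : HX A (j + 3)) (p2 : HP A (j + 2)) (hN : dv A (2 * (j + 2)) ≠ 0)
    (hw1 : dv A (j + 1) ≠ 0) (hw3 : dv A (j + 3) ≠ 0) :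
    HX A (2 * (j + 2)) := by
  obtain ⟨-, Rmm⟩ := h1
  obtain ⟨hQ, Rm⟩ := h2
  obtain ⟨-, Rm1⟩ := h3
  simp only [Nat.add_sub_cancel] at Rmm Rm Rm1
  have hψ : psc ((j + 2) • A) ≠ 0 := by
    intro h
    rw [HP, h, zero_mul] at p2
    exact hN p2.symm
  obtain ⟨h0, hx2, -⟩ := double_formulas hQ hψ
  have hsq := psc_sq hQ
  have hx : xc ((j + 2) • A) ≠ xc A := by
    intro h
    rw [h, sub_self, zero_mul] at Rm
    exact mul_ne_zero hw1 hw3 Rm.symm
  have hG := pair_gPhi hQ hA hx (xc ((j + 2) • A))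
  rw [gPhi_self] at hG
  have e1 : (j + 2) • A + A = (j + 3) • A := (succ_nsmul A (j + 2)).symm
  have e2 : (j + 2) • A - A = (j + 1) • A := by
    rw [succ_nsmul A (j + 1)]; abel
  have e3 : 2 • (j + 2) • A = (2 * (j + 2)) • A := by
    rw [← mul_nsmul']
  rw [e1, e2] at hG
  rw [e3] at h0 hx2
  refine ⟨h0, ?_⟩
  have RG : (xc ((j + 2) • A) - xc ((j + 3) • A)) * (xc ((j + 2) • A) - xc ((j + 1) • A)) *
      (xc ((j + 2) • A) - xc A) ^ 2
      = -((xc A - xc ((2 * (j + 2)) • A)) * psc ((j + 2) • A) ^ 2) := by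
    linear_combination hG - hx2 + (xc A) * hsq
  have ROm : dv A (2 * (j + 2) - 1) = dv A (j + 3) * dv A (j + 1) ^ 3 - dv A j * dv A (j + 2) ^ 3 := by
    have := dv_odd A j
    have e : 2 * (j + 2) - 1 = 2 * (j + 1) + 1 := by omega
    rw [e]; exact this
  have ROp : dv A (2 * (j + 2) + 1) =
      dv A (j + 4) * dv A (j + 2) ^ 3 - dv A (j + 1) * dv A (j + 3) ^ 3 := dv_odd A (j + 1)
  exact alg_even (x := xc A) Rmm Rm Rm1 p2 ROm ROp RG hw1 hw3

/-- In the range where the division values do not vanish, the `x`-formula holds. -/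
theorem hx_of_good {A : W.Point} (hA : A ≠ 0) (M : ℕ)
    (hgood : ∀ j, 1 ≤ j → j ≤ M → dv A j ≠ 0) :
    ∀ k, 1 ≤ k → k ≤ M → HX A k := by
  intro k
  induction k using Nat.strong_induction_on with
  | _ k ih =>
    intro hk1 hkM
    have hb : 2 ≤ M → dv A 2 ≠ 0 := fun h => hgood 2 (by norm_num) h
    -- the `ψ₂`-formula below `k`
    have hp : ∀ i, 1 ≤ i → i + 1 < k → HP A i := by
      intro i hi1 hik
      rcases Nat.lt_or_ge i 2 with hi | hi
      · obtain rfl : i = 1 := by omega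
        exact hp_one A
      · obtain ⟨j, rfl⟩ : ∃ j, i = j + 2 := ⟨i - 2, by omega⟩
        exact hp_succ hA j (ih (j + 1) (by omega) (by omega) (by omega))
          (ih (j + 2) (by omega) (by omega) (by omega))
          (ih (j + 3) (by omega) (by omega) (by omega)) (hb (by omega))
          (hgood _ (by omega) (by omega)) (hgood _ (by omega) (by omega))
    rcases Nat.lt_or_ge k 4 with hk4 | hk4
    · interval_cases k
      · exact hx_one hA
      · exact hx_two hA (hb hkM)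
      · -- k = 3
        have h1 := hx_one hA
        have h2 := hx_two hA (hb (by omega))
        have p1 := hp_one A
        have p2 := hp_two hA (hb (by omega))
        exact hx_odd 0 h1 h2 p1 p2 (hgood 3 (by norm_num) hkM)
    · rcases Nat.even_or_odd' k with ⟨m, rfl | rfl⟩
      · -- k = 2m, m ≥ 2
        obtain ⟨j, rfl⟩ : ∃ j, m = j + 2 := ⟨m - 2, by omega⟩
        exact hx_even hA j (ih (j + 1) (by omega) (by omega) (by omega))
          (ih (j + 2) (by omega) (by omega) (by omega))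
          (ih (j + 3) (by omega) (by omega) (by omega))
          (hp (j + 2) (by omega) (by omega))
          (hgood _ (by omega) hkM) (hgood _ (by omega) (by omega))
          (hgood _ (by omega) (by omega))
      · -- k = 2m+1, m ≥ 2
        obtain ⟨j, rfl⟩ : ∃ j, m = j + 1 := ⟨m - 1, by omega⟩
        exact hx_odd j (ih (j + 1) (by omega) (by omega) (by omega))
          (ih (j + 2) (by omega) (by omega) (by omega))
          (hp (j + 1) (by omega) (by omega)) (hp (j + 2) (by omega) (by omega))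
          (hgood _ (by omega) hkM)

/-- In the range where the division values do not vanish, the multiples do not vanish. -/
theorem nsmul_ne_zero_of_good {A : W.Point} (hA : A ≠ 0) (M : ℕ)
    (hgood : ∀ j, 1 ≤ j → j ≤ M → dv A j ≠ 0) {k : ℕ} (hk1 : 1 ≤ k) (hkM : k ≤ M) :
    k • A ≠ 0 :=
  (hx_of_good hA M hgood k hk1 hkM).1

/-- At the first zero of the division values, the multiple vanishes. -/
theorem nsmul_eq_zero_of_first_zero {A : W.Point} (hA : A ≠ 0) (M : ℕ) (hM : 1 ≤ M)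
    (hgood : ∀ j, 1 ≤ j → j ≤ M → dv A j ≠ 0) (hz : dv A (M + 1) = 0) :
    (M + 1) • A = 0 := by
  rcases Nat.lt_or_ge M 2 with h | h
  · obtain rfl : M = 1 := by omega
    rw [dv_two] at hz
    exact two_nsmul_eq_zero_of_psc hz
  · obtain ⟨hMA, hX⟩ := hx_of_good hA M hgood M hM le_rfl
    rw [hz, mul_zero] at hX
    have hv : dv A M ^ 2 ≠ 0 := pow_ne_zero 2 (hgood M hM le_rfl)
    have hx : xc A = xc (M • A) := by
      rcases mul_eq_zero.mp hX with h' | h'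
      · exact sub_eq_zero.mp h'
      · exact absurd h' hv
    rcases (xc_eq_iff hA hMA).mp hx with h' | h'
    · -- `A = M • A`, so `(M - 1) • A = 0`
      exfalso
      have hM1 := nsmul_ne_zero_of_good hA M hgood (k := M - 1) (by omega) (by omega)
      apply hM1
      have : M • A = (M - 1) • A + A := by
        rw [← succ_nsmul]; congr 1; omega
      rw [this] at h'
      exact add_right_cancel (b := A) (by rw [zero_add]; exact h'.symm)
    · rw [succ_nsmul]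
      exact add_eq_zero_iff_eq_neg.mpr (neg_eq_iff_eq_neg.mp h'.symm)

/-- If some division value `ψₙ(A)`, `n ≥ 1`, vanishes then there is a first zero `n₁ ≥ 2`
and `n₁ • A = 0`. -/
theorem exists_first_zero {A : W.Point} (hA : A ≠ 0) {n : ℕ} (hn : 1 ≤ n) (hz : dv A n = 0) :
    ∃ n₁, 2 ≤ n₁ ∧ n₁ ≤ n ∧ dv A n₁ = 0 ∧ (∀ j, 1 ≤ j → j < n₁ → dv A j ≠ 0) ∧
      n₁ • A = 0 ∧ ∀ j, 1 ≤ j → j < n₁ → j • A ≠ 0 := by
  classical
  have hex : ∃ m, 1 ≤ m ∧ dv A m = 0 := ⟨n, hn, hz⟩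
  set n₁ := Nat.find hex with hn₁
  have h1 : 1 ≤ n₁ ∧ dv A n₁ = 0 := Nat.find_spec hex
  have hmin : ∀ j, 1 ≤ j → j < n₁ → dv A j ≠ 0 := fun j hj hlt hzero =>
    Nat.find_min hex hlt ⟨hj, hzero⟩
  have h2 : 2 ≤ n₁ := by
    rcases Nat.lt_or_ge n₁ 2 with h | h
    · exfalso
      have : n₁ = 1 := by omega
      have h0 := h1.2
      rw [this, dv_one] at h0
      exact one_ne_zero h0
    · exact h
  have hgood : ∀ j, 1 ≤ j → j ≤ n₁ - 1 → dv A j ≠ 0 := fun j hj hle =>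
    hmin j hj (by omega)
  refine ⟨n₁, h2, Nat.find_min' hex ⟨hn, hz⟩, h1.2, hmin, ?_, ?_⟩
  · have := nsmul_eq_zero_of_first_zero hA (n₁ - 1) (by omega) hgood
      (by rw [Nat.sub_add_cancel (by omega)]; exact h1.2)
    rwa [Nat.sub_add_cancel (by omega)] at this
  · intro j hj hlt
    exact nsmul_ne_zero_of_good hA (n₁ - 1) hgood hj (by omega)

end Fermat.Agent.S13.helper65
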