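import Mathlib
import Fermat.Agent.S13.helper65_Ind

/-!
# The elliptic sequence relation for division values of a point of "infinite order"
(helper65, S13 component (1))

If all division values `ψₙ(A)`, `n ≥ 1`, of a point `A` are nonzero, then
`ψ_{p+q} ψ_{p-q} = ψ_{p+1} ψ_{p-1} ψ_q² - ψ_{q+1} ψ_{q-1} ψ_p²` for all `p > q ≥ 1`.
This is applied to the universal point in `helper65_Univ`.
-/

namespace Fermat.Agent.S13.helper65

open WeierstrassCurve WeierstrassCurve.Affine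

section Algebra

variable {F : Type*} [Field F]

lemma alg_es_step {x Xq Xpm Xp Xpp Xs Xd vq vpm vp vpp vs vsm vsp vd vdm vdp : F}
    (G1 : (Xq - Xpp) * (Xq - Xpm) * (Xp - x) ^ 2 = (x - Xs) * (x - Xd) * (Xp - Xq) ^ 2)
    (E0 : vs * vd = (Xq - Xp) * vp ^ 2 * vq ^ 2)
    (Em : vsm * vdm = (Xq - Xpm) * vpm ^ 2 * vq ^ 2)
    (Hp : (x - Xp) * vp ^ 2 = vpm * vpp)
    (Hs : (x - Xs) * vs ^ 2 = vsm * vsp)
    (Hd : (x - Xd) * vd ^ 2 = vdm * vdp)
    (hsm : vsm ≠ 0) (hdm : vdm ≠ 0) (hpm : vpm ≠ 0) (hpp : vpp ≠ 0) :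
    vsp * vdp = (Xq - Xpp) * vpp ^ 2 * vq ^ 2 := by
  have hK : vsm * vdm * (vpm * vpp) ^ 2 ≠ 0 :=
    mul_ne_zero (mul_ne_zero hsm hdm) (pow_ne_zero 2 (mul_ne_zero hpm hpp))
  apply mul_right_cancel₀ hK
  symm
  calc (Xq - Xpp) * vpp ^ 2 * vq ^ 2 * (vsm * vdm * (vpm * vpp) ^ 2)
      = (Xq - Xpp) * vpp ^ 2 * vq ^ 2 * ((Xq - Xpm) * vpm ^ 2 * vq ^ 2)
          * ((x - Xp) * vp ^ 2) ^ 2 := by rw [Em, Hp]; ring
    _ = ((Xq - Xpp) * (Xq - Xpm) * (Xp - x) ^ 2) * (vpp ^ 2 * vpm ^ 2 * vq ^ 4 * vp ^ 4) := by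
        ring
    _ = ((x - Xs) * (x - Xd) * (Xp - Xq) ^ 2) * (vpp ^ 2 * vpm ^ 2 * vq ^ 4 * vp ^ 4) := by
        rw [G1]
    _ = (x - Xs) * (x - Xd) * ((Xq - Xp) * vp ^ 2 * vq ^ 2) ^ 2 * (vpp * vpm) ^ 2 := by ring
    _ = (x - Xs) * (x - Xd) * (vs * vd) ^ 2 * (vpp * vpm) ^ 2 := by rw [E0]
    _ = ((x - Xs) * vs ^ 2) * ((x - Xd) * vd ^ 2) * (vpp * vpm) ^ 2 := by ring
    _ = (vsm * vsp) * (vdm * vdp) * (vpp * vpm) ^ 2 := by rw [Hs, Hd]
    _ = vsp * vdp * (vsm * vdm * (vpm * vpp) ^ 2) := by ring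

end Algebra

variable {F : Type*} [Field F] [DecidableEq F] {W : WeierstrassCurve.Affine F}

/-- The difference form of the elliptic sequence relation. -/
theorem es_diff {A : W.Point} (hA : A ≠ 0) (hall : ∀ j, 1 ≤ j → dv A j ≠ 0)
    (q : ℕ) (hq : 1 ≤ q) :
    ∀ p, q < p →
      dv A (p + q) * dv A (p - q) = (xc (q • A) - xc (p • A)) * dv A p ^ 2 * dv A q ^ 2 := by
  have hX : ∀ k, 1 ≤ k → HX A k := fun k hk =>
    hx_of_good hA k (fun j hj _ => hall j hj) k hk le_rfl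
  obtain ⟨j, rfl⟩ : ∃ j, q = j + 1 := ⟨q - 1, by omega⟩
  intro p
  induction p using Nat.strong_induction_on with
  | _ p ih =>
    intro hp
    rcases Nat.lt_or_ge p (j + 4) with h4 | h4
    · -- base cases `p = q + 1` and `p = q + 2`
      have R1 : (xc A - xc ((j + 1) • A)) * dv A (j + 1) ^ 2 = dv A j * dv A (j + 2) :=
        (hX (j + 1) (by omega)).2
      have R2 : (xc A - xc ((j + 2) • A)) * dv A (j + 2) ^ 2 = dv A (j + 1) * dv A (j + 3) :=
        (hX (j + 2) (by omega)).2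
      have R3 : (xc A - xc ((j + 3) • A)) * dv A (j + 3) ^ 2 = dv A (j + 2) * dv A (j + 4) :=
        (hX (j + 3) (by omega)).2
      rcases (by omega : p = j + 2 ∨ p = j + 3) with rfl | rfl
      · have e1 : j + 2 + (j + 1) = 2 * (j + 1) + 1 := by ring
        have e2 : j + 2 - (j + 1) = 1 := by omega
        rw [e1, e2, dv_one, mul_one, dv_odd A j]
        linear_combination (-(dv A (j + 1) ^ 2)) * R2 + dv A (j + 2) ^ 2 * R1
      · have e1 : j + 3 + (j + 1) = 2 * (j + 2) := by ring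
        have e2 : j + 3 - (j + 1) = 2 := by omega
        rw [e1, e2, dv_even A j]
        linear_combination (-(dv A (j + 1) ^ 2)) * R3 + dv A (j + 3) ^ 2 * R1
    · -- step: `p = p' + 1` with `p' - 1 > q`
      obtain ⟨p', rfl⟩ : ∃ p', p = p' + 1 := ⟨p - 1, by omega⟩
      have E0 := ih p' (by omega) (by omega)
      have Em := ih (p' - 1) (by omega) (by omega)
      obtain ⟨hpA, Hp⟩ := hX p' (by omega)
      obtain ⟨hqA, -⟩ := hX (j + 1) (by omega)
      obtain ⟨-, Hs⟩ := hX (p' + (j + 1)) (by omega)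
      obtain ⟨-, Hd⟩ := hX (p' - (j + 1)) (by omega)
      have hxp : xc (p' • A) ≠ xc A := by
        intro h
        rw [h, sub_self, zero_mul] at Hp
        exact mul_ne_zero (hall _ (by omega)) (hall _ (by omega)) Hp.symm
      have hxq : xc (p' • A) ≠ xc ((j + 1) • A) := by
        intro h
        rw [h, sub_self, zero_mul, zero_mul] at E0
        exact mul_ne_zero (hall _ (by omega)) (hall _ (by omega)) E0
      have hG1 := pair_gPhi hpA hA hxp (xc ((j + 1) • A))
      have hG2 := pair_gPhi hpA hqA hxq (xc A)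
      rw [gPhi_symm_right] at hG1
      have e1 : p' • A + A = (p' + 1) • A := (succ_nsmul A p').symm
      have e2 : p' • A - A = (p' - 1) • A := by
        have : p' • A = (p' - 1) • A + A := by
          rw [← succ_nsmul]; congr 1; omega
        rw [this]; abel
      have e3 : p' • A + (j + 1) • A = (p' + (j + 1)) • A := (add_nsmul A p' (j + 1)).symm
      have e4 : p' • A - (j + 1) • A = (p' - (j + 1)) • A := by
        have : p' • A = (p' - (j + 1)) • A + (j + 1) • A := by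
          rw [← add_nsmul]; congr 1; omega
        rw [this]; abel
      rw [e1, e2] at hG1
      rw [e3, e4] at hG2
      have G1 := hG1.trans hG2.symm
      have i1 : p' + 1 + (j + 1) = p' + (j + 1) + 1 := by ring
      have i2 : p' + 1 - (j + 1) = p' - (j + 1) + 1 := by omega
      have i3 : p' - 1 + (j + 1) = p' + (j + 1) - 1 := by omega
      have i4 : p' - 1 - (j + 1) = p' - (j + 1) - 1 := by omega
      rw [i3, i4] at Em
      rw [i1, i2]
      exact alg_es_step (x := xc A) G1 E0 Em Hp Hs Hd (hall _ (by omega)) (hall _ (by omega))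
        (hall _ (by omega)) (hall _ (by omega))

/-- The elliptic sequence relation for the division values of a point all of whose
division values are nonzero. -/
theorem es_of_all_ne_zero {A : W.Point} (hA : A ≠ 0) (hall : ∀ j, 1 ≤ j → dv A j ≠ 0)
    (p q : ℕ) (hq : 1 ≤ q) (hpq : q < p) :
    dv A (p + q) * dv A (p - q) =
      dv A (p + 1) * dv A (p - 1) * dv A q ^ 2 - dv A (q + 1) * dv A (q - 1) * dv A p ^ 2 := by
  have hX : ∀ k, 1 ≤ k → HX A k := fun k hk =>
    hx_of_good hA k (fun j hj _ => hall j hj) k hk le_rfl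
  obtain ⟨-, Hp⟩ := hX p (by omega)
  obtain ⟨-, Hq⟩ := hX q hq
  rw [es_diff hA hall q hq p hpq]
  linear_combination dv A q ^ 2 * Hp - dv A p ^ 2 * Hq

end Fermat.Agent.S13.helper65
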