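import Mathlib
import Fermat.Agent.S13.helper65_ES

/-!
# The universal point and the elliptic sequence relation (helper65, S13 component (1))

The division values `ψₙ(A)` of any nonzero point `A` on any Weierstrass curve over a field
satisfy `ψ_{p+q} ψ_{p-q} = ψ_{p+1} ψ_{p-1} ψ_q² - ψ_{q+1} ψ_{q-1} ψ_p²` (`dv_es`).  This is
proved at the universal point (over the fraction field of `ℤ[a₁, a₂, a₃, a₄, x, y]`), where no
division value vanishes, and then specialised.
-/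

namespace Fermat.Agent.S13.helper65

open WeierstrassCurve WeierstrassCurve.Affine

section Generic

variable {R : Type*} [CommRing R] {S : Type*} [CommRing S]

/-- `ψ₂ = 2y + a₁x + a₃`. -/
def cpsi (a₁ a₃ x y : R) : R := 2 * y + a₁ * x + a₃

/-- The coefficient `a₆` of the Weierstrass curve with coefficients `a₁, a₂, a₃, a₄` through
`(x, y)`. -/
def ca6 (a₁ a₂ a₃ a₄ x y : R) : R := y ^ 2 + a₁ * x * y + a₃ * y - x ^ 3 - a₂ * x ^ 2 - a₄ * x

/-- The curve with coefficients `a₁, a₂, a₃, a₄` through the point `(x, y)`. -/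
def ccurve (a₁ a₂ a₃ a₄ x y : R) : WeierstrassCurve R :=
  ⟨a₁, a₂, a₃, a₄, ca6 a₁ a₂ a₃ a₄ x y⟩

/-- `Ψ₃` in terms of the coefficients. -/
def cq3 (V : WeierstrassCurve R) (t : R) : R :=
  3 * t ^ 4 + V.b₂ * t ^ 3 + 3 * V.b₄ * t ^ 2 + 3 * V.b₆ * t + V.b₈

/-- `preΨ₄` in terms of the coefficients. -/
def cq4 (V : WeierstrassCurve R) (t : R) : R :=
  2 * t ^ 6 + V.b₂ * t ^ 5 + 5 * V.b₄ * t ^ 4 + 10 * V.b₆ * t ^ 3 + 10 * V.b₈ * t ^ 2 +
    (V.b₂ * V.b₈ - V.b₄ * V.b₆) * t + (V.b₄ * V.b₈ - V.b₆ ^ 2)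

/-- The sequence of division values attached to the parameters `(a₁, a₂, a₃, a₄, x, y)`. -/
noncomputable def cseq (a₁ a₂ a₃ a₄ x y : R) (n : ℤ) : R :=
  normEDS (cpsi a₁ a₃ x y) (cq3 (ccurve a₁ a₂ a₃ a₄ x y) x) (cq4 (ccurve a₁ a₂ a₃ a₄ x y) x) n

lemma map_ccurve (f : R →+* S) (a₁ a₂ a₃ a₄ x y : R) :
    (ccurve a₁ a₂ a₃ a₄ x y).map f = ccurve (f a₁) (f a₂) (f a₃) (f a₄) (f x) (f y) := by
  ext <;> simp [ccurve, ca6]

lemma map_cq3 (f : R →+* S) (V : WeierstrassCurve R) (t : R) :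
    f (cq3 V t) = cq3 (V.map f) (f t) := by
  simp [cq3, map_ofNat]

lemma map_cq4 (f : R →+* S) (V : WeierstrassCurve R) (t : R) :
    f (cq4 V t) = cq4 (V.map f) (f t) := by
  simp [cq4, map_ofNat]

lemma map_cseq (f : R →+* S) (a₁ a₂ a₃ a₄ x y : R) (n : ℤ) :
    f (cseq a₁ a₂ a₃ a₄ x y n) = cseq (f a₁) (f a₂) (f a₃) (f a₄) (f x) (f y) n := by
  simp only [cseq, map_normEDS, map_cq3, map_cq4, map_ccurve]
  congr 1
  simp [cpsi, map_ofNat]

end Generic

section Point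

variable {F : Type*} [Field F] {W : WeierstrassCurve.Affine F}

lemma ccurve_eq {x y : F} (h : W.Equation x y) : ccurve W.a₁ W.a₂ W.a₃ W.a₄ x y = W := by
  rw [equation_iff] at h
  ext <;> simp only [ccurve, ca6]
  linear_combination h

lemma dseq_some {x y : F} (h : W.Nonsingular x y) (n : ℤ) :
    dseq (Point.some x y h) n = cseq W.a₁ W.a₂ W.a₃ W.a₄ x y n := by
  simp only [dseq, cseq, ccurve_eq h.1, xc_some, psc_some]
  congr 1
  simp only [cpsi, negY]; ring

end Point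

/-- The identity sequence is the normalised EDS with parameters `(2, 3, 2)`. -/
lemma normEDS_id (n : ℕ) : normEDS (2 : ℤ) 3 2 (n : ℤ) = n := by
  induction n using Nat.strong_induction_on with
  | _ n ih =>
    rcases Nat.lt_or_ge n 5 with h5 | h5
    · interval_cases n <;> simp
    · rcases Nat.even_or_odd' n with ⟨m, rfl | rfl⟩
      · have h := normEDS_even (2 : ℤ) 3 2 (m : ℤ)
        have e1 : ((2 * m : ℕ) : ℤ) = 2 * (m : ℤ) := by push_cast; ring
        have i1 := ih (m - 1) (by omega)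
        have i2 := ih m (by omega)
        have i3 := ih (m + 2) (by omega)
        have i4 := ih (m - 2) (by omega)
        have i5 := ih (m + 1) (by omega)
        have c1 : ((m - 1 : ℕ) : ℤ) = (m : ℤ) - 1 := by omega
        have c2 : ((m - 2 : ℕ) : ℤ) = (m : ℤ) - 2 := by omega
        have c3 : ((m + 2 : ℕ) : ℤ) = (m : ℤ) + 2 := by omega
        have c4 : ((m + 1 : ℕ) : ℤ) = (m : ℤ) + 1 := by omega
        rw [c1] at i1; rw [c2] at i4; rw [c3] at i3; rw [c4] at i5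
        rw [i1, i2, i3, i4, i5] at h
        rw [e1]
        have : normEDS (2 : ℤ) 3 2 (2 * (m : ℤ)) * 2 = (2 * (m : ℤ)) * 2 := by
          rw [h]; ring
        exact mul_right_cancel₀ (two_ne_zero) this
      · have h := normEDS_odd (2 : ℤ) 3 2 (m : ℤ)
        have e1 : ((2 * m + 1 : ℕ) : ℤ) = 2 * (m : ℤ) + 1 := by push_cast; ring
        have i1 := ih (m - 1) (by omega)
        have i2 := ih m (by omega)
        have i3 := ih (m + 2) (by omega)
        have i5 := ih (m + 1) (by omega)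
        have c1 : ((m - 1 : ℕ) : ℤ) = (m : ℤ) - 1 := by omega
        have c3 : ((m + 2 : ℕ) : ℤ) = (m : ℤ) + 2 := by omega
        have c4 : ((m + 1 : ℕ) : ℤ) = (m : ℤ) + 1 := by omega
        rw [c1] at i1; rw [c3] at i3; rw [c4] at i5
        rw [i1, i2, i3, i5] at h
        rw [e1, h]; ring

section Universal

open MvPolynomial

/-- The universal ring: polynomials in `(a₁, a₂, a₃, a₄, x, y)`. -/
abbrev UR : Type := MvPolynomial (Fin 6) ℤ

/-- The universal division value sequence. -/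
noncomputable def useq (n : ℤ) : UR :=
  cseq (X 0 : UR) (X 1) (X 2) (X 3) (X 4) (X 5) n

/-- Specialisation of the universal parameters. -/
noncomputable def uev {R : Type*} [CommRing R] (a₁ a₂ a₃ a₄ x y : R) : UR →+* R :=
  MvPolynomial.eval₂Hom (Int.castRingHom R) ![a₁, a₂, a₃, a₄, x, y]

lemma uev_useq {R : Type*} [CommRing R] (a₁ a₂ a₃ a₄ x y : R) (n : ℤ) :
    uev a₁ a₂ a₃ a₄ x y (useq n) = cseq a₁ a₂ a₃ a₄ x y n := by
  rw [useq, map_cseq]
  simp [uev]

lemma cseq_id (n : ℕ) : cseq (0 : ℤ) 0 0 0 1 1 (n : ℤ) = n := by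
  have h3 : cq3 (ccurve (0 : ℤ) 0 0 0 1 1) 1 = 3 := by
    simp [cq3, ccurve, ca6, WeierstrassCurve.b₂, WeierstrassCurve.b₄, WeierstrassCurve.b₆,
      WeierstrassCurve.b₈]
  have h4 : cq4 (ccurve (0 : ℤ) 0 0 0 1 1) 1 = 2 := by
    simp [cq4, ccurve, ca6, WeierstrassCurve.b₂, WeierstrassCurve.b₄, WeierstrassCurve.b₆,
      WeierstrassCurve.b₈]
  have h2 : cpsi (0 : ℤ) 0 1 1 = 2 := by simp [cpsi]
  rw [cseq, h2, h3, h4, normEDS_id]

lemma useq_ne_zero {n : ℕ} (hn : 1 ≤ n) : useq (n : ℤ) ≠ 0 := by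
  intro h
  have h1 := congrArg (uev (0 : ℤ) 0 0 0 1 1) h
  rw [uev_useq, map_zero, cseq_id] at h1
  have : n = 0 := by exact_mod_cast h1
  omega

/-- The universal field. -/
abbrev UF : Type := FractionRing UR

/-- The elliptic sequence relation for the universal division value sequence. -/
theorem useq_es (p q : ℕ) (hq : 1 ≤ q) (hpq : q < p) :
    useq ((p + q : ℕ) : ℤ) * useq ((p - q : ℕ) : ℤ) =
      useq ((p + 1 : ℕ) : ℤ) * useq ((p - 1 : ℕ) : ℤ) * useq (q : ℤ) ^ 2 -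
        useq ((q + 1 : ℕ) : ℤ) * useq ((q - 1 : ℕ) : ℤ) * useq (p : ℤ) ^ 2 := by
  classical
  set φ : UR →+* UF := algebraMap UR UF with hφ
  have hinj : Function.Injective φ := IsFractionRing.injective UR UF
  set WF : WeierstrassCurve.Affine UF :=
    ccurve (φ (X 0)) (φ (X 1)) (φ (X 2)) (φ (X 3)) (φ (X 4)) (φ (X 5)) with hWF
  have hcs : ∀ n : ℤ, cseq (φ (X 0)) (φ (X 1)) (φ (X 2)) (φ (X 3)) (φ (X 4)) (φ (X 5)) n
      = φ (useq n) := fun n => by rw [useq, map_cseq]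
  have heq : WF.Equation (φ (X 4)) (φ (X 5)) := by
    rw [equation_iff]
    simp only [hWF, ccurve, ca6]
    ring
  have hb : cpsi (φ (X 0)) (φ (X 2)) (φ (X 4)) (φ (X 5)) ≠ 0 := by
    have h2 := hcs 2
    rw [cseq, normEDS_two] at h2
    rw [h2]
    intro h0
    have h2' : useq ((2 : ℕ) : ℤ) ≠ 0 := useq_ne_zero (by norm_num)
    simp only [Nat.cast_ofNat] at h2'
    exact h2' (hinj (by rw [h0, map_zero]))
  have hns : WF.Nonsingular (φ (X 4)) (φ (X 5)) := by
    rw [nonsingular_iff]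
    refine ⟨heq, Or.inr ?_⟩
    intro h
    apply hb
    simp only [hWF, ccurve] at h
    simp only [cpsi]
    linear_combination h
  have hdv : ∀ n : ℕ, dv (Point.some _ _ hns) n = φ (useq (n : ℤ)) := by
    intro n
    rw [dv, dseq_some hns]
    exact hcs n
  have hall : ∀ j : ℕ, 1 ≤ j → dv (Point.some _ _ hns) j ≠ 0 := by
    intro j hj h0
    rw [hdv] at h0
    exact useq_ne_zero hj (hinj (by rw [h0, map_zero]))
  have key := es_of_all_ne_zero (Point.some_ne_zero hns) hall p q hq hpq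
  simp only [hdv] at key
  apply hinj
  simp only [map_mul, map_sub, map_pow]
  exact key

end Universal

/-- The elliptic sequence relation for division value sequences over any commutative ring. -/
theorem cseq_es {R : Type*} [CommRing R] (a₁ a₂ a₃ a₄ x y : R) (p q : ℕ) (hq : 1 ≤ q)
    (hpq : q < p) :
    cseq a₁ a₂ a₃ a₄ x y ((p + q : ℕ) : ℤ) * cseq a₁ a₂ a₃ a₄ x y ((p - q : ℕ) : ℤ) =
      cseq a₁ a₂ a₃ a₄ x y ((p + 1 : ℕ) : ℤ) * cseq a₁ a₂ a₃ a₄ x y ((p - 1 : ℕ) : ℤ) *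
          cseq a₁ a₂ a₃ a₄ x y (q : ℤ) ^ 2 -
        cseq a₁ a₂ a₃ a₄ x y ((q + 1 : ℕ) : ℤ) * cseq a₁ a₂ a₃ a₄ x y ((q - 1 : ℕ) : ℤ) *
          cseq a₁ a₂ a₃ a₄ x y (p : ℤ) ^ 2 := by
  have := congrArg (uev a₁ a₂ a₃ a₄ x y) (useq_es p q hq hpq)
  simpa only [map_mul, map_sub, map_pow, uev_useq] using this

/-- The elliptic sequence relation for the division values of any nonzero point. -/
theorem dv_es {F : Type*} [Field F] {W : WeierstrassCurve.Affine F} {A : W.Point} (hA : A ≠ 0)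
    (p q : ℕ) (hq : 1 ≤ q) (hpq : q < p) :
    dv A (p + q) * dv A (p - q) =
      dv A (p + 1) * dv A (p - 1) * dv A q ^ 2 - dv A (q + 1) * dv A (q - 1) * dv A p ^ 2 := by
  cases A with
  | zero => exact absurd rfl hA
  | some x y h =>
    simp only [dv, dseq_some h]
    exact cseq_es W.a₁ W.a₂ W.a₃ W.a₄ x y p q hq hpq

end Fermat.Agent.S13.helper65
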