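import Mathlib
import Fermat.Agent.S13.helper65_Univ

/-!
# The torsion criterion for division polynomials (helper65, S13 component (1))

For a nonzero point `A` of a Weierstrass curve over a field, the zeros of the sequence of
division values `ψₙ(A)` are exactly the multiples of the order of `A`; in particular, for a
prime `p`, `p • A = 0 ↔ ψ_p(A) = 0`.
-/

namespace Fermat.Agent.S13.helper65

open WeierstrassCurve WeierstrassCurve.Affine

variable {F : Type*} [Field F] {W : WeierstrassCurve.Affine F}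

/-- At a point with `2y + a₁x + a₃ = 0`, the `3`-division polynomial does not vanish. -/
lemma q3_ne_zero_of_psc_eq_zero {A : W.Point} (hA : A ≠ 0) (hψ : psc A = 0) :
    q3 W (xc A) ≠ 0 := by
  cases A with
  | zero => exact absurd rfl hA
  | some x y h =>
    have h' := h
    rw [nonsingular_iff] at h'
    obtain ⟨h1, h2⟩ := h'
    rw [equation_iff] at h1
    simp only [psc_some, negY] at hψ
    have hb : 2 * y + W.a₁ * x + W.a₃ = 0 := by linear_combination hψ
    have hX : W.a₁ * y - (3 * x ^ 2 + 2 * W.a₂ * x + W.a₄) ≠ 0 := by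
      rcases h2 with h2 | h2
      · exact sub_ne_zero.mpr h2
      · exfalso; apply h2; linear_combination hb
    have key : q3 W x = -(W.a₁ * y - (3 * x ^ 2 + 2 * W.a₂ * x + W.a₄)) ^ 2 := by
      simp only [q3, WeierstrassCurve.b₂, WeierstrassCurve.b₄, WeierstrassCurve.b₆,
        WeierstrassCurve.b₈]
      linear_combination (W.a₁ * (W.a₁ * y - (3 * x ^ 2 + 2 * W.a₂ * x + W.a₄)) +
        (W.a₂ + 3 * x) * (2 * y + W.a₁ * x + W.a₃)) * hb + (-W.a₁ ^ 2 - 4 * W.a₂ - 12 * x) * h1
    simp only [xc_some]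
    rw [key]
    exact neg_ne_zero.mpr (pow_ne_zero 2 hX)

variable [DecidableEq F]

/-- Beyond the first zero `n₁` of the division values: `ψ_{n₁+1}(A) ≠ 0`. -/
lemma dv_succ_first_zero_ne_zero {A : W.Point} (hA : A ≠ 0) {n₁ : ℕ} (h2 : 2 ≤ n₁)
    (hz : dv A n₁ = 0) (hmin : ∀ j, 1 ≤ j → j < n₁ → dv A j ≠ 0) (hn₁A : n₁ • A = 0) :
    dv A (n₁ + 1) ≠ 0 := by
  rcases Nat.lt_or_ge n₁ 4 with h4 | h4
  · rcases (by omega : n₁ = 2 ∨ n₁ = 3) with rfl | rfl
    · -- first zero at `2`
      rw [dv_two] at hz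
      show dv A 3 ≠ 0
      rw [dv_three]
      exact q3_ne_zero_of_psc_eq_zero hA hz
    · -- first zero at `3`
      show dv A 4 ≠ 0
      rw [dv_four]
      have hb : psc A ≠ 0 := by
        have := hmin 2 (by norm_num) (by norm_num)
        rwa [dv_two] at this
      obtain ⟨-, -, hψ⟩ := double_formulas hA hb
      have h2A : 2 • A = -A := by
        have : 2 • A + A = 0 := by
          rw [← succ_nsmul]; exact hn₁A
        exact eq_neg_of_add_eq_zero_left this
      rw [h2A, psc_neg] at hψ
      refine mul_ne_zero ?_ hb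
      rw [← hψ]
      exact mul_ne_zero (neg_ne_zero.mpr hb) (pow_ne_zero 3 hb)
  · -- first zero at `n₁ ≥ 4`
    have hes := dv_es hA (n₁ - 1) 2 (by norm_num) (by omega)
    have e1 : n₁ - 1 + 2 = n₁ + 1 := by omega
    have e2 : n₁ - 1 + 1 = n₁ := by omega
    have e3 : (2 : ℕ) - 1 = 1 := rfl
    have e4 : (2 : ℕ) + 1 = 3 := rfl
    rw [e1, e2, e3, e4, hz, dv_one] at hes
    have h3 : dv A 3 ≠ 0 := hmin 3 (by norm_num) (by omega)
    have hm : dv A (n₁ - 1) ≠ 0 := hmin (n₁ - 1) (by omega) (by omega)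
    intro h0
    rw [h0] at hes
    have : dv A 3 * dv A (n₁ - 1) ^ 2 = 0 := by linear_combination hes
    exact mul_ne_zero h3 (pow_ne_zero 2 hm) this

/-- Beyond the first zero `n₁`, the division values vanish at most at multiples of `n₁`. -/
theorem dv_ne_zero_of_not_dvd {A : W.Point} (hA : A ≠ 0) {n₁ : ℕ} (h2 : 2 ≤ n₁)
    (hz : dv A n₁ = 0) (hmin : ∀ j, 1 ≤ j → j < n₁ → dv A j ≠ 0) (hn₁A : n₁ • A = 0) :
    ∀ k, 1 ≤ k → ¬ n₁ ∣ k → dv A k ≠ 0 := by
  have hp := dv_succ_first_zero_ne_zero hA h2 hz hmin hn₁A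
  have hm : dv A (n₁ - 1) ≠ 0 := hmin (n₁ - 1) (by omega) (by omega)
  intro k
  induction k using Nat.strong_induction_on with
  | _ k ih =>
    intro hk1 hdvd
    rcases Nat.lt_or_ge k n₁ with hlt | hge
    · exact hmin k hk1 hlt
    · have hne : k ≠ n₁ := fun h => hdvd (h ▸ dvd_rfl)
      have hne2 : k ≠ 2 * n₁ := fun h => hdvd (h ▸ Dvd.intro_left 2 rfl)
      rcases Nat.lt_or_ge k (2 * n₁) with hlt2 | hge2
      · -- `n₁ < k < 2 n₁`
        have hj : dv A (k - n₁) ≠ 0 := hmin (k - n₁) (by omega) (by omega)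
        have hj' : dv A (n₁ - (k - n₁)) ≠ 0 := hmin _ (by omega) (by omega)
        have hes := dv_es hA n₁ (k - n₁) (by omega) (by omega)
        have e1 : n₁ + (k - n₁) = k := by omega
        rw [e1, hz] at hes
        intro h0
        rw [h0] at hes
        have : dv A (n₁ + 1) * dv A (n₁ - 1) * dv A (k - n₁) ^ 2 = 0 := by
          linear_combination -hes
        exact mul_ne_zero (mul_ne_zero hp hm) (pow_ne_zero 2 hj) this
      · -- `k > 2 n₁`
        have hj : dv A (k - n₁) ≠ 0 := by
          apply ih (k - n₁) (by omega) (by omega)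
          intro hd
          apply hdvd
          have : k = (k - n₁) + n₁ := by omega
          rw [this]
          exact dvd_add hd dvd_rfl
        have hes := dv_es hA (k - n₁) n₁ (by omega) (by omega)
        have e1 : k - n₁ + n₁ = k := by omega
        rw [e1, hz] at hes
        intro h0
        rw [h0] at hes
        have : dv A (n₁ + 1) * dv A (n₁ - 1) * dv A (k - n₁) ^ 2 = 0 := by
          linear_combination hes
        exact mul_ne_zero (mul_ne_zero hp hm) (pow_ne_zero 2 hj) this

/-- **Torsion criterion**: for a prime `p` and a nonzero point `A`,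
`p • A = 0` if and only if the `p`-th division value of `A` vanishes. -/
theorem nsmul_eq_zero_iff_dv {A : W.Point} (hA : A ≠ 0) {p : ℕ} (hp : p.Prime) :
    p • A = 0 ↔ dv A p = 0 := by
  constructor
  · intro hpA
    by_contra hne
    -- there is a zero of the division values in `[1, p]`
    have hex : ∃ m, 1 ≤ m ∧ m ≤ p ∧ dv A m = 0 := by
      by_contra hno
      exact nsmul_ne_zero_of_good hA p (fun j hj hjp hj0 => hno ⟨j, hj, hjp, hj0⟩) hp.one_le le_rfl hpA
    obtain ⟨m, hm1, hmp, hmz⟩ := hex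
    obtain ⟨n₁, h2, hle, hz, -, hn₁A, hminA⟩ := exists_first_zero hA hm1 hmz
    have hlt : n₁ < p := by
      rcases Nat.lt_or_ge n₁ p with h | h
      · exact h
      · exfalso
        have : n₁ = p := by omega
        exact hne (this ▸ hz)
    -- `n₁` divides `p`
    have hr : (p % n₁) • A = 0 := by
      have h1 : p • A = (n₁ * (p / n₁) + p % n₁) • A := by rw [Nat.div_add_mod]
      rw [add_nsmul, mul_nsmul, hn₁A, smul_zero, zero_add] at h1
      rw [← h1]; exact hpA
    have hmod : p % n₁ = 0 := by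
      by_contra hmod
      exact hminA (p % n₁) (Nat.one_le_iff_ne_zero.mpr hmod) (Nat.mod_lt _ (by omega)) hr
    have hd : n₁ ∣ p := Nat.dvd_of_mod_eq_zero hmod
    rcases (Nat.dvd_prime hp).mp hd with h | h <;> omega
  · intro hz
    obtain ⟨n₁, h2, hle, hz₁, hmin, hn₁A, -⟩ := exists_first_zero hA hp.one_le hz
    rcases Nat.lt_or_ge n₁ p with hlt | hge
    · exfalso
      have hnd : ¬ n₁ ∣ p := by
        intro hd
        rcases (Nat.dvd_prime hp).mp hd with h | h <;> omega
      exact dv_ne_zero_of_not_dvd hA h2 hz₁ hmin hn₁A p hp.one_le hnd hz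
    · have : n₁ = p := by omega
      exact this ▸ hn₁A

end Fermat.Agent.S13.helper65
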