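import Mathlib
import Fermat.Agent.S13.helper65_Torsion

/-!
# The torsion criterion in terms of Mathlib's division polynomials (helper65)

For a nonzero point `A = (x, y)` of a Weierstrass curve over a field the division values
`dv A n` are the values of Mathlib's `WeierstrassCurve.preΨ n` at `x` (times `2y + a₁x + a₃`
when `n` is even).  Hence for an odd prime `p`: `p • (x, y) = 0 ↔ (W.preΨ p).eval x = 0`.
-/

namespace Fermat.Agent.S13.helper65

open WeierstrassCurve WeierstrassCurve.Affine Polynomial

variable {F : Type*} [Field F] {W : WeierstrassCurve.Affine F}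

/-- The division values are the values of the univariate division polynomials. -/
theorem dseq_eq_eval_preΨ {A : W.Point} (hA : A ≠ 0) (n : ℤ) :
    dseq A n = (WeierstrassCurve.preΨ W n).eval (xc A) * if Even n then psc A else 1 := by
  have h4 : psc A ^ 4 = (q2 W (xc A)) ^ 2 := by
    rw [← psc_sq hA]; ring
  have hev : (WeierstrassCurve.preΨ W n).eval (xc A)
      = preNormEDS (psc A ^ 4) (q3 W (xc A)) (q4 W (xc A)) n := by
    have := map_preNormEDS (Polynomial.evalRingHom (xc A)) (WeierstrassCurve.Ψ₂Sq W ^ 2)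
      (WeierstrassCurve.Ψ₃ W) (WeierstrassCurve.preΨ₄ W) n
    simp only [Polynomial.coe_evalRingHom, Polynomial.eval_pow, eval_Ψ₂Sq, eval_Ψ₃,
      eval_preΨ₄] at this
    rw [h4]
    exact this
  rw [hev]
  rfl

/-- For odd `n`, the division value is the value of `preΨ n`. -/
theorem dv_eq_eval_preΨ_of_odd {A : W.Point} (hA : A ≠ 0) {n : ℕ} (hn : Odd n) :
    dv A n = (WeierstrassCurve.preΨ W (n : ℤ)).eval (xc A) := by
  have h := dseq_eq_eval_preΨ hA (n : ℤ)
  have hne : ¬ Even (n : ℤ) := by
    rw [Int.not_even_iff_odd]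
    exact_mod_cast hn
  rw [if_neg hne, mul_one] at h
  exact h

variable [DecidableEq F]

/-- **Torsion criterion** for an odd prime `p`, in terms of Mathlib's division polynomial:
a nonsingular affine point `(x, y)` is killed by `p` iff `x` is a root of `preΨ p`. -/
theorem nsmul_eq_zero_iff_eval_preΨ {p : ℕ} (hp : p.Prime) (hp2 : p ≠ 2) {x y : F}
    (h : W.Nonsingular x y) :
    p • Point.some x y h = 0 ↔ (WeierstrassCurve.preΨ W (p : ℤ)).eval x = 0 := by
  have hA : Point.some x y h ≠ 0 := Point.some_ne_zero h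
  rw [nsmul_eq_zero_iff_dv hA hp, dv_eq_eval_preΨ_of_odd hA (hp.odd_of_ne_two hp2)]
  rfl

end Fermat.Agent.S13.helper65
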