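import Fermat.Agent.S05.helper67_Step

/-!
# The local step in arbitrary residue characteristic (helper67)

Port of `Fermat.Agent.S05.helper67_Step` without the hypothesis `v 2 = 1`: the curve is
`ψ = X (4 X² + c X + 4 b)` with `ψ = (2y + a₁x + a₃)²`, `|c| = 1`, `0 < |b| < 1`.
-/

set_option autoImplicit false
set_option linter.unusedSectionVars false

namespace Fermat.Agent.S13.helper67

open Fermat.Agent.S05.helper67

variable {K : Type*} [Field K] {Γ₀ : Type*} [LinearOrderedCommGroupWithZero Γ₀]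

/-- The standing hypotheses on the curve `ψ = X (4 X² + c X + 4 b)` relative to a valuation. -/
structure NodeDataG (v : Valuation K Γ₀) (c b : K) : Prop where
  c_one : v c = 1
  b_lt : v b < 1
  b_ne : b ≠ 0

namespace NodeDataG

variable {v : Valuation K Γ₀} {c b : K} (h : NodeDataG v c b)
include h

lemma b_pos : 0 < v b := zero_lt_iff.mpr ((v.ne_zero_iff).mpr h.b_ne)

lemma b_ne' : v b ≠ 0 := (v.ne_zero_iff).mpr h.b_ne

lemma b_le : v b ≤ 1 := h.b_lt.le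

/-- `|X₁X₂ - b| ≤ max (|X₁||X₂|) |b|` -/
lemma vM_le (X₁ X₂ : K) : v (X₁ * X₂ - b) ≤ max (v X₁ * v X₂) (v b) := by
  have := v.map_sub (X₁ * X₂) b
  rwa [map_mul] at this

lemma vM_eq_left {X₁ X₂ : K} (hlt : v b < v X₁ * v X₂) : v (X₁ * X₂ - b) = v X₁ * v X₂ := by
  rw [← map_mul] at hlt ⊢
  exact v.map_sub_eq_of_lt_left hlt

lemma vM_eq_right {X₁ X₂ : K} (hlt : v X₁ * v X₂ < v b) : v (X₁ * X₂ - b) = v b := by
  rw [← map_mul] at hlt
  exact v.map_sub_eq_of_lt_right hlt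

lemma vP_le (X₁ X₂ : K) : v (X₁ * X₂ + b) ≤ max (v X₁ * v X₂) (v b) := by
  have := v.map_add (X₁ * X₂) b
  rwa [map_mul] at this

lemma two_le : v 2 ≤ 1 := by
  have := v.map_add (1 : K) 1
  rw [map_one, max_self, one_add_one_eq_two] at this
  exact this

lemma four_le : v 4 ≤ 1 := by
  rw [show (4 : K) = 2 * 2 by norm_num, map_mul]
  calc v 2 * v 2 ≤ 1 * 1 := mul_le_mul' h.two_le h.two_le
    _ = 1 := one_mul 1

lemma v2a (X₁ X₂ : K) : v (c * X₁ * X₂) = v X₁ * v X₂ := by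
  rw [map_mul, map_mul, h.c_one, one_mul]

lemma vfirst_le (X₁ X₂ : K) :
    v (2 * (X₁ + X₂) * (X₁ * X₂ + b)) ≤ v (X₁ + X₂) * max (v X₁ * v X₂) (v b) := by
  rw [map_mul, map_mul]
  calc v 2 * v (X₁ + X₂) * v (X₁ * X₂ + b) ≤ 1 * v (X₁ + X₂) * max (v X₁ * v X₂) (v b) :=
        mul_le_mul' (mul_le_mul' h.two_le le_rfl) (h.vP_le X₁ X₂)
    _ = v (X₁ + X₂) * max (v X₁ * v X₂) (v b) := by rw [one_mul]

/-- general upper bound for `|N|` -/
lemma vN_le {X₁ X₂ : K} {g : Γ₀} (h₁ : v (X₁ + X₂) * max (v X₁ * v X₂) (v b) ≤ g)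
    (h₂ : v X₁ * v X₂ ≤ g) :
    v (2 * (X₁ + X₂) * (X₁ * X₂ + b) + c * X₁ * X₂) ≤ g := by
  apply v.map_add_le
  · exact (h.vfirst_le X₁ X₂).trans h₁
  · rw [h.v2a]; exact h₂

/-- exact value of `|N|` when the second term dominates -/
lemma vN_eq {X₁ X₂ : K} (h₁ : v (X₁ + X₂) * max (v X₁ * v X₂) (v b) < v X₁ * v X₂) :
    v (2 * (X₁ + X₂) * (X₁ * X₂ + b) + c * X₁ * X₂) = v X₁ * v X₂ := by
  have h2 := h.v2a X₁ X₂
  have hlt : v (2 * (X₁ + X₂) * (X₁ * X₂ + b)) < v (c * X₁ * X₂) := by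
    rw [h2]
    exact lt_of_le_of_lt (h.vfirst_le X₁ X₂) h₁
  rw [v.map_add_eq_of_lt_right hlt, h2]

end NodeDataG

end Fermat.Agent.S13.helper67

namespace Fermat.Agent.S13.helper67

open Fermat.Agent.S05.helper67

variable {K : Type*} [Field K] {Γ₀ : Type*} [LinearOrderedCommGroupWithZero Γ₀]

section Prelude

variable {v : Valuation K Γ₀} {c b : K} (h : NodeDataG v c b)
  {X₁ X₂ Z₁ Z₂ : K}
include h

lemma NodeDataG.prelude (hX : X₁ ≠ X₂)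
    (hS : (X₁ - X₂) ^ 2 * (Z₁ + Z₂) = 2 * (X₁ + X₂) * (X₁ * X₂ + b) + c * X₁ * X₂)
    (hT : (X₁ - X₂) ^ 2 * (Z₁ * Z₂) = (X₁ * X₂ - b) ^ 2) :
    v (X₁ - X₂) ≠ 0 ∧
      v (X₁ - X₂) ^ 2 * v (Z₁ + Z₂) = v (2 * (X₁ + X₂) * (X₁ * X₂ + b) + c * X₁ * X₂) ∧
      v (X₁ - X₂) ^ 2 * v (Z₁ * Z₂) = v (X₁ * X₂ - b) ^ 2 := by
  refine ⟨(v.ne_zero_iff).mpr (sub_ne_zero.mpr hX), ?_, ?_⟩
  · have := congrArg v hS
    rw [map_mul, map_pow] at this
    exact this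
  · have := congrArg v hT
    rw [map_mul, map_pow, map_pow] at this
    exact this

end Prelude

end Fermat.Agent.S13.helper67

namespace Fermat.Agent.S13.helper67

open Fermat.Agent.S05.helper67

variable {K : Type*} [Field K] {Γ₀ : Type*} [LinearOrderedCommGroupWithZero Γ₀]

section Regimes

variable {v : Valuation K Γ₀} {c b : K} (h : NodeDataG v c b)
  {X₁ X₂ Z₁ Z₂ : K}
include h

/-- Regime R1: both points have `|X| ≥ 1`. -/
lemma NodeDataG.step_R1 (hd : v (X₁ - X₂) ≠ 0)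
    (hS : v (X₁ - X₂) ^ 2 * v (Z₁ + Z₂) = v (2 * (X₁ + X₂) * (X₁ * X₂ + b) + c * X₁ * X₂))
    (hT : v (X₁ - X₂) ^ 2 * v (Z₁ * Z₂) = v (X₁ * X₂ - b) ^ 2)
    (h₂ : 1 ≤ v X₂) (h₁ : v X₂ ≤ v X₁) : 1 ≤ v Z₁ ∧ 1 ≤ v Z₂ := by
  have hd2 : v (X₁ - X₂) ^ 2 ≠ 0 := pow_ne_zero 2 hd
  have hu1 : 1 ≤ v X₁ := h₂.trans h₁
  have hp1 : 1 ≤ v X₁ * v X₂ := one_le_mul_of_one_le_of_one_le hu1 h₂
  have hM : v (X₁ * X₂ - b) = v X₁ * v X₂ := h.vM_eq_left (lt_of_lt_of_le h.b_lt hp1)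
  have hmax : max (v X₁ * v X₂) (v b) = v X₁ * v X₂ := max_eq_left (h.b_le.trans hp1)
  have hu1p : v X₁ ≤ v X₁ * v X₂ := le_mul_of_one_le_right' h₂
  have hdle : v (X₁ - X₂) ≤ v X₁ * v X₂ := (v.map_sub_le le_rfl h₁).trans hu1p
  have hale : v (X₁ + X₂) ≤ v X₁ * v X₂ := (v.map_add_le le_rfl h₁).trans hu1p
  apply roots_ge_one v
  · apply g0_le_of_mul_le_mul_left hd2
    rw [hS, hT, hM]
    apply h.vN_le
    · rw [hmax, sq]
      exact mul_le_mul' hale le_rfl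
    · rw [sq]
      exact le_mul_of_one_le_right' hp1
  · apply g0_le_of_mul_le_mul_left hd2
    rw [hT, hM, mul_one]
    exact pow_le_pow_left₀ zero_le hdle 2

/-- Regime R6: both points have `|X| ≤ β`. -/
lemma NodeDataG.step_R6 (hd : v (X₁ - X₂) ≠ 0)
    (hS : v (X₁ - X₂) ^ 2 * v (Z₁ + Z₂) = v (2 * (X₁ + X₂) * (X₁ * X₂ + b) + c * X₁ * X₂))
    (hT : v (X₁ - X₂) ^ 2 * v (Z₁ * Z₂) = v (X₁ * X₂ - b) ^ 2)
    (h₁ : v X₁ ≤ v b) (h₂ : v X₂ ≤ v X₁) : 1 ≤ v Z₁ ∧ 1 ≤ v Z₂ := by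
  have hd2 : v (X₁ - X₂) ^ 2 ≠ 0 := pow_ne_zero 2 hd
  have hb0 := h.b_pos
  have hu2 : v X₂ ≤ v b := h₂.trans h₁
  have hpb2 : v X₁ * v X₂ ≤ v b * v b := mul_le_mul' h₁ hu2
  have hbb : v b * v b < v b := by
    calc v b * v b < v b * 1 := by gcongr; exact h.b_lt
      _ = v b := mul_one _
  have hM : v (X₁ * X₂ - b) = v b := h.vM_eq_right (lt_of_le_of_lt hpb2 hbb)
  have hmax : max (v X₁ * v X₂) (v b) = v b := max_eq_right (hpb2.trans hbb.le)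
  have hdle : v (X₁ - X₂) ≤ v b := (v.map_sub_le le_rfl h₂).trans h₁
  have hale : v (X₁ + X₂) ≤ v b := (v.map_add_le le_rfl h₂).trans h₁
  apply roots_ge_one v
  · apply g0_le_of_mul_le_mul_left hd2
    rw [hS, hT, hM]
    apply h.vN_le
    · rw [hmax, sq]
      exact mul_le_mul' hale le_rfl
    · rw [sq]; exact hpb2
  · apply g0_le_of_mul_le_mul_left hd2
    rw [hT, hM, mul_one]
    exact pow_le_pow_left₀ zero_le hdle 2

/-- Regime R3: `|X₂| ≤ β` and `1 ≤ |X₁|`. -/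
lemma NodeDataG.step_R3 (hd : v (X₁ - X₂) ≠ 0)
    (hS : v (X₁ - X₂) ^ 2 * v (Z₁ + Z₂) = v (2 * (X₁ + X₂) * (X₁ * X₂ + b) + c * X₁ * X₂))
    (hT : v (X₁ - X₂) ^ 2 * v (Z₁ * Z₂) = v (X₁ * X₂ - b) ^ 2)
    (h₂ : v X₂ ≤ v b) (h₁ : 1 ≤ v X₁) : v Z₁ ≤ v b ∧ v Z₂ ≤ v b := by
  have hd2 : v (X₁ - X₂) ^ 2 ≠ 0 := pow_ne_zero 2 hd
  have hb0 := h.b_pos
  have hlt : v X₂ < v X₁ := lt_of_le_of_lt h₂ (lt_of_lt_of_le h.b_lt h₁)
  have hdeq : v (X₁ - X₂) = v X₁ := v.map_sub_eq_of_lt_left hlt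
  have hale : v (X₁ + X₂) ≤ v X₁ := v.map_add_le le_rfl hlt.le
  have hp : v X₁ * v X₂ ≤ v X₁ * v b := mul_le_mul' le_rfl h₂
  have hb1 : v b ≤ v X₁ * v b := le_mul_of_one_le_left' h₁
  have hmax : max (v X₁ * v X₂) (v b) ≤ v X₁ * v b := max_le hp hb1
  apply roots_le v
  · apply g0_le_of_mul_le_mul_left hd2
    rw [hS, hdeq]
    apply h.vN_le
    · calc v (X₁ + X₂) * max (v X₁ * v X₂) (v b) ≤ v X₁ * (v X₁ * v b) := mul_le_mul' hale hmax
        _ = v X₁ ^ 2 * v b := by rw [sq, mul_assoc]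
    · calc v X₁ * v X₂ ≤ v X₁ * v b := hp
        _ ≤ v X₁ * (v X₁ * v b) := mul_le_mul' le_rfl hb1
        _ = v X₁ ^ 2 * v b := by rw [sq, mul_assoc]
  · apply g0_le_of_mul_le_mul_left hd2
    rw [hT, hdeq, ← mul_pow]
    exact pow_le_pow_left₀ zero_le ((h.vM_le X₁ X₂).trans hmax) 2

/-- Regime R2: `β < |X₂| < 1 ≤ |X₁|`. -/
lemma NodeDataG.step_R2 (hd : v (X₁ - X₂) ≠ 0)
    (hS : v (X₁ - X₂) ^ 2 * v (Z₁ + Z₂) = v (2 * (X₁ + X₂) * (X₁ * X₂ + b) + c * X₁ * X₂))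
    (hT : v (X₁ - X₂) ^ 2 * v (Z₁ * Z₂) = v (X₁ * X₂ - b) ^ 2)
    (h₂ : v b < v X₂) (h₂' : v X₂ < 1) (h₁ : 1 ≤ v X₁) : v Z₁ = v X₂ ∧ v Z₂ = v X₂ := by
  have hd2 : v (X₁ - X₂) ^ 2 ≠ 0 := pow_ne_zero 2 hd
  have hb0 := h.b_pos
  have hlt : v X₂ < v X₁ := lt_of_lt_of_le h₂' h₁
  have hdeq : v (X₁ - X₂) = v X₁ := v.map_sub_eq_of_lt_left hlt
  have hale : v (X₁ + X₂) ≤ v X₁ := v.map_add_le le_rfl hlt.le
  have hu2p : v X₂ ≤ v X₁ * v X₂ := le_mul_of_one_le_left' h₁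
  have hM : v (X₁ * X₂ - b) = v X₁ * v X₂ := h.vM_eq_left (lt_of_lt_of_le h₂ hu2p)
  have hmax : max (v X₁ * v X₂) (v b) = v X₁ * v X₂ := max_eq_left (h₂.le.trans hu2p)
  apply roots_eq v
  · apply g0_le_of_mul_le_mul_left hd2
    rw [hS, hdeq]
    apply h.vN_le
    · rw [hmax]
      calc v (X₁ + X₂) * (v X₁ * v X₂) ≤ v X₁ * (v X₁ * v X₂) := mul_le_mul' hale le_rfl
        _ = v X₁ ^ 2 * v X₂ := by rw [sq, mul_assoc]
    · calc v X₁ * v X₂ ≤ v X₁ * (v X₁ * v X₂) := mul_le_mul' le_rfl hu2p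
        _ = v X₁ ^ 2 * v X₂ := by rw [sq, mul_assoc]
  · apply g0_eq_of_mul_eq_mul_left hd2
    rw [hT, hdeq, hM, mul_pow]

/-- Regime R5: `|X₂| ≤ β < |X₁| < 1`. -/
lemma NodeDataG.step_R5 (hd : v (X₁ - X₂) ≠ 0)
    (hS : v (X₁ - X₂) ^ 2 * v (Z₁ + Z₂) = v (2 * (X₁ + X₂) * (X₁ * X₂ + b) + c * X₁ * X₂))
    (hT : v (X₁ - X₂) ^ 2 * v (Z₁ * Z₂) = v (X₁ * X₂ - b) ^ 2)
    (h₂ : v X₂ ≤ v b) (h₁ : v b < v X₁) (h₁' : v X₁ < 1) :
    v Z₁ = v b / v X₁ ∧ v Z₂ = v b / v X₁ := by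
  have hd2 : v (X₁ - X₂) ^ 2 ≠ 0 := pow_ne_zero 2 hd
  have hb0 := h.b_pos
  have hu1 : 0 < v X₁ := hb0.trans h₁
  have hu1' : v X₁ ≠ 0 := hu1.ne'
  have hlt : v X₂ < v X₁ := lt_of_le_of_lt h₂ h₁
  have hdeq : v (X₁ - X₂) = v X₁ := v.map_sub_eq_of_lt_left hlt
  have hale : v (X₁ + X₂) ≤ v X₁ := v.map_add_le le_rfl hlt.le
  have hp : v X₁ * v X₂ < v b := by
    calc v X₁ * v X₂ ≤ v X₁ * v b := mul_le_mul' le_rfl h₂
      _ < 1 * v b := by gcongr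
      _ = v b := one_mul _
  have hM : v (X₁ * X₂ - b) = v b := h.vM_eq_right hp
  have hmax : max (v X₁ * v X₂) (v b) = v b := max_eq_right hp.le
  apply roots_eq v
  · apply g0_le_of_mul_le_mul_left hd2
    rw [hS, hdeq]
    have e : v X₁ ^ 2 * (v b / v X₁) = v X₁ * v b := by field_simp
    rw [e]
    apply h.vN_le
    · rw [hmax]
      exact mul_le_mul' hale le_rfl
    · exact mul_le_mul' le_rfl h₂
  · apply g0_eq_of_mul_eq_mul_left hd2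
    rw [hT, hdeq, hM]
    field_simp

end Regimes

end Fermat.Agent.S13.helper67

namespace Fermat.Agent.S13.helper67

open Fermat.Agent.S05.helper67



end Fermat.Agent.S13.helper67

namespace Fermat.Agent.S13.helper67

open Fermat.Agent.S05.helper67

variable {K : Type*} [Field K] {Γ₀ : Type*} [LinearOrderedCommGroupWithZero Γ₀]

section Regime4

variable {v : Valuation K Γ₀} {c b : K} (h : NodeDataG v c b)
  {X₁ X₂ Z₁ Z₂ : K}
include h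

/-- Regime R4: `β < |X₂| ≤ |X₁| < 1`. -/
lemma NodeDataG.step_R4 (hd : v (X₁ - X₂) ≠ 0)
    (hS : v (X₁ - X₂) ^ 2 * v (Z₁ + Z₂) = v (2 * (X₁ + X₂) * (X₁ * X₂ + b) + c * X₁ * X₂))
    (hT : v (X₁ - X₂) ^ 2 * v (Z₁ * Z₂) = v (X₁ * X₂ - b) ^ 2)
    (h₂ : v b < v X₂) (h₂₁ : v X₂ ≤ v X₁) (h₁ : v X₁ < 1) :
    StepGoal (v b) (v X₁) (v X₂) (clamp (v b) (v Z₁)) (clamp (v b) (v Z₂)) := by
  have hd2 : v (X₁ - X₂) ^ 2 ≠ 0 := pow_ne_zero 2 hd
  have hd2' : 0 < v (X₁ - X₂) ^ 2 := zero_lt_iff.mpr hd2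
  have hb0 := h.b_pos
  have hu2 : 0 < v X₂ := hb0.trans h₂
  have hu1 : 0 < v X₁ := hu2.trans_le h₂₁
  have hp0 : 0 < v X₁ * v X₂ := mul_pos hu1 hu2
  have hdle : v (X₁ - X₂) ≤ v X₁ := v.map_sub_le le_rfl h₂₁
  have hdeq : v X₂ < v X₁ → v (X₁ - X₂) = v X₁ := fun hlt => v.map_sub_eq_of_lt_left hlt
  have hale : v (X₁ + X₂) ≤ v X₁ := v.map_add_le le_rfl h₂₁
  have hplt : v X₁ * v X₂ < v X₂ := by
    calc v X₁ * v X₂ < 1 * v X₂ := by gcongr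
      _ = v X₂ := one_mul _
  have hmaxlt : max (v X₁ * v X₂) (v b) < v X₂ := max_lt hplt h₂
  have hN : v (2 * (X₁ + X₂) * (X₁ * X₂ + b) + c * X₁ * X₂) = v X₁ * v X₂ := by
    apply h.vN_eq
    calc v (X₁ + X₂) * max (v X₁ * v X₂) (v b) ≤ v X₁ * max (v X₁ * v X₂) (v b) :=
          mul_le_mul' hale le_rfl
      _ < v X₁ * v X₂ := by gcongr
  have hMle : v (X₁ * X₂ - b) ≤ max (v X₁ * v X₂) (v b) := h.vM_le X₁ X₂
  have hMlt : v (X₁ * X₂ - b) < v X₂ := lt_of_le_of_lt hMle hmaxlt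
  rw [hN] at hS
  have hs : v (Z₁ + Z₂) = v X₁ * v X₂ / v (X₁ - X₂) ^ 2 := by
    rw [eq_div_iff hd2, mul_comm]; exact hS
  have hsplit : v (Z₁ * Z₂) < v (Z₁ + Z₂) ^ 2 := by
    apply g0_lt_of_mul_lt_mul_left (c := (v (X₁ - X₂) ^ 2) ^ 2)
    have e1 : (v (X₁ - X₂) ^ 2) ^ 2 * v (Z₁ * Z₂) = v (X₁ - X₂) ^ 2 * v (X₁ * X₂ - b) ^ 2 := by
      rw [← hT, sq (v (X₁ - X₂) ^ 2), mul_assoc]
    have e2 : (v (X₁ - X₂) ^ 2) ^ 2 * v (Z₁ + Z₂) ^ 2 = (v X₁ * v X₂) ^ 2 := by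
      rw [← mul_pow, hS]
    rw [e1, e2, mul_pow]
    have hM2 : v (X₁ * X₂ - b) ^ 2 < v X₂ ^ 2 := pow_lt_pow_left₀ hMlt zero_le (by norm_num)
    have hu12 : 0 < v X₁ ^ 2 := pow_pos hu1 2
    calc v (X₁ - X₂) ^ 2 * v (X₁ * X₂ - b) ^ 2 ≤ v X₁ ^ 2 * v (X₁ * X₂ - b) ^ 2 :=
          mul_le_mul' (pow_le_pow_left₀ zero_le hdle 2) le_rfl
      _ < v X₁ ^ 2 * v X₂ ^ 2 := by gcongr
  have hβ2 : v b ^ 2 < v X₁ * v X₂ := by
    rw [sq]
    calc v b * v b < v b * v X₂ := by gcongr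
      _ ≤ v X₁ * v X₂ := mul_le_mul' (h₂.le.trans h₂₁) le_rfl
  have hp1 : v X₁ * v X₂ < 1 := hplt.trans (lt_of_le_of_lt h₂₁ h₁)
  have first : Rel (v b) (clamp (v b) (v X₁ * v X₂ / v (X₁ - X₂) ^ 2)) (v X₁ / v X₂) :=
    first_root_class hb0 h₂ h₂₁ h₁ hd hdle hdeq
  have other : Rel (v b) (clamp (v b) (v (X₁ * X₂ - b) ^ 2 / (v X₁ * v X₂))) (v X₁ * v X₂) :=
    other_root_class hb0 h.b_lt hp1 hβ2 (fun hh => h.vM_eq_left hh) (fun hh => h.vM_eq_right hh)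
      hMle
  have key : ∀ r : Γ₀, r * v (Z₁ + Z₂) = v (Z₁ * Z₂) →
      r = v (X₁ * X₂ - b) ^ 2 / (v X₁ * v X₂) := by
    intro r hr
    rw [eq_div_iff hp0.ne']
    apply g0_eq_of_mul_eq_mul_left hd2
    rw [hT.symm, ← hr, hs]
    field_simp
  rcases roots_split v hsplit with ⟨e1, e2⟩ | ⟨e1, e2⟩
  · right
    rw [e1, key _ e2, hs]
    exact ⟨first, other⟩
  · left
    rw [e1, key _ e2, hs]
    exact ⟨other, first⟩

end Regime4

end Fermat.Agent.S13.helper67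

namespace Fermat.Agent.S13.helper67

open Fermat.Agent.S05.helper67

variable {K : Type*} [Field K] {Γ₀ : Type*} [LinearOrderedCommGroupWithZero Γ₀]

section LocalStep

variable {v : Valuation K Γ₀} {c b : K} (h : NodeDataG v c b)
  {X₁ X₂ Z₁ Z₂ : K}
include h

lemma NodeDataG.rel_one_sq_beta : Rel (v b) 1 (v b * v b) := by
  refine ⟨-1, Or.inl ?_⟩
  have := h.b_ne'
  rw [show (2 : ℤ) * (-1) = -2 by norm_num, zpow_neg, zpow_ofNat, sq]
  field_simp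

lemma NodeDataG.local_step_aux (hX : X₁ ≠ X₂)
    (hS : (X₁ - X₂) ^ 2 * (Z₁ + Z₂) = 2 * (X₁ + X₂) * (X₁ * X₂ + b) + c * X₁ * X₂)
    (hT : (X₁ - X₂) ^ 2 * (Z₁ * Z₂) = (X₁ * X₂ - b) ^ 2) (hle : v X₂ ≤ v X₁) :
    StepGoal (v b) (clamp (v b) (v X₁)) (clamp (v b) (v X₂))
      (clamp (v b) (v Z₁)) (clamp (v b) (v Z₂)) := by
  obtain ⟨hd, hS', hT'⟩ := h.prelude hX hS hT
  have hb0 := h.b_pos
  have hb1 := h.b_le
  have hbne := h.b_ne'
  rcases le_or_gt 1 (v X₂) with h2 | h2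
  · -- R1
    obtain ⟨z1, z2⟩ := h.step_R1 hd hS' hT' h2 hle
    rw [clamp_of_one_le hb1 (h2.trans hle), clamp_of_one_le hb1 h2, clamp_of_one_le hb1 z1,
      clamp_of_one_le hb1 z2]
    left
    rw [mul_one, div_one]
    exact ⟨Rel.refl _, Rel.refl _⟩
  rcases le_or_gt 1 (v X₁) with h1 | h1
  · rcases le_or_gt (v X₂) (v b) with h2b | h2b
    · -- R3
      obtain ⟨z1, z2⟩ := h.step_R3 hd hS' hT' h2b h1
      rw [clamp_of_one_le hb1 h1, clamp_of_le hb1 h2b, clamp_of_le hb1 z1, clamp_of_le hb1 z2]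
      left
      rw [one_mul, one_div]
      exact ⟨Rel.refl _, (Rel.refl _).inv_right⟩
    · -- R2
      obtain ⟨z1, z2⟩ := h.step_R2 hd hS' hT' h2b h2 h1
      rw [clamp_of_one_le hb1 h1, clamp_of_mem h2b.le h2.le, z1, z2, clamp_of_mem h2b.le h2.le]
      left
      rw [one_mul, one_div]
      exact ⟨Rel.refl _, (Rel.refl _).inv_right⟩
  rcases le_or_gt (v X₁) (v b) with h1b | h1b
  · -- R6
    obtain ⟨z1, z2⟩ := h.step_R6 hd hS' hT' h1b hle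
    rw [clamp_of_le hb1 h1b, clamp_of_le hb1 (hle.trans h1b), clamp_of_one_le hb1 z1,
      clamp_of_one_le hb1 z2]
    left
    rw [div_self hbne]
    exact ⟨h.rel_one_sq_beta, Rel.refl _⟩
  rcases le_or_gt (v X₂) (v b) with h2b | h2b
  · -- R5
    obtain ⟨z1, z2⟩ := h.step_R5 hd hS' hT' h2b h1b h1
    have hu1 : 0 < v X₁ := hb0.trans h1b
    have hmem1 : v b ≤ v b / v X₁ := by
      rw [le_div_iff₀ hu1]
      calc v b * v X₁ ≤ v b * 1 := mul_le_mul' le_rfl h1.le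
        _ = v b := mul_one _
    have hmem2 : v b / v X₁ ≤ 1 := by
      rw [div_le_iff₀ hu1, one_mul]; exact h1b.le
    rw [clamp_of_mem h1b.le h1.le, clamp_of_le hb1 h2b, z1, z2, clamp_of_mem hmem1 hmem2]
    left
    constructor
    · refine ⟨1, Or.inr ?_⟩
      have := hu1.ne'
      rw [mul_one, zpow_ofNat]
      field_simp
    · refine ⟨0, Or.inr ?_⟩
      rw [inv_div]; simp
  · -- R4
    have := h.step_R4 (Z₁ := Z₁) (Z₂ := Z₂) hd hS' hT' h2b hle h1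
    rw [clamp_of_mem h1b.le h1.le, clamp_of_mem h2b.le h2.le]
    exact this

/-- **The local step.** If `Z₁, Z₂` are the roots of the quadratic whose coefficients are
given by the `x`-only addition formulas, their classes are `c₁ c₂` and `c₁ / c₂` (in some
order, up to `Rel`). -/
theorem NodeDataG.local_step (hX : X₁ ≠ X₂)
    (hS : (X₁ - X₂) ^ 2 * (Z₁ + Z₂) = 2 * (X₁ + X₂) * (X₁ * X₂ + b) + c * X₁ * X₂)
    (hT : (X₁ - X₂) ^ 2 * (Z₁ * Z₂) = (X₁ * X₂ - b) ^ 2) :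
    StepGoal (v b) (clamp (v b) (v X₁)) (clamp (v b) (v X₂))
      (clamp (v b) (v Z₁)) (clamp (v b) (v Z₂)) := by
  rcases le_total (v X₂) (v X₁) with hle | hle
  · exact h.local_step_aux hX hS hT hle
  · have hS' : (X₂ - X₁) ^ 2 * (Z₁ + Z₂) =
        2 * (X₂ + X₁) * (X₂ * X₁ + b) + c * X₂ * X₁ := by
      linear_combination hS
    have hT' : (X₂ - X₁) ^ 2 * (Z₁ * Z₂) = (X₂ * X₁ - b) ^ 2 := by
      linear_combination hT
    exact (h.local_step_aux (Ne.symm hX) hS' hT' hle).swap_c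

/-- **Duplication.** Here `ψ = (2y + a₁x + a₃)²`. -/
theorem NodeDataG.dup_step {X ψ Z : K} (hψ : ψ = X * (4 * X ^ 2 + c * X + 4 * b)) (hψ0 : ψ ≠ 0)
    (hZ : ψ * Z = (X ^ 2 - b) ^ 2) :
    Rel (v b) (clamp (v b) (v Z)) (clamp (v b) (v X) ^ 2) := by
  have hb0 := h.b_pos
  have hb1 := h.b_le
  have hbne := h.b_ne'
  have h4 := h.four_le
  have hX0 : X ≠ 0 := by
    rintro rfl
    apply hψ0
    rw [hψ]; ring
  have hu0 : v X ≠ 0 := (v.ne_zero_iff).mpr hX0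
  have hu : 0 < v X := zero_lt_iff.mpr hu0
  set q := 4 * X ^ 2 + c * X + 4 * b with hq
  have hq0 : q ≠ 0 := by
    intro h0
    rw [h0, mul_zero] at hψ
    exact hψ0 hψ
  have hvq0 : v q ≠ 0 := (v.ne_zero_iff).mpr hq0
  have hvq : 0 < v q := zero_lt_iff.mpr hvq0
  -- the key valuation identity
  have hkey : v X * v q * v Z = v (X ^ 2 - b) ^ 2 := by
    have := congrArg v hZ
    rw [hψ, map_mul, map_mul, map_pow] at this
    exact this
  have hZeq : v Z = v (X ^ 2 - b) ^ 2 / (v X * v q) := by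
    rw [eq_div_iff (mul_ne_zero hu0 hvq0), mul_comm]; exact hkey
  have haX : v (c * X) = v X := by rw [map_mul, h.c_one, one_mul]
  have hXX : v (X ^ 2) = v X * v X := by rw [map_pow, sq]
  have h4XX : v (4 * X ^ 2) ≤ v X * v X := by
    rw [map_mul, hXX]
    calc v 4 * (v X * v X) ≤ 1 * (v X * v X) := mul_le_mul' h4 le_rfl
      _ = v X * v X := one_mul _
  have h4b : v (4 * b) ≤ v b := by
    rw [map_mul]
    calc v 4 * v b ≤ 1 * v b := mul_le_mul' h4 le_rfl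
      _ = v b := one_mul _
  rcases le_or_gt 1 (v X) with h1 | h1
  · -- |X| ≥ 1 : class 1, |Z| ≥ 1
    rw [clamp_of_one_le hb1 h1, one_pow]
    have hblt : v b < v (X ^ 2) := by
      rw [hXX]; exact lt_of_lt_of_le h.b_lt (one_le_mul_of_one_le_of_one_le h1 h1)
    have hM : v (X ^ 2 - b) = v X * v X := by
      rw [v.map_sub_eq_of_lt_left hblt, hXX]
    have hqle : v q ≤ v X * v X := by
      rw [hq]
      apply v.map_add_le
      · apply v.map_add_le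
        · exact h4XX
        · rw [haX]; exact le_mul_of_one_le_left' h1
      · exact h4b.trans (h.b_lt.le.trans (one_le_mul_of_one_le_of_one_le h1 h1))
    have hZ1 : 1 ≤ v Z := by
      rw [hZeq, hM, le_div_iff₀ (mul_pos hu hvq), one_mul, sq]
      calc v X * v q ≤ v X * (v X * v X) := mul_le_mul' le_rfl hqle
        _ ≤ (v X * v X) * (v X * v X) := mul_le_mul' (le_mul_of_one_le_left' h1) le_rfl
    rw [clamp_of_one_le hb1 hZ1]
    exact Rel.refl _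
  rcases le_or_gt (v X) (v b) with h2 | h2
  · -- |X| ≤ β : class β, |Z| ≥ 1
    rw [clamp_of_le hb1 h2]
    have hXXlt : v (X ^ 2) < v b := by
      rw [hXX]
      calc v X * v X < 1 * v X := by gcongr
        _ = v X := one_mul _
        _ ≤ v b := h2
    have hM : v (X ^ 2 - b) = v b := v.map_sub_eq_of_lt_right hXXlt
    have hqle : v q ≤ v b := by
      rw [hq]
      apply v.map_add_le
      · apply v.map_add_le
        · exact h4XX.trans (by rw [← hXX]; exact hXXlt.le)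
        · rw [haX]; exact h2
      · exact h4b
    have hZ1 : 1 ≤ v Z := by
      rw [hZeq, hM, le_div_iff₀ (mul_pos hu hvq), one_mul, sq]
      exact mul_le_mul' h2 hqle
    rw [clamp_of_one_le hb1 hZ1, sq]
    exact h.rel_one_sq_beta
  · -- β < |X| < 1
    rw [clamp_of_mem h2.le h1.le]
    have hXXlt : v X * v X < v X := by
      calc v X * v X < 1 * v X := by gcongr
        _ = v X := one_mul _
    have hq1 : v (4 * X ^ 2 + c * X) = v X := by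
      rw [v.map_add_eq_of_lt_right (by rw [haX]; exact lt_of_le_of_lt h4XX hXXlt), haX]
    have hvqeq : v q = v X := by
      rw [hq, v.map_add_eq_of_lt_left (by rw [hq1]; exact lt_of_le_of_lt h4b h2), hq1]
    rw [hZeq, hvqeq, sq (v X)]
    have hp1 : v X * v X < 1 := hXXlt.trans h1
    have hβ2 : v b ^ 2 < v X * v X := by
      rw [sq]
      calc v b * v b < v b * v X := by gcongr
        _ ≤ v X * v X := mul_le_mul' h2.le le_rfl
    have hMle : v (X ^ 2 - b) ≤ max (v X * v X) (v b) := by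
      have := v.map_sub (X ^ 2) b
      rwa [hXX] at this
    refine other_root_class hb0 h.b_lt hp1 hβ2 ?_ ?_ hMle
    · intro hh
      rw [← hXX] at hh ⊢
      exact v.map_sub_eq_of_lt_left hh
    · intro hh
      rw [← hXX] at hh
      exact v.map_sub_eq_of_lt_right hh

/-- A 2-torsion point has class `1` or `β`. -/
theorem NodeDataG.two_torsion_class {X : K} (hη : X * (4 * X ^ 2 + c * X + 4 * b) = 0) :
    clamp (v b) (v X) = 1 ∨ clamp (v b) (v X) = v b := by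
  have hb1 := h.b_le
  have h4 := h.four_le
  rcases le_or_gt 1 (v X) with h1 | h1
  · left; exact clamp_of_one_le hb1 h1
  right
  apply clamp_of_le hb1
  rcases eq_or_ne X 0 with rfl | hX0
  · rw [map_zero]; exact zero_le
  have hq : X * (4 * X + c) = -(4 * b) := by
    rcases mul_eq_zero.mp hη with h0 | h0
    · exact absurd h0 hX0
    · linear_combination h0
  have h4X : v (4 * X) < 1 := by
    rw [map_mul]
    calc v 4 * v X ≤ 1 * v X := mul_le_mul' h4 le_rfl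
      _ = v X := one_mul _
      _ < 1 := h1
  have hXa : v (4 * X + c) = 1 := by
    rw [v.map_add_eq_of_lt_right (by rw [h.c_one]; exact h4X), h.c_one]
  have := congrArg v hq
  rw [map_mul, hXa, mul_one, Valuation.map_neg, map_mul] at this
  rw [this]
  calc v 4 * v b ≤ 1 * v b := mul_le_mul' h4 le_rfl
    _ = v b := one_mul _

end LocalStep

end Fermat.Agent.S13.helper67
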