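import Fermat.Agent.S05.helper67_Points
import Fermat.Agent.S13.helper67_StepG

/-!
# The component class of a multiple of a point, arbitrary residue characteristic (helper67)

Port of `Fermat.Agent.S05.helper67_Points` without the hypothesis `v 2 = 1`.
Setting: `W` a Weierstrass curve over a valued field `K` with `2 ≠ 0` in `K`, `x₀` a root of the
`2`-division polynomial, `c = b₂ + 12 x₀` with `|c| = 1` and `2 b = b₄ + b₂ x₀ + 6 x₀²` with
`0 < |b| < 1` (a node at `x = x₀` modulo the maximal ideal). For the Frey curve at `2`: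
`x₀ = 0`, `c = b₂ = 1 + 4 a₂`, `b = a₄`.

Main results: `NodeModelG.cls_nsmul`, `NodeModelG.cls_pow_of_nsmul_eq_zero`,
`NodeModelG.node_torsion_val`.
-/

set_option autoImplicit false

namespace Fermat.Agent.S13.helper67

open WeierstrassCurve.Affine Fermat.Agent.S05.helper67

variable {K : Type*} [Field K] {Γ₀ : Type*} [LinearOrderedCommGroupWithZero Γ₀]

/-- Node data for a Weierstrass curve, valid in every residue characteristic. -/
structure NodeModelG (W : WeierstrassCurve.Affine K) (v : Valuation K Γ₀) (x₀ c b : K) : Prop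
    extends NodeDataG v c b where
  two_ne : (2 : K) ≠ 0
  hc : c = W.b₂ + 12 * x₀
  hb : 2 * b = W.b₄ + W.b₂ * x₀ + 6 * x₀ ^ 2
  hx₀ : 4 * x₀ ^ 3 + W.b₂ * x₀ ^ 2 + 2 * W.b₄ * x₀ + W.b₆ = 0

namespace NodeModelG

variable {W : WeierstrassCurve.Affine K} {v : Valuation K Γ₀} {x₀ c b : K}
  (hM : NodeModelG W v x₀ c b)
include hM

lemma four_ne : (4 : K) ≠ 0 := by
  have := hM.two_ne
  rw [show (4 : K) = 2 * 2 by norm_num]
  exact mul_ne_zero this this

/-- the equation in the coordinates `(X, η)` -/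
lemma eta_sq {x y η : K} (h : W.Equation x y) (hη : 2 * η = 2 * y + W.a₁ * x + W.a₃) :
    η ^ 2 = (x - x₀) ^ 3 + c / 4 * (x - x₀) ^ 2 + b * (x - x₀) := by
  rw [W.equation_iff] at h
  have h4 := hM.four_ne
  have hc := hM.hc
  have hb := hM.hb
  have hx := hM.hx₀
  simp only [WeierstrassCurve.b₂, WeierstrassCurve.b₄, WeierstrassCurve.b₆] at hc hb hx
  have : 4 * η ^ 2 = 4 * ((x - x₀) ^ 3 + c / 4 * (x - x₀) ^ 2 + b * (x - x₀)) := by
    have e : 4 * (c / 4) = c := by field_simp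
    linear_combination (2 * η + 2 * y + W.a₁ * x + W.a₃) * hη + 4 * h - (x - x₀) ^ 2 * hc
      - 2 * (x - x₀) * hb + hx - (x - x₀) ^ 2 * e
  exact mul_left_cancel₀ h4 this

lemma two_mul_eta (x y : K) :
    2 * ((2 * y + W.a₁ * x + W.a₃) / 2) = 2 * y + W.a₁ * x + W.a₃ := by
  have := hM.two_ne
  field_simp

lemma eta_sq' {x y : K} (h : W.Equation x y) :
    ((2 * y + W.a₁ * x + W.a₃) / 2) ^ 2 =
      (x - x₀) ^ 3 + c / 4 * (x - x₀) ^ 2 + b * (x - x₀) :=
  hM.eta_sq h (hM.two_mul_eta x y)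

/-- `ψ₂² = X (4 X² + c X + 4 b)` -/
lemma psi_eq {x y : K} (h : W.Equation x y) :
    4 * ((2 * y + W.a₁ * x + W.a₃) / 2) ^ 2 =
      (x - x₀) * (4 * (x - x₀) ^ 2 + c * (x - x₀) + 4 * b) := by
  have h4 := hM.four_ne
  rw [hM.eta_sq' h]
  field_simp

lemma a_eq : c / 4 = (W.a₁ ^ 2 + 4 * W.a₂ + 12 * x₀) / 4 := by
  have hc := hM.hc
  simp only [WeierstrassCurve.b₂] at hc
  rw [hc]

lemma b_eq : b = (2 * W.a₄ + W.a₁ * W.a₃ + (W.a₁ ^ 2 + 4 * W.a₂) * x₀ + 6 * x₀ ^ 2) / 2 := by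
  have h2 := hM.two_ne
  have hb := hM.hb
  simp only [WeierstrassCurve.b₂, WeierstrassCurve.b₄] at hb
  rw [eq_div_iff h2]
  linear_combination hb

variable [DecidableEq K]

/-- `X(P + Q)` for `x(P) ≠ x(Q)` -/
lemma addX_sub {x₁ y₁ x₂ y₂ : K} (hx : x₁ ≠ x₂) :
    W.addX x₁ x₂ (W.slope x₁ x₂ y₁ y₂) - x₀ =
      (((2 * y₁ + W.a₁ * x₁ + W.a₃) / 2 - (2 * y₂ + W.a₁ * x₂ + W.a₃) / 2) /
        ((x₁ - x₀) - (x₂ - x₀))) ^ 2 - c / 4 - (x₁ - x₀) - (x₂ - x₀) := by
  have h2 := hM.two_ne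
  have h4 := hM.four_ne
  have hD : x₁ - x₂ ≠ 0 := sub_ne_zero.mpr hx
  rw [slope_of_X_ne hx, hM.a_eq, addX, show (x₁ - x₀) - (x₂ - x₀) = x₁ - x₂ by ring]
  field_simp
  ring

/-- `X(P - Q)` for `x(P) ≠ x(Q)` -/
lemma addX_sub_neg {x₁ y₁ x₂ y₂ : K} (hx : x₁ ≠ x₂) :
    W.addX x₁ x₂ (W.slope x₁ x₂ y₁ (W.negY x₂ y₂)) - x₀ =
      (((2 * y₁ + W.a₁ * x₁ + W.a₃) / 2 + (2 * y₂ + W.a₁ * x₂ + W.a₃) / 2) /
        ((x₁ - x₀) - (x₂ - x₀))) ^ 2 - c / 4 - (x₁ - x₀) - (x₂ - x₀) := by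
  have h2 := hM.two_ne
  have h4 := hM.four_ne
  have hD : x₁ - x₂ ≠ 0 := sub_ne_zero.mpr hx
  rw [slope_of_X_ne hx, hM.a_eq, addX, negY, show (x₁ - x₀) - (x₂ - x₀) = x₁ - x₂ by ring]
  field_simp
  ring

/-- `X(2P)` -/
lemma addX_sub_dup {x y : K} (hy : y ≠ W.negY x y) :
    W.addX x x (W.slope x x y y) - x₀ =
      ((3 * (x - x₀) ^ 2 + 2 * (c / 4) * (x - x₀) + b) /
        (2 * ((2 * y + W.a₁ * x + W.a₃) / 2))) ^ 2 - c / 4 - (x - x₀) - (x - x₀) := by
  have h2 := hM.two_ne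
  have h4 := hM.four_ne
  have hD : y - W.negY x y ≠ 0 := sub_ne_zero.mpr hy
  have hD' : 2 * y + W.a₁ * x + W.a₃ ≠ 0 := by
    intro h0
    apply hD
    rw [negY]
    linear_combination h0
  rw [slope_of_Y_ne rfl hy, hM.two_mul_eta, hM.a_eq, hM.b_eq, addX, negY]
  have e : y - (-y - W.a₁ * x - W.a₃) = 2 * y + W.a₁ * x + W.a₃ := by ring
  rw [e]
  obtain ⟨D, hDdef⟩ : ∃ D, D = 2 * y + W.a₁ * x + W.a₃ := ⟨_, rfl⟩
  rw [← hDdef] at hD' ⊢
  field_simp
  subst hDdef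
  ring

/-- the class of `2 • P` -/
lemma cls_double (P : W.Point) :
    Rel (v b) (cls v x₀ b (P + P)) (cls v x₀ b P * cls v x₀ b P) := by
  have hD := hM.toNodeDataG
  have h2 := hM.two_ne
  have h4 := hM.four_ne
  rcases P with _ | ⟨x, y, h⟩
  · change Rel (v b) (cls v x₀ b (0 + 0 : W.Point)) (1 * 1)
    rw [add_zero, cls_zero, one_mul]
    exact Rel.refl _
  have hψ := hM.psi_eq h.1
  by_cases hy : y = W.negY x y
  · rw [Point.add_self_of_Y_eq hy, cls_zero, cls_some]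
    -- 2-torsion point
    have hη : ((2 * y + W.a₁ * x + W.a₃) / 2) = 0 := by
      rw [negY] at hy
      rw [div_eq_zero_iff]
      left
      linear_combination hy
    rw [hη] at hψ
    have hq' : (x - x₀) * (4 * (x - x₀) ^ 2 + c * (x - x₀) + 4 * b) = 0 := by
      rw [← hψ]; ring
    rcases hD.two_torsion_class hq' with e | e
    · rw [e, one_mul]; exact Rel.refl _
    · rw [e]; exact hD.rel_one_sq_beta
  · rw [Point.add_self_of_Y_ne hy, cls_some, cls_some, ← sq]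
    have hη0 : ((2 * y + W.a₁ * x + W.a₃) / 2) ≠ 0 := by
      intro h0
      apply hy
      rw [div_eq_zero_iff] at h0
      rcases h0 with h0 | h0
      · rw [negY]; linear_combination h0
      · exact absurd h0 h2
    have hψ0 : 4 * ((2 * y + W.a₁ * x + W.a₃) / 2) ^ 2 ≠ 0 :=
      mul_ne_zero h4 (pow_ne_zero 2 hη0)
    refine hD.dup_step hψ hψ0 ?_
    rw [hM.addX_sub_dup hy]
    exact xonly_dup h2 hη0 (hM.eta_sq' h.1)

/-- **The pair lemma**: the classes of `Q + P` and `Q - P` are, up to `Rel` and in some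
order, `cls Q * cls P` and `cls Q / cls P`. -/
theorem pair_class (Q P : W.Point) :
    StepGoal (v b) (cls v x₀ b Q) (cls v x₀ b P) (cls v x₀ b (Q + P)) (cls v x₀ b (Q - P)) := by
  have hD := hM.toNodeDataG
  have hbne := hD.b_ne'
  have h4 := hM.four_ne
  rcases Q with _ | ⟨x₁, y₁, h₁⟩
  · change StepGoal (v b) 1 (cls v x₀ b P) (cls v x₀ b (0 + P)) (cls v x₀ b (0 - P))
    rw [zero_add, zero_sub, cls_neg]
    left
    rw [one_mul, one_div]
    exact ⟨Rel.refl _, (Rel.refl _).inv_right⟩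
  rcases P with _ | ⟨x₂, y₂, h₂⟩
  · change StepGoal (v b) _ 1 (cls v x₀ b (_ + 0)) (cls v x₀ b (_ - 0))
    rw [add_zero, sub_zero]
    left
    rw [mul_one, div_one]
    exact ⟨Rel.refl _, Rel.refl _⟩
  by_cases hx : x₁ = x₂
  · have hc : cls v x₀ b (Point.some x₁ y₁ h₁) = cls v x₀ b (Point.some x₂ y₂ h₂) := by
      rw [cls_some, cls_some, hx]
    have hcne : cls v x₀ b (Point.some x₂ y₂ h₂) ≠ 0 := cls_ne_zero hbne _
    rw [hc]
    rcases (Point.X_eq_iff (h₁ := h₁) (h₂ := h₂)).mp hx with e | e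
    · rw [e, sub_self, cls_zero]
      left
      rw [div_self hcne]
      exact ⟨hM.cls_double _, Rel.refl _⟩
    · rw [e, neg_add_cancel, cls_zero]
      right
      rw [div_self hcne]
      refine ⟨Rel.refl _, ?_⟩
      have : -Point.some x₂ y₂ h₂ - Point.some x₂ y₂ h₂ =
          -(Point.some x₂ y₂ h₂ + Point.some x₂ y₂ h₂) := by abel
      rw [this, cls_neg]
      exact hM.cls_double _
  · rw [sub_eq_add_neg, Point.neg_some, Point.add_of_X_ne hx, Point.add_of_X_ne hx]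
    simp only [cls_some]
    have hX : x₁ - x₀ ≠ x₂ - x₀ := fun h => hx (by linear_combination h)
    have hDne : (x₁ - x₀) - (x₂ - x₀) ≠ 0 := sub_ne_zero.mpr hX
    have hq₁ := hM.eta_sq' h₁.1
    have hq₂ := hM.eta_sq' h₂.1
    refine hD.local_step hX ?_ ?_
    · rw [hM.addX_sub hx, hM.addX_sub_neg hx, xonly_sum hDne hq₁ hq₂]
      field_simp
      ring
    · rw [hM.addX_sub hx, hM.addX_sub_neg hx]
      exact xonly_prod hDne hq₁ hq₂

/-- **Main induction**: the class of `n • P` is the `n`-th power of the class of `P`, up to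
the dihedral relation. -/
theorem cls_nsmul (P : W.Point) (n : ℕ) :
    Rel (v b) (cls v x₀ b (n • P)) (cls v x₀ b P ^ n) := by
  have hD := hM.toNodeDataG
  have hbne := hD.b_ne'
  induction n using Nat.twoStepInduction with
  | zero => rw [zero_smul, pow_zero, cls_zero]; exact Rel.refl _
  | one => rw [one_smul, pow_one]; exact Rel.refl _
  | more m hm hn =>
    have hpair := hM.pair_class ((m + 1) • P) P
    have e1 : (m + 1) • P + P = (m + 2) • P := by
      rw [add_smul, add_smul, one_smul]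
      rw [show (2 : ℕ) • P = P + P from two_nsmul P]
      abel
    have e2 : (m + 1) • P - P = m • P := by
      rw [add_smul, one_smul]; abel
    rw [e1, e2] at hpair
    exact rel_step hbne (cls_ne_zero hbne P) hn hm hpair

/-- If `n • P = 0` then the `n`-th power of the class of `P` is an even power of `β`. -/
theorem cls_pow_of_nsmul_eq_zero (P : W.Point) (n : ℕ) (hP : n • P = 0) :
    ∃ k : ℤ, cls v x₀ b P ^ n = v b ^ (2 * k) := by
  have hD := hM.toNodeDataG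
  have hbne := hD.b_ne'
  have h := hM.cls_nsmul P n
  rw [hP, cls_zero] at h
  obtain ⟨k, hk | hk⟩ := h
  · refine ⟨-k, ?_⟩
    have h1 : cls v x₀ b P ^ n * v b ^ (2 * k) = 1 := hk.symm
    rw [mul_neg, zpow_neg]
    exact eq_inv_of_mul_eq_one_left h1
  · refine ⟨k, ?_⟩
    have h1 : (cls v x₀ b P ^ n)⁻¹ * v b ^ (2 * k) = 1 := hk.symm
    exact inv_injective (eq_inv_of_mul_eq_one_left h1)

/-- **Valuation of a torsion point reducing to the node.** If `p` is odd, `p • P = 0` and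
`P = (x, y)` reduces to the node (`|x - x₀| < 1`), then `|b| < |x - x₀|` and
`|x - x₀| ^ p = |b| ^ (2 k)` for some natural number `k` with `0 < 2 k < p`. No hypothesis on
`v p`, on `v 2`, or on the other multiples of `P` is needed. -/
theorem node_torsion_val {p : ℕ} (hp : Odd p) {x y : K} (h : W.Nonsingular x y)
    (hP : p • Point.some x y h = 0) (hx : v (x - x₀) < 1) :
    v b < v (x - x₀) ∧
      ∃ k : ℕ, 0 < k ∧ 2 * k < p ∧ v (x - x₀) ^ p = v b ^ (2 * k) := by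
  have hD := hM.toNodeDataG
  have hb0 := hD.b_pos
  have hb1 := hD.b_lt
  obtain ⟨k, hk⟩ := hM.cls_pow_of_nsmul_eq_zero _ p hP
  rw [cls_some] at hk
  have hp0 : p ≠ 0 := by
    rintro rfl
    exact absurd hp (by decide)
  rcases le_or_gt (v (x - x₀)) (v b) with hle | hlt
  · -- impossible: `β ^ p = β ^ (2k)` with `p` odd
    exfalso
    rw [clamp_of_le hD.b_le hle, ← zpow_natCast] at hk
    have := zpow_right_injective₀ hb0 hb1.ne hk
    obtain ⟨m, hm⟩ := hp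
    omega
  · refine ⟨hlt, ?_⟩
    rw [clamp_of_mem hlt.le hx.le] at hk
    have hu0 : 0 < v (x - x₀) := hb0.trans hlt
    -- bounds on `k`
    have h1 : v (x - x₀) ^ p < 1 := pow_lt_one₀ hu0.le hx hp0
    have h2 : v b ^ p < v (x - x₀) ^ p := pow_lt_pow_left₀ hlt hb0.le hp0
    rw [hk] at h1 h2
    have hk1 : 0 < 2 * k := by
      have : v b ^ (2 * k) < v b ^ (0 : ℤ) := by rw [zpow_zero]; exact h1
      exact (zpow_lt_zpow_iff_right_of_lt_one₀ hb0 hb1).mp this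
    have hk2 : 2 * k < p := by
      rw [← zpow_natCast] at h2
      exact (zpow_lt_zpow_iff_right_of_lt_one₀ hb0 hb1).mp h2
    refine ⟨k.toNat, by omega, by omega, ?_⟩
    rw [hk, ← zpow_natCast]
    congr 1
    push_cast
    omega

/-- **No torsion at the node when the value group is cyclic and `p ∤ 2 ord(b)`.** If
`|b| = γ ^ κ` and `|x - x₀| = γ ^ n` for some `0 < γ < 1` (for instance `K = ℚ` with the
`ℓ`-adic valuation), and `p` is odd and prime to `κ`, then a point `(x, y)` with `p • P = 0`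
cannot reduce to the node. -/
theorem not_node_of_coprime {p : ℕ} (hp : Odd p) {x y : K} (h : W.Nonsingular x y)
    (hP : p • Point.some x y h = 0) {γ : Γ₀} (hγ0 : 0 < γ) (hγ1 : γ < 1) {κ n : ℤ}
    (hb : v b = γ ^ κ) (hxn : v (x - x₀) = γ ^ n) (hcop : IsCoprime (p : ℤ) κ) :
    1 ≤ v (x - x₀) := by
  by_contra hlt
  rw [not_le] at hlt
  obtain ⟨-, k, hk0, hkp, hk⟩ := hM.node_torsion_val hp h hP hlt
  rw [hb, hxn, ← zpow_natCast, ← zpow_natCast, ← zpow_mul, ← zpow_mul] at hk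
  have e := zpow_right_injective₀ hγ0 hγ1.ne hk
  -- `n * p = κ * (2 k)`, so `p ∣ κ * (2k)`, so `p ∣ 2k`, so `p ∣ k` (p odd): impossible
  have hdvd : (p : ℤ) ∣ κ * ((2 * k : ℕ) : ℤ) := ⟨n, by rw [← e]; ring⟩
  have hdvd2 : (p : ℤ) ∣ ((2 * k : ℕ) : ℤ) := hcop.dvd_of_dvd_mul_left hdvd
  have hdvd3 : p ∣ 2 * k := Int.natCast_dvd_natCast.mp hdvd2
  have := Nat.le_of_dvd (by omega) hdvd3
  omega

end NodeModelG

/-- The node data of a curve `y² + a₁ x y = x³ + a₂ x² + a₄ x` (`a₃ = a₆ = 0`) with `|b₂| = 1`,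
`0 < |a₄| < 1`: node at `x₀ = 0`, `c = b₂`, `b = a₄`. Valid in every residue characteristic
(e.g. the Frey curve at `2`). -/
theorem nodeModelG_zero (W : WeierstrassCurve.Affine K) (v : Valuation K Γ₀) (h2 : (2 : K) ≠ 0)
    (ha₃ : W.a₃ = 0) (ha₆ : W.a₆ = 0) (hb₂ : v W.b₂ = 1) (ha₄ : v W.a₄ < 1) (ha₄0 : W.a₄ ≠ 0) :
    NodeModelG W v 0 W.b₂ W.a₄ where
  c_one := hb₂
  b_lt := ha₄
  b_ne := ha₄0
  two_ne := h2
  hc := by ring
  hb := by
    simp only [WeierstrassCurve.b₄, ha₃]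
    ring
  hx₀ := by
    simp only [WeierstrassCurve.b₆, ha₃, ha₆]
    ring

/-- `node_torsion_val` for curves with `a₃ = a₆ = 0` and node at the origin. -/
theorem node_torsion_val_zero [DecidableEq K] (W : WeierstrassCurve.Affine K)
    (v : Valuation K Γ₀) (h2 : (2 : K) ≠ 0)
    (ha₃ : W.a₃ = 0) (ha₆ : W.a₆ = 0) (hb₂ : v W.b₂ = 1) (ha₄ : v W.a₄ < 1) (ha₄0 : W.a₄ ≠ 0)
    {p : ℕ} (hp : Odd p) {x y : K} (h : W.Nonsingular x y)
    (hP : p • Point.some x y h = 0) (hx : v x < 1) :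
    v W.a₄ < v x ∧ ∃ k : ℕ, 0 < k ∧ 2 * k < p ∧ v x ^ p = v W.a₄ ^ (2 * k) := by
  have := (nodeModelG_zero W v h2 ha₃ ha₆ hb₂ ha₄ ha₄0).node_torsion_val hp h hP
    (by rw [sub_zero]; exact hx)
  rwa [sub_zero] at this

/-- `not_node_of_coprime` for curves with `a₃ = a₆ = 0` and node at the origin. -/
theorem not_node_of_coprime_zero [DecidableEq K] (W : WeierstrassCurve.Affine K)
    (v : Valuation K Γ₀) (h2 : (2 : K) ≠ 0)
    (ha₃ : W.a₃ = 0) (ha₆ : W.a₆ = 0) (hb₂ : v W.b₂ = 1) (ha₄ : v W.a₄ < 1) (ha₄0 : W.a₄ ≠ 0)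
    {p : ℕ} (hp : Odd p) {x y : K} (h : W.Nonsingular x y)
    (hP : p • Point.some x y h = 0) {γ : Γ₀} (hγ0 : 0 < γ) (hγ1 : γ < 1) {κ n : ℤ}
    (hb : v W.a₄ = γ ^ κ) (hxn : v x = γ ^ n) (hcop : IsCoprime (p : ℤ) κ) :
    1 ≤ v x := by
  have := (nodeModelG_zero W v h2 ha₃ ha₆ hb₂ ha₄ ha₄0).not_node_of_coprime hp h hP hγ0 hγ1
    hb (by rw [sub_zero]; exact hxn) hcop
  rwa [sub_zero] at this

end Fermat.Agent.S13.helper67
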