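import Mathlib

/-!
# S13, package (3a): the Eisenstein argument at `p` (abstract polynomial part)

Let `A` be a valuation subring of an algebraically closed field `K` of characteristic zero with
`(p : K)` a nonunit of `A` (`p` a prime number).  Let `f ∈ ℤ[X]` have leading coefficient `p`,
positive degree, and assume that **no root of `f` in `K` lies in `A`**.  Then the reversed
polynomial `f.reverse` is Eisenstein at `p`, hence irreducible over `ℚ`; consequently the
automorphism group of `K` over `ℚ` acts transitively on the roots of `f`.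

This is applied (see `helper72_EisensteinEC.lean`) to the `p`-th division polynomial of an
integral Weierstrass curve: if all nonzero `p`-torsion points were in the kernel of reduction at a
place over `p`, Galois would act transitively on the `x`-coordinates of `E[p] ∖ 0`, which is
incompatible with a Galois-stable line.
-/

set_option autoImplicit false
set_option linter.style.haveILetI false

namespace Fermat.Agent.S13.helper72

open Polynomial

section Valuation

variable {K : Type*} [Field K]

lemma nonunits_add (A : ValuationSubring K) {a b : K} (ha : a ∈ A.nonunits)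
    (hb : b ∈ A.nonunits) : a + b ∈ A.nonunits := by
  rw [ValuationSubring.mem_nonunits_iff] at ha hb ⊢
  exact lt_of_le_of_lt (A.valuation.map_add a b) (max_lt ha hb)

lemma nonunits_sub (A : ValuationSubring K) {a b : K} (ha : a ∈ A.nonunits)
    (hb : b ∈ A.nonunits) : a - b ∈ A.nonunits := by
  rw [ValuationSubring.mem_nonunits_iff] at ha hb ⊢
  exact lt_of_le_of_lt (A.valuation.map_sub a b) (max_lt ha hb)

lemma nonunits_mul_left (A : ValuationSubring K) {a b : K} (ha : a ∈ A)
    (hb : b ∈ A.nonunits) : a * b ∈ A.nonunits := by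
  rw [ValuationSubring.mem_nonunits_iff] at hb ⊢
  rw [map_mul]
  have h1 : A.valuation a ≤ 1 := (A.valuation_le_one_iff a).mpr ha
  calc A.valuation a * A.valuation b ≤ 1 * A.valuation b := mul_le_mul' h1 le_rfl
    _ = A.valuation b := one_mul _
    _ < 1 := hb

lemma nonunits_mul_right (A : ValuationSubring K) {a b : K} (ha : a ∈ A.nonunits)
    (hb : b ∈ A) : a * b ∈ A.nonunits := by
  rw [mul_comm]; exact nonunits_mul_left A hb ha

lemma mem_of_mem_nonunits (A : ValuationSubring K) {a : K} (ha : a ∈ A.nonunits) : a ∈ A := by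
  rw [ValuationSubring.mem_nonunits_iff] at ha
  exact (A.valuation_le_one_iff a).mp ha.le

lemma one_notMem_nonunits (A : ValuationSubring K) : (1 : K) ∉ A.nonunits := by
  rw [ValuationSubring.mem_nonunits_iff, map_one]
  exact lt_irrefl _

lemma zero_mem_nonunits (A : ValuationSubring K) : (0 : K) ∈ A.nonunits := by
  rw [ValuationSubring.mem_nonunits_iff, map_zero]
  exact zero_lt_one

lemma int_mem (A : ValuationSubring K) (n : ℤ) : (n : K) ∈ A :=
  _root_.intCast_mem A n

/-- If `x ∉ A` then `x⁻¹` is a nonunit of `A`. -/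
lemma inv_mem_nonunits_of_notMem (A : ValuationSubring K) {x : K} (hx : x ∉ A) :
    x⁻¹ ∈ A.nonunits := by
  rw [ValuationSubring.mem_nonunits_iff, map_inv₀]
  have h1 : 1 < A.valuation x := by
    by_contra h
    exact hx ((A.valuation_le_one_iff x).mp (not_lt.mp h))
  have hx0 : A.valuation x ≠ 0 := (zero_lt_one.trans h1).ne'
  exact (inv_lt_one₀ (zero_lt_iff.mpr hx0)).mpr h1

/-- Integers which are nonunits of a valuation subring over `p` are multiples of `p`. -/
lemma int_dvd_of_mem_nonunits (A : ValuationSubring K) {p : ℕ} (hp : p.Prime)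
    (hpA : (p : K) ∈ A.nonunits) {n : ℤ} (hn : (n : K) ∈ A.nonunits) : (p : ℤ) ∣ n := by
  by_contra h
  have hprime : Prime (p : ℤ) := Nat.prime_iff_prime_int.mp hp
  have hcop : IsCoprime (p : ℤ) n := hprime.irreducible.coprime_iff_not_dvd.mpr h
  obtain ⟨u, v, huv⟩ := hcop
  have h1 : (u : K) * (p : K) + (v : K) * (n : K) = 1 := by
    have := congrArg (Int.cast : ℤ → K) huv
    push_cast at this
    exact this
  have h2 : (1 : K) ∈ A.nonunits := by
    rw [← h1]
    exact nonunits_add A (nonunits_mul_left A (int_mem A u) hpA)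
      (nonunits_mul_left A (int_mem A v) hn)
  exact one_notMem_nonunits A h2

end Valuation


section Coefficients

variable {K : Type*} [Field K]

/-- The coefficients of `∏ (X - η)` for nonunits `η` of `A`: all are in `A`, and all but the
leading one are nonunits. -/
lemma coeff_prod_X_sub_C (A : ValuationSubring K) (R : Multiset K)
    (hR : ∀ η ∈ R, η ∈ A.nonunits) :
    (∀ k, ((R.map fun η => (X : K[X]) - C η).prod).coeff k ∈ A) ∧
      ∀ k, k < Multiset.card R → ((R.map fun η => (X : K[X]) - C η).prod).coeff k ∈ A.nonunits := by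
  induction R using Multiset.induction_on with
  | empty =>
    refine ⟨fun k => ?_, fun k hk => absurd hk (by simp)⟩
    simp only [Multiset.map_zero, Multiset.prod_zero, coeff_one]
    split_ifs
    · exact A.one_mem
    · exact A.zero_mem
  | cons η R ih =>
    have hη : η ∈ A.nonunits := hR η (Multiset.mem_cons_self η R)
    have hηA : η ∈ A := mem_of_mem_nonunits A hη
    obtain ⟨ih1, ih2⟩ := ih fun x hx => hR x (Multiset.mem_cons_of_mem hx)
    set q : K[X] := (R.map fun η => (X : K[X]) - C η).prod with hq
    have hprod : (((η ::ₘ R).map fun η => (X : K[X]) - C η).prod) = (X - C η) * q := by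
      rw [Multiset.map_cons, Multiset.prod_cons]
    have hcoeff0 : ((X - C η) * q).coeff 0 = -(η * q.coeff 0) := by
      rw [sub_mul, coeff_sub, coeff_C_mul, mul_comm X q, coeff_mul_X_zero, zero_sub]
    have hcoeffS : ∀ k, ((X - C η) * q).coeff (k + 1) = q.coeff k - η * q.coeff (k + 1) := by
      intro k
      rw [sub_mul, coeff_sub, coeff_C_mul, coeff_X_mul]
    rw [hprod]
    refine ⟨fun k => ?_, fun k hk => ?_⟩
    · cases k with
      | zero =>
        rw [hcoeff0]
        exact neg_mem (mul_mem hηA (ih1 0))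
      | succ k =>
        rw [hcoeffS]
        exact sub_mem (ih1 k) (mul_mem hηA (ih1 (k + 1)))
    · rw [Multiset.card_cons] at hk
      cases k with
      | zero =>
        rw [hcoeff0]
        have := nonunits_mul_right A hη (ih1 0)
        rw [ValuationSubring.mem_nonunits_iff] at this ⊢
        rwa [Valuation.map_neg]
      | succ k =>
        rw [hcoeffS]
        exact nonunits_sub A (ih2 k (by omega)) (nonunits_mul_right A hη (ih1 (k + 1)))

end Coefficients

section Main

variable {K : Type*} [Field K] [CharZero K] [IsAlgClosed K]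

/-- **Eisenstein argument.** Let `f ∈ ℤ[X]` have leading coefficient a prime `p` and positive
degree, and let `A` be a valuation subring of the algebraically closed field `K` over `p`.
If no root of `f` in `K` lies in `A`, then `f.reverse` is irreducible over `ℚ`. -/
theorem irreducible_reverse_of_roots_notMem (A : ValuationSubring K) {p : ℕ} (hp : p.Prime)
    (hpA : (p : K) ∈ A.nonunits) (f : ℤ[X]) (hlc : f.leadingCoeff = (p : ℤ))
    (hd : 0 < f.natDegree)
    (hroots : ∀ ξ : K, (f.map (Int.castRingHom K)).IsRoot ξ → ξ ∉ A) :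
    Irreducible (f.reverse.map (Int.castRingHom ℚ)) := by
  classical
  have hinj : Function.Injective (Int.castRingHom K) := Int.cast_injective
  have hp0 : (p : ℤ) ≠ 0 := by exact_mod_cast hp.ne_zero
  have hpK0 : (p : K) ≠ 0 := by exact_mod_cast hp.ne_zero
  have hprime : Prime (p : ℤ) := Nat.prime_iff_prime_int.mp hp
  -- the constant coefficient of `f` is nonzero
  have hf0 : f.coeff 0 ≠ 0 := by
    intro h0
    refine hroots 0 ?_ A.zero_mem
    rw [IsRoot.def, ← coeff_zero_eq_eval_zero, coeff_map, h0, map_zero]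
  have htrail : f.natTrailingDegree = 0 := by
    by_contra h
    exact hf0 (coeff_eq_zero_of_lt_natTrailingDegree (Nat.pos_of_ne_zero h))
  set g : ℤ[X] := f.reverse with hg
  have hgdeg : g.natDegree = f.natDegree := by
    rw [hg, reverse_natDegree, htrail, Nat.sub_zero]
  have hglc : g.leadingCoeff = f.coeff 0 := by
    rw [hg, reverse_leadingCoeff, trailingCoeff, htrail]
  have hg0 : g.coeff 0 = (p : ℤ) := by
    rw [hg, coeff_zero_reverse, hlc]
  have hgne : g ≠ 0 := by
    intro h
    rw [h, coeff_zero] at hg0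
    exact hp0 hg0.symm
  set gK : K[X] := g.map (Int.castRingHom K) with hgK
  have hgKdeg : gK.natDegree = f.natDegree := by
    rw [hgK, natDegree_map_eq_of_injective hinj, hgdeg]
  have hgKlc : gK.leadingCoeff = ((f.coeff 0 : ℤ) : K) := by
    rw [hgK, leadingCoeff_map_of_injective hinj, hglc]; rfl
  have hgK0 : gK.coeff 0 = (p : K) := by
    rw [hgK, coeff_map, hg0]; simp
  -- the roots of `gK` are nonunits of `A`
  have hrootsg : ∀ η ∈ gK.roots, η ∈ A.nonunits := by
    intro η hη
    have hηroot : gK.IsRoot η := isRoot_of_mem_roots hη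
    have hη0 : η ≠ 0 := by
      intro h
      rw [h, IsRoot.def, ← coeff_zero_eq_eval_zero, hgK0] at hηroot
      exact hpK0 hηroot
    have hinv : (f.map (Int.castRingHom K)).IsRoot η⁻¹ := by
      letI : Invertible η⁻¹ := invertibleOfNonzero (inv_ne_zero hη0)
      have h1 := (eval₂_reverse_eq_zero_iff (Int.castRingHom K) η⁻¹ f).mp (by
        rw [invOf_eq_inv, inv_inv, ← eval_map]
        exact hηroot)
      rwa [← eval_map] at h1
    have := inv_mem_nonunits_of_notMem A (hroots _ hinv)
    rwa [inv_inv] at this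
  -- factorisation of `gK`
  have hsplit : gK = C gK.leadingCoeff * (gK.roots.map fun η => (X : K[X]) - C η).prod :=
    (IsAlgClosed.splits gK).eq_prod_roots
  have hcard : Multiset.card gK.roots = f.natDegree := by
    rw [← hgKdeg]
    exact (IsAlgClosed.splits gK).natDegree_eq_card_roots.symm
  obtain ⟨hq1, hq2⟩ := coeff_prod_X_sub_C A gK.roots hrootsg
  set q : K[X] := (gK.roots.map fun η => (X : K[X]) - C η).prod with hq
  have hcoeff : ∀ k, ((g.coeff k : ℤ) : K) = ((f.coeff 0 : ℤ) : K) * q.coeff k := by
    intro k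
    have h1 : gK.coeff k = ((g.coeff k : ℤ) : K) := by rw [hgK, coeff_map]; rfl
    rw [← h1, hsplit, coeff_C_mul, hgKlc]
  -- lower coefficients of `g` are divisible by `p`
  have hlow : ∀ k, k < f.natDegree → (p : ℤ) ∣ g.coeff k := by
    intro k hk
    refine int_dvd_of_mem_nonunits A hp hpA ?_
    rw [hcoeff k]
    exact nonunits_mul_left A (int_mem A _) (hq2 k (hcard ▸ hk))
  -- the leading coefficient of `g` is not divisible by `p`
  have hlead : ¬ (p : ℤ) ∣ f.coeff 0 := by
    rintro ⟨c, hc⟩
    have h1 := hcoeff 0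
    rw [hg0, hc] at h1
    push_cast at h1
    have h2 : (1 : K) = (c : K) * q.coeff 0 := by
      have h3 : (p : K) * 1 = (p : K) * ((c : K) * q.coeff 0) := by
        rw [mul_one, ← mul_assoc]; exact h1
      exact mul_left_cancel₀ hpK0 h3
    have h4 : (1 : K) ∈ A.nonunits := by
      rw [h2]
      exact nonunits_mul_left A (int_mem A c) (hq2 0 (hcard ▸ hd))
    exact one_notMem_nonunits A h4
  -- `g` is primitive
  have hprim : g.IsPrimitive := by
    rw [isPrimitive_iff_isUnit_of_C_dvd]
    intro r hr
    have hr0 : r ∣ (p : ℤ) := by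
      have := (C_dvd_iff_dvd_coeff r g).mp hr 0
      rwa [hg0] at this
    have hr1 : r ∣ f.coeff 0 := by
      have := (C_dvd_iff_dvd_coeff r g).mp hr g.natDegree
      rwa [coeff_natDegree, hglc] at this
    have hcop : IsCoprime (p : ℤ) (f.coeff 0) := hprime.irreducible.coprime_iff_not_dvd.mpr hlead
    exact hcop.isUnit_of_dvd' hr0 hr1
  -- Eisenstein
  have hirr : Irreducible g := by
    refine irreducible_of_eisenstein_criterion (P := Ideal.span {(p : ℤ)})
      ((Ideal.span_singleton_prime hp0).mpr hprime) ?_ ?_ ?_ ?_ hprim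
    · rw [hglc, Ideal.mem_span_singleton]
      exact hlead
    · intro n hn
      rw [Ideal.mem_span_singleton]
      refine hlow n ?_
      rw [← hgdeg]
      exact coe_lt_degree.mp hn
    · exact natDegree_pos_iff_degree_pos.mp (hgdeg ▸ hd)
    · rw [hg0, Ideal.span_singleton_pow, Ideal.mem_span_singleton]
      intro h
      have h1 : (p : ℤ) * p ∣ p * 1 := by rw [mul_one, ← sq]; exact h
      have h2 : (p : ℤ) ∣ 1 := (mul_dvd_mul_iff_left hp0).mp h1
      exact hprime.not_dvd_one h2
  exact (IsPrimitive.Int.irreducible_iff_irreducible_map_cast hprim).mp hirr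

end Main

section Transitivity

variable {K : Type*} [Field K] [Algebra ℚ K] [IsAlgClosed K] [Algebra.IsAlgebraic ℚ K]

/-- **Transitivity.** In the situation of `irreducible_reverse_of_roots_notMem`, with `K` an
algebraic closure of `ℚ`, the automorphisms of `K` over `ℚ` act transitively on the roots of
`f` in `K`. -/
theorem exists_algEquiv_of_isRoot (A : ValuationSubring K) {p : ℕ} (hp : p.Prime)
    (hpA : (p : K) ∈ A.nonunits) (f : ℤ[X]) (hlc : f.leadingCoeff = (p : ℤ))
    (hd : 0 < f.natDegree)
    (hroots : ∀ ξ : K, (f.map (Int.castRingHom K)).IsRoot ξ → ξ ∉ A)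
    {ξ ξ' : K} (hξ : (f.map (Int.castRingHom K)).IsRoot ξ)
    (hξ' : (f.map (Int.castRingHom K)).IsRoot ξ') :
    ∃ σ : K ≃ₐ[ℚ] K, σ ξ = ξ' := by
  haveI : CharZero K := algebraRat.charZero K
  have hirr := irreducible_reverse_of_roots_notMem A hp hpA f hlc hd hroots
  have key : ∀ ζ : K, (f.map (Int.castRingHom K)).IsRoot ζ →
      aeval ζ⁻¹ (f.reverse.map (Int.castRingHom ℚ)) = 0 := by
    intro ζ hζ
    have hζ0 : ζ ≠ 0 := fun h => hroots ζ hζ (h ▸ A.zero_mem)
    letI : Invertible ζ := invertibleOfNonzero hζ0
    have h1 : eval₂ (Int.castRingHom K) ζ f = 0 := by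
      rw [← eval_map]; exact hζ
    have h2 := (eval₂_reverse_eq_zero_iff (Int.castRingHom K) ζ f).mpr h1
    rw [invOf_eq_inv] at h2
    rw [aeval_def, eval₂_map]
    have h3 : (algebraMap ℚ K).comp (Int.castRingHom ℚ) = Int.castRingHom K :=
      RingHom.ext_int _ _
    rw [h3]
    exact h2
  have hm : minpoly ℚ ξ⁻¹ = minpoly ℚ ξ'⁻¹ := by
    rw [← minpoly.eq_of_irreducible hirr (key ξ hξ), ← minpoly.eq_of_irreducible hirr (key ξ' hξ')]
  haveI : IsAlgClosure ℚ K := ⟨inferInstance, inferInstance⟩
  haveI : Normal ℚ K := IsAlgClosure.normal ℚ K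
  obtain ⟨σ, hσ⟩ := IsConjRoot.exists_algEquiv (K := ℚ) (L := K) (x := ξ'⁻¹) (y := ξ⁻¹)
    (isConjRoot_def.mpr hm.symm)
  refine ⟨σ, ?_⟩
  rw [map_inv₀] at hσ
  exact inv_injective hσ

end Transitivity

end Fermat.Agent.S13.helper72
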