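import Fermat.Agent.S13.helper72_Eisenstein
import Fermat.Agent.S13.helper64_Ladder
import Fermat.Prelude.Def_FLTPrelim_GaloisRep
import Fermat.Prelude.Def_FLTPrelim_Ramification

/-!
# S13, packages (3a) and (3c): the Eisenstein argument at `p` for `p`-torsion points

* `exists_algEquiv_of_torsion` : if every nonzero `p`-torsion point of an integral Weierstrass
  curve is in the kernel of reduction at a place `A` over `p`, then Galois acts transitively on
  the `x`-coordinates of the nonzero `p`-torsion points.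
* `exists_torsion_not_inKer` (3a) : if `E[p]` has a Galois-stable submodule `N ≠ ⊥, ⊤`, then
  some nonzero `p`-torsion point has `x ∈ A`, i.e. `E[p] ∩ E₁` is a proper subgroup.
* `trivial_on_sub_or_quot` (3c, linear algebra) : if `finrank V ≤ 2`, `M ≠ ⊤`, `T V ⊆ M` and
  `T N ⊆ N`, then `T` kills `N` or `T V ⊆ N`.
-/

set_option autoImplicit false
set_option linter.style.haveILetI false

namespace Fermat.Agent.S13.helper72

open Polynomial WeierstrassCurve WeierstrassCurve.Affine WeierstrassCurve.Affine.Point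
open Fermat.Agent.S13.helper64

section LinearAlgebra

/-- (3c), linear algebra: in a space of dimension at most two, if `T` maps everything into a
proper subspace `M` and preserves `N`, then `T` kills `N` or maps everything into `N`. -/
theorem trivial_on_sub_or_quot {k V : Type*} [Field k] [AddCommGroup V] [Module k V]
    [Module.Finite k V] (hV : Module.finrank k V ≤ 2) (M N : Submodule k V) (hM : M ≠ ⊤)
    (T : V → V) (hTM : ∀ v, T v ∈ M) (hTN : ∀ v ∈ N, T v ∈ N) :
    (∀ v ∈ N, T v = 0) ∨ (∀ v, T v ∈ N) := by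
  by_cases hMN : M ≤ N
  · exact Or.inr fun v => hMN (hTM v)
  · left
    have h1 : Module.finrank k M < Module.finrank k V := Submodule.finrank_lt hM
    have h2 : M ⊓ N < M := lt_of_le_of_ne inf_le_left fun h => hMN (h ▸ inf_le_right)
    have h3 : Module.finrank k ↥(M ⊓ N) < Module.finrank k M :=
      Submodule.finrank_lt_finrank_of_lt h2
    have h4 : Module.finrank k ↥(M ⊓ N) = 0 := by omega
    have h5 : M ⊓ N = ⊥ := Submodule.finrank_eq_zero.mp h4
    intro v hv
    have : T v ∈ M ⊓ N := ⟨hTM v, hTN v hv⟩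
    rw [h5] at this
    exact (Submodule.mem_bot k).mp this

end LinearAlgebra

section EC

variable {K : Type*} [Field K] [DecidableEq K] [Algebra ℚ K] [IsAlgClosed K]
  [Algebra.IsAlgebraic ℚ K]

omit [DecidableEq K] [IsAlgClosed K] [Algebra.IsAlgebraic ℚ K] in
/-- The base change to `K` of (the rational curve attached to) an integral model. -/
lemma baseChange_eq_map_int (W' : Affine ℚ) (WZ : WeierstrassCurve ℤ)
    (hW : WZ.map (Int.castRingHom ℚ) = W') :
    (W'⁄K : WeierstrassCurve K) = WZ.map (Int.castRingHom K) := by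
  rw [← hW]
  show (WZ.map (Int.castRingHom ℚ)).map (algebraMap ℚ K) = _
  rw [WeierstrassCurve.map_map]
  congr 1
  exact RingHom.ext_int _ _

omit [DecidableEq K] [Algebra ℚ K] [Algebra.IsAlgebraic ℚ K] in
/-- Over an algebraically closed field every `x` is the `x`-coordinate of a point of the
affine Weierstrass equation. -/
lemma exists_equation (W : Affine K) (x : K) : ∃ y, W.Equation x y := by
  have hdeg : (C (1 : K) * X ^ 2 + C (W.a₁ * x + W.a₃) * X +
      C (-(x ^ 3 + W.a₂ * x ^ 2 + W.a₄ * x + W.a₆))).degree ≠ 0 := by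
    rw [degree_quadratic one_ne_zero]
    norm_num
  obtain ⟨y, hy⟩ := IsAlgClosed.exists_root _ hdeg
  refine ⟨y, (W.equation_iff' x y).mpr ?_⟩
  simp only [IsRoot.def, eval_add, eval_mul, eval_C, eval_pow, eval_X] at hy
  linear_combination hy

/-- **Transitivity on `x`-coordinates.** Let `W'` be a Weierstrass curve over `ℚ` with integral
model `WZ` and `Δ ≠ 0`, let `p = 2n+1` be a prime and `A` a valuation subring of `K`
(an algebraic closure of `ℚ`) over `p`.  If no nonzero `p`-torsion point has `x ∈ A`, then the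
automorphisms of `K` act transitively on the roots of the torsion polynomial. -/
theorem exists_algEquiv_of_torsion (W' : Affine ℚ) (WZ : WeierstrassCurve ℤ)
    (hW : WZ.map (Int.castRingHom ℚ) = W') (hΔ : W'.Δ ≠ 0)
    {p : ℕ} (hp : p.Prime) (n : ℕ) (hpn : p = 2 * n + 1)
    (hdeg : (torsPoly WZ n).natDegree ≤ 2 * n * (n + 1))
    (hcoeff : (torsPoly WZ n).coeff (2 * n * (n + 1)) = -((2 * n + 1 : ℕ) : ℤ))
    (A : ValuationSubring K) (hA : A.LiesOverPrime p)
    (hall : ∀ (x y : K) (h : (W'⁄K).Nonsingular x y),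
      (p : ℤ) • (Point.some x y h : (W'⁄K).Point) = 0 → x ∉ A)
    {x₀ y₀ x₁ y₁ : K} (h₀ : (W'⁄K).Nonsingular x₀ y₀) (h₁ : (W'⁄K).Nonsingular x₁ y₁)
    (ht₀ : (p : ℤ) • (Point.some x₀ y₀ h₀ : (W'⁄K).Point) = 0)
    (ht₁ : (p : ℤ) • (Point.some x₁ y₁ h₁ : (W'⁄K).Point) = 0) :
    ∃ σ : K ≃ₐ[ℚ] K, σ x₀ = x₁ := by
  subst hpn
  have hWK : (W'⁄K : WeierstrassCurve K) = WZ.map (Int.castRingHom K) :=
    baseChange_eq_map_int W' WZ hW
  have hΔK : (W'⁄K : WeierstrassCurve K).Δ ≠ 0 := by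
    show (W'.map (algebraMap ℚ K)).Δ ≠ 0
    rw [WeierstrassCurve.map_Δ]
    exact fun h => hΔ ((map_eq_zero (algebraMap ℚ K)).mp h)
  have hn : 0 < n := by
    rcases Nat.eq_zero_or_pos n with h | h
    · subst h
      exact absurd hp (by norm_num)
    · exact h
  have hpos : 0 < 2 * n * (n + 1) := by positivity
  have hc0 : (torsPoly WZ n).coeff (2 * n * (n + 1)) ≠ 0 := by
    rw [hcoeff, neg_ne_zero]
    exact Int.natCast_ne_zero.mpr (Nat.succ_ne_zero (2 * n))
  have hnat : (torsPoly WZ n).natDegree = 2 * n * (n + 1) :=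
    le_antisymm hdeg (le_natDegree_of_ne_zero hc0)
  set f : ℤ[X] := -(torsPoly WZ n) with hf
  have hlc : f.leadingCoeff = ((2 * n + 1 : ℕ) : ℤ) := by
    rw [hf, leadingCoeff_neg, leadingCoeff, hnat, hcoeff, neg_neg]
  have hd : 0 < f.natDegree := by
    rw [hf, natDegree_neg, hnat]; exact hpos
  have hfmap : f.map (Int.castRingHom K) = -(torsPoly (W'⁄K : WeierstrassCurve K) n) := by
    rw [hf, Polynomial.map_neg, torsPoly_map, hWK]
  have hroot_iff : ∀ ξ : K, (f.map (Int.castRingHom K)).IsRoot ξ ↔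
      (torsPoly (W'⁄K : WeierstrassCurve K) n).eval ξ = 0 := by
    intro ξ
    rw [hfmap, IsRoot.def, eval_neg, neg_eq_zero]
  have hcrit : ∀ {x y : K} (h : (W'⁄K).Nonsingular x y),
      ((2 * n + 1 : ℕ) : ℤ) • (Point.some x y h : (W'⁄K).Point) = 0 ↔
        (torsPoly (W'⁄K : WeierstrassCurve K) n).eval x = 0 := by
    intro x y h
    rw [natCast_zsmul]
    exact nsmul_eq_zero_iff_eval_torsPoly (W'⁄K : WeierstrassCurve K) hΔK n h
  have hroots : ∀ ξ : K, (f.map (Int.castRingHom K)).IsRoot ξ → ξ ∉ A := by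
    intro ξ hξ
    rw [hroot_iff] at hξ
    obtain ⟨y, hy⟩ := exists_equation (W'⁄K) ξ
    have hns : (W'⁄K).Nonsingular ξ y := (equation_iff_nonsingular_of_Δ_ne_zero hΔK).mp hy
    exact hall ξ y hns ((hcrit hns).mpr hξ)
  exact exists_algEquiv_of_isRoot A hp hA f hlc hd hroots
    ((hroot_iff x₀).mpr ((hcrit h₀).mp ht₀)) ((hroot_iff x₁).mpr ((hcrit h₁).mp ht₁))

/-- **(3a)**: if `E[p]` has a Galois-stable submodule `N ≠ ⊥, ⊤`, then some nonzero `p`-torsion
point has integral `x`-coordinate at `A` (a place over `p`); i.e. `E[p] ∩ E₁` is proper. -/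
theorem exists_torsion_x_mem (W' : Affine ℚ) (WZ : WeierstrassCurve ℤ)
    (hW : WZ.map (Int.castRingHom ℚ) = W') (hΔ : W'.Δ ≠ 0)
    {p : ℕ} (hp : p.Prime) (n : ℕ) (hpn : p = 2 * n + 1)
    (hdeg : (torsPoly WZ n).natDegree ≤ 2 * n * (n + 1))
    (hcoeff : (torsPoly WZ n).coeff (2 * n * (n + 1)) = -((2 * n + 1 : ℕ) : ℤ))
    (A : ValuationSubring K) (hA : A.LiesOverPrime p)
    (N : Submodule (ZMod p) (Submodule.torsionBy ℤ (W'⁄K).Point p))
    (hN : IsGaloisStable ℚ N) (hbot : N ≠ ⊥) (htop : N ≠ ⊤) :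
    ∃ (x y : K) (h : (W'⁄K).Nonsingular x y),
      (p : ℤ) • (Point.some x y h : (W'⁄K).Point) = 0 ∧ x ∈ A := by
  by_contra hcon
  have hall : ∀ (x y : K) (h : (W'⁄K).Nonsingular x y),
      (p : ℤ) • (Point.some x y h : (W'⁄K).Point) = 0 → x ∉ A := by
    intro x y h ht hx
    exact hcon ⟨x, y, h, ht, hx⟩
  obtain ⟨P0, hP0N, hP0ne⟩ := Submodule.exists_mem_ne_zero_of_ne_bot hbot
  obtain ⟨P0v, hP0t⟩ := P0
  rcases P0v with _ | ⟨x₀, y₀, h₀⟩
  · exact hP0ne rfl
  have ht₀ : (p : ℤ) • (Point.some x₀ y₀ h₀ : (W'⁄K).Point) = 0 :=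
    (Submodule.mem_torsionBy_iff _ _).mp hP0t
  apply htop
  rw [eq_top_iff]
  rintro ⟨Qv, hQt⟩ -
  rcases Qv with _ | ⟨x₁, y₁, h₁⟩
  · exact N.zero_mem
  have ht₁ : (p : ℤ) • (Point.some x₁ y₁ h₁ : (W'⁄K).Point) = 0 :=
    (Submodule.mem_torsionBy_iff _ _).mp hQt
  obtain ⟨σ, hσ⟩ := exists_algEquiv_of_torsion W' WZ hW hΔ hp n hpn hdeg hcoeff A hA hall
    h₀ h₁ ht₀ ht₁
  have hσN := hN σ _ hP0N
  have hσn : σ • (⟨Point.some x₀ y₀ h₀, hP0t⟩ : Submodule.torsionBy ℤ (W'⁄K).Point p) ∈ N :=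
    hσN
  -- the point `σ • P0` has coordinates `(σ x₀, σ y₀)`
  have hns' : (W'⁄K).Nonsingular (σ x₀) (σ y₀) :=
    (W'.baseChange_nonsingular (f := σ.toAlgHom) σ.injective x₀ y₀).mpr h₀
  have hval : ((σ • (⟨Point.some x₀ y₀ h₀, hP0t⟩ : Submodule.torsionBy ℤ (W'⁄K).Point p) :
      Submodule.torsionBy ℤ (W'⁄K).Point p) : (W'⁄K).Point) = Point.some (σ x₀) (σ y₀) hns' :=
    rfl
  rcases Y_eq_of_X_eq h₁.1 hns'.1 hσ.symm with hy | hy
  · have : (⟨Point.some x₁ y₁ h₁, hQt⟩ : Submodule.torsionBy ℤ (W'⁄K).Point p) =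
        σ • (⟨Point.some x₀ y₀ h₀, hP0t⟩ : Submodule.torsionBy ℤ (W'⁄K).Point p) := by
      apply Subtype.ext
      rw [hval]
      subst hσ hy
      rfl
    rw [this]
    exact hσn
  · have : (⟨Point.some x₁ y₁ h₁, hQt⟩ : Submodule.torsionBy ℤ (W'⁄K).Point p) =
        -(σ • (⟨Point.some x₀ y₀ h₀, hP0t⟩ : Submodule.torsionBy ℤ (W'⁄K).Point p)) := by
      apply Subtype.ext
      rw [Submodule.coe_neg, hval, Point.neg_some]
      subst hσ hy
      rfl
    rw [this]
    exact N.neg_mem hσn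

end EC

end Fermat.Agent.S13.helper72
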