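/-
S13 (5b), node theory in arbitrary residue characteristic (in particular `2`):
valuation estimates in node coordinates without the hypothesis `v 2 = 1`.

The model is `M ^ 2 = 4 X ^ 3 + C2 X ^ 2 + (4 c) X` with `v C2 = 1`, `v c < 1`, `2 ≠ 0`.
-/
import Mathlib.RingTheory.Valuation.Basic
import Fermat.Agent.S05.helper7_NodeVal

set_option autoImplicit false
set_option linter.unusedSimpArgs false
set_option linter.unusedVariables false

namespace Fermat.Agent.S13.helper7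

open Fermat.Agent.S05.helper7

variable {K : Type*} [Field K] {Γ₀ : Type*} [LinearOrderedCommGroupWithZero Γ₀]
  {v : Valuation K Γ₀} {c C2 : K}

/-- Valuation hypotheses on the node model `M ^ 2 = 4 X ^ 3 + C2 X ^ 2 + 4 c X`. -/
structure NodeVal2 (v : Valuation K Γ₀) (c C2 : K) : Prop where
  v2 : v 2 ≠ 0
  vC2 : v C2 = 1
  vc : v c < 1

lemma v_two_le_one (v : Valuation K Γ₀) : v 2 ≤ 1 := by
  have h : (2 : K) = 1 + 1 := by norm_num
  rw [h]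
  refine le_trans (Valuation.map_add v 1 1) ?_
  rw [map_one, max_self]

lemma NodeVal2.v4 (hv : NodeVal2 v c C2) : v 4 = v 2 * v 2 := by
  have h : (4 : K) = 2 * 2 := by norm_num
  rw [h, map_mul]

lemma NodeVal2.v4_ne (hv : NodeVal2 v c C2) : v 4 ≠ 0 := by
  rw [hv.v4]
  exact mul_ne_zero hv.v2 hv.v2

lemma NodeVal2.v4_le (hv : NodeVal2 v c C2) : v 4 ≤ 1 := by
  rw [hv.v4]
  exact mul_le_one' (v_two_le_one v) (v_two_le_one v)

lemma NodeVal2.v2_pos (hv : NodeVal2 v c C2) : 0 < v 2 := zero_lt_iff.mpr hv.v2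

lemma NodeVal2.v4_pos (hv : NodeVal2 v c C2) : 0 < v 4 := zero_lt_iff.mpr hv.v4_ne

/-- The lower order terms `4 X ^ 3 + 4 c X` are small compared with `X ^ 2`. -/
lemma v_lower_lt2 (hv : NodeVal2 v c C2) {X : K} (hX : Mid v c X) :
    v (4 * X ^ 3 + 4 * c * X) < v X ^ 2 := by
  have h1 : v (4 * X ^ 3) < v X ^ 2 := by
    rw [map_mul, map_pow]
    calc v 4 * v X ^ 3 ≤ 1 * v X ^ 3 := mul_le_mul_left hv.v4_le _
      _ = v X ^ 2 * v X := by rw [one_mul, pow_succ]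
      _ < v X ^ 2 := mul_lt_of_lt_one_right (pow_pos hX.pos 2) hX.2
  have h2 : v (4 * c * X) < v X ^ 2 := by
    rw [map_mul, map_mul, pow_two]
    calc v 4 * v c * v X ≤ 1 * v c * v X :=
          mul_le_mul_left (mul_le_mul_left hv.v4_le _) _
      _ = v c * v X := by rw [one_mul]
      _ < v X * v X := mul_lt_mul_of_pos_right hX.1 hX.pos
  exact lt_of_le_of_lt (Valuation.map_add _ _ _) (max_lt h1 h2)

/-- `v M = v X` for a point near the node. -/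
lemma v_M_eq2 (hv : NodeVal2 v c C2) {X M : K} (hp : IsPt (4 * c) C2 X M) (hX : Mid v c X) :
    v M = v X := by
  have h : v (M ^ 2) = v X ^ 2 := by
    have e : M ^ 2 = (4 * X ^ 3 + 4 * c * X) + C2 * X ^ 2 := by
      unfold IsPt at hp
      rw [hp]; ring
    rw [e, Valuation.map_add_eq_of_lt_right]
    · rw [map_mul, hv.vC2, one_mul, map_pow]
    · rw [map_mul, hv.vC2, one_mul, map_pow]
      exact v_lower_lt2 hv hX
  rw [map_pow] at h
  exact pow_left_injective (M := Γ₀) (two_ne_zero) h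

/-- "Same sign": the sum `M₁ X₂ + M₂ X₁` is as large as possible. -/
def SameS2 (v : Valuation K Γ₀) (X₁ M₁ X₂ M₂ : K) : Prop :=
  v (M₁ * X₂ + M₂ * X₁) = v 2 * v (X₁ * X₂)

/-- "Opposite sign": the sum `M₁ X₂ + M₂ X₁` is small. -/
def OppS2 (v : Valuation K Γ₀) (X₁ M₁ X₂ M₂ : K) : Prop :=
  v (M₁ * X₂ + M₂ * X₁) < v 2 * v (X₁ * X₂)

lemma SameS2.symm {X₁ M₁ X₂ M₂ : K} (h : SameS2 v X₁ M₁ X₂ M₂) : SameS2 v X₂ M₂ X₁ M₁ := by
  unfold SameS2 at h ⊢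
  rw [add_comm, mul_comm X₂ X₁]
  exact h

lemma OppS2.symm {X₁ M₁ X₂ M₂ : K} (h : OppS2 v X₁ M₁ X₂ M₂) : OppS2 v X₂ M₂ X₁ M₁ := by
  unfold OppS2 at h ⊢
  rw [add_comm, mul_comm X₂ X₁]
  exact h

lemma sameS2_self (hv : NodeVal2 v c C2) {X M : K} (hp : IsPt (4 * c) C2 X M)
    (hX : Mid v c X) : SameS2 v X M X M := by
  unfold SameS2
  have : M * X + M * X = 2 * (M * X) := by ring
  rw [this, map_mul, map_mul, map_mul, v_M_eq2 hv hp hX]

lemma not_sameS2_and_oppS2 {X₁ M₁ X₂ M₂ : K} (h : SameS2 v X₁ M₁ X₂ M₂)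
    (h' : OppS2 v X₁ M₁ X₂ M₂) : False := by
  unfold SameS2 at h
  unfold OppS2 at h'
  exact absurd h (ne_of_lt h')

/-- If the signs are opposite then the difference is as large as possible. -/
lemma OppS2.v_sub (hv : NodeVal2 v c C2) {X₁ M₁ X₂ M₂ : K} (hp₂ : IsPt (4 * c) C2 X₂ M₂)
    (hX₂ : Mid v c X₂) (h : OppS2 v X₁ M₁ X₂ M₂) :
    v (M₂ * X₁ - M₁ * X₂) = v 2 * v (X₁ * X₂) := by
  unfold OppS2 at h
  have e : M₂ * X₁ - M₁ * X₂ = 2 * (M₂ * X₁) - (M₁ * X₂ + M₂ * X₁) := by ring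
  have h2 : v (2 * (M₂ * X₁)) = v 2 * v (X₁ * X₂) := by
    rw [map_mul, map_mul, map_mul, v_M_eq2 hv hp₂ hX₂, mul_comm (v X₂)]
  rw [e, Valuation.map_sub_eq_of_lt_left, h2]
  rw [h2]
  exact h

/-- Squares are strictly monotone. -/
lemma lt_of_sq_lt_sq' {a b : Γ₀} (h : a ^ 2 < b ^ 2) : a < b := by
  by_contra hcon
  rw [not_lt] at hcon
  exact absurd (pow_le_pow_left₀ zero_le hcon 2) (not_le.mpr h)

section Rules

variable {X₁ M₁ X₂ M₂ X₃ M₃ : K}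

lemma v_four_mul_sub (hv : NodeVal2 v c C2) (a : K) :
    v (4 * a - 4 * c) = v 4 * v (a - c) := by
  have : 4 * a - 4 * c = 4 * (a - c) := by ring
  rw [this, map_mul]

/-- Same sign, product of valuations above `v c`: valuations multiply, sign is kept. -/
lemma rule_same_gt2 (hv : NodeVal2 v c C2)
    (hX₁ : Mid v c X₁) (hX₂ : Mid v c X₂) (hS : SameS2 v X₁ M₁ X₂ M₂)
    (I2 : 4 * X₃ * (M₁ * X₂ + M₂ * X₁) ^ 2 = X₁ * X₂ * (4 * X₁ * X₂ - 4 * c) ^ 2)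
    (I3 : (M₃ * X₁ + M₁ * X₃) ^ 2 = 4 * (X₃ - X₁) ^ 2 * (X₁ * X₂ * X₃))
    (I3' : (M₃ * X₂ + M₂ * X₃) ^ 2 = 4 * (X₃ - X₂) ^ 2 * (X₁ * X₂ * X₃))
    (hgt : v c < v X₁ * v X₂) :
    v X₃ = v X₁ * v X₂ ∧ SameS2 v X₃ M₃ X₁ M₁ ∧ SameS2 v X₃ M₃ X₂ M₂ := by
  have h12 : v X₁ * v X₂ ≠ 0 := mul_ne_zero hX₁.ne_zero hX₂.ne_zero
  have hT : v (4 * X₁ * X₂ - 4 * c) = v 4 * (v X₁ * v X₂) := by
    have e : 4 * X₁ * X₂ - 4 * c = 4 * (X₁ * X₂ - c) := by ring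
    rw [e, map_mul, Valuation.map_sub_eq_of_lt_left, map_mul]
    rw [map_mul]; exact hgt
  have hX₃ : v X₃ = v X₁ * v X₂ := by
    have := congrArg v I2
    simp only [map_mul, map_pow, hT] at this
    unfold SameS2 at hS
    rw [hS, map_mul] at this
    have h3 : v X₃ * (v 4 ^ 2 * (v X₁ * v X₂) ^ 2) =
        (v X₁ * v X₂) * (v 4 ^ 2 * (v X₁ * v X₂) ^ 2) := by
      calc v X₃ * (v 4 ^ 2 * (v X₁ * v X₂) ^ 2)
          = v 4 * v X₃ * (v 2 * (v X₁ * v X₂)) ^ 2 := by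
            rw [hv.v4]; simp only [pow_two, mul_assoc, mul_comm, mul_left_comm]
        _ = v X₁ * v X₂ * (v 4 * (v X₁ * v X₂)) ^ 2 := this
        _ = (v X₁ * v X₂) * (v 4 ^ 2 * (v X₁ * v X₂) ^ 2) := by
            simp only [pow_two, mul_assoc, mul_comm, mul_left_comm]
    exact (mul_left_inj' (mul_ne_zero (pow_ne_zero 2 hv.v4_ne) (pow_ne_zero 2 h12))).mp h3
  have hlt₁ : v X₃ < v X₁ := by
    rw [hX₃]; exact mul_lt_of_lt_one_right hX₁.pos hX₂.2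
  have hlt₂ : v X₃ < v X₂ := by
    rw [hX₃]; exact mul_lt_of_lt_one_left hX₂.pos hX₁.2
  refine ⟨hX₃, ?_, ?_⟩
  · unfold SameS2
    have := congrArg v I3
    simp only [map_mul, map_pow] at this
    rw [Valuation.map_sub_eq_of_lt_right _ hlt₁] at this
    have h3 : v (M₃ * X₁ + M₁ * X₃) ^ 2 = (v 2 * (v X₃ * v X₁)) ^ 2 := by
      rw [this, hX₃, hv.v4]; simp only [pow_two, mul_assoc, mul_comm, mul_left_comm]
    rw [map_mul]
    exact pow_left_injective (M := Γ₀) (two_ne_zero) h3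
  · unfold SameS2
    have := congrArg v I3'
    simp only [map_mul, map_pow] at this
    rw [Valuation.map_sub_eq_of_lt_right _ hlt₂] at this
    have h3 : v (M₃ * X₂ + M₂ * X₃) ^ 2 = (v 2 * (v X₃ * v X₂)) ^ 2 := by
      rw [this, hX₃, hv.v4]; simp only [pow_two, mul_assoc, mul_comm, mul_left_comm]
    rw [map_mul]
    exact pow_left_injective (M := Γ₀) (two_ne_zero) h3

/-- Criterion for opposite signs from the identity `I3`. -/
lemma oppS2_of_I3 (hv : NodeVal2 v c C2) (h₁ : v X₁ ≠ 0) (h₃ : v X₃ ≠ 0)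
    (I3 : (M₃ * X₁ + M₁ * X₃) ^ 2 = 4 * (X₃ - X₁) ^ 2 * (X₁ * X₂ * X₃))
    (h : v (X₃ - X₁) ^ 2 * v X₂ < v X₁ * v X₃) : OppS2 v X₃ M₃ X₁ M₁ := by
  unfold OppS2
  have := congrArg v I3
  simp only [map_mul, map_pow] at this
  have h13 : 0 < v X₁ * v X₃ := zero_lt_iff.mpr (mul_ne_zero h₁ h₃)
  have hlt : v (M₃ * X₁ + M₁ * X₃) ^ 2 < (v 2 * (v X₃ * v X₁)) ^ 2 := by
    rw [this]
    calc v 4 * v (X₃ - X₁) ^ 2 * (v X₁ * v X₂ * v X₃)
        = v 4 * ((v (X₃ - X₁) ^ 2 * v X₂) * (v X₁ * v X₃)) := by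
          simp only [pow_two, mul_assoc, mul_comm, mul_left_comm]
      _ < v 4 * ((v X₁ * v X₃) * (v X₁ * v X₃)) :=
          mul_lt_mul_of_pos_left (mul_lt_mul_of_pos_right h h13) hv.v4_pos
      _ = (v 2 * (v X₃ * v X₁)) ^ 2 := by
          rw [hv.v4]; simp only [pow_two, mul_assoc, mul_comm, mul_left_comm]
  rw [map_mul]
  exact lt_of_sq_lt_sq' hlt

/-- Same sign, product of valuations below `v c`: the valuation comes back, sign flips. -/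
lemma rule_same_lt2 (hv : NodeVal2 v c C2)
    (hX₁ : Mid v c X₁) (hX₂ : Mid v c X₂) (hS : SameS2 v X₁ M₁ X₂ M₂)
    (I2 : 4 * X₃ * (M₁ * X₂ + M₂ * X₁) ^ 2 = X₁ * X₂ * (4 * X₁ * X₂ - 4 * c) ^ 2)
    (I3 : (M₃ * X₁ + M₁ * X₃) ^ 2 = 4 * (X₃ - X₁) ^ 2 * (X₁ * X₂ * X₃))
    (I3' : (M₃ * X₂ + M₂ * X₃) ^ 2 = 4 * (X₃ - X₂) ^ 2 * (X₁ * X₂ * X₃))
    (hlt : v X₁ * v X₂ < v c) :
    v X₃ * (v X₁ * v X₂) = v c ^ 2 ∧ OppS2 v X₃ M₃ X₁ M₁ ∧ OppS2 v X₃ M₃ X₂ M₂ := by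
  have h12 : v X₁ * v X₂ ≠ 0 := mul_ne_zero hX₁.ne_zero hX₂.ne_zero
  have hc : v c ≠ 0 := ne_of_gt (lt_of_le_of_lt zero_le hlt)
  have hT : v (4 * X₁ * X₂ - 4 * c) = v 4 * v c := by
    have e : 4 * X₁ * X₂ - 4 * c = 4 * (X₁ * X₂ - c) := by ring
    rw [e, map_mul, Valuation.map_sub_eq_of_lt_right]
    rw [map_mul]; exact hlt
  have hX₃ : v X₃ * (v X₁ * v X₂) = v c ^ 2 := by
    have := congrArg v I2
    simp only [map_mul, map_pow, hT] at this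
    unfold SameS2 at hS
    rw [hS, map_mul] at this
    have h3 : (v X₃ * (v X₁ * v X₂)) * (v 4 ^ 2 * (v X₁ * v X₂)) =
        v c ^ 2 * (v 4 ^ 2 * (v X₁ * v X₂)) := by
      calc (v X₃ * (v X₁ * v X₂)) * (v 4 ^ 2 * (v X₁ * v X₂))
          = v 4 * v X₃ * (v 2 * (v X₁ * v X₂)) ^ 2 := by
            rw [hv.v4]; simp only [pow_two, mul_assoc, mul_comm, mul_left_comm]
        _ = v X₁ * v X₂ * (v 4 * v c) ^ 2 := this
        _ = v c ^ 2 * (v 4 ^ 2 * (v X₁ * v X₂)) := by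
            simp only [pow_two, mul_assoc, mul_comm, mul_left_comm]
    exact (mul_left_inj' (mul_ne_zero (pow_ne_zero 2 hv.v4_ne) h12)).mp h3
  have h3ne : v X₃ ≠ 0 := by
    intro h0
    rw [h0, zero_mul] at hX₃
    exact (pow_ne_zero 2 hc) hX₃.symm
  have h3pos : 0 < v X₃ := zero_lt_iff.mpr h3ne
  have hprod_lt : v X₁ * v X₂ < v X₃ := by
    by_contra hcon
    rw [not_lt] at hcon
    have h1 : v X₃ * (v X₁ * v X₂) ≤ (v X₁ * v X₂) * (v X₁ * v X₂) :=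
      mul_le_mul_left hcon _
    have h2 : (v X₁ * v X₂) * (v X₁ * v X₂) < v c * v c :=
      mul_lt_mul'' hlt hlt zero_le zero_le
    rw [hX₃, pow_two] at h1
    exact absurd h1 (not_le.mpr h2)
  have key : ∀ (Y₁ Y₂ : K), Mid v c Y₁ → Mid v c Y₂ → v X₃ * (v Y₁ * v Y₂) = v c ^ 2 →
      v Y₁ * v Y₂ < v X₃ → v (X₃ - Y₁) ^ 2 * v Y₂ < v Y₁ * v X₃ := by
    intro Y₁ Y₂ hY₁ hY₂ hprod hpl
    have hle : v (X₃ - Y₁) ≤ max (v X₃) (v Y₁) := Valuation.map_sub _ _ _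
    rcases le_total (v X₃) (v Y₁) with h31 | h13
    · rw [max_eq_right h31] at hle
      calc v (X₃ - Y₁) ^ 2 * v Y₂ ≤ v Y₁ ^ 2 * v Y₂ :=
            mul_le_mul_left (pow_le_pow_left₀ zero_le hle 2) _
        _ = v Y₁ * (v Y₁ * v Y₂) := by simp only [pow_two, mul_assoc]
        _ < v Y₁ * v X₃ := mul_lt_mul_of_pos_left hpl hY₁.pos
    · rw [max_eq_left h13] at hle
      have hlt' : v X₃ * v Y₂ < v Y₁ := by
        have h1 : (v X₃ * v Y₂) * v Y₁ < v Y₁ * v Y₁ := by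
          calc (v X₃ * v Y₂) * v Y₁ = v X₃ * (v Y₁ * v Y₂) := by
                simp only [mul_assoc, mul_comm, mul_left_comm]
            _ = v c ^ 2 := hprod
            _ = v c * v c := pow_two _
            _ < v Y₁ * v Y₁ := mul_lt_mul'' hY₁.1 hY₁.1 zero_le zero_le
        exact lt_of_mul_lt_mul_right' h1
      calc v (X₃ - Y₁) ^ 2 * v Y₂ ≤ v X₃ ^ 2 * v Y₂ :=
            mul_le_mul_left (pow_le_pow_left₀ zero_le hle 2) _
        _ = (v X₃ * v Y₂) * v X₃ := by simp only [pow_two, mul_assoc, mul_comm, mul_left_comm]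
        _ < v Y₁ * v X₃ := mul_lt_mul_of_pos_right hlt' h3pos
  refine ⟨hX₃, ?_, ?_⟩
  · exact oppS2_of_I3 hv hX₁.ne_zero h3ne I3 (key X₁ X₂ hX₁ hX₂ hX₃ hprod_lt)
  · have I3'' : (M₃ * X₂ + M₂ * X₃) ^ 2 = 4 * (X₃ - X₂) ^ 2 * (X₂ * X₁ * X₃) := by
      rw [I3']; ring
    refine oppS2_of_I3 hv hX₂.ne_zero h3ne I3'' (key X₂ X₁ hX₂ hX₁ ?_ ?_)
    · rw [mul_comm (v X₂)]; exact hX₃
    · rw [mul_comm (v X₂)]; exact hprod_lt

/-- Same sign, product of valuations equal to `v c`: the sum is very near the node. -/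
lemma rule_same_eq2 (hv : NodeVal2 v c C2)
    (hX₁ : Mid v c X₁) (hX₂ : Mid v c X₂) (hS : SameS2 v X₁ M₁ X₂ M₂)
    (I2 : 4 * X₃ * (M₁ * X₂ + M₂ * X₁) ^ 2 = X₁ * X₂ * (4 * X₁ * X₂ - 4 * c) ^ 2)
    (heq : v X₁ * v X₂ = v c) :
    v X₃ ≤ v c := by
  have h12 : v X₁ * v X₂ ≠ 0 := mul_ne_zero hX₁.ne_zero hX₂.ne_zero
  have hT : v (4 * X₁ * X₂ - 4 * c) ≤ v 4 * v c := by
    have e : 4 * X₁ * X₂ - 4 * c = 4 * (X₁ * X₂ - c) := by ring
    rw [e, map_mul]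
    refine mul_le_mul_right ?_ _
    refine le_trans (Valuation.map_sub _ _ _) ?_
    rw [map_mul, heq, max_self]
  have := congrArg v I2
  simp only [map_mul, map_pow] at this
  unfold SameS2 at hS
  rw [hS, map_mul, heq] at this
  have hc : v c ≠ 0 := heq ▸ h12
  have h3 : v X₃ * (v 4 ^ 2 * v c ^ 2) ≤ v c * (v 4 ^ 2 * v c ^ 2) := by
    calc v X₃ * (v 4 ^ 2 * v c ^ 2) = v 4 * v X₃ * (v 2 * v c) ^ 2 := by
          rw [hv.v4]; simp only [pow_two, mul_assoc, mul_comm, mul_left_comm]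
      _ = v c * v (4 * X₁ * X₂ - 4 * c) ^ 2 := this
      _ ≤ v c * (v 4 * v c) ^ 2 := mul_le_mul_right (pow_le_pow_left₀ zero_le hT 2) _
      _ = v c * (v 4 ^ 2 * v c ^ 2) := by
          simp only [pow_two, mul_assoc, mul_comm, mul_left_comm]
  exact le_of_mul_le_mul_right h3
    (zero_lt_iff.mpr (mul_ne_zero (pow_ne_zero 2 hv.v4_ne) (pow_ne_zero 2 hc)))

/-- Opposite signs, different valuations. -/
lemma rule_opp_lt2 (hv : NodeVal2 v c C2)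
    (hp₂ : IsPt (4 * c) C2 X₂ M₂)
    (hX₁ : Mid v c X₁) (hX₂ : Mid v c X₂) (hO : OppS2 v X₁ M₁ X₂ M₂)
    (I1 : 4 * X₁ * X₂ * X₃ * (X₁ - X₂) ^ 2 = (M₂ * X₁ - M₁ * X₂) ^ 2)
    (I3 : (M₃ * X₁ + M₁ * X₃) ^ 2 = 4 * (X₃ - X₁) ^ 2 * (X₁ * X₂ * X₃))
    (hlt : v X₂ < v X₁) :
    v X₃ * v X₁ = v X₂ ∧ OppS2 v X₃ M₃ X₁ M₁ := by
  have hD := hO.v_sub hv hp₂ hX₂
  have hd : v (X₁ - X₂) = v X₁ := Valuation.map_sub_eq_of_lt_left _ hlt
  have hX₃ : v X₃ * v X₁ = v X₂ := by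
    have := congrArg v I1
    simp only [map_mul, map_pow, hd, hD] at this
    have h3 : (v X₃ * v X₁) * (v 4 * (v X₁ ^ 2 * v X₂)) = v X₂ * (v 4 * (v X₁ ^ 2 * v X₂)) := by
      calc (v X₃ * v X₁) * (v 4 * (v X₁ ^ 2 * v X₂))
          = v 4 * v X₁ * v X₂ * v X₃ * v X₁ ^ 2 := by
            simp only [pow_two, mul_assoc, mul_comm, mul_left_comm]
        _ = (v 2 * (v X₁ * v X₂)) ^ 2 := this
        _ = v X₂ * (v 4 * (v X₁ ^ 2 * v X₂)) := by
            rw [hv.v4]; simp only [pow_two, mul_assoc, mul_comm, mul_left_comm]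
    exact (mul_left_inj' (mul_ne_zero hv.v4_ne
      (mul_ne_zero (pow_ne_zero 2 hX₁.ne_zero) hX₂.ne_zero))).mp h3
  have h3ne : v X₃ ≠ 0 := by
    intro h0
    rw [h0, zero_mul] at hX₃
    exact hX₂.ne_zero hX₃.symm
  have h3lt : v X₃ < 1 := by
    by_contra hcon
    rw [not_lt] at hcon
    have : v X₁ ≤ v X₃ * v X₁ := by
      calc v X₁ = 1 * v X₁ := (one_mul _).symm
        _ ≤ v X₃ * v X₁ := mul_le_mul_left hcon _
    rw [hX₃] at this
    exact absurd this (not_le.mpr hlt)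
  refine ⟨hX₃, oppS2_of_I3 hv hX₁.ne_zero h3ne I3 ?_⟩
  have hle : v (X₃ - X₁) < 1 :=
    lt_of_le_of_lt (Valuation.map_sub _ _ _) (max_lt h3lt hX₁.2)
  have hsq : v (X₃ - X₁) ^ 2 < 1 := by
    calc v (X₃ - X₁) ^ 2 ≤ v (X₃ - X₁) := by
          rw [pow_two]
          exact mul_le_of_le_one_left zero_le hle.le
      _ < 1 := hle
  calc v (X₃ - X₁) ^ 2 * v X₂ < 1 * v X₂ := mul_lt_mul_of_pos_right hsq hX₂.pos
    _ = v X₂ := one_mul _
    _ = v X₁ * v X₃ := by rw [← hX₃, mul_comm]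

/-- Opposite signs, equal valuations, different `X`: the sum is not near the node. -/
lemma rule_opp_eq2 (hv : NodeVal2 v c C2)
    (hp₂ : IsPt (4 * c) C2 X₂ M₂)
    (hX₁ : Mid v c X₁) (hX₂ : Mid v c X₂) (hO : OppS2 v X₁ M₁ X₂ M₂)
    (I1 : 4 * X₁ * X₂ * X₃ * (X₁ - X₂) ^ 2 = (M₂ * X₁ - M₁ * X₂) ^ 2)
    (hne : X₁ ≠ X₂) (heq : v X₁ = v X₂) :
    1 ≤ v X₃ := by
  have hD := hO.v_sub hv hp₂ hX₂
  have hd : v (X₁ - X₂) ≤ v X₁ := by
    refine le_trans (Valuation.map_sub _ _ _) ?_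
    rw [heq, max_self]
  have hd0 : v (X₁ - X₂) ≠ 0 := (Valuation.ne_zero_iff v).mpr (sub_ne_zero.mpr hne)
  have := congrArg v I1
  simp only [map_mul, map_pow, hD] at this
  by_contra hcon
  rw [not_le] at hcon
  have h1 : v 4 * v X₁ * v X₂ * v X₃ * v (X₁ - X₂) ^ 2 < (v 2 * (v X₁ * v X₂)) ^ 2 := by
    calc v 4 * v X₁ * v X₂ * v X₃ * v (X₁ - X₂) ^ 2
        = v X₃ * (v 4 * ((v X₁ * v X₂) * v (X₁ - X₂) ^ 2)) := by
          simp only [pow_two, mul_assoc, mul_comm, mul_left_comm]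
      _ < 1 * (v 4 * ((v X₁ * v X₂) * v (X₁ - X₂) ^ 2)) :=
          mul_lt_mul_of_pos_right hcon (zero_lt_iff.mpr
            (mul_ne_zero hv.v4_ne
              (mul_ne_zero (mul_ne_zero hX₁.ne_zero hX₂.ne_zero) (pow_ne_zero 2 hd0))))
      _ = v 4 * ((v X₁ * v X₂) * v (X₁ - X₂) ^ 2) := one_mul _
      _ ≤ v 4 * ((v X₁ * v X₂) * v X₁ ^ 2) :=
          mul_le_mul_right (mul_le_mul_right (pow_le_pow_left₀ zero_le hd 2) _) _
      _ = (v 2 * (v X₁ * v X₂)) ^ 2 := by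
          rw [heq, hv.v4]; simp only [pow_two, mul_assoc, mul_comm, mul_left_comm]
  exact absurd this (ne_of_lt h1)

/-- Doubling a point which is very near the node gives a point which is not near the node. -/
lemma rule_double_small2 (hv : NodeVal2 v c C2) {X M : K}
    (hp : IsPt (4 * c) C2 X M) (hX0 : X ≠ 0) (hM0 : M ≠ 0) (hX : v X ≤ v c)
    (I2 : 4 * X₃ * (M * X + M * X) ^ 2 = X * X * (4 * X * X - 4 * c) ^ 2) :
    1 ≤ v X₃ := by
  have hXne : v X ≠ 0 := (Valuation.ne_zero_iff v).mpr hX0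
  have hMne : v M ≠ 0 := (Valuation.ne_zero_iff v).mpr hM0
  have hXpos : 0 < v X := zero_lt_iff.mpr hXne
  have hXlt : v X < 1 := lt_of_le_of_lt hX hv.vc
  have hsq : v X * v X < v c :=
    lt_of_lt_of_le (mul_lt_of_lt_one_left hXpos hXlt) hX
  have hT : v (4 * X * X - 4 * c) = v 4 * v c := by
    have e : 4 * X * X - 4 * c = 4 * (X * X - c) := by ring
    rw [e, map_mul, Valuation.map_sub_eq_of_lt_right]
    rw [map_mul]; exact hsq
  have hMM : v (M * X + M * X) = v 2 * (v M * v X) := by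
    have : M * X + M * X = 2 * (M * X) := by ring
    rw [this, map_mul, map_mul]
  have hMle : v M ^ 2 ≤ v c ^ 2 := by
    have e : M ^ 2 = X * (4 * X ^ 2 + C2 * X + 4 * c) := by
      unfold IsPt at hp
      rw [hp]; ring
    have h1 : v (4 * X ^ 2 + C2 * X + 4 * c) ≤ v c := by
      refine le_trans (Valuation.map_add _ _ _) (max_le ?_ ?_)
      · refine le_trans (Valuation.map_add _ _ _) (max_le ?_ ?_)
        · rw [map_mul, map_pow, pow_two]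
          calc v 4 * (v X * v X) ≤ 1 * (v X * v X) := mul_le_mul_left hv.v4_le _
            _ = v X * v X := one_mul _
            _ ≤ v c := hsq.le
        · rw [map_mul, hv.vC2, one_mul]
          exact hX
      · rw [map_mul]
        calc v 4 * v c ≤ 1 * v c := mul_le_mul_left hv.v4_le _
          _ = v c := one_mul _
    rw [← map_pow, e, map_mul]
    calc v X * v (4 * X ^ 2 + C2 * X + 4 * c) ≤ v c * v c := mul_le_mul' hX h1
      _ = v c ^ 2 := (pow_two _).symm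
  have := congrArg v I2
  simp only [map_mul, map_pow, hT, hMM] at this
  by_contra hcon
  rw [not_le] at hcon
  have h1 : v 4 * v X₃ * (v 2 * (v M * v X)) ^ 2 < v X * v X * (v 4 * v c) ^ 2 := by
    calc v 4 * v X₃ * (v 2 * (v M * v X)) ^ 2
        = v X₃ * (v 4 * (v 2 * (v M * v X)) ^ 2) := by
          simp only [pow_two, mul_assoc, mul_comm, mul_left_comm]
      _ < 1 * (v 4 * (v 2 * (v M * v X)) ^ 2) :=
          mul_lt_mul_of_pos_right hcon (zero_lt_iff.mpr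
            (mul_ne_zero hv.v4_ne (pow_ne_zero 2 (mul_ne_zero hv.v2 (mul_ne_zero hMne hXne)))))
      _ = (v X * v X * v 4 ^ 2) * v M ^ 2 := by
          rw [hv.v4]; simp only [one_mul, pow_two, mul_assoc, mul_comm, mul_left_comm]
      _ ≤ (v X * v X * v 4 ^ 2) * v c ^ 2 := mul_le_mul_right hMle _
      _ = v X * v X * (v 4 * v c) ^ 2 := by
          simp only [pow_two, mul_assoc, mul_comm, mul_left_comm]
  exact absurd this (ne_of_lt h1)

end Rules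

end Fermat.Agent.S13.helper7
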