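/-
S13 (5b): the sawtooth induction at a node in arbitrary residue characteristic
(no hypothesis `v 2 = 1`, only `2 ≠ 0` in the field).

Main results: `sawtooth2` (general node model with `C1 = 4 c`) and `node_sawtooth`
(curves with `a₃ = a₆ = 0`, node at the origin).
-/
import Fermat.Agent.S05.helper7_Sawtooth
import Fermat.Agent.S13.helper7_NodeVal2

set_option autoImplicit false
set_option linter.unusedSimpArgs false
set_option linter.unusedVariables false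
set_option linter.unusedSectionVars false

namespace Fermat.Agent.S13.helper7

open WeierstrassCurve Fermat.Agent.S05.helper7

variable {K : Type*} [Field K] [DecidableEq K] {Γ₀ : Type*} [LinearOrderedCommGroupWithZero Γ₀]
  {v : Valuation K Γ₀} {W : WeierstrassCurve K} {e c C2 : K}

lemma two_ne_zero_of_nodeVal2 (hv : NodeVal2 v c C2) : (2 : K) ≠ 0 :=
  (Valuation.ne_zero_iff v).mp hv.v2

/-- A nonzero point near the node whose double is nonzero and also near the node lies in the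
middle region. -/
lemma mid_of_double2 (hm : NodeModel W e (4 * c) C2) (hv : NodeVal2 v c C2)
    {Q : W.toAffine.Point}
    (hQ : Q ≠ 0) (hQQ : Q + Q ≠ 0) (h1 : v (pX W e Q) < 1) (h2 : v (pX W e (Q + Q)) < 1) :
    Mid v c (pX W e Q) := by
  have h2K := two_ne_zero_of_nodeVal2 hv
  have hp := isPt_of_ne_zero hm hQ
  have hM0 : pM W Q ≠ 0 := fun h => hQQ (add_self_eq_zero_of_pM_eq_zero h2K hQ h)
  have hX0 : pX W e Q ≠ 0 := by
    intro h
    apply hM0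
    unfold IsPt at hp
    rw [h] at hp
    have : pM W Q ^ 2 = 0 := by rw [hp]; ring
    exact (pow_eq_zero_iff two_ne_zero).mp this
  refine ⟨?_, h1⟩
  by_contra hcon
  rw [not_lt] at hcon
  obtain ⟨I2, -, -, -⟩ := add_identities hm hQ hQ hQQ
  exact absurd (rule_double_small2 hv hp hX0 hM0 hcon I2) (not_le.mpr h2)

/-- The invariant of the sawtooth induction. -/
def SawInv2 (v : Valuation K Γ₀) (c : K) (γ0 : Γ₀) (m : ℕ) (X M X0 M0 : K) : Prop :=
  (v X = γ0 ^ m ∧ v c < γ0 ^ m ∧ SameS2 v X M X0 M0) ∨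
  (v X * γ0 ^ m = v c ^ 2 ∧ γ0 ^ m < v c ∧ OppS2 v X M X0 M0)

lemma sawtooth_step2 (hm : NodeModel W e (4 * c) C2) (hv : NodeVal2 v c C2)
    {Q0 Q : W.toAffine.Point} (hQ0 : Q0 ≠ 0) (hQ : Q ≠ 0) (hsum : Q0 + Q ≠ 0)
    (hmid0 : Mid v c (pX W e Q0)) (hmid : Mid v c (pX W e Q))
    (hmidS : Mid v c (pX W e (Q0 + Q)))
    (hmax : v (pX W e Q) ≤ v (pX W e Q0)) {m : ℕ}
    (hinv : SawInv2 v c (v (pX W e Q0)) m (pX W e Q) (pM W Q) (pX W e Q0) (pM W Q0)) :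
    SawInv2 v c (v (pX W e Q0)) (m + 1) (pX W e (Q0 + Q)) (pM W (Q0 + Q))
      (pX W e Q0) (pM W Q0) := by
  obtain ⟨I2, I3, I3', I1⟩ := add_identities hm hQ0 hQ hsum
  have hp0 := isPt_of_ne_zero hm hQ0
  have hpQ := isPt_of_ne_zero hm hQ
  rcases hinv with ⟨hval, hgt, hS⟩ | ⟨hval, hlt, hO⟩
  · have hprod : v (pX W e Q0) * v (pX W e Q) = v (pX W e Q0) ^ (m + 1) := by
      rw [hval, pow_succ']
    rcases lt_trichotomy (v c) (v (pX W e Q0) * v (pX W e Q)) with h | h | h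
    · obtain ⟨h3, hS3, -⟩ := rule_same_gt2 hv hmid0 hmid hS.symm I2 I3 I3' h
      exact Or.inl ⟨by rw [h3, hprod], by rw [← hprod]; exact h, hS3⟩
    · exact absurd (rule_same_eq2 hv hmid0 hmid hS.symm I2 h.symm) (not_le.mpr hmidS.1)
    · obtain ⟨h3, hO3, -⟩ := rule_same_lt2 hv hmid0 hmid hS.symm I2 I3 I3' h
      exact Or.inr ⟨by rw [← hprod]; exact h3, by rw [← hprod]; exact h, hO3⟩
  · rcases lt_or_eq_of_le hmax with hlt' | heq
    · have hne : pX W e Q0 ≠ pX W e Q := by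
        intro h
        rw [h] at hlt'
        exact lt_irrefl _ hlt'
      obtain ⟨h3, hO3⟩ := rule_opp_lt2 hv hpQ hmid0 hmid hO.symm (I1 hne) I3 hlt'
      refine Or.inr ⟨?_, ?_, hO3⟩
      · rw [pow_succ', ← mul_assoc, h3, hval]
      · calc v (pX W e Q0) ^ (m + 1) = v (pX W e Q0) ^ m * v (pX W e Q0) := pow_succ _ _
          _ ≤ v (pX W e Q0) ^ m := mul_le_of_le_one_right' hmid0.2.le
          _ < v c := hlt
    · by_cases hne : pX W e Q0 = pX W e Q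
      · rcases eq_or_eq_neg_of_pX_eq hm (two_ne_zero_of_nodeVal2 hv) hQ0 hQ hne with h | h
        · rw [← h] at hO
          exact (not_sameS2_and_oppS2 (sameS2_self hv hp0 hmid0) hO).elim
        · exact absurd (by rw [h]; exact neg_add_cancel Q) hsum
      · exact absurd (rule_opp_eq2 hv hpQ hmid0 hmid hO.symm (I1 hne) hne heq.symm)
          (not_le.mpr hmidS.2)

section Induction

variable {p : ℕ} {Q0 : W.toAffine.Point}

lemma sawtooth_ind2 (hm : NodeModel W e (4 * c) C2) (hv : NodeVal2 v c C2) (hp : p.Prime)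
    (hpQ : p • Q0 = 0) (hQ0 : Q0 ≠ 0)
    (hMid : ∀ k : ℕ, k • Q0 ≠ 0 → Mid v c (pX W e (k • Q0)))
    (hmax : ∀ k : ℕ, k • Q0 ≠ 0 → v (pX W e (k • Q0)) ≤ v (pX W e Q0)) :
    ∀ m : ℕ, 1 ≤ m → m < p →
      SawInv2 v c (v (pX W e Q0)) m (pX W e (m • Q0)) (pM W (m • Q0))
        (pX W e Q0) (pM W Q0) := by
  have hmid0 : Mid v c (pX W e Q0) := by
    have := hMid 1 (by rw [one_nsmul]; exact hQ0)
    rwa [one_nsmul] at this
  intro m hm1
  induction m, hm1 using Nat.le_induction with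
  | base =>
    intro _
    rw [one_nsmul]
    exact Or.inl ⟨(pow_one _).symm, by rw [pow_one]; exact hmid0.1,
      sameS2_self hv (isPt_of_ne_zero hm hQ0) hmid0⟩
  | succ m hm1 ih =>
    intro hlt
    have hmlt : m < p := Nat.lt_of_succ_lt hlt
    have hQm : m • Q0 ≠ 0 := nsmul_ne_zero_of_pos_of_lt hp hpQ hQ0 hm1 hmlt
    have hQm1 : (m + 1) • Q0 ≠ 0 :=
      nsmul_ne_zero_of_pos_of_lt hp hpQ hQ0 (Nat.succ_pos m) hlt
    have hsum : Q0 + m • Q0 ≠ 0 := by rw [← succ_nsmul']; exact hQm1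
    have hmidS : Mid v c (pX W e (Q0 + m • Q0)) := by
      rw [← succ_nsmul']; exact hMid (m + 1) hQm1
    have := sawtooth_step2 hm hv hQ0 hQm hsum hmid0 (hMid m hQm) hmidS (hmax m hQm) (ih hmlt)
    rw [succ_nsmul']
    exact this

lemma sawtooth_pow_eq2 (hm : NodeModel W e (4 * c) C2) (hv : NodeVal2 v c C2) (hp : p.Prime)
    (hpQ : p • Q0 = 0) (hQ0 : Q0 ≠ 0)
    (hMid : ∀ k : ℕ, k • Q0 ≠ 0 → Mid v c (pX W e (k • Q0)))
    (hmax : ∀ k : ℕ, k • Q0 ≠ 0 → v (pX W e (k • Q0)) ≤ v (pX W e Q0)) :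
    v (pX W e Q0) ^ p = v c ^ 2 := by
  have hmid0 : Mid v c (pX W e Q0) := by
    have := hMid 1 (by rw [one_nsmul]; exact hQ0)
    rwa [one_nsmul] at this
  have h2 := hp.two_le
  have h1 : 1 ≤ p - 1 := by omega
  have hinv := sawtooth_ind2 hm hv hp hpQ hQ0 hMid hmax (p - 1) h1 (by omega)
  have hneg : (p - 1) • Q0 = -Q0 := by
    have : (p - 1) • Q0 + Q0 = 0 := by
      rw [← succ_nsmul, Nat.sub_add_cancel hp.one_le]
      exact hpQ
    exact eq_neg_of_add_eq_zero_left this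
  rw [hneg, pX_neg, pM_neg] at hinv
  rcases hinv with ⟨-, -, hS⟩ | ⟨hval, -, -⟩
  · exfalso
    unfold SameS2 at hS
    have : -pM W Q0 * pX W e Q0 + pM W Q0 * pX W e Q0 = 0 := by ring
    rw [this, map_zero, map_mul] at hS
    exact (mul_ne_zero hv.v2 (mul_ne_zero hmid0.ne_zero hmid0.ne_zero)) hS.symm
  · calc v (pX W e Q0) ^ p = v (pX W e Q0) ^ (p - 1 + 1) := by
          rw [Nat.sub_add_cancel hp.one_le]
      _ = v (pX W e Q0) * v (pX W e Q0) ^ (p - 1) := pow_succ' _ _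
      _ = v c ^ 2 := hval

end Induction

/-- All nonzero multiples of a point of odd prime order whose multiples are near the node
lie in the middle region. -/
lemma mid_of_torsion2 (hm : NodeModel W e (4 * c) C2) (hv : NodeVal2 v c C2) {p : ℕ}
    (hp : p.Prime) (hp2 : p ≠ 2) {P : W.toAffine.Point} (hpP : p • P = 0) (hP : P ≠ 0)
    (hE0 : ∀ k : ℕ, k • P ≠ 0 → v (pX W e (k • P)) < 1) :
    ∀ k : ℕ, k • P ≠ 0 → Mid v c (pX W e (k • P)) := by
  intro k hk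
  have hkk' : (k + k) • P ≠ 0 := by
    intro h
    rw [nsmul_eq_zero_iff_of_prime hp hpP hP] at h
    have h2 : p ∣ 2 * k := by rwa [two_mul]
    have : p ∣ k := by
      rcases (Nat.Prime.dvd_mul hp).mp h2 with h' | h'
      · exact absurd ((Nat.prime_dvd_prime_iff_eq hp Nat.prime_two).mp h') hp2
      · exact h'
    exact hk ((nsmul_eq_zero_iff_of_prime hp hpP hP k).mpr this)
  have hkk : k • P + k • P ≠ 0 := by rw [← add_nsmul]; exact hkk'
  refine mid_of_double2 hm hv hk hkk (hE0 k hk) ?_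
  rw [← add_nsmul]
  exact hE0 (k + k) hkk'

/-- **The sawtooth theorem, arbitrary residue characteristic.**  If all nonzero multiples of
a point `P` of odd prime order `p` are near the node, then there is a nonzero multiple `k₀ • P`
with `v (X (k₀ • P)) ^ p = v c ^ 2`, and `v (X P)` is a power `v (X (k₀ • P)) ^ j` with
`0 < j < p`. -/
theorem sawtooth2 (hm : NodeModel W e (4 * c) C2) (hv : NodeVal2 v c C2) {p : ℕ}
    (hp : p.Prime) (hp2 : p ≠ 2) {P : W.toAffine.Point} (hpP : p • P = 0) (hP : P ≠ 0)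
    (hE0 : ∀ k : ℕ, k • P ≠ 0 → v (pX W e (k • P)) < 1) :
    ∃ k0 : ℕ, k0 • P ≠ 0 ∧ v (pX W e (k0 • P)) ≠ 0 ∧ v (pX W e (k0 • P)) ^ p = v c ^ 2 ∧
      ∃ j : ℕ, 0 < j ∧ j < p ∧ v (pX W e P) = v (pX W e (k0 • P)) ^ j := by
  have hMidP := mid_of_torsion2 hm hv hp hp2 hpP hP hE0
  have h2 := hp.two_le
  obtain ⟨k0, hk0mem, hk0max⟩ := Finset.exists_max_image (Finset.Icc 1 (p - 1))
    (fun k => v (pX W e (k • P))) ⟨1, Finset.mem_Icc.mpr ⟨le_rfl, by omega⟩⟩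
  rw [Finset.mem_Icc] at hk0mem
  have hQ0 : k0 • P ≠ 0 :=
    nsmul_ne_zero_of_pos_of_lt hp hpP hP (by omega) (by omega)
  have hpQ0 : p • (k0 • P) = 0 := by
    rw [smul_comm, hpP, smul_zero]
  have hmult : ∀ k : ℕ, k • (k0 • P) ≠ 0 →
      ∃ i, 1 ≤ i ∧ i ≤ p - 1 ∧ k • (k0 • P) = i • P := by
    intro k hk
    have e1 : k • (k0 • P) = ((k0 * k) % p) • P := by
      rw [nsmul_mod_prime hp hpP hP, mul_nsmul]
    refine ⟨(k0 * k) % p, ?_, ?_, e1⟩
    · rcases Nat.eq_zero_or_pos ((k0 * k) % p) with h0 | h0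
      · exfalso
        apply hk
        rw [e1, h0, zero_nsmul]
      · exact h0
    · have := Nat.mod_lt (k0 * k) hp.pos
      omega
  have hMid : ∀ k : ℕ, k • (k0 • P) ≠ 0 → Mid v c (pX W e (k • (k0 • P))) := by
    intro k hk
    obtain ⟨i, -, -, hi⟩ := hmult k hk
    rw [hi]
    exact hMidP i (by rw [← hi]; exact hk)
  have hmax : ∀ k : ℕ, k • (k0 • P) ≠ 0 →
      v (pX W e (k • (k0 • P))) ≤ v (pX W e (k0 • P)) := by
    intro k hk
    obtain ⟨i, hi1, hi2, hi⟩ := hmult k hk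
    rw [hi]
    exact hk0max i (Finset.mem_Icc.mpr ⟨hi1, hi2⟩)
  have hmid0 : Mid v c (pX W e (k0 • P)) := hMidP k0 hQ0
  refine ⟨k0, hQ0, hmid0.ne_zero, sawtooth_pow_eq2 hm hv hp hpQ0 hQ0 hMid hmax, ?_⟩
  obtain ⟨j, hj⟩ := exists_nsmul_eq_of_nsmul_ne_zero hp hpP hQ0
  have hj' : (j % p) • (k0 • P) = P := by
    rw [nsmul_mod_prime hp hpQ0 hQ0, hj]
  have hjpos : 0 < j % p := by
    rcases Nat.eq_zero_or_pos (j % p) with h0 | h0
    · exfalso
      apply hP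
      rw [← hj', h0, zero_nsmul]
    · exact h0
  have hjlt : j % p < p := Nat.mod_lt j hp.pos
  have hinv := sawtooth_ind2 hm hv hp hpQ0 hQ0 hMid hmax (j % p) hjpos hjlt
  rw [hj'] at hinv
  rcases hinv with ⟨hval, -, -⟩ | ⟨hval, -, -⟩
  · exact ⟨j % p, hjpos, hjlt, hval⟩
  · refine ⟨p - j % p, by omega, by omega, ?_⟩
    have hpow := sawtooth_pow_eq2 hm hv hp hpQ0 hQ0 hMid hmax
    have hsplit : v (pX W e (k0 • P)) ^ p =
        v (pX W e (k0 • P)) ^ (p - j % p) * v (pX W e (k0 • P)) ^ (j % p) := by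
      rw [← pow_add, Nat.sub_add_cancel hjlt.le]
    have : v (pX W e P) * v (pX W e (k0 • P)) ^ (j % p) =
        v (pX W e (k0 • P)) ^ (p - j % p) * v (pX W e (k0 • P)) ^ (j % p) := by
      rw [hval, ← hsplit, hpow]
    exact (mul_left_inj' (pow_ne_zero _ hmid0.ne_zero)).mp this

/-- The node model of a curve with `a₃ = a₆ = 0` (node at the origin). -/
lemma nodeModel_of_a₃_a₆ (W : WeierstrassCurve K) (ha₃ : W.a₃ = 0) (ha₆ : W.a₆ = 0) :
    NodeModel W 0 (4 * W.a₄) W.b₂ := by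
  refine ⟨by ring, ?_, ?_⟩
  · simp only [WeierstrassCurve.b₄, ha₃]; ring
  · simp only [WeierstrassCurve.b₆, ha₃, ha₆]; ring

/-- **Sawtooth at the node `(0, 0)` of `y² + a₁ x y = x³ + a₂ x² + a₄ x`**, in the exact
shape requested for S13 (5b): valid in every residue characteristic (only `2 ≠ 0` in `K`). -/
theorem node_sawtooth (v : Valuation K Γ₀) (W : WeierstrassCurve K) (h2 : (2 : K) ≠ 0)
    (ha₃ : W.a₃ = 0) (ha₆ : W.a₆ = 0) (hb₂ : v W.b₂ = 1) (ha₄ : v W.a₄ < 1) {p : ℕ}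
    (hp : p.Prime) (hp2 : p ≠ 2) {P : W.toAffine.Point} (hpP : p • P = 0) (hP : P ≠ 0)
    (hnode : ∀ k : ℕ, k • P ≠ 0 → v (pX W 0 (k • P)) < 1) :
    ∃ k : ℕ, k • P ≠ 0 ∧ v (pX W 0 (k • P)) ^ p = v W.a₄ ^ 2 := by
  have hm := nodeModel_of_a₃_a₆ W ha₃ ha₆
  have hv : NodeVal2 v W.a₄ W.b₂ := ⟨(Valuation.ne_zero_iff v).mpr h2, hb₂, ha₄⟩
  obtain ⟨k0, hk0, -, hpow, -⟩ := sawtooth2 hm hv hp hp2 hpP hP hnode
  exact ⟨k0, hk0, hpow⟩

/-- Stronger form of `node_sawtooth`: the valuation of `x(P)` itself. -/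
theorem node_sawtooth_self (v : Valuation K Γ₀) (W : WeierstrassCurve K) (h2 : (2 : K) ≠ 0)
    (ha₃ : W.a₃ = 0) (ha₆ : W.a₆ = 0) (hb₂ : v W.b₂ = 1) (ha₄ : v W.a₄ < 1) {p : ℕ}
    (hp : p.Prime) (hp2 : p ≠ 2) {P : W.toAffine.Point} (hpP : p • P = 0) (hP : P ≠ 0)
    (hnode : ∀ k : ℕ, k • P ≠ 0 → v (pX W 0 (k • P)) < 1) :
    ∃ j : ℕ, 0 < j ∧ j < p ∧ v (pX W 0 P) ^ p = v W.a₄ ^ (2 * j) ∧ v (pX W 0 P) ≠ 0 := by
  have hm := nodeModel_of_a₃_a₆ W ha₃ ha₆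
  have hv : NodeVal2 v W.a₄ W.b₂ := ⟨(Valuation.ne_zero_iff v).mpr h2, hb₂, ha₄⟩
  obtain ⟨k0, hk0, hne, hpow, j, hj0, hjp, hj⟩ := sawtooth2 hm hv hp hp2 hpP hP hnode
  refine ⟨j, hj0, hjp, ?_, ?_⟩
  · rw [hj, ← pow_mul, mul_comm j p, pow_mul, hpow, ← pow_mul]
  · rw [hj]
    exact pow_ne_zero _ hne

end Fermat.Agent.S13.helper7
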