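/-
S13, package (5), unconditional: the Frey curve has no nonzero rational point of order `p`.
Combines helper13's wiring `Fermat.Agent.S13.frey_no_rational_torsion` (conditional on the
node input at `2`) with the sawtooth theorem `node_sawtooth_some`.
-/
import Fermat.Agent.S13.Frey2
import Fermat.Agent.S13.helper95_Sawtooth2

set_option autoImplicit false

namespace Fermat.Agent.S13.helper95

open WeierstrassCurve WeierstrassCurve.Affine Fermat.Agent.S13

/-- The node (sawtooth) input at `2` holds for the Frey curve. -/
theorem frey_nodeSawtoothAtTwo (P : FreyPackage) : NodeSawtoothAtTwo P := by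
  intro Q hQ hQ0 hnode
  have hp2 : P.p ≠ 2 := by
    have := P.hp5
    omega
  exact node_sawtooth_some v2 P.freyCurve (frey_two_ne_zero) rfl rfl (frey_v2_b₂ P)
    (frey_v2_a₄ P) P.pp hp2 hQ hQ0 hnode

/-- **Package (5) of S13**: the Frey curve has no nonzero rational point of order `p`. -/
theorem frey_no_rational_torsion (P : FreyPackage) (Q : P.freyCurve.toAffine.Point)
    (hQ : P.p • Q = 0) : Q = 0 :=
  Fermat.Agent.S13.frey_no_rational_torsion P (frey_nodeSawtoothAtTwo P) Q hQ

end Fermat.Agent.S13.helper95
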